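import Mathlib

/-!
# Modules over group algebras satisfying the Cayley-Hamilton relation of a representation
-/

set_option autoImplicit false
set_option linter.unusedSectionVars false
set_option linter.style.haveILetI false

namespace Fermat.Agent.PRem

open Module LinearMap

/-! ### powers -/

section pow

variable {k R : Type*} [CommRing k] [Ring R] [Algebra k R]

/-- the relation for powers -/
theorem pow_rel (M : Matrix (Fin 2) (Fin 2) k) {x : R}
    (h : x * x - M.trace • x + M.det • (1 : R) = 0) (n : ℕ) :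
    x ^ n * x ^ n - (M ^ n).trace • x ^ n + (M ^ n).det • (1 : R) = 0 := by
  obtain ⟨y, hy⟩ : ∃ y : R, y = M.trace • (1 : R) - x := ⟨_, rfl⟩
  have hxy : x * y = M.det • (1 : R) := by
    rw [hy, mul_sub, mul_smul_comm, mul_one]
    rw [← sub_eq_zero, ← neg_eq_zero, ← h]; abel
  have hyx : y * x = M.det • (1 : R) := by
    rw [hy, sub_mul, smul_mul_assoc, one_mul]
    rw [← sub_eq_zero, ← neg_eq_zero, ← h]; abel
  have hM : M * M = M.trace • M - M.det • (1 : Matrix (Fin 2) (Fin 2) k) := by
    ext i j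
    fin_cases i <;> fin_cases j <;>
      simp [Matrix.mul_apply, Matrix.trace_fin_two, Matrix.det_fin_two, Fin.sum_univ_two] <;> ring
  have hsum : ∀ n : ℕ, x ^ n + y ^ n = (M ^ n).trace • (1 : R) ∧
      x ^ (n + 1) + y ^ (n + 1) = (M ^ (n + 1)).trace • (1 : R) := by
    intro n
    induction n with
    | zero =>
      constructor
      · rw [pow_zero, pow_zero, pow_zero, Matrix.trace_one, Fintype.card_fin]
        rw [Nat.cast_smul_eq_nsmul, two_nsmul]
      · rw [zero_add, pow_one, pow_one, pow_one, hy]; abel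
    | succ n ih =>
      refine ⟨ih.2, ?_⟩
      have hx2 : x * x = M.trace • x - M.det • (1 : R) := by
        rw [← sub_eq_zero, ← h]; abel
      have hy2 : y * y = M.trace • y - M.det • (1 : R) := by
        have : y * y = (M.trace • (1 : R) - x) * y := by rw [← hy]
        rw [this, sub_mul, hxy, smul_mul_assoc, one_mul]
      have ex : x ^ (n + 1 + 1) = M.trace • x ^ (n + 1) - M.det • x ^ n := by
        rw [pow_succ, pow_succ, mul_assoc, hx2, mul_sub, mul_smul_comm, mul_smul_comm, mul_one]
      have ey : y ^ (n + 1 + 1) = M.trace • y ^ (n + 1) - M.det • y ^ n := by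
        rw [pow_succ, pow_succ, mul_assoc, hy2, mul_sub, mul_smul_comm, mul_smul_comm, mul_one]
      have eM : M ^ (n + 1 + 1) = M.trace • M ^ (n + 1) - M.det • M ^ n := by
        rw [pow_succ, pow_succ, mul_assoc, hM, mul_sub, mul_smul_comm, mul_smul_comm, mul_one]
      rw [ex, ey, eM, Matrix.trace_sub, Matrix.trace_smul, Matrix.trace_smul, sub_smul,
        smul_assoc, smul_assoc, ← ih.1, ← ih.2, smul_add, smul_add]
      abel
  have hcomm : Commute x y := by rw [Commute, SemiconjBy, hxy, hyx]
  have hprod : x ^ n * y ^ n = (M ^ n).det • (1 : R) := by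
    rw [← hcomm.mul_pow, hxy, smul_pow, one_pow, Matrix.det_pow]
  have h1 := (hsum n).1
  have h2 : (M ^ n).trace • x ^ n = x ^ n * x ^ n + x ^ n * y ^ n := by
    rw [← mul_add, h1, mul_smul_comm, mul_one]
  rw [h2, hprod]
  abel

end pow

/-! ### Boston-Lenstra-Ribet -/

section BLR

variable {k : Type*} [Field k] {G E V : Type*} [Group G] [AddCommGroup E] [Module k E]
  [AddCommGroup V] [Module k V] (ρ : Representation k G E) (τ : Representation k G V)

/-- (★) -/
theorem star_rel (h : ∀ g, τ g * τ g - (LinearMap.trace k E (ρ g)) • τ g +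
      (LinearMap.det (ρ g)) • (1 : Module.End k V) = 0) (x y : MonoidAlgebra k G) :
    LinearMap.trace k E (ρ.asAlgebraHom (x * y)) • (1 : Module.End k V) -
      τ.asAlgebraHom (x * y) =
    (LinearMap.trace k E (ρ.asAlgebraHom y) • (1 : Module.End k V) - τ.asAlgebraHom y) *
      (LinearMap.trace k E (ρ.asAlgebraHom x) • (1 : Module.End k V) - τ.asAlgebraHom x) := by
  -- on group elements
  have hg : ∀ g, (LinearMap.trace k E (ρ g)) • (1 : Module.End k V) - τ g =
      (LinearMap.det (ρ g)) • τ g⁻¹ := by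
    intro g
    have h1 : τ g * τ g⁻¹ = 1 := by rw [← map_mul, mul_inv_cancel, map_one]
    have h2 := congrArg (· * τ g⁻¹) (h g)
    simp only [add_mul, sub_mul, zero_mul, smul_mul_assoc, one_mul, mul_assoc, h1, mul_one] at h2
    rw [← sub_eq_zero, ← neg_eq_zero, ← h2]
    abel
  induction x using MonoidAlgebra.induction_linear with
  | zero => simp
  | add x x' hx hx' =>
    rw [add_mul, map_add, map_add, map_add, map_add, map_add, map_add, add_smul, add_smul]
    have e : ∀ a b c d : Module.End k V, a + b - (c + d) = (a - c) + (b - d) := by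
      intro a b c d; abel
    rw [e, hx, hx', e, mul_add]
  | single g a =>
    induction y using MonoidAlgebra.induction_linear with
    | zero => simp
    | add y y' hy hy' =>
      rw [mul_add, map_add, map_add, map_add, map_add, map_add, map_add, add_smul, add_smul]
      have e : ∀ a b c d : Module.End k V, a + b - (c + d) = (a - c) + (b - d) := by
        intro a b c d; abel
      rw [e, hy, hy', e, add_mul]
    | single g' b =>
      rw [MonoidAlgebra.single_mul_single, Representation.asAlgebraHom_single,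
        Representation.asAlgebraHom_single, Representation.asAlgebraHom_single,
        Representation.asAlgebraHom_single, Representation.asAlgebraHom_single,
        Representation.asAlgebraHom_single, map_smul, map_smul, map_smul, smul_assoc, smul_assoc,
        smul_assoc, ← smul_sub, ← smul_sub, ← smul_sub, hg, hg, hg, smul_mul_smul_comm,
        smul_mul_smul_comm, mul_inv_rev, map_mul ρ, map_mul LinearMap.det, map_mul τ,
        mul_comm b a, smul_smul, smul_smul]
      congr 1
      ring

/-- the kernel of `k[G] → End E` acts by zero -/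
theorem ker_le (h : ∀ g, τ g * τ g - (LinearMap.trace k E (ρ g)) • τ g +
      (LinearMap.det (ρ g)) • (1 : Module.End k V) = 0) (h2 : (2 : k) ≠ 0)
    (hsurj : Function.Surjective ρ.asAlgebraHom) {a b : Module.End k E}
    (hab : (a * b - b * a) * (a * b - b * a) = 1) {s : MonoidAlgebra k G}
    (hs : ρ.asAlgebraHom s = 0) : τ.asAlgebraHom s = 0 := by
  have star := star_rel ρ τ h
  -- `B(r) B(s) = B(s) B(r)*`
  have h1 : ∀ (r s : MonoidAlgebra k G), ρ.asAlgebraHom s = 0 →
      τ.asAlgebraHom r * τ.asAlgebraHom s = τ.asAlgebraHom s *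
        (LinearMap.trace k E (ρ.asAlgebraHom r) • (1 : Module.End k V) - τ.asAlgebraHom r) := by
    intro r s hs
    have := star r s
    rw [map_mul, hs, mul_zero, map_zero, zero_smul, zero_sub, zero_sub, neg_mul, neg_inj,
      map_mul] at this
    exact this
  -- squares vanish
  have hsq : ∀ s : MonoidAlgebra k G, ρ.asAlgebraHom s = 0 →
      τ.asAlgebraHom s * τ.asAlgebraHom s = 0 := by
    intro s hs
    have h3 := h1 s s hs
    rw [hs, map_zero, zero_smul, zero_sub, mul_neg] at h3
    have h4 : (2 : k) • (τ.asAlgebraHom s * τ.asAlgebraHom s) = 0 := by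
      rw [two_smul]
      nth_rewrite 1 [h3]
      exact neg_add_cancel _
    exact (smul_eq_zero.1 h4).resolve_left h2
  obtain ⟨r1, hr1⟩ := hsurj a
  obtain ⟨r2, hr2⟩ := hsurj b
  obtain ⟨u, hu⟩ : ∃ u, u = r1 * r2 - r2 * r1 := ⟨_, rfl⟩
  have hBu : τ.asAlgebraHom s * τ.asAlgebraHom u = 0 := by
    obtain ⟨c1, hc1⟩ : ∃ c1, c1 = LinearMap.trace k E (ρ.asAlgebraHom r1) := ⟨_, rfl⟩
    obtain ⟨c2, hc2⟩ : ∃ c2, c2 = LinearMap.trace k E (ρ.asAlgebraHom r2) := ⟨_, rfl⟩
    have e1 := h1 (r1 * r2) s hs
    rw [star r1 r2, ← hc1, ← hc2] at e1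
    have e2 : τ.asAlgebraHom (r1 * r2) * τ.asAlgebraHom s = τ.asAlgebraHom s *
        ((c1 • (1 : Module.End k V) - τ.asAlgebraHom r1) *
        (c2 • (1 : Module.End k V) - τ.asAlgebraHom r2)) := by
      rw [map_mul, mul_assoc, h1 r2 s hs, ← mul_assoc, h1 r1 s hs, ← hc1, ← hc2, mul_assoc]
    rw [e1, ← sub_eq_zero, ← mul_sub] at e2
    have e3 : (c2 • (1 : Module.End k V) - τ.asAlgebraHom r2) *
        (c1 • (1 : Module.End k V) - τ.asAlgebraHom r1) -
        (c1 • (1 : Module.End k V) - τ.asAlgebraHom r1) *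
        (c2 • (1 : Module.End k V) - τ.asAlgebraHom r2) = -τ.asAlgebraHom u := by
      rw [hu, map_sub, map_mul, map_mul]
      simp only [sub_mul, mul_sub, smul_mul_assoc, mul_smul_comm, one_mul, mul_one, smul_sub,
        smul_smul, mul_comm c2 c1]
      abel
    rw [e3, mul_neg, neg_eq_zero] at e2
    exact e2
  -- inverse modulo the kernel
  obtain ⟨s', hs'⟩ : ∃ s', s' = u * u - 1 := ⟨_, rfl⟩
  have hs'0 : ρ.asAlgebraHom s' = 0 := by
    rw [hs', hu, map_sub, map_mul, map_sub, map_mul, map_mul, map_one, hr1, hr2, hab, sub_self]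
  have e4 : τ.asAlgebraHom s + τ.asAlgebraHom s * τ.asAlgebraHom s' = 0 := by
    rw [hs', map_sub, map_mul, map_one, mul_sub, mul_one, ← mul_assoc, hBu, zero_mul, zero_sub,
      add_neg_cancel]
  have e5 : τ.asAlgebraHom s = -(τ.asAlgebraHom s * τ.asAlgebraHom s') :=
    eq_neg_of_add_eq_zero_left e4
  rw [e5]
  nth_rewrite 1 [e5]
  rw [neg_mul, mul_assoc, hsq s' hs'0, mul_zero, neg_zero, neg_zero]

variable {ρ τ}

theorem asAlg_mul_apply (x : MonoidAlgebra k G) (y : MonoidAlgebra k G) (v : V) :
    τ.asAlgebraHom (x * y) v = τ.asAlgebraHom x (τ.asAlgebraHom y v) := by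
  rw [map_mul]; rfl

/-- **Boston-Lenstra-Ribet**: a nonzero representation satisfying the Cayley-Hamilton relation of
an absolutely irreducible two-dimensional one contains it. -/
theorem exists_embedding (hsurj : Function.Surjective ρ.asAlgebraHom)
    (hker : ∀ s, ρ.asAlgebraHom s = 0 → τ.asAlgebraHom s = 0) [FiniteDimensional k E]
    [Nontrivial V] : ∃ κ : E →ₗ[k] V, Function.Injective κ ∧ ∀ g w, κ (ρ g w) = τ g (κ w) := by
  classical
  choose X hX using hsurj
  -- the induced homomorphism
  have hX' : ∀ x, τ.asAlgebraHom (X (ρ.asAlgebraHom x)) = τ.asAlgebraHom x := by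
    intro x
    rw [← sub_eq_zero, ← map_sub]
    apply hker
    rw [map_sub, hX, sub_self]
  have hadd : ∀ m m' : Module.End k E, τ.asAlgebraHom (X (m + m')) =
      τ.asAlgebraHom (X m) + τ.asAlgebraHom (X m') := by
    intro m m'
    conv_lhs => rw [← hX m, ← hX m', ← map_add]
    rw [hX', map_add]
  have hsmul : ∀ (c : k) (m : Module.End k E), τ.asAlgebraHom (X (c • m)) =
      c • τ.asAlgebraHom (X m) := by
    intro c m
    conv_lhs => rw [← hX m, ← map_smul]
    rw [hX', map_smul]
  have hmul : ∀ m m' : Module.End k E, τ.asAlgebraHom (X (m * m')) =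
      τ.asAlgebraHom (X m) * τ.asAlgebraHom (X m') := by
    intro m m'
    conv_lhs => rw [← hX m, ← hX m', ← map_mul]
    rw [hX', map_mul]
  have hone : τ.asAlgebraHom (X 1) = 1 := by
    conv_lhs => rw [← map_one ρ.asAlgebraHom]
    rw [hX', map_one]
  let Φ : Module.End k E →ₗ[k] Module.End k V :=
    { toFun := fun m => τ.asAlgebraHom (X m)
      map_add' := hadd
      map_smul' := hsmul }
  have hΦ : ∀ m, Φ m = τ.asAlgebraHom (X m) := fun _ => rfl
  have hΦg : ∀ g, Φ (ρ g) = τ g := by
    intro g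
    rw [hΦ, ← Representation.asAlgebraHom_of, hX', Representation.asAlgebraHom_of]
  obtain ⟨v, hv⟩ := exists_ne (0 : V)
  let b := Module.finBasis k E
  let K : (E →ₗ[k] k) → (E →ₗ[k] V) := fun φ =>
    { toFun := fun w => Φ (φ.smulRight w) v
      map_add' := fun w w' => by
        have : φ.smulRight (w + w') = φ.smulRight w + φ.smulRight w' := by
          ext x; simp
        rw [this, map_add, LinearMap.add_apply]
      map_smul' := fun c w => by
        have : φ.smulRight (c • w) = c • φ.smulRight w := by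
          ext x
          rw [LinearMap.smul_apply, LinearMap.smulRight_apply, LinearMap.smulRight_apply,
            smul_comm]
        rw [this, map_smul, LinearMap.smul_apply, RingHom.id_apply] }
  have hK : ∀ φ w, K φ w = Φ (φ.smulRight w) v := fun _ _ => rfl
  obtain ⟨i, hi⟩ : ∃ i, K (b.coord i) ≠ 0 := by
    by_contra hcon
    push Not at hcon
    apply hv
    have h1 : (1 : Module.End k E) = ∑ i, (b.coord i).smulRight (b i) := by
      ext x
      rw [LinearMap.sum_apply]
      simp only [Module.End.one_apply, LinearMap.smulRight_apply, Module.Basis.coord_apply]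
      exact (b.sum_repr x).symm
    have h2 : v = Φ 1 v := by rw [hΦ, hone]; rfl
    rw [h2, h1, map_sum, LinearMap.sum_apply]
    refine Finset.sum_eq_zero fun i _ => ?_
    rw [← hK, hcon i]; rfl
  have hcomp : ∀ (m : Module.End k E) (w : E), K (b.coord i) (m w) = Φ m (K (b.coord i) w) := by
    intro m w
    have : (b.coord i).smulRight (m w) = m * (b.coord i).smulRight w := by
      ext x; simp
    rw [hK, hK, this, hΦ, hmul]
    rfl
  refine ⟨K (b.coord i), ?_, fun g w => ?_⟩
  · rw [injective_iff_map_eq_zero]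
    intro w hw
    by_contra hw0
    apply hi
    refine LinearMap.ext fun w' => ?_
    obtain ⟨ψ, hψ⟩ : ∃ ψ : Module.Dual k E, ψ w = 1 := by
      obtain ⟨φ, hφ⟩ : ∃ φ : Module.Dual k E, φ w ≠ 0 := by
        by_contra hcon
        push Not at hcon
        exact hw0 ((Module.forall_dual_apply_eq_zero_iff k w).1 hcon)
      exact ⟨(φ w)⁻¹ • φ, by simp [hφ]⟩
    have e1 : (LinearMap.smulRight ψ w' : Module.End k E) w = w' := by
      rw [LinearMap.smulRight_apply, hψ, one_smul]
    rw [← e1, hcomp, hw, map_zero, LinearMap.zero_apply]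
  · rw [hcomp, hΦg]

end BLR

/-! ### absolute irreducibility -/

section abs

open Matrix

variable {k : Type*} [Field k] {G E : Type*} [Group G] [AddCommGroup E] [Module k E]
  (ρ : Representation k G E)

/-- a good basis -/
theorem exists_basis (hE : finrank k E = 2) (h2 : (2 : k) ≠ 0) {c : G} (hc : c * c = 1)
    (hdet : LinearMap.det (ρ c) = -1) : ∃ b : Basis (Fin 2) k E,
      LinearMap.toMatrixAlgEquiv b (ρ c) = !![1, 0; 0, -1] := by
  haveI : FiniteDimensional k E := FiniteDimensional.of_finrank_pos (by rw [hE]; norm_num)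
  have hcc : ρ c * ρ c = 1 := by rw [← map_mul, hc, map_one]
  have hne : (1 : k) ≠ -1 := by
    intro h
    apply h2
    rw [← one_add_one_eq_two]
    nth_rewrite 1 [h]
    exact neg_add_cancel 1
  have hfin : ∀ ε : k, ε * ε = 1 → ∃ e : E, e ≠ 0 ∧ ρ c e = ε • e := by
    intro ε hε
    by_contra hcon
    push Not at hcon
    have h1 : ∀ x : E, ρ c x = -(ε • x) := by
      intro x
      by_contra hx
      have hy : ρ c x + ε • x ≠ 0 := fun h => hx (eq_neg_of_add_eq_zero_left h)
      refine hcon _ hy ?_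
      rw [map_add, map_smul, smul_add, smul_smul, hε, one_smul]
      have : ρ c (ρ c x) = x := by
        have := congrArg (fun f : Module.End k E => f x) hcc
        exact this
      rw [this, add_comm]
    have h3 : ρ c = (-ε) • LinearMap.id := by
      ext x; simp [h1 x]
    rw [h3, LinearMap.det_smul, hE, LinearMap.det_id, mul_one, neg_sq, sq, hε] at hdet
    exact hne hdet
  obtain ⟨e1, h10, h1⟩ := hfin 1 (one_mul 1)
  obtain ⟨e2, h20, h2'⟩ := hfin (-1) (by ring)
  rw [one_smul] at h1
  have hli : LinearIndependent k ![e1, e2] := by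
    rw [LinearIndependent.pair_iff]
    intro s t hst
    have h3 := congrArg (ρ c) hst
    rw [map_add, map_smul, map_smul, h1, h2', map_zero] at h3
    have h4 : (2 * s) • e1 = 0 := by
      have : (2 * s) • e1 = (s • e1 + t • e2) + (s • e1 + t • (-1 : k) • e2) := by module
      rw [this, hst, h3, add_zero]
    have h5 : (2 * t) • e2 = 0 := by
      have : (2 * t) • e2 = (s • e1 + t • e2) - (s • e1 + t • (-1 : k) • e2) := by module
      rw [this, hst, h3, sub_zero]
    exact ⟨(mul_eq_zero.1 ((smul_eq_zero.1 h4).resolve_right h10)).resolve_left h2,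
      (mul_eq_zero.1 ((smul_eq_zero.1 h5).resolve_right h20)).resolve_left h2⟩
  let b := basisOfLinearIndependentOfCardEqFinrank hli (by rw [hE, Fintype.card_fin])
  have hb : ⇑b = ![e1, e2] := coe_basisOfLinearIndependentOfCardEqFinrank hli _
  have hb0 : b 0 = e1 := by rw [hb]; rfl
  have hb1 : b 1 = e2 := by rw [hb]; rfl
  refine ⟨b, ?_⟩
  ext i j
  rw [LinearMap.toMatrixAlgEquiv_apply]
  fin_cases j
  · change b.repr (ρ c (b 0)) i = _
    rw [hb0, h1, ← hb0, b.repr_self]
    fin_cases i <;> simp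
  · change b.repr (ρ c (b 1)) i = _
    rw [hb1, h2', ← hb1, map_smul, b.repr_self]
    fin_cases i <;> simp

variable {ρ}

theorem exists_offdiag (hE : finrank k E = 2)
    (irr : ∀ N : Submodule k E, (∀ g, ∀ x ∈ N, ρ g x ∈ N) → N = ⊥ ∨ N = ⊤)
    (b : Basis (Fin 2) k E) {i j : Fin 2} (hij : i ≠ j) :
    ∃ g, LinearMap.toMatrixAlgEquiv b (ρ g) i j ≠ 0 := by
  by_contra hcon
  push Not at hcon
  rcases irr (Submodule.span k {b j}) (fun g x hx => by
    obtain ⟨a, rfl⟩ := Submodule.mem_span_singleton.1 hx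
    rw [map_smul]
    refine Submodule.smul_mem _ _ ?_
    have h1 := b.sum_repr (ρ g (b j))
    have h2 := hcon g
    rw [LinearMap.toMatrixAlgEquiv_apply] at h2
    rw [← h1]
    refine Submodule.sum_mem _ fun l _ => ?_
    rcases eq_or_ne l i with rfl | hl
    · rw [h2, zero_smul]; exact zero_mem _
    · have : l = j := by
        fin_cases i <;> fin_cases j <;> fin_cases l <;> simp_all
      rw [this]
      exact Submodule.smul_mem _ _ (Submodule.mem_span_singleton_self _)) with h | h
  · rw [Submodule.span_singleton_eq_bot] at h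
    exact b.ne_zero j h
  · have h1 := finrank_span_singleton (K := k) (b.ne_zero j)
    rw [h, finrank_top, hE] at h1
    exact absurd h1 (by norm_num)

theorem corner01 (M : Matrix (Fin 2) (Fin 2) k) :
    !![1, 0; 0, 0] * M * !![0, 0; 0, 1] = M 0 1 • !![0, 1; 0, 0] := by
  rw [Matrix.eta_fin_two M, Matrix.mul_fin_two, Matrix.mul_fin_two]
  ext i j
  fin_cases i <;> fin_cases j <;> simp

theorem corner10 (M : Matrix (Fin 2) (Fin 2) k) :
    !![0, 0; 0, 1] * M * !![1, 0; 0, 0] = M 1 0 • !![0, 0; 1, 0] := by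
  rw [Matrix.eta_fin_two M, Matrix.mul_fin_two, Matrix.mul_fin_two]
  ext i j
  fin_cases i <;> fin_cases j <;> simp

theorem surjective_of_irr (hE : finrank k E = 2) (h2 : (2 : k) ≠ 0)
    (irr : ∀ N : Submodule k E, (∀ g, ∀ x ∈ N, ρ g x ∈ N) → N = ⊥ ∨ N = ⊤) {c : G}
    (hc : c * c = 1) (hdet : LinearMap.det (ρ c) = -1) :
    Function.Surjective ρ.asAlgebraHom ∧ ∃ a b : Module.End k E,
      (a * b - b * a) * (a * b - b * a) = 1 := by
  obtain ⟨b, hb⟩ := exists_basis ρ hE h2 hc hdet
  obtain ⟨g, hg⟩ := exists_offdiag hE irr b (i := 0) (j := 1) (by decide)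
  obtain ⟨g', hg'⟩ := exists_offdiag hE irr b (i := 1) (j := 0) (by decide)
  let F : MonoidAlgebra k G →ₐ[k] Matrix (Fin 2) (Fin 2) k :=
    (LinearMap.toMatrixAlgEquiv b : Module.End k E →ₐ[k] _).comp ρ.asAlgebraHom
  have hF : ∀ x, F x = LinearMap.toMatrixAlgEquiv b (ρ.asAlgebraHom x) := fun _ => rfl
  have hFg : ∀ g, LinearMap.toMatrixAlgEquiv b (ρ g) ∈ F.range := fun g =>
    ⟨MonoidAlgebra.of k G g, by rw [AlgHom.toRingHom_eq_coe, RingHom.coe_coe, hF,
      Representation.asAlgebraHom_of]⟩
  have hC : (!![1, 0; 0, -1] : Matrix (Fin 2) (Fin 2) k) ∈ F.range := by rw [← hb]; exact hFg c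
  have h00 : (!![1, 0; 0, 0] : Matrix (Fin 2) (Fin 2) k) ∈ F.range := by
    have : (!![1, 0; 0, 0] : Matrix (Fin 2) (Fin 2) k) =
        (2⁻¹ : k) • (1 + !![1, 0; 0, -1]) := by
      ext i j
      fin_cases i <;> fin_cases j <;> simp
      rw [one_add_one_eq_two, inv_mul_cancel₀ h2]
    rw [this]
    exact F.range.smul_mem (add_mem (one_mem _) hC) _
  have h11 : (!![0, 0; 0, 1] : Matrix (Fin 2) (Fin 2) k) ∈ F.range := by
    have : (!![0, 0; 0, 1] : Matrix (Fin 2) (Fin 2) k) = 1 - !![1, 0; 0, 0] := by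
      ext i j
      fin_cases i <;> fin_cases j <;> simp
    rw [this]
    exact sub_mem (one_mem _) h00
  have h01 : (!![0, 1; 0, 0] : Matrix (Fin 2) (Fin 2) k) ∈ F.range := by
    have : (!![0, 1; 0, 0] : Matrix (Fin 2) (Fin 2) k) =
        (LinearMap.toMatrixAlgEquiv b (ρ g) 0 1)⁻¹ •
          (!![1, 0; 0, 0] * LinearMap.toMatrixAlgEquiv b (ρ g) * !![0, 0; 0, 1]) := by
      rw [corner01, smul_smul, inv_mul_cancel₀ hg, one_smul]
    rw [this]
    exact F.range.smul_mem (mul_mem (mul_mem h00 (hFg g)) h11) _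
  have h10 : (!![0, 0; 1, 0] : Matrix (Fin 2) (Fin 2) k) ∈ F.range := by
    have : (!![0, 0; 1, 0] : Matrix (Fin 2) (Fin 2) k) =
        (LinearMap.toMatrixAlgEquiv b (ρ g') 1 0)⁻¹ •
          (!![0, 0; 0, 1] * LinearMap.toMatrixAlgEquiv b (ρ g') * !![1, 0; 0, 0]) := by
      rw [corner10, smul_smul, inv_mul_cancel₀ hg', one_smul]
    rw [this]
    exact F.range.smul_mem (mul_mem (mul_mem h11 (hFg g')) h00) _
  constructor
  · intro m
    have h3 : LinearMap.toMatrixAlgEquiv b m ∈ F.range := by
      have : LinearMap.toMatrixAlgEquiv b m =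
          (LinearMap.toMatrixAlgEquiv b m 0 0) • !![1, 0; 0, 0] +
          (LinearMap.toMatrixAlgEquiv b m 0 1) • !![0, 1; 0, 0] +
          (LinearMap.toMatrixAlgEquiv b m 1 0) • !![0, 0; 1, 0] +
          (LinearMap.toMatrixAlgEquiv b m 1 1) • !![0, 0; 0, 1] := by
        ext i j
        fin_cases i <;> fin_cases j <;> simp
      rw [this]
      exact add_mem (add_mem (add_mem (F.range.smul_mem h00 _) (F.range.smul_mem h01 _))
        (F.range.smul_mem h10 _)) (F.range.smul_mem h11 _)
    obtain ⟨x, hx⟩ := h3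
    exact ⟨x, (LinearMap.toMatrixAlgEquiv b).injective hx⟩
  · refine ⟨(LinearMap.toMatrixAlgEquiv b).symm !![0, 1; 0, 0],
      (LinearMap.toMatrixAlgEquiv b).symm !![0, 0; 1, 0], ?_⟩
    apply (LinearMap.toMatrixAlgEquiv b).injective
    rw [map_mul, map_sub, map_mul, map_mul, AlgEquiv.apply_symm_apply, AlgEquiv.apply_symm_apply,
      map_one, Matrix.mul_fin_two, Matrix.mul_fin_two]
    ext i j
    fin_cases i <;> fin_cases j <;> simp [Matrix.mul_apply, Fin.sum_univ_two]

/-- no Eisenstein congruence -/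
theorem not_eis (hE : finrank k E = 2) (h2 : (2 : k) ≠ 0)
    (irr : ∀ N : Submodule k E, (∀ g, ∀ x ∈ N, ρ g x ∈ N) → N = ⊥ ∨ N = ⊤) {c : G}
    (hc : c * c = 1) (hdet : LinearMap.det (ρ c) = -1)
    (h : ∀ g, LinearMap.trace k E (ρ g) = 1 + LinearMap.det (ρ g)) : False := by
  obtain ⟨b, hb⟩ := exists_basis ρ hE h2 hc hdet
  obtain ⟨g, hg⟩ := exists_offdiag hE irr b (i := 0) (j := 1) (by decide)
  obtain ⟨g', hg'⟩ := exists_offdiag hE irr b (i := 1) (j := 0) (by decide)
  let R : G →* Matrix (Fin 2) (Fin 2) k :=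
    { toFun := fun g => LinearMap.toMatrixAlgEquiv b (ρ g)
      map_one' := by rw [map_one, map_one]
      map_mul' := fun g g' => by rw [map_mul, map_mul] }
  have hR : ∀ g, R g = LinearMap.toMatrixAlgEquiv b (ρ g) := fun _ => rfl
  have h3 : ∀ g, R g 0 0 + R g 1 1 = 1 + (R g 0 0 * R g 1 1 - R g 0 1 * R g 1 0) := by
    intro g
    have h4 := h g
    rw [LinearMap.trace_eq_matrix_trace k b, ← LinearMap.det_toMatrix b] at h4
    have h5 : LinearMap.toMatrix b b (ρ g) = R g := rfl
    rw [h5, Matrix.trace_fin_two, Matrix.det_fin_two] at h4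
    exact h4
  have hRc : R c = !![1, 0; 0, -1] := hb
  have h4 : ∀ g, R g 0 0 = 1 := by
    intro g
    have e1 := h3 g
    have e2 := h3 (c * g)
    rw [map_mul, hRc] at e2
    simp only [Matrix.mul_apply, Fin.sum_univ_two, Matrix.of_apply, Matrix.cons_val', Matrix.cons_val_zero,
      Matrix.cons_val_one, Matrix.cons_val_fin_one, one_mul, zero_mul, add_zero, zero_add] at e2
    have e3 : (2 : k) * (R g 0 0 - 1) = 0 := by linear_combination e1 + e2
    exact sub_eq_zero.1 ((mul_eq_zero.1 e3).resolve_left h2)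
  have h5 := h4 (g * g')
  rw [map_mul, Matrix.mul_apply, Fin.sum_univ_two, h4, h4] at h5
  have h6 : R g 0 1 * R g' 1 0 = 0 := by linear_combination h5
  rcases mul_eq_zero.1 h6 with h7 | h7
  · exact hg h7
  · exact hg' h7

/-- in dimension two, a relation satisfied by a nonscalar endomorphism is the characteristic one -/
theorem trace_det_of_rel (hE : finrank k E = 2) {f : Module.End k E} {a d : k}
    (h : f * f - a • f + d • (1 : Module.End k E) = 0)
    (hns : ∀ c : k, f ≠ c • (1 : Module.End k E)) :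
    LinearMap.trace k E f = a ∧ LinearMap.det f = d := by
  haveI : FiniteDimensional k E := FiniteDimensional.of_finrank_pos (by rw [hE]; norm_num)
  let b := finBasisOfFinrankEq k E hE
  have hCH : f * f - (LinearMap.trace k E f) • f + (LinearMap.det f) • (1 : Module.End k E) = 0 := by
    apply (LinearMap.toMatrixAlgEquiv b).injective
    rw [map_add, map_sub, map_mul, map_smul, map_smul, map_one, map_zero,
      LinearMap.trace_eq_matrix_trace k b, ← LinearMap.det_toMatrix b]
    have h5 : LinearMap.toMatrix b b f = LinearMap.toMatrixAlgEquiv b f := rfl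
    rw [h5]
    generalize LinearMap.toMatrixAlgEquiv b f = M
    ext i j
    fin_cases i <;> fin_cases j <;>
      simp [Matrix.mul_apply, Matrix.trace_fin_two, Matrix.det_fin_two, Fin.sum_univ_two] <;> ring
  have h1 : (LinearMap.trace k E f - a) • f = (LinearMap.det f - d) • (1 : Module.End k E) := by
    rw [sub_smul, sub_smul, ← sub_eq_zero]
    have := congrArg₂ (· - ·) h hCH
    simp only [sub_zero] at this
    rw [← this]
    abel
  have h2 : LinearMap.trace k E f - a = 0 := by
    by_contra hne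
    apply hns ((LinearMap.trace k E f - a)⁻¹ * (LinearMap.det f - d))
    rw [mul_smul, ← h1, smul_smul, inv_mul_cancel₀ hne, one_smul]
  refine ⟨sub_eq_zero.1 h2, ?_⟩
  rw [h2, zero_smul] at h1
  haveI : Nontrivial E := by
    apply Module.nontrivial_of_finrank_pos (R := k)
    rw [hE]; norm_num
  have h3 := (smul_eq_zero.1 h1.symm).resolve_right one_ne_zero
  exact sub_eq_zero.1 h3

/-- existence of nonscalar elements -/
theorem exists_nonscalar (hE : finrank k E = 2)
    (irr : ∀ N : Submodule k E, (∀ g, ∀ x ∈ N, ρ g x ∈ N) → N = ⊥ ∨ N = ⊤) :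
    ∃ g, ∀ c : k, ρ g ≠ c • (1 : Module.End k E) := by
  haveI : FiniteDimensional k E := FiniteDimensional.of_finrank_pos (by rw [hE]; norm_num)
  by_contra hcon
  push Not at hcon
  let b := finBasisOfFinrankEq k E hE
  rcases irr (Submodule.span k {b 0}) (fun g x hx => by
    obtain ⟨c, hc⟩ := hcon g
    rw [hc]
    exact Submodule.smul_mem _ _ hx) with h | h
  · rw [Submodule.span_singleton_eq_bot] at h
    exact b.ne_zero 0 h
  · have h1 := finrank_span_singleton (K := k) (b.ne_zero 0)
    rw [h, finrank_top, hE] at h1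
    exact absurd h1 (by norm_num)

end abs

end Fermat.Agent.PRem
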