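import Fermat.Agent.GalRep.Trace
import Fermat.Agent.PRem.BLRAlg

/-!
# Boston-Lenstra-Ribet for representations of the absolute Galois group over `𝔽_p`
-/

set_option autoImplicit false
set_option linter.unusedSectionVars false
set_option linter.style.haveILetI false

namespace Fermat.Agent.PRem

open Fermat.Agent.GalRep Fermat.Agent.Cheb Module

section

variable {p : ℕ} [hp : Fact p.Prime] {E V : Type*} [AddCommGroup E] [Module (ZMod p) E]
  [AddCommGroup V] [Module (ZMod p) V]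

/-- a representation of finite level with Frobenius relations -/
structure FrobRel (ρ : Representation (ZMod p) GQ E) (S : Set ℕ) (a : ℕ → ZMod p) : Prop where
  level : ∃ L : IntermediateField ℚ (AlgebraicClosure ℚ), FiniteDimensional ℚ L ∧
    ∀ σ : GQ, (∀ x ∈ L, σ x = x) → ρ σ = 1
  frob : ∀ ℓ : ℕ, ℓ.Prime → ℓ ∉ S → ∀ A : ValuationSubring (AlgebraicClosure ℚ),
    A.LiesOverPrime ℓ → ∀ σ : GQ, A.IsFrobeniusAt σ ℓ →
      ρ σ * ρ σ - a ℓ • ρ σ + (ℓ : ZMod p) • (1 : Module.End (ZMod p) E) = 0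

variable {ρ : Representation (ZMod p) GQ E} {τ : Representation (ZMod p) GQ V} {S : Set ℕ}
  {a : ℕ → ZMod p}

theorem FrobRel.isLocConst (h : FrobRel ρ S a) : IsLocConst (fun g => ρ g) := by
  obtain ⟨L, hL, h1⟩ := h.level
  refine ⟨L, hL, fun σ hσ g => ?_⟩
  change ρ (g * σ) = ρ g
  rw [map_mul, h1 σ hσ, mul_one]

theorem cyc_frob (hpS : p ∈ S) {ℓ : ℕ} (hℓ : ℓ.Prime) (hℓS : ℓ ∉ S)
    {A : ValuationSubring (AlgebraicClosure ℚ)} (hA : A.LiesOverPrime ℓ) {σ : GQ}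
    (hσ : A.IsFrobeniusAt σ ℓ) : cyc p σ = ℓ := by
  refine cyc_frobenius ?_ hA hσ
  rw [Nat.coprime_primes hℓ hp.out]
  rintro rfl
  exact hℓS hpS

/-- approximation by powers of Frobenius elements -/
theorem exists_frobPow {α : Type*} {f : GQ → α} (hf : IsLocConst f) (hS : S.Finite)
    (g : GQ) : ∃ ℓ : ℕ, ℓ.Prime ∧ ℓ ∉ S ∧ ∃ A : ValuationSubring (AlgebraicClosure ℚ),
      A.LiesOverPrime ℓ ∧ ∃ φ : GQ, A.IsFrobeniusAt φ ℓ ∧ ∃ n : ℕ, f g = f (φ ^ n) := by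
  obtain ⟨L, hL, h1⟩ := hf
  haveI := hL
  obtain ⟨ℓ, hℓ, hℓS, A, hA, φ, hφ, n, m, h2, -⟩ := exists_isFrobeniusAt_pow_mem S hS
    L.fixingSubgroup (isOpen_fixing L) g
  refine ⟨ℓ, hℓ, hℓS, A, hA, φ, hφ, n, ?_⟩
  have h3 := h1 _ ((IntermediateField.mem_fixingSubgroup_iff L _).mp h2) g
  rw [mul_inv_cancel_left] at h3
  exact h3.symm

theorem FrobRel.det_of_nonscalar (h : FrobRel ρ S a) (hE : finrank (ZMod p) E = 2)
    (hS : S.Finite) (hpS : p ∈ S) {g : GQ}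
    (hns : ∀ c : ZMod p, ρ g ≠ c • (1 : Module.End (ZMod p) E)) :
    LinearMap.det (ρ g) = cyc p g := by
  obtain ⟨ℓ, hℓ, hℓS, A, hA, φ, hφ, n, h1⟩ :=
    exists_frobPow (h.isLocConst.prodMk (isLocConst_cyc p)) hS g
  rw [Prod.mk.injEq] at h1
  have h2 := h.frob ℓ hℓ hℓS A hA φ hφ
  have hns' : ∀ c : ZMod p, ρ φ ≠ c • (1 : Module.End (ZMod p) E) := by
    intro c hc
    apply hns (c ^ n)
    rw [h1.1, map_pow, hc, smul_pow, one_pow]
  rw [h1.1, h1.2, map_pow, map_pow, map_pow, (trace_det_of_rel hE h2 hns').2,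
    cyc_frob hpS hℓ hℓS hA hφ]

/-- the determinant is the cyclotomic character -/
theorem FrobRel.det_eq_cyc (h : FrobRel ρ S a) (hE : finrank (ZMod p) E = 2)
    (irr : ∀ N : Submodule (ZMod p) E, (∀ g, ∀ x ∈ N, ρ g x ∈ N) → N = ⊥ ∨ N = ⊤)
    (hS : S.Finite) (hpS : p ∈ S) (g : GQ) : LinearMap.det (ρ g) = cyc p g := by
  by_cases hns : ∀ c : ZMod p, ρ g ≠ c • (1 : Module.End (ZMod p) E)
  · exact h.det_of_nonscalar hE hS hpS hns
  push Not at hns
  obtain ⟨c, hc⟩ := hns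
  haveI : FiniteDimensional (ZMod p) E := FiniteDimensional.of_finrank_pos (by rw [hE]; norm_num)
  haveI : Nontrivial E := by
    apply Module.nontrivial_of_finrank_pos (R := ZMod p)
    rw [hE]; norm_num
  have hinv : ρ g * ρ g⁻¹ = 1 := by rw [← map_mul, mul_inv_cancel, map_one]
  have hc0 : c ≠ 0 := by
    rintro rfl
    rw [hc, zero_smul, zero_mul] at hinv
    exact zero_ne_one hinv
  obtain ⟨g0, hg0⟩ := exists_nonscalar (ρ := ρ) hE irr
  have h1 := h.det_of_nonscalar hE hS hpS hg0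
  have h2 := h.det_of_nonscalar hE hS hpS (g := g * g0) (fun d hd => by
    apply hg0 (c⁻¹ * d)
    rw [map_mul, hc, smul_mul_assoc, one_mul] at hd
    rw [mul_smul, ← hd, smul_smul, inv_mul_cancel₀ hc0, one_smul])
  rw [map_mul, map_mul, map_mul, h1] at h2
  have h3 : LinearMap.det (ρ g0) ≠ 0 := by
    have h4 : ρ g0 * ρ g0⁻¹ = 1 := by rw [← map_mul, mul_inv_cancel, map_one]
    have h5 := congrArg LinearMap.det h4
    rw [map_mul, map_one] at h5
    exact left_ne_zero_of_mul_eq_one h5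
  rw [h1] at h3
  exact mul_right_cancel₀ h3 h2

/-- the trace of Frobenius -/
theorem FrobRel.trace_frob (h : FrobRel ρ S a) (hE : finrank (ZMod p) E = 2)
    (irr : ∀ N : Submodule (ZMod p) E, (∀ g, ∀ x ∈ N, ρ g x ∈ N) → N = ⊥ ∨ N = ⊤)
    (hS : S.Finite) (hpS : p ∈ S) {ℓ : ℕ} (hℓ : ℓ.Prime) (hℓS : ℓ ∉ S)
    {A : ValuationSubring (AlgebraicClosure ℚ)} (hA : A.LiesOverPrime ℓ) {φ : GQ}
    (hφ : A.IsFrobeniusAt φ ℓ) :
    LinearMap.trace (ZMod p) E (ρ φ) = a ℓ ∧ LinearMap.det (ρ φ) = ℓ := by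
  have hdet : LinearMap.det (ρ φ) = ℓ := by
    rw [h.det_eq_cyc hE irr hS hpS, cyc_frob hpS hℓ hℓS hA hφ]
  have h2 := h.frob ℓ hℓ hℓS A hA φ hφ
  by_cases hns : ∀ c : ZMod p, ρ φ ≠ c • (1 : Module.End (ZMod p) E)
  · exact trace_det_of_rel hE h2 hns
  push Not at hns
  obtain ⟨c, hc⟩ := hns
  haveI : FiniteDimensional (ZMod p) E := FiniteDimensional.of_finrank_pos (by rw [hE]; norm_num)
  haveI : Nontrivial E := by
    apply Module.nontrivial_of_finrank_pos (R := ZMod p)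
    rw [hE]; norm_num
  refine ⟨?_, hdet⟩
  have hc2 : c ^ 2 = ℓ := by
    rw [← hdet, hc, LinearMap.det_smul, hE, map_one, mul_one]
  have hc0 : c ≠ 0 := by
    rintro rfl
    have h3 : (ℓ : ZMod p) = 0 := by rw [← hc2]; ring
    rw [ZMod.natCast_eq_zero_iff, Nat.prime_dvd_prime_iff_eq hp.out hℓ] at h3
    exact hℓS (h3 ▸ hpS)
  have h3 : (c * c - a ℓ * c + ℓ) • (1 : Module.End (ZMod p) E) = 0 := by
    rw [← h2, hc, smul_mul_smul_comm, mul_one, smul_smul, add_smul, sub_smul]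
  have h4 := (smul_eq_zero.1 h3).resolve_right one_ne_zero
  rw [← hc2] at h4
  have h5 : c * (c + c - a ℓ) = 0 := by linear_combination h4
  have h6 := (mul_eq_zero.1 h5).resolve_left hc0
  rw [hc, map_smul, LinearMap.trace_one, hE, smul_eq_mul]
  push_cast
  linear_combination h6

/-- the relation everywhere -/
theorem FrobRel.rel (h : FrobRel ρ S a) (h' : FrobRel τ S a) (hE : finrank (ZMod p) E = 2)
    (irr : ∀ N : Submodule (ZMod p) E, (∀ g, ∀ x ∈ N, ρ g x ∈ N) → N = ⊥ ∨ N = ⊤)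
    (hS : S.Finite) (hpS : p ∈ S) (g : GQ) :
    τ g * τ g - (LinearMap.trace (ZMod p) E (ρ g)) • τ g +
      (LinearMap.det (ρ g)) • (1 : Module.End (ZMod p) V) = 0 := by
  haveI : FiniteDimensional (ZMod p) E := FiniteDimensional.of_finrank_pos (by rw [hE]; norm_num)
  let b := finBasisOfFinrankEq (ZMod p) E hE
  obtain ⟨ℓ, hℓ, hℓS, A, hA, φ, hφ, n, h1⟩ := 
    exists_frobPow (h.isLocConst.prodMk h'.isLocConst) hS g
  rw [Prod.mk.injEq] at h1
  obtain ⟨h2, h3⟩ := h.trace_frob hE irr hS hpS hℓ hℓS hA hφ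
  have h4 := h'.frob ℓ hℓ hℓS A hA φ hφ
  rw [← h2, ← h3, LinearMap.trace_eq_matrix_trace (ZMod p) b, ← LinearMap.det_toMatrix b] at h4
  have h5 := pow_rel _ h4 n
  have h6 : (LinearMap.toMatrix b b (ρ φ)) ^ n = LinearMap.toMatrix b b (ρ φ ^ n) := by
    change (LinearMap.toMatrixAlgEquiv b (ρ φ)) ^ n = LinearMap.toMatrixAlgEquiv b (ρ φ ^ n)
    rw [map_pow]
  rw [h6, LinearMap.det_toMatrix, ← LinearMap.trace_eq_matrix_trace (ZMod p) b, ← map_pow,
    ← map_pow, ← h1.1, ← h1.2] at h5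
  exact h5

/-- **Boston-Lenstra-Ribet** -/
theorem FrobRel.exists_embedding (h : FrobRel ρ S a) (h' : FrobRel τ S a)
    (hE : finrank (ZMod p) E = 2)
    (irr : ∀ N : Submodule (ZMod p) E, (∀ g, ∀ x ∈ N, ρ g x ∈ N) → N = ⊥ ∨ N = ⊤)
    (hS : S.Finite) (hpS : p ∈ S) (hp2 : p ≠ 2) [Nontrivial V] :
    ∃ κ : E →ₗ[ZMod p] V, Function.Injective κ ∧ ∀ g w, κ (ρ g w) = τ g (κ w) := by
  haveI : FiniteDimensional (ZMod p) E := FiniteDimensional.of_finrank_pos (by rw [hE]; norm_num)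
  have h2 : (2 : ZMod p) ≠ 0 := by
    intro h2
    have : ((2 : ℕ) : ZMod p) = 0 := by exact_mod_cast h2
    rw [ZMod.natCast_eq_zero_iff, Nat.prime_dvd_prime_iff_eq hp.out Nat.prime_two] at this
    exact hp2 this
  have hdet : LinearMap.det (ρ complexConjugation) = -1 := by
    rw [h.det_eq_cyc hE irr hS hpS, cyc_complexConjugation]
  obtain ⟨hsurj, x, y, hxy⟩ := surjective_of_irr hE h2 irr complexConjugation_mul_self hdet
  exact PRem.exists_embedding hsurj (fun s hs => ker_le ρ τ (h.rel h' hE irr hS hpS) h2 hsurj hxy hs)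

/-- no Eisenstein congruences -/
theorem FrobRel.not_eis (h : FrobRel ρ S a) (hE : finrank (ZMod p) E = 2)
    (irr : ∀ N : Submodule (ZMod p) E, (∀ g, ∀ x ∈ N, ρ g x ∈ N) → N = ⊥ ∨ N = ⊤)
    (hS : S.Finite) (hpS : p ∈ S) (hp2 : p ≠ 2)
    (ha : ∀ ℓ : ℕ, ℓ.Prime → ℓ ∉ S → a ℓ = 1 + ℓ) : False := by
  haveI : FiniteDimensional (ZMod p) E := FiniteDimensional.of_finrank_pos (by rw [hE]; norm_num)
  have h2 : (2 : ZMod p) ≠ 0 := by
    intro h2
    have : ((2 : ℕ) : ZMod p) = 0 := by exact_mod_cast h2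
    rw [ZMod.natCast_eq_zero_iff, Nat.prime_dvd_prime_iff_eq hp.out Nat.prime_two] at this
    exact hp2 this
  have hdet : LinearMap.det (ρ complexConjugation) = -1 := by
    rw [h.det_eq_cyc hE irr hS hpS, cyc_complexConjugation]
  refine PRem.not_eis hE h2 irr complexConjugation_mul_self hdet fun g => ?_
  obtain ⟨ℓ, hℓ, hℓS, A, hA, φ, hφ, n, h1⟩ := exists_frobPow h.isLocConst hS g
  obtain ⟨h3, h4⟩ := h.trace_frob hE irr hS hpS hℓ hℓS hA hφ
  rw [h1, map_pow ρ, map_pow LinearMap.det, h4]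
  rw [ha ℓ hℓ hℓS] at h3
  clear h1
  -- `(φ - 1)(φ - ℓ) = 0`
  have h5 := h.frob ℓ hℓ hℓS A hA φ hφ
  rw [ha ℓ hℓ hℓS] at h5
  have h6 : ∀ n : ℕ, LinearMap.trace (ZMod p) E (ρ φ ^ n) = 1 + (ℓ : ZMod p) ^ n ∧
      LinearMap.trace (ZMod p) E (ρ φ ^ (n + 1)) = 1 + (ℓ : ZMod p) ^ (n + 1) := by
    intro n
    induction n with
    | zero =>
      refine ⟨?_, ?_⟩
      · rw [pow_zero, LinearMap.trace_one, hE]; push_cast; ring
      · rw [zero_add, pow_one, pow_one, h3]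
    | succ n ih =>
      refine ⟨ih.2, ?_⟩
      have h7 : ρ φ ^ (n + 1 + 1) = (1 + (ℓ : ZMod p)) • ρ φ ^ (n + 1) - (ℓ : ZMod p) • ρ φ ^ n := by
        have h8 : ρ φ * ρ φ = (1 + (ℓ : ZMod p)) • ρ φ - (ℓ : ZMod p) • (1 : Module.End (ZMod p) E) := by
          rw [← sub_eq_zero, ← h5]; abel
        rw [pow_succ, pow_succ, mul_assoc, h8, mul_sub, mul_smul_comm, mul_smul_comm, mul_one]
      rw [h7, map_sub, map_smul, map_smul, ih.1, ih.2, smul_eq_mul, smul_eq_mul]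
      ring
  exact (h6 n).1

end

end Fermat.Agent.PRem
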