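import Fermat.Agent.Kum.Final
import Fermat.Agent.LevelRaise.AuxPrime
import Fermat.Agent.LevelRaise.ModEig
import Fermat.Agent.Eigen.Character
import Fermat.Agent.PRem.BLRGal

/-!
# The `p`-torsion of a modular elliptic curve occurs in `J₀(N)[p]`
-/

set_option autoImplicit false
set_option linter.unusedSectionVars false
set_option linter.style.haveILetI false

namespace Fermat.Agent.PRem

open WeierstrassCurve WeierstrassCurve.Affine WeierstrassCurve.Affine.Point Module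
open Fermat.Agent.GalRep Fermat.Agent.Kum Fermat.Agent.HeckeHom

noncomputable section

local notation "Qb" => AlgebraicClosure ℚ

section curve

/-- torsion points -/
abbrev TE (E : WeierstrassCurve ℚ) (p : ℕ) := Submodule.torsionBy ℤ (E⁄Qb).Point p

variable (E : WeierstrassCurve ℚ) (p : ℕ) [hp : Fact p.Prime]

/-- the representation on the torsion points -/
def repE : Representation (ZMod p) GQ (TE E p) where
  toFun σ := (DistribSMul.toAddMonoidHom (TE E p) σ).toZModLinearMap p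
  map_one' := LinearMap.ext fun x => one_smul _ x
  map_mul' σ σ' := LinearMap.ext fun x => mul_smul σ σ' x

variable {E p}

theorem repE_apply (σ : GQ) (x : TE E p) : repE E p σ x = σ • x := rfl

theorem natCast_smul_TE (n : ℕ) (x : TE E p) : (n : ZMod p) • x = n • x :=
  Nat.cast_smul_eq_nsmul (ZMod p) n x

theorem intCast_smul_TE (n : ℤ) (x : TE E p) : (n : ZMod p) • x = n • x :=
  Int.cast_smul_eq_zsmul (ZMod p) n x

variable [E.IsElliptic]

theorem finite_TE (hp2 : p ≠ 2) : Finite (TE E p) := by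
  have hodd : Odd p := hp.out.odd_of_ne_two hp2
  have hcard : Nat.card (TE E p) = p ^ 2 := EC.card_torsionBy E hodd
  exact Nat.finite_of_card_ne_zero (by rw [hcard]; exact pow_ne_zero _ hp.out.ne_zero)

theorem finrank_TE (hp2 : p ≠ 2) : finrank (ZMod p) (TE E p) = 2 := by
  have hodd : Odd p := hp.out.odd_of_ne_two hp2
  have hcard : Nat.card (TE E p) = p ^ 2 := EC.card_torsionBy E hodd
  haveI := finite_TE (E := E) hp2
  have h1 := Module.natCard_eq_pow_finrank (K := ZMod p) (V := TE E p)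
  rw [hcard, Nat.card_zmod] at h1
  exact (Nat.pow_right_injective hp.out.two_le h1).symm

theorem level_repE (hp2 : p ≠ 2) : ∃ L : IntermediateField ℚ (AlgebraicClosure ℚ),
    FiniteDimensional ℚ L ∧ ∀ σ : GQ, (∀ x ∈ L, σ x = x) → repE E p σ = 1 := by
  classical
  haveI := finite_TE (E := E) hp2
  let cx : (E⁄Qb).Point → Qb := fun P => match P with
    | .zero => 0
    | .some x _ _ => x
  let cy : (E⁄Qb).Point → Qb := fun P => match P with
    | .zero => 0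
    | .some _ y _ => y
  have hV : (Set.range (Subtype.val : TE E p → (E⁄Qb).Point)).Finite := Set.finite_range _
  set V : Set (E⁄Qb).Point := Set.range (Subtype.val : TE E p → (E⁄Qb).Point) with hVdef
  have hT'f : (cx '' V ∪ cy '' V).Finite := (hV.image _).union (hV.image _)
  haveI : Finite ↥(cx '' V ∪ cy '' V) := hT'f
  refine ⟨IntermediateField.adjoin ℚ (cx '' V ∪ cy '' V),
    IntermediateField.finiteDimensional_adjoin fun x _ => Algebra.IsIntegral.isIntegral x,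
    fun σ hσ => LinearMap.ext fun x => ?_⟩
  have h1 : (x : (E⁄Qb).Point) ∈ V := ⟨x, rfl⟩
  have hx := hσ (cx x) (IntermediateField.subset_adjoin _ _ (Or.inl ⟨_, h1, rfl⟩))
  have hy := hσ (cy x) (IntermediateField.subset_adjoin _ _ (Or.inr ⟨_, h1, rfl⟩))
  rw [repE_apply]
  apply Subtype.ext
  change σ • (x : (E⁄Qb).Point) = x
  obtain ⟨x, hx'⟩ := x
  rcases x with _ | ⟨x, y, e⟩
  · rfl
  · rw [algEquiv_smul_def, map_some]
    exact EC.some_eq_some hx hy _ _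

/-- the exceptional set -/
def badS (W : WeierstrassCurve ℤ) (N p : ℕ) : Set ℕ := {l | l ∣ N * p ∨ ¬ W.IsGoodPrimeFor l}

theorem Δ_ne_zero {W : WeierstrassCurve ℤ} (hW : W.IsIntegralModelOf E) : W.Δ ≠ 0 := by
  obtain ⟨C, hC⟩ := hW
  have h1 : (C • E).Δ ≠ 0 := by
    rw [variableChange_Δ]
    exact mul_ne_zero (pow_ne_zero _ (Units.ne_zero _)) E.isUnit_Δ.ne_zero
  rw [hC, WeierstrassCurve.map_Δ, eq_intCast] at h1
  exact_mod_cast h1

theorem finite_badS {W : WeierstrassCurve ℤ} (hW : W.IsIntegralModelOf E) {N : ℕ} (hN : N ≠ 0) :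
    (badS W N p).Finite := by
  have hNp : N * p ≠ 0 := mul_ne_zero hN hp.out.ne_zero
  refine Set.Finite.union ?_ (LevelRaise.good_finite (Δ_ne_zero hW))
  refine (Finset.finite_toSet (Nat.divisors (N * p))).subset fun r hr => ?_
  exact Finset.mem_coe.2 (Nat.mem_divisors.2 ⟨hr, hNp⟩)

theorem frobRel_E (hp2 : p ≠ 2) {W : WeierstrassCurve ℤ} (hW : W.IsIntegralModelOf E) (N : ℕ) :
    FrobRel (repE E p) (badS W N p) (fun l => ((W.apOfModel l : ℤ) : ZMod p)) where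
  level := level_repE hp2
  frob ℓ hℓ hℓS A hA σ hσ := by
    haveI : Fact ℓ.Prime := ⟨hℓ⟩
    have hodd : Odd p := hp.out.odd_of_ne_two hp2
    simp only [badS, Set.mem_ofPred_eq, not_or, not_not] at hℓS
    refine LinearMap.ext fun v => ?_
    have hv : p • (v : (E⁄Qb).Point) = 0 := by
      have := (Submodule.mem_torsionBy_iff (p : ℤ) (v : (E⁄Qb).Point)).mp v.2
      rwa [natCast_zsmul] at this
    have h1 := EC.frobenius_rel_of_model hW hℓS.2 hA hσ hodd
      (fun h => hℓS.1 (dvd_mul_of_dvd_right h N)) hv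
    change σ • σ • v - ((W.apOfModel ℓ : ℤ) : ZMod p) • σ • v + (ℓ : ZMod p) • v = 0
    rw [intCast_smul_TE, natCast_smul_TE]
    apply Subtype.ext
    rw [natCast_zsmul] at h1
    exact h1

theorem irr_repE (hirr : GaloisRepIsIrreducible (K := AlgebraicClosure ℚ) ℚ E p)
    (N : Submodule (ZMod p) (TE E p)) (hN : ∀ g, ∀ x ∈ N, repE E p g x ∈ N) : N = ⊥ ∨ N = ⊤ :=
  hirr.2 N hN

/-- **no Eisenstein congruences** -/
theorem exists_not_eis (hp2 : p ≠ 2) {W : WeierstrassCurve ℤ} (hW : W.IsIntegralModelOf E)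
    (hirr : GaloisRepIsIrreducible (K := AlgebraicClosure ℚ) ℚ E p) (c : ℕ) (hc : c ≠ 0) :
    ∃ l : ℕ, l.Prime ∧ ¬ l ∣ c ∧ l ≠ p ∧ W.IsGoodPrimeFor l ∧
      ¬ (p : ℤ) ∣ (W.apOfModel l : ℤ) - l - 1 := by
  by_contra hcon
  push Not at hcon
  refine (frobRel_E hp2 hW c).not_eis (finrank_TE hp2) (irr_repE hirr) (finite_badS hW hc)
    (Or.inl (dvd_mul_left p c)) hp2 fun ℓ hℓ hℓS => ?_
  simp only [badS, Set.mem_ofPred_eq, not_or, not_not] at hℓS
  have h1 := hcon ℓ hℓ (fun h => hℓS.1 (dvd_mul_of_dvd_left h p))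
    (fun h => hℓS.1 (h ▸ dvd_mul_left ℓ c)) hℓS.2
  rw [← ZMod.intCast_zmod_eq_zero_iff_dvd] at h1
  push_cast at h1
  linear_combination h1

end curve

section modular

variable {N : ℕ} [NeZero N] {p : ℕ} [hp : Fact p.Prime] {S : Set ℕ}

/-- the eigenspace -/
def VX (hS : ∀ q, q ∣ N → q ∈ S) (p : ℕ) [Fact p.Prime] (a : ℕ → ℤ) : AddSubgroup (XL N p) where
  carrier := {x | ∀ (l : ℕ) (hl : l.Prime) (hlS : l ∉ S),
    actX N p S (CuspForm.heckeAlgebra.T hl (fun h => hlS (hS l h)) hlS) x = a l • x}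
  add_mem' {x y} hx hy := fun l hl hlS => by rw [map_add, hx l hl hlS, hy l hl hlS, smul_add]
  zero_mem' := fun l hl hlS => by rw [_root_.map_zero, smul_zero]
  neg_mem' {x} hx := fun l hl hlS => by rw [map_neg, hx l hl hlS, smul_neg]

variable {hS : ∀ q, q ∣ N → q ∈ S} {a : ℕ → ℤ}

theorem mem_VX {x : XL N p} : x ∈ VX hS p a ↔ ∀ (l : ℕ) (hl : l.Prime) (hlS : l ∉ S),
    actX N p S (CuspForm.heckeAlgebra.T hl (fun h => hlS (hS l h)) hlS) x = a l • x := Iff.rfl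

theorem nsmul_XL (x : XL N p) : p • x = 0 := by
  obtain ⟨φ, rfl⟩ := mkX_surjective x
  exact mkX_nsmul φ

instance instModVX : Module (ZMod p) (VX hS p a) := AddCommGroup.zmodModule fun x =>
  Subtype.ext (nsmul_XL x.1)

theorem natCast_smul_VX (n : ℕ) (x : VX hS p a) : (n : ZMod p) • x = n • x :=
  Nat.cast_smul_eq_nsmul (ZMod p) n x

theorem intCast_smul_VX (n : ℤ) (x : VX hS p a) : (n : ZMod p) • x = n • x :=
  Int.cast_smul_eq_zsmul (ZMod p) n x

variable (ι : Qb →+* ℂ)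

theorem rhoF_mem {x : XL N p} (hx : x ∈ VX hS p a) (σ : GQ) : rhoF ι p σ x ∈ VX hS p a := by
  intro l hl hlS
  haveI : NeZero l := ⟨hl.ne_zero⟩
  rw [← rhoF_T ι hl (fun h => hlS (hS l h)) hlS σ x, hx l hl hlS]
  let r : XL N p →+ XL N p := AddMonoidHom.mk' (rhoF ι p σ) (rhoF_add ι σ)
  exact map_zsmul r (a l) x

/-- the Galois representation on the eigenspace -/
def repV (hS : ∀ q, q ∣ N → q ∈ S) (a : ℕ → ℤ) (ι : Qb →+* ℂ) :
    Representation (ZMod p) GQ (VX hS p a) where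
  toFun σ := (AddMonoidHom.mk' (fun x : VX hS p a => (⟨rhoF ι p σ x.1, rhoF_mem ι x.2 σ⟩ : VX hS p a))
    (fun x y => Subtype.ext (rhoF_add ι σ x.1 y.1))).toZModLinearMap p
  map_one' := LinearMap.ext fun x => Subtype.ext (rhoF_one ι x.1)
  map_mul' σ τ := LinearMap.ext fun x => Subtype.ext (rhoF_mul ι σ τ x.1)

theorem coe_repV (σ : GQ) (x : VX hS p a) : ((repV hS a ι σ x : VX hS p a) : XL N p) =
    rhoF ι p σ x.1 := rfl

theorem frobRel_V (hpS : p ∈ S) :
    FrobRel (repV (p := p) hS a ι) S (fun l => ((a l : ℤ) : ZMod p)) where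
  level := by
    obtain ⟨L, hL, h⟩ := exists_level_rhoF (N := N) (m := p) (K := AlgebraicClosure ℚ) ι
    exact ⟨L, hL, fun σ hσ => LinearMap.ext fun x => Subtype.ext (h σ hσ x.1)⟩
  frob ℓ hℓ hℓS A hA σ hσ := by
    refine LinearMap.ext fun v => ?_
    have hℓN : ¬ ℓ ∣ N := fun h => hℓS (hS ℓ h)
    have hℓp : ¬ ℓ ∣ p := by
      intro h
      rw [Nat.prime_dvd_prime_iff_eq hℓ hp.out] at h
      exact hℓS (h ▸ hpS)
    have h1 := rhoF_frob ι (Kum.goodRed hℓ hℓN hℓp hA) hℓ hℓN hℓS hA hσ v.1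
    rw [(rhoF_mem ι v.2 σ) ℓ hℓ hℓS] at h1
    change repV hS a ι σ (repV hS a ι σ v) - ((a ℓ : ℤ) : ZMod p) • repV hS a ι σ v +
      (ℓ : ZMod p) • v = 0
    rw [intCast_smul_VX, natCast_smul_VX]
    exact Subtype.ext h1

/-- the eigenspace is nonzero -/
theorem nontrivial_VX (ψ : CuspForm.heckeAlgebra N 2 S →+* ZMod p)
    (hψ : ∀ (l : ℕ) (hl : l.Prime) (hlS : l ∉ S),
      ψ (CuspForm.heckeAlgebra.T hl (fun h => hlS (hS l h)) hlS) = ((a l : ℤ) : ZMod p)) :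
    Nontrivial (VX hS p a) := by
  letI : Module (CuspForm.heckeAlgebra N 2 S) (LZ N) := Module.compHom (LZ N) (actL N S)
  haveI : Module.Finite ℤ (CuspForm.heckeAlgebra N 2 S) := Fermat.Agent.S22.result N 2 _
  obtain ⟨x, hx, hxT⟩ := LevelRaise.exists_mod_eigenvector (T := CuspForm.heckeAlgebra N 2 S)
    (M := LZ N) (fun t ht => actL_injective N ((LinearMap.ext ht).trans (_root_.map_zero _).symm)) ψ
  have hz : ∀ y : LZ N, (mkX y : XL N p) = 0 ↔ ∃ z, y = (p : ℤ) • z := by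
    intro y
    rw [← _root_.map_zero mkX, mkX_eq_iff, redI_zero, redI_eq_zero]
    simp only [natCast_zsmul]
  refine ⟨⟨⟨mkX x, fun l hl hlS => ?_⟩, 0, fun h => ?_⟩⟩
  · obtain ⟨y, hy⟩ := hxT (CuspForm.heckeAlgebra.T hl (fun h => hlS (hS l h)) hlS) (a l)
      (hψ l hl hlS).symm
    rw [← sub_eq_zero, actX_mkX, ← map_zsmul, ← map_sub, hz]
    exact ⟨y, hy⟩
  · have h1 : (mkX x : XL N p) = 0 := congrArg Subtype.val h
    obtain ⟨z, h2⟩ := (hz x).1 h1
    exact hx z h2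

/-- the character mod `p` -/
theorem exists_psi {f : CuspForm (CongruenceSubgroup.Gamma0 N) 2}
    (hf : f.IsNormalizedEigenform) {𝔪 : Ideal (integralClosure ℤ ℂ)} (h𝔪 : 𝔪.IsMaximal)
    (hp𝔪 : (p : integralClosure ℤ ℂ) ∈ 𝔪)
    (hcong : ∀ ℓ : ℕ, ℓ.Prime → ℓ ∉ S →
      ∃ b : integralClosure ℤ ℂ, (b : ℂ) = ModularFormClass.qCoeff f ℓ ∧
        b - ((a ℓ : ℤ) : integralClosure ℤ ℂ) ∈ 𝔪) :
    ∃ ψ : CuspForm.heckeAlgebra N 2 S →+* ZMod p, ∀ (l : ℕ) (hl : l.Prime) (hlS : l ∉ S),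
      ψ (CuspForm.heckeAlgebra.T hl (fun h => hlS (hS l h)) hlS) = ((a l : ℤ) : ZMod p) := by
  haveI := h𝔪
  letI : Field (integralClosure ℤ ℂ ⧸ 𝔪) := Ideal.Quotient.field 𝔪
  haveI : CharP (integralClosure ℤ ℂ ⧸ 𝔪) p := by
    have h0 : ((p : ℕ) : integralClosure ℤ ℂ ⧸ 𝔪) = 0 := by
      have := Ideal.Quotient.eq_zero_iff_mem.2 hp𝔪
      rwa [map_natCast] at this
    exact (CharP.charP_iff_prime_eq_zero hp.out).2 h0
  let j : ZMod p →+* (integralClosure ℤ ℂ ⧸ 𝔪) := ZMod.castHom dvd_rfl _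
  let F : CuspForm.heckeAlgebra N 2 S →+* (integralClosure ℤ ℂ ⧸ 𝔪) :=
    (Ideal.Quotient.mk 𝔪).comp (Eigen.eigenCharInt hf S)
  have hF : ∀ (l : ℕ) (hl : l.Prime) (hlS : l ∉ S),
      F (CuspForm.heckeAlgebra.T hl (fun h => hlS (hS l h)) hlS) = j ((a l : ℤ) : ZMod p) := by
    intro l hl hlS
    obtain ⟨b, hb, hb'⟩ := hcong l hl hlS
    have h1 : Eigen.eigenCharInt hf S (CuspForm.heckeAlgebra.T hl (fun h => hlS (hS l h)) hlS) = b := by
      apply Subtype.ext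
      rw [Eigen.coe_eigenCharInt, Eigen.eigenChar_T, hb]
    change Ideal.Quotient.mk 𝔪 (Eigen.eigenCharInt hf S _) = _
    rw [h1, map_intCast, ← map_intCast (Ideal.Quotient.mk 𝔪), Ideal.Quotient.eq]
    exact hb'
  have hrange : ∀ t, F t ∈ j.range := by
    rintro ⟨t, ht⟩
    induction ht using Algebra.adjoin_induction with
    | mem x hx =>
      rcases hx with ⟨ℓ, hℓ, hℓN, hℓS, rfl⟩ | ⟨q, hqN, hq, hqS, rfl⟩
      · exact ⟨_, (hF ℓ hℓ hℓS).symm⟩
      · exact absurd (hS q hqN) hqS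
    | algebraMap n =>
      have h1 : (⟨algebraMap ℤ _ n, Subalgebra.algebraMap_mem _ n⟩ : CuspForm.heckeAlgebra N 2 S) =
        ((n : ℤ) : CuspForm.heckeAlgebra N 2 S) := by
        apply Subtype.ext
        simp
      rw [h1, map_intCast]
      exact ⟨n, map_intCast _ _⟩
    | add x y hx hy ihx ihy =>
      have h1 : (⟨x + y, add_mem hx hy⟩ : CuspForm.heckeAlgebra N 2 S) = ⟨x, hx⟩ + ⟨y, hy⟩ := rfl
      rw [h1, map_add]
      exact add_mem ihx ihy
    | mul x y hx hy ihx ihy =>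
      have h1 : (⟨x * y, mul_mem hx hy⟩ : CuspForm.heckeAlgebra N 2 S) = ⟨x, hx⟩ * ⟨y, hy⟩ := rfl
      rw [h1, map_mul]
      exact mul_mem ihx ihy
  choose g hg using hrange
  have hinj : Function.Injective j := j.injective
  refine ⟨{ toFun := g, map_one' := ?_, map_mul' := ?_, map_zero' := ?_, map_add' := ?_ }, ?_⟩
  · apply hinj; rw [hg, map_one, map_one]
  · intro x y; apply hinj; rw [hg, map_mul, map_mul, hg, hg]
  · apply hinj; rw [hg, _root_.map_zero, _root_.map_zero]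
  · intro x y; apply hinj; rw [hg, map_add, map_add, hg, hg]
  · intro l hl hlS
    apply hinj
    change j (g _) = _
    rw [hg, hF]

/-- `actX` of `T_l` is independent of the set `S` -/
theorem actX_T_indep {S' : Set ℕ} {l : ℕ} (hl : l.Prime) (hlN : ¬ l ∣ N) (hlS : l ∉ S)
    (hlS' : l ∉ S') (x : XL N p) : actX N p S (CuspForm.heckeAlgebra.T hl hlN hlS) x =
      actX N p S' (CuspForm.heckeAlgebra.T hl hlN hlS') x := by
  obtain ⟨φ, rfl⟩ := mkX_surjective x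
  refine (actX_mkX _ _).trans (Eq.trans ?_ (actX_mkX _ _).symm)
  refine congrArg mkX (Subtype.ext ?_)
  rw [actL_T, actL_T]

/-- **Boston-Lenstra-Ribet**: if `E[p]` is irreducible and the mod `p` Hecke eigensystem of `E`
occurs in level `N`, then `E[p]` embeds in `X₀(N)[p]`. -/
theorem exists_blr {E : WeierstrassCurve ℚ} [E.IsElliptic] {W : WeierstrassCurve ℤ}
    (hW : W.IsIntegralModelOf E) (hp2 : p ≠ 2)
    (hirr : GaloisRepIsIrreducible (K := AlgebraicClosure ℚ) ℚ E p)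
    {f : CuspForm (CongruenceSubgroup.Gamma0 N) 2}
    (hf : f.IsNormalizedEigenform) {𝔪 : Ideal (integralClosure ℤ ℂ)} (h𝔪 : 𝔪.IsMaximal)
    (hp𝔪 : (p : integralClosure ℤ ℂ) ∈ 𝔪)
    (hcong : ∀ ℓ : ℕ, ℓ.Prime → W.IsGoodPrimeFor ℓ → ¬ ℓ ∣ N → ℓ ≠ p →
      ∃ b : integralClosure ℤ ℂ, (b : ℂ) = ModularFormClass.qCoeff f ℓ ∧
        b - ((W.apOfModel ℓ : ℤ) : integralClosure ℤ ℂ) ∈ 𝔪) :
    ∃ κ : Submodule.torsionBy ℤ (E⁄Qb).Point p →+ XL N p, Function.Injective κ ∧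
      (∀ (σ : GQ) (Q : Submodule.torsionBy ℤ (E⁄Qb).Point p), κ (σ • Q) = rhoF ι p σ (κ Q)) ∧
      ∀ (S' : Set ℕ) (l : ℕ) (hl : l.Prime) (hlN : ¬ l ∣ N) (hlS : l ∉ S'), l ≠ p →
        W.IsGoodPrimeFor l → ∀ Q : Submodule.torsionBy ℤ (E⁄Qb).Point p,
          actX N p S' (CuspForm.heckeAlgebra.T hl hlN hlS) (κ Q) =
            (W.apOfModel l : ℤ) • κ Q := by
  have hS : ∀ q, q ∣ N → q ∈ badS W N p := fun q hq => Or.inl (dvd_mul_of_dvd_left hq p)
  have hpS : p ∈ badS W N p := Or.inl (dvd_mul_left p N)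
  obtain ⟨ψ, hψ⟩ := exists_psi (S := badS W N p) (hS := hS) (a := fun l => W.apOfModel l) hf h𝔪
    hp𝔪 (fun ℓ hℓ hℓS => by
      simp only [badS, Set.mem_ofPred_eq, not_or, not_not] at hℓS
      exact hcong ℓ hℓ hℓS.2 (fun h => hℓS.1 (dvd_mul_of_dvd_left h p))
        (fun h => hℓS.1 (h ▸ dvd_mul_left ℓ N)))
  haveI := nontrivial_VX (hS := hS) (a := fun l => W.apOfModel l) ψ hψ
  obtain ⟨κ, hκ, hκ'⟩ := (frobRel_E hp2 hW N).exists_embedding
    (frobRel_V (hS := hS) (a := fun l => W.apOfModel l) ι hpS) (finrank_TE hp2)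
    (irr_repE hirr) (finite_badS hW (NeZero.ne N)) hpS hp2
  refine ⟨(VX hS p (fun l => W.apOfModel l)).subtype.comp κ.toAddMonoidHom,
    Subtype.val_injective.comp hκ, fun σ Q => ?_, fun S' l hl hlN hlS hlp hlW Q => ?_⟩
  · exact congrArg Subtype.val (hκ' σ Q)
  · have hl' : l ∉ badS W N p := by
      rintro (h | h)
      · rcases (Nat.Prime.dvd_mul hl).1 h with h | h
        · exact hlN h
        · exact hlp ((Nat.prime_dvd_prime_iff_eq hl hp.out).1 h)
      · exact h hlW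
    rw [actX_T_indep hl hlN hlS hl']
    exact (κ Q).2 l hl hl'

end modular

end

end Fermat.Agent.PRem
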