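import Fermat.Agent.PRem.ConcR

/-!
# Functions separating the two components
-/

set_option autoImplicit false
set_option linter.unusedSectionVars false
set_option linter.style.haveILetI false

noncomputable section

namespace Fermat.Agent.PRem

open ModularCurve Polynomial IntermediateField Fermat.Agent.ModPoly Fermat.Agent.Red
  Fermat.Agent.RedMod Fermat.Agent.Cusp Fermat.Agent.SemiSt AlgebraicCurve Fermat.Agent.Curve
  Fermat.Agent.RR Fermat.Agent.Nod

section Rd

variable (A : Type*) {K k : Type*} [CommRing A] [IsDomain A] [ValuationRing A]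
  [Field K] [Algebra A K] [IsFractionRing A K] [Field k] [Algebra A k]

/-- `x` is integral with reduction `a` -/
def Rd (x : LaurentSeries K) (a : LaurentSeries k) : Prop :=
  ∃ h : x ∈ WL A K k, πL A K k ⟨x, h⟩ = a

variable {A}

theorem Rd.mul {x y : LaurentSeries K} {a b : LaurentSeries k} (h : Rd A x a) (h' : Rd A y b) :
    Rd A (x * y) (a * b) := by
  obtain ⟨h1, rfl⟩ := h
  obtain ⟨h2, rfl⟩ := h'
  refine ⟨mul_mem h1 h2, ?_⟩
  rw [← map_mul]
  rfl

theorem Rd.add {x y : LaurentSeries K} {a b : LaurentSeries k} (h : Rd A x a) (h' : Rd A y b) :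
    Rd A (x + y) (a + b) := by
  obtain ⟨h1, rfl⟩ := h
  obtain ⟨h2, rfl⟩ := h'
  refine ⟨add_mem h1 h2, ?_⟩
  rw [← map_add]
  rfl

theorem Rd.sub {x y : LaurentSeries K} {a b : LaurentSeries k} (h : Rd A x a) (h' : Rd A y b) :
    Rd A (x - y) (a - b) := by
  obtain ⟨h1, rfl⟩ := h
  obtain ⟨h2, rfl⟩ := h'
  refine ⟨sub_mem h1 h2, ?_⟩
  rw [← map_sub]
  rfl

theorem Rd.one : Rd A (1 : LaurentSeries K) (1 : LaurentSeries k) := ⟨one_mem _, map_one _⟩

theorem Rd.zero : Rd A (0 : LaurentSeries K) (0 : LaurentSeries k) := ⟨zero_mem _, map_zero _⟩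

theorem Rd.pow {x : LaurentSeries K} {a : LaurentSeries k} (h : Rd A x a) (n : ℕ) :
    Rd A (x ^ n) (a ^ n) := by
  obtain ⟨h1, rfl⟩ := h
  refine ⟨pow_mem h1 n, ?_⟩
  rw [← map_pow]
  rfl

theorem Rd.ne {x : LaurentSeries K} {a : LaurentSeries k} (h : Rd A x a) (ha : a ≠ 0) : x ≠ 0 := by
  rintro rfl
  obtain ⟨h1, rfl⟩ := h
  exact ha (map_zero _)

theorem Rd.inv {x : LaurentSeries K} {a : LaurentSeries k} (h : Rd A x a) (ha : a ≠ 0) :
    Rd A x⁻¹ a⁻¹ := by
  have hx := h.ne ha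
  obtain ⟨h1, rfl⟩ := h
  exact ⟨inv_mem_WL h1 ha, πL_inv h1 _ hx⟩

theorem Rd.div {x y : LaurentSeries K} {a b : LaurentSeries k} (h : Rd A x a) (h' : Rd A y b)
    (hb : b ≠ 0) : Rd A (x / y) (a / b) := by
  rw [div_eq_mul_inv, div_eq_mul_inv]
  exact h.mul (h'.inv hb)

theorem Rd.uniq {x : LaurentSeries K} {a b : LaurentSeries k} (h : Rd A x a) (h' : Rd A x b) :
    a = b := by
  obtain ⟨h1, rfl⟩ := h
  obtain ⟨h2, rfl⟩ := h'
  rfl

theorem Rd.isU {x : LaurentSeries K} {a : LaurentSeries k} (h : Rd A x a) (ha : a ≠ 0) :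
    IsU A K k x := by
  obtain ⟨h1, rfl⟩ := h
  exact ⟨h1, ha⟩

theorem Rd.incL (u : LaurentSeries A) : Rd A (incL A K u) (redL A k u) :=
  ⟨incL_mem u, πL_incL u _⟩

theorem Rd.C (a : A) : Rd A (HahnSeries.C (algebraMap A K a) : LaurentSeries K)
    (HahnSeries.C (algebraMap A k a) : LaurentSeries k) := by
  rw [← coeffMap_C, ← coeffMap_C]
  exact Rd.incL _

theorem Rd.of_lift {x : LaurentSeries K} {a : LaurentSeries k} {u : LaurentSeries A}
    (h1 : x = RedMod.incL A K u) (h2 : redL A k u = a) : Rd A x a := by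
  rw [h1, ← h2]
  exact Rd.incL u

end Rd

section Main

variable {A K k : Type*} [CommRing A] [IsDomain A] [ValuationRing A]
  [Field K] [IsAlgClosed K] [CharZero K] [Algebra A K] [IsFractionRing A K] [Field k]
  [IsAlgClosed k] [Algebra A k]
  {q M : ℕ} [hq : Fact q.Prime] [NeZero M] (hco : q.Coprime M) [CharP k q]
  (hk : Function.Surjective (algebraMap A k)) (hM : (M : k) ≠ 0)

variable (K q M) in
/-- a function supported on the second component -/
def gp : FF K (q * M) := (jF' K (q * M) ^ q - qe K q M (jF' K M)) /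
  (qe K q M (jF' K M) ^ (q * q) - qe K q M (jF' K M))

include hco in
theorem rd_jF : Rd A ((jF' K (q * M) : FF K (q * M)) : LaurentSeries K) (jqModC k) :=
  Rd.of_lift (hasLift_jF (A := A) (K := K) (hco := hco)).1 (coeffMap_jqModC _)

theorem rd_w_jF : Rd A ((w K hco (jF' K (q * M)) : FF K (q * M)) : LaurentSeries K)
    (jqModC k ^ q) :=
  Rd.of_lift (hasLift_jF (A := A) (K := K) (hco := hco)).2 (by
    rw [coeffMap_qExpand, coeffMap_jqModC, qExpand_jqModC])

theorem w_jF : w K hco (jF' K (q * M)) = qe K q M (jF' K M) := by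
  rw [← w_incl hco, incl_jF]

theorem w_qe_jF : w K hco (qe K q M (jF' K M)) = jF' K (q * M) := by
  rw [← w_jF hco, w_w]

include hco in
theorem gp_fst : Rd A ((gp K q M : FF K (q * M)) : LaurentSeries K) (0 : LaurentSeries k) := by
  have h1 := rd_jF (A := A) (K := K) (k := k) hco
  have h2 := rd_w_jF (A := A) (K := K) (k := k) hco
  rw [w_jF] at h2
  have h3 : jqModC k ^ q * (0 : LaurentSeries k) = 0 := mul_zero _
  have hne : (jqModC k ^ q) ^ (q * q) - jqModC k ^ q ≠ 0 := by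
    have h4 := ub_ne_zero (k := k) (q := q)
    rw [ub] at h4
    intro h5
    apply h4
    have h6 : (jqModC k - jqModC k ^ (q * q)) ^ q = 0 := by
      haveI : CharP (LaurentSeries k) q := charP_of_injective_algebraMap
        (algebraMap k (LaurentSeries k)).injective q
      rw [sub_pow_char, ← pow_mul, mul_comm (q * q) q, pow_mul, ← neg_sub, h5, neg_zero]
    exact pow_eq_zero_iff hq.out.ne_zero |>.1 h6
  have h4 := ((h1.pow q).sub h2).div ((h2.pow (q * q)).sub h2) hne
  rw [sub_self, zero_div] at h4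
  exact h4

theorem gp_snd : Rd A ((w K hco (gp K q M) : FF K (q * M)) : LaurentSeries K)
    (1 : LaurentSeries k) := by
  have h1 := rd_jF (A := A) (K := K) (k := k) hco
  have h2 := rd_w_jF (A := A) (K := K) (k := k) hco
  have h3 : w K hco (gp K q M) = (w K hco (jF' K (q * M)) ^ q - jF' K (q * M)) /
      (jF' K (q * M) ^ (q * q) - jF' K (q * M)) := by
    rw [gp, map_div₀, map_sub, map_sub, map_pow, map_pow, w_qe_jF]
  rw [h3]
  have hne : jqModC k ^ (q * q) - jqModC k ≠ 0 := by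
    rw [← neg_sub, neg_ne_zero]
    exact ub_ne_zero
  have h4 := ((h2.pow q).sub h1).div ((h1.pow (q * q)).sub h1) hne
  rw [← pow_mul, div_self hne] at h4
  exact h4

theorem act_gp (σ : K ≃+* K) : act (q * M) σ (gp K q M) = gp K q M := by
  rw [gp, map_div₀, map_sub, map_sub, map_pow, map_pow, act_qe, act_jF, act_jF]

include hco hk hM in
/-- powers of `gp` are divisible at the first component -/
theorem exists_gp_pow (hrank : ∀ a c : A, algebraMap A k a = 0 → c ≠ 0 → ∃ n : ℕ, c ∣ a ^ n)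
    {ϖ : A} (h0 : ϖ ≠ 0) : ∃ n : ℕ, Rd A
      (HahnSeries.C (algebraMap A K ϖ)⁻¹ * ((gp K q M : FF K (q * M)) : LaurentSeries K) ^ (n + 1))
      (0 : LaurentSeries k) := by
  have hg0 : gp K q M ≠ 0 := by
    intro h
    have h1 := gp_snd (A := A) (K := K) (k := k) (q := q) (M := M) hco
    rw [h, map_zero] at h1
    exact h1.ne one_ne_zero rfl
  obtain ⟨c, hc0, hc⟩ := exists_scale_one (A := A) (k := k) hco hM hg0
  obtain ⟨a, ha, ha0⟩ : ∃ a : A, algebraMap A K a = c⁻¹ ∧ algebraMap A k a = 0 := by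
    apply isU_C_inv hk
    rw [inv_inv]
    rintro ⟨a, rfl⟩
    obtain ⟨h1, h2⟩ := hc
    have h3 := (Rd.C (K := K) (k := k) a).mul (gp_fst (A := A) (K := K) (k := k) (q := q) (M := M) hco)
    rw [mul_zero] at h3
    exact h2 (h3.uniq ⟨h1, rfl⟩).symm
  obtain ⟨n, d, hd⟩ := hrank a ϖ ha0 h0
  refine ⟨n, ?_⟩
  obtain ⟨h1, h2⟩ := hc
  have h3 : Rd A (HahnSeries.C c * ((gp K q M : FF K (q * M)) : LaurentSeries K))
      (πL A K k ⟨_, h1⟩) := ⟨h1, rfl⟩
  have h4 := (Rd.C (K := K) (k := k) (d * a)).mul (h3.pow (n + 1))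
  have h40 : algebraMap A k (d * a) = 0 := by rw [map_mul, ha0, mul_zero]
  rw [h40, map_zero, zero_mul] at h4
  have hϖ : algebraMap A K ϖ ≠ 0 := (map_ne_zero_iff _ (IsFractionRing.injective A K)).2 h0
  have e : HahnSeries.C (algebraMap A K (d * a)) *
      (HahnSeries.C c * ((gp K q M : FF K (q * M)) : LaurentSeries K)) ^ (n + 1) =
      HahnSeries.C (algebraMap A K ϖ)⁻¹ * ((gp K q M : FF K (q * M)) : LaurentSeries K) ^ (n + 1) := by
    rw [mul_pow, ← mul_assoc, ← map_pow, ← map_mul]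
    congr 2
    have h5 : algebraMap A K a ^ n = algebraMap A K ϖ * algebraMap A K d := by
      rw [← map_pow, hd, map_mul]
    have h6 : algebraMap A K d = (algebraMap A K ϖ)⁻¹ * algebraMap A K a ^ n := by
      rw [h5, inv_mul_cancel_left₀ hϖ]
    have hcn := pow_ne_zero n hc0
    rw [map_mul, h6, ha, inv_pow, pow_succ]
    field_simp
  rw [e] at h4
  exact h4

end Main

end Fermat.Agent.PRem
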