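import Fermat.Agent.PRem.ConcW
import Fermat.Agent.ModPoly.Integral

/-!
# The modular unit `Δ(q^p) / Δ(q)` and the Atkin-Lehner involution
-/

set_option autoImplicit false
set_option linter.unusedSectionVars false
set_option linter.style.haveILetI false

noncomputable section

namespace Fermat.Agent.PRem

open ModularCurve Polynomial IntermediateField Fermat.Agent.ModPoly Fermat.Agent.Red
  Fermat.Agent.RedMod Fermat.Agent.Cusp Fermat.Agent.SemiSt AlgebraicCurve Fermat.Agent.Curve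
  Fermat.Agent.RR Fermat.Agent.Nod

section W

variable {K : Type*} [Field K] [IsAlgClosed K] [CharZero K] {q M : ℕ} [hq : Fact q.Prime]
  [NeZero M] (hco : q.Coprime M)

theorem pp_dvd' : ((pp q : ℕ+) : ℕ) ∣ q * M := dvd_mul_right q M

variable (K q M) in
/-- `Δ(q^p)/Δ(q)` -/
def rF : FF K (q * M) := ⟨rm K (pp q), rm_mem (natCast_ne_zero_K K (q * M)) _ pp_dvd'⟩

theorem rF_ne_zero : rF K q M ≠ 0 := fun h => rm_ne_zero (k := K) (pp q) (congrArg Subtype.val h)

theorem w_rF : w K hco (rF K q M) = algebraMap K _ (((q : K) ^ 12)⁻¹) * (rF K q M)⁻¹ := by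
  have hqK : (q : K) ≠ 0 := Nat.cast_ne_zero.2 hq.out.ne_zero
  have hq12 : ((q : K) ^ 12) ≠ 0 := pow_ne_zero _ hqK
  haveI : NeZero q := ⟨hq.out.ne_zero⟩
  obtain ⟨D⟩ := exists_data (k := K) q
  have h11 : ((pp q * 1 : ℕ+) : ℕ) ∣ q * M := by
    rw [mul_one]; exact pp_dvd'
  obtain ⟨j, hj⟩ : ∃ j : FF K (q * M), j = jm K 1 (one_dvd _) := ⟨_, rfl⟩
  obtain ⟨jq, hjq⟩ : ∃ jq : FF K (q * M), jq = jm K (pp q * 1) h11 := ⟨_, rfl⟩
  have hcj : (j : LaurentSeries K) = Jc 1 1 := by rw [hj]; rfl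
  have hcjq : (jq : LaurentSeries K) = Jc 1 (pp q * 1) := by rw [hjq]; rfl
  have e1 : qe K q M (jF' K M) = jq := by
    apply Subtype.ext
    rw [coe_qe, hcjq, mul_one, Jc, ← qExpand_eq_Sb q (pp q) rfl]
    congr 1
    exact Jc_one_one
  have hwj : w K hco j = jq := by
    rw [← e1, ← w_jF hco, hj]
  have hwjq : w K hco jq = j := by rw [← hwj, w_w]
  -- the modular unit
  obtain ⟨W, hW⟩ : ∃ W : FF K (q * M), W = algebraMap K _ ((q : K) ^ 12) * rF K q M := ⟨_, rfl⟩
  have hcW : (W : LaurentSeries K) = Wm q K 1 := by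
    rw [hW, MulMemClass.coe_mul]
    change algebraMap K (LaurentSeries K) ((q : K) ^ 12) * rm K (pp q) = _
    rw [algebraMap_eq_C, Wm, rm, mul_one]
    ring
  have h1 : ev2 D.Q j jq = W * ev2 (dΦ q D) j jq := by
    apply Subtype.ext
    rw [MulMemClass.coe_mul, coe_ev2, coe_ev2, hcj, hcjq, hcW]
    exact rel_Q q D 1
  have h2 := congrArg (w K hco) h1
  rw [map_mul] at h2
  have m1 : w K hco (ev2 D.Q j jq) = ev2 D.Q jq j := by
    have := map_ev2 (w K hco).toAlgHom D.Q j jq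
    refine this.trans ?_
    change ev2 D.Q (w K hco j) (w K hco jq) = _
    rw [hwj, hwjq]
  have m2 : w K hco (ev2 (dΦ q D) j jq) = ev2 (dΦ q D) jq j := by
    have := map_ev2 (w K hco).toAlgHom (dΦ q D) j jq
    refine this.trans ?_
    change ev2 (dΦ q D) (w K hco j) (w K hco jq) = _
    rw [hwj, hwjq]
  rw [m1, m2] at h2
  have h3 := congrArg Subtype.val h2
  rw [MulMemClass.coe_mul, coe_ev2, coe_ev2, hcj, hcjq] at h3
  have h4 := ev2_Q q D 1 1 (some 0)
  have hne := ev2_dΦ_ne_zero q D hqK 1 1 (some 0)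
  have hJn : Jn q D.ζ 1 1 (some 0) = (Jc 1 1 : LaurentSeries K) := by
    simp only [Jn, ZMod.val_zero, pow_zero, mul_one]
  rw [hJn, one_pow] at h4 hne
  have h5 : (w K hco W : LaurentSeries K) = Un q D.ζ 1 1 (some 0) :=
    mul_right_cancel₀ hne (h3.symm.trans h4)
  have h6 : (w K hco W : LaurentSeries K) = ((rF K q M)⁻¹ : FF K (q * M)) := by
    rw [h5]
    change _ = (rm K (pp q))⁻¹
    rw [rm, mul_inv, inv_inv, mul_comm]
    simp only [Un, ZMod.val_zero, pow_zero, mul_one, one_pow]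
  have h7 : w K hco W = (rF K q M)⁻¹ := Subtype.ext h6
  rw [hW, map_mul, AlgEquiv.commutes] at h7
  rw [← h7, ← mul_assoc, ← map_mul, inv_mul_cancel₀ hq12, map_one, one_mul]

variable [FunField K (FF K (q * M))]

/-- the modular unit has no zeros or poles outside the cusps -/
theorem reg_rF : Reg K (jF' K (q * M)) (rF K q M) ∧ Reg K (jF' K (q * M)) (rF K q M)⁻¹ := by
  have h : ∀ v : Place K (FF K (q * M)), 0 ≤ v.ord (jF' K (q * M)) →
      Ge v 0 (rF K q M) ∧ Ge v 0 (rF K q M)⁻¹ := by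
    intro v hv
    let C' : Subalgebra K (FF K (q * M)) := {
      v.toValuationSubring.toSubring with
      algebraMap_mem' := v.algebraMap_mem' }
    have hmem : ∀ x : FF K (q * M), x ∈ C' ↔ 0 ≤ v.ord x := fun x => mem_iff_ord_nonneg v x
    have hC : ∀ w : FF K (q * M), IsIntegral C' w → w ∈ C' := by
      intro w hw
      obtain ⟨P, hP, h0⟩ := hw
      let φ : C' →+* v.toValuationSubring :=
        { toFun := fun x => ⟨x.1, x.2⟩
          map_one' := rfl
          map_mul' := fun _ _ => rfl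
          map_zero' := rfl
          map_add' := fun _ _ => rfl }
      have h1 : IsIntegral v.toValuationSubring w := ⟨P.map φ, hP.map φ, by
        rw [eval₂_map]
        exact h0⟩
      obtain ⟨y, hy⟩ := IsIntegrallyClosed.isIntegral_iff.1 h1
      rw [← hy]
      exact y.2
    obtain ⟨h1, h2⟩ := rm_mem_C C' hC ((hmem _).2 hv) (natCast_ne_zero_K K (q * M)) (pp q) pp_dvd'
    exact ⟨Ge.of_le ((hmem _).1 h1), Ge.of_le ((hmem _).1 h2)⟩
  exact ⟨fun v hv => (h v hv).1, fun v hv => (h v hv).2⟩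

end W

section Red

variable {A K k : Type*} [CommRing A] [IsDomain A] [ValuationRing A]
  [Field K] [Algebra A K] [IsFractionRing A K] [Field k] [Algebra A k]

theorem Dc_one_eq (L : Type*) [Field L] (m : ℕ+) [NeZero (m : ℕ)] :
    (Dc 1 m : LaurentSeries L) = qExpand L m (deltaC L) :=
  (qExpand_eq_Sb (m : ℕ) m rfl (deltaC L)).symm

theorem rd_Dc (m : ℕ+) : Rd A (Dc 1 m : LaurentSeries K) (Dc 1 m : LaurentSeries k) := by
  haveI : NeZero (m : ℕ) := ⟨m.ne_zero⟩
  refine Rd.of_lift (u := qExpand A m (deltaC A)) ?_ ?_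
  · rw [coeffMap_qExpand, coeffMap_deltaC, ← Dc_one_eq]
  · rw [coeffMap_qExpand, coeffMap_deltaC, ← Dc_one_eq]

theorem rd_rm (m : ℕ+) : Rd A (rm K m) (rm k m) :=
  (rd_Dc m).mul ((rd_Dc 1).inv (Dc_ne_zero _ _))

end Red

end Fermat.Agent.PRem
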