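import Fermat.Agent.PRem.Core
import Fermat.Agent.Nod.Kummer

/-!
# Discrete rational structures on nodal models
-/

set_option autoImplicit false
set_option linter.unusedSectionVars false
set_option linter.style.haveILetI false

namespace Fermat.Agent.PRem

open AlgebraicCurve Fermat.Agent.Curve Fermat.Agent.RR Fermat.Agent.Red Fermat.Agent.Nod Module
  Polynomial

variable {A K F k E₁ E₂ : Type*} [CommRing A] [IsDomain A] [ValuationRing A]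
  [Field K] [Algebra A K] [IsFractionRing A K] [Field F] [Algebra K F] [Algebra A F]
  [IsScalarTower A K F] [Field k] [Algebra A k] [Field E₁] [Field E₂] [Algebra k E₁]
  [Algebra k E₂] [Algebra A E₁] [Algebra A E₂] [IsScalarTower A k E₁] [IsScalarTower A k E₂]
  [IsAlgClosed K] [IsAlgClosed k] [CharZero K] [FunField K F] [FunField k E₁] [FunField k E₂]

variable {ι₀ : Type*} [Fintype ι₀] [Nonempty ι₀]

/-- A discrete rational structure. -/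
structure RatStr (G : GaussData A K F k (E₁ × E₂) ι₀) where
  /-- automorphisms whose fixed elements are the rational functions -/
  S : Set (SemilinearAut K F)
  /-- the uniformizer -/
  ϖ : A
  /-- the uniformizer at the second component, unit at the first one -/
  ψ : F
  /-- the uniformizer at the first component, unit at the second one -/
  ψ' : F
  ϖ0 : ϖ ≠ 0
  ϖk : algebraMap A k ϖ = 0
  prod : ψ' * ψ = algebraMap A F ϖ
  ψ_fix : ∀ θ ∈ S, θ • ψ = ψ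
  ψ'_fix : ∀ θ ∈ S, θ • ψ' = ψ'
  t_fix : ∀ θ ∈ S, θ • G.t = G.t
  hψ : ψ ∈ G.W
  hψ' : ψ' ∈ G.W
  πψ : G.π ⟨ψ, hψ⟩ = (1, 0)
  πψ' : G.π ⟨ψ', hψ'⟩ = (0, 1)
  res : ∀ c : k, ∃ a : A, (∀ θ ∈ S, θ • algebraMap A F a = algebraMap A F a) ∧
    algebraMap A k a = c
  val : ∀ x : F, x ≠ 0 → (∀ θ ∈ S, θ • x = x) → ∃ a b : ℤ, ∃ u : F, ∃ hu : u ∈ G.W,
    (G.π ⟨u, hu⟩).1 ≠ 0 ∧ (G.π ⟨u, hu⟩).2 ≠ 0 ∧ x = ψ' ^ a * ψ ^ b * u
  desc : ∀ V : Submodule K F, FiniteDimensional K V → (∀ θ ∈ S, ∀ x ∈ V, θ • x ∈ V) →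
    V ≤ Submodule.span K {x | x ∈ V ∧ ∀ θ ∈ S, θ • x = x}
  rank : ∀ c : A, c ≠ 0 → ∃ n : ℕ, c ∣ ϖ ^ n

section L

variable {K F : Type*} [Field K] [IsAlgClosed K] [Field F] [Algebra K F] [FunField K F]

theorem smul_mem_L (θ : SemilinearAut K F) {E : Divisor K F} {x : F}
    (hx : x ∈ riemannRochSpace E) : θ • x ∈ riemannRochSpace (θ • E) := by
  rw [mem_L] at hx ⊢
  intro v
  rw [SemilinearAut.divisor_smul_apply]
  rcases hx (θ⁻¹ • v) with h | h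
  · left; rw [h, smul_zero]
  · right
    have := SemilinearAut.ord_smul θ (θ⁻¹ • v) x
    rw [smul_inv_smul] at this
    rw [this]
    exact h

theorem smul_divisor (θ : SemilinearAut K F) (f : F) :
    θ • divisor K f = divisor K (θ • f) := by
  ext v
  rw [SemilinearAut.divisor_smul_apply, divisor_apply, divisor_apply]
  have := SemilinearAut.ord_smul θ (θ⁻¹ • v) f
  rw [smul_inv_smul] at this
  exact this.symm

theorem smul_DD (θ : SemilinearAut K F) {t : F} (ht : θ • t = t) (a b : ℕ) :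
    θ • DD K t a b = DD K t a b := by
  ext v
  rw [SemilinearAut.divisor_smul_apply, DD_apply, DD_apply]
  have := SemilinearAut.ord_smul θ (θ⁻¹ • v) t
  rw [smul_inv_smul, ht] at this
  rw [this]

end L

namespace RatStr

variable {G : GaussData A K F k (E₁ × E₂) ι₀} (Q : RatStr G)

/-- the field of rational functions -/
def fld : Subfield F where
  carrier := {x | ∀ θ ∈ Q.S, θ • x = x}
  mul_mem' := fun {a b} ha hb θ hθ => by rw [smul_mul', ha θ hθ, hb θ hθ]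
  one_mem' := fun θ _ => smul_one θ
  add_mem' := fun {a b} ha hb θ hθ => by rw [smul_add, ha θ hθ, hb θ hθ]
  zero_mem' := fun θ _ => smul_zero θ
  neg_mem' := fun {a} ha θ hθ => by rw [smul_neg, ha θ hθ]
  inv_mem' := fun a ha θ hθ => by rw [smul_inv'', ha θ hθ]

theorem mem_fld {x : F} : x ∈ Q.fld ↔ ∀ θ ∈ Q.S, θ • x = x := Iff.rfl

theorem ψ_mem : Q.ψ ∈ Q.fld := Q.ψ_fix
theorem ψ'_mem : Q.ψ' ∈ Q.fld := Q.ψ'_fix
theorem t_mem : G.t ∈ Q.fld := Q.t_fix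
theorem ϖ_mem : algebraMap A F Q.ϖ ∈ Q.fld := by
  rw [← Q.prod]; exact mul_mem Q.ψ'_mem Q.ψ_mem

theorem ϖF0 : algebraMap A F Q.ϖ ≠ 0 := by
  rw [IsScalarTower.algebraMap_apply A K F]
  exact (map_ne_zero_iff _ (algebraMap K F).injective).2
    ((map_ne_zero_iff _ (IsFractionRing.injective A K)).2 Q.ϖ0)

theorem ψ0 : Q.ψ ≠ 0 := right_ne_zero_of_mul (Q.prod ▸ Q.ϖF0)
theorem ψ'0 : Q.ψ' ≠ 0 := left_ne_zero_of_mul (Q.prod ▸ Q.ϖF0)

theorem inv_mem_W {u : F} (hu : u ∈ G.W) (h1 : (G.π ⟨u, hu⟩).1 ≠ 0) (h2 : (G.π ⟨u, hu⟩).2 ≠ 0) :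
    ∃ h : u⁻¹ ∈ G.W, G.π ⟨u⁻¹, h⟩ = pinv (G.π ⟨u, hu⟩) := by
  obtain ⟨v, hv⟩ := G.isUnit_of ⟨u, hu⟩ (Prod.isUnit_iff.2 ⟨h1.isUnit, h2.isUnit⟩)
  have h3 : u * ((v⁻¹ : G.Wˣ) : G.W) = 1 := by
    have := congrArg Subtype.val v.mul_inv
    rw [hv] at this
    exact this
  have h4 : u⁻¹ = ((v⁻¹ : G.Wˣ) : G.W) := inv_eq_of_mul_eq_one_right h3
  have h5 : u⁻¹ ∈ G.W := h4 ▸ Subtype.prop _
  refine ⟨h5, ?_⟩
  have h6 : G.π ⟨u, hu⟩ * G.π ⟨u⁻¹, h5⟩ = 1 := by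
    rw [← map_mul, ← map_one G.π]
    congr 1
    apply Subtype.ext
    change u * u⁻¹ = 1
    apply mul_inv_cancel₀
    rintro rfl
    apply h1
    have : (⟨0, hu⟩ : G.W) = 0 := rfl
    rw [this, map_zero]
    rfl
  have h7 := pinv_mul h1 h2
  calc G.π ⟨u⁻¹, h5⟩ = pinv (G.π ⟨u, hu⟩) * G.π ⟨u, hu⟩ * G.π ⟨u⁻¹, h5⟩ := by rw [h7, one_mul]
    _ = _ := by rw [mul_assoc, h6, mul_one]

theorem zpow_mem_W_of {x : F} (h : ∃ a b : ℕ, x = Q.ψ' ^ a * Q.ψ ^ b) : x ∈ G.W := by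
  obtain ⟨a, b, rfl⟩ := h
  exact mul_mem (pow_mem Q.hψ' a) (pow_mem Q.hψ b)

theorem nonneg_fst {a b : ℤ} {u : F} (hu : u ∈ G.W) (h1 : (G.π ⟨u, hu⟩).1 ≠ 0)
    (h2 : (G.π ⟨u, hu⟩).2 ≠ 0) (h : Q.ψ' ^ a * Q.ψ ^ b * u ∈ G.W) : 0 ≤ a := by
  by_contra ha
  push Not at ha
  obtain ⟨hu', -⟩ := inv_mem_W hu h1 h2
  have hu0 : u ≠ 0 := by
    rintro rfl
    apply h1
    have : (⟨0, hu⟩ : G.W) = 0 := rfl
    rw [this, map_zero]; rfl
  obtain ⟨c, hc⟩ : ∃ c : ℕ, a = -(c + 1 : ℕ) := ⟨(-a - 1).toNat, by omega⟩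
  obtain ⟨m, hm⟩ : ∃ m : ℕ, b + (-b).toNat = m := ⟨b.toNat, by omega⟩
  have h3 : Q.ψ'⁻¹ * Q.ψ ^ m ∈ G.W := by
    have h4 := mul_mem (mul_mem (mul_mem (pow_mem Q.hψ' c) (pow_mem Q.hψ (-b).toNat)) h) hu'
    have e : Q.ψ' ^ c * Q.ψ ^ (-b).toNat * (Q.ψ' ^ a * Q.ψ ^ b * u) * u⁻¹ =
        Q.ψ'⁻¹ * Q.ψ ^ m := by
      have e1 : Q.ψ' ^ c * Q.ψ' ^ a = Q.ψ'⁻¹ := by
        rw [hc, ← zpow_natCast, ← zpow_add₀ Q.ψ'0, ← zpow_neg_one]
        congr 1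
        push_cast
        ring
      have e2 : Q.ψ ^ (-b).toNat * Q.ψ ^ b = Q.ψ ^ m := by
        rw [← zpow_natCast, ← zpow_natCast, ← zpow_add₀ Q.ψ0, ← hm]
        congr 1
        ring
      calc _ = (Q.ψ' ^ c * Q.ψ' ^ a) * (Q.ψ ^ (-b).toNat * Q.ψ ^ b) * (u * u⁻¹) := by ring
        _ = _ := by rw [e1, e2, mul_inv_cancel₀ hu0, mul_one]
    rwa [e] at h4
  have h5 : (⟨Q.ψ, Q.hψ⟩ : G.W) ^ m = ⟨Q.ψ', Q.hψ'⟩ * ⟨_, h3⟩ := by
    apply Subtype.ext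
    change Q.ψ ^ m = Q.ψ' * (Q.ψ'⁻¹ * Q.ψ ^ m)
    rw [mul_inv_cancel_left₀ Q.ψ'0]
  have h6 := congrArg (fun x => (G.π x).1) h5
  simp only [map_pow, map_mul, Q.πψ, Q.πψ', Prod.pow_fst, Prod.fst_mul, one_pow, zero_mul] at h6
  exact one_ne_zero h6

theorem nonneg_snd {a b : ℤ} {u : F} (hu : u ∈ G.W) (h1 : (G.π ⟨u, hu⟩).1 ≠ 0)
    (h2 : (G.π ⟨u, hu⟩).2 ≠ 0) (h : Q.ψ' ^ a * Q.ψ ^ b * u ∈ G.W) : 0 ≤ b := by
  by_contra hb
  push Not at hb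
  obtain ⟨hu', -⟩ := inv_mem_W hu h1 h2
  have hu0 : u ≠ 0 := by
    rintro rfl
    apply h1
    have : (⟨0, hu⟩ : G.W) = 0 := rfl
    rw [this, map_zero]; rfl
  obtain ⟨c, hc⟩ : ∃ c : ℕ, b = -(c + 1 : ℕ) := ⟨(-b - 1).toNat, by omega⟩
  obtain ⟨m, hm⟩ : ∃ m : ℕ, a + (-a).toNat = m := ⟨a.toNat, by omega⟩
  have h3 : Q.ψ⁻¹ * Q.ψ' ^ m ∈ G.W := by
    have h4 := mul_mem (mul_mem (mul_mem (pow_mem Q.hψ c) (pow_mem Q.hψ' (-a).toNat)) h) hu'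
    have e : Q.ψ ^ c * Q.ψ' ^ (-a).toNat * (Q.ψ' ^ a * Q.ψ ^ b * u) * u⁻¹ =
        Q.ψ⁻¹ * Q.ψ' ^ m := by
      have e1 : Q.ψ ^ c * Q.ψ ^ b = Q.ψ⁻¹ := by
        rw [hc, ← zpow_natCast, ← zpow_add₀ Q.ψ0, ← zpow_neg_one]
        congr 1
        push_cast
        ring
      have e2 : Q.ψ' ^ (-a).toNat * Q.ψ' ^ a = Q.ψ' ^ m := by
        rw [← zpow_natCast, ← zpow_natCast, ← zpow_add₀ Q.ψ'0, ← hm]
        congr 1
        ring
      calc _ = (Q.ψ ^ c * Q.ψ ^ b) * (Q.ψ' ^ (-a).toNat * Q.ψ' ^ a) * (u * u⁻¹) := by ring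
        _ = _ := by rw [e1, e2, mul_inv_cancel₀ hu0, mul_one]
    rwa [e] at h4
  have h5 : (⟨Q.ψ', Q.hψ'⟩ : G.W) ^ m = ⟨Q.ψ, Q.hψ⟩ * ⟨_, h3⟩ := by
    apply Subtype.ext
    change Q.ψ' ^ m = Q.ψ * (Q.ψ⁻¹ * Q.ψ' ^ m)
    rw [mul_inv_cancel_left₀ Q.ψ0]
  have h6 := congrArg (fun x => (G.π x).2) h5
  simp only [map_pow, map_mul, Q.πψ, Q.πψ', Prod.pow_snd, Prod.snd_mul, one_pow, zero_mul] at h6
  exact one_ne_zero h6

/-- elements of `W` in normal form -/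
theorem exists_normal {x : F} (hx0 : x ≠ 0) (hxF : x ∈ Q.fld) (hx : x ∈ G.W) :
    ∃ a b : ℕ, ∃ u : F, ∃ hu : u ∈ G.W, (G.π ⟨u, hu⟩).1 ≠ 0 ∧ (G.π ⟨u, hu⟩).2 ≠ 0 ∧
      x = Q.ψ' ^ a * Q.ψ ^ b * u ∧ G.π ⟨x, hx⟩ = (0, 1) ^ a * (1, 0) ^ b * G.π ⟨u, hu⟩ := by
  obtain ⟨a, b, u, hu, h1, h2, rfl⟩ := Q.val x hx0 hxF
  have ha := Q.nonneg_fst hu h1 h2 hx
  have hb := Q.nonneg_snd hu h1 h2 hx
  obtain ⟨a', rfl⟩ := Int.eq_ofNat_of_zero_le ha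
  obtain ⟨b', rfl⟩ := Int.eq_ofNat_of_zero_le hb
  refine ⟨a', b', u, hu, h1, h2, by rw [zpow_natCast, zpow_natCast], ?_⟩
  have e : (⟨_, hx⟩ : G.W) = ⟨Q.ψ', Q.hψ'⟩ ^ a' * ⟨Q.ψ, Q.hψ⟩ ^ b' * ⟨u, hu⟩ := by
    apply Subtype.ext
    change Q.ψ' ^ (a' : ℤ) * Q.ψ ^ (b' : ℤ) * u = Q.ψ' ^ a' * Q.ψ ^ b' * u
    rw [zpow_natCast, zpow_natCast]
  rw [e, map_mul, map_mul, map_pow, map_pow, Q.πψ, Q.πψ']

/-- discreteness at the first component -/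
theorem disc_fst {x : F} (hxF : x ∈ Q.fld) (hx : x ∈ G.W) (h : (G.π ⟨x, hx⟩).1 = 0) :
    ∃ y ∈ Q.fld, ∃ _ : y ∈ G.W, x = Q.ψ' * y := by
  rcases eq_or_ne x 0 with rfl | hx0
  · exact ⟨0, zero_mem _, zero_mem _, by rw [mul_zero]⟩
  obtain ⟨a, b, u, hu, h1, h2, hxe, hπ⟩ := Q.exists_normal hx0 hxF hx
  rcases Nat.eq_zero_or_pos a with rfl | ha
  · rw [hπ] at h
    simp only [pow_zero, one_mul, Prod.fst_mul, Prod.pow_fst, one_pow] at h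
    exact absurd h h1
  obtain ⟨a, rfl⟩ : ∃ a', a = a' + 1 := ⟨a - 1, by omega⟩
  have e : x = Q.ψ' * (Q.ψ' ^ a * Q.ψ ^ b * u) := by rw [hxe]; ring
  refine ⟨_, ?_, mul_mem (mul_mem (pow_mem Q.hψ' a) (pow_mem Q.hψ b)) hu, e⟩
  have e2 : Q.ψ' ^ a * Q.ψ ^ b * u = Q.ψ'⁻¹ * x := by
    rw [e, inv_mul_cancel_left₀ Q.ψ'0]
  rw [e2]
  exact mul_mem (inv_mem Q.ψ'_mem) hxF

/-- discreteness at the second component -/
theorem disc_snd {x : F} (hxF : x ∈ Q.fld) (hx : x ∈ G.W) (h : (G.π ⟨x, hx⟩).2 = 0) :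
    ∃ y ∈ Q.fld, ∃ _ : y ∈ G.W, x = Q.ψ * y := by
  rcases eq_or_ne x 0 with rfl | hx0
  · exact ⟨0, zero_mem _, zero_mem _, by rw [mul_zero]⟩
  obtain ⟨a, b, u, hu, h1, h2, hxe, hπ⟩ := Q.exists_normal hx0 hxF hx
  rcases Nat.eq_zero_or_pos b with rfl | ha
  · rw [hπ] at h
    simp only [pow_zero, mul_one, Prod.snd_mul, Prod.pow_snd, one_pow, one_mul] at h
    exact absurd h h2
  obtain ⟨b, rfl⟩ : ∃ b', b = b' + 1 := ⟨b - 1, by omega⟩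
  have e : x = Q.ψ * (Q.ψ' ^ a * Q.ψ ^ b * u) := by rw [hxe]; ring
  refine ⟨_, ?_, mul_mem (mul_mem (pow_mem Q.hψ' a) (pow_mem Q.hψ b)) hu, e⟩
  have e2 : Q.ψ' ^ a * Q.ψ ^ b * u = Q.ψ⁻¹ * x := by
    rw [e, inv_mul_cancel_left₀ Q.ψ0]
  rw [e2]
  exact mul_mem (inv_mem Q.ψ_mem) hxF

/-- discreteness -/
theorem disc {x : F} (hxF : x ∈ Q.fld) (hx : x ∈ G.W) (h : G.π ⟨x, hx⟩ = 0) :
    ∃ y ∈ Q.fld, y ∈ G.W ∧ x = Q.ϖ • y := by
  obtain ⟨y, hyF, hy, rfl⟩ := Q.disc_fst hxF hx (by rw [h]; rfl)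
  have h1 : (G.π ⟨y, hy⟩).2 = 0 := by
    have e : (⟨_, hx⟩ : G.W) = ⟨Q.ψ', Q.hψ'⟩ * ⟨y, hy⟩ := rfl
    rw [e, map_mul, Q.πψ'] at h
    have := congrArg Prod.snd h
    simpa using this
  obtain ⟨z, hzF, hz, rfl⟩ := Q.disc_snd hyF hy h1
  refine ⟨z, hzF, hz, ?_⟩
  rw [Algebra.smul_def, ← Q.prod, mul_assoc]

theorem bdd {x : F} (hxF : x ∈ Q.fld) : ∃ n : ℕ, Q.ϖ ^ n • x ∈ G.W := by
  rcases eq_or_ne x 0 with rfl | hx0
  · exact ⟨0, by rw [smul_zero]; exact zero_mem _⟩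
  obtain ⟨a, b, u, hu, h1, h2, rfl⟩ := Q.val x hx0 hxF
  obtain ⟨n, hna, hnb⟩ : ∃ n : ℕ, 0 ≤ a + n ∧ 0 ≤ b + n := ⟨(-a).toNat + (-b).toNat, by omega,
    by omega⟩
  refine ⟨n, ?_⟩
  obtain ⟨a', ha'⟩ := Int.eq_ofNat_of_zero_le hna
  obtain ⟨b', hb'⟩ := Int.eq_ofNat_of_zero_le hnb
  have e : Q.ϖ ^ n • (Q.ψ' ^ a * Q.ψ ^ b * u) = Q.ψ' ^ a' * Q.ψ ^ b' * u := by
    rw [Algebra.smul_def, map_pow, ← Q.prod, mul_pow, ← zpow_natCast Q.ψ' a',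
      ← zpow_natCast Q.ψ b', ← ha', ← hb', zpow_add₀ Q.ψ'0, zpow_add₀ Q.ψ0, zpow_natCast,
      zpow_natCast]
    ring
  rw [e]
  exact mul_mem (mul_mem (pow_mem Q.hψ' _) (pow_mem Q.hψ _)) hu

variable (hk : Function.Surjective (algebraMap A k))
  (hspan : ∀ x : F, ∃ q : K[X], q ≠ 0 ∧ ∃ P : ι₀ → K[X], aeval G.t q * x = G.comb P)

/-- the core rational structure -/
theorem core : RatCore (G.toRedModel hk hspan) Q.fld Q.ϖ where
  ϖ0 := Q.ϖ0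
  ϖk := Q.ϖk
  ϖF := Q.ϖ_mem
  res := fun c => by
    obtain ⟨a, ha, h⟩ := Q.res c
    exact ⟨a, ha, h⟩
  disc := fun _ hx hW h => Q.disc hx hW h
  bdd := fun _ hx => Q.bdd hx
  rank := Q.rank

/-- rational divisors -/
def IsRat (E : Divisor K F) : Prop := ∀ θ ∈ Q.S, θ • E = E

variable {Q}

theorem IsRat.add {E E' : Divisor K F} (h : Q.IsRat E) (h' : Q.IsRat E') : Q.IsRat (E + E') :=
  fun θ hθ => by rw [smul_add, h θ hθ, h' θ hθ]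

theorem IsRat.neg {E : Divisor K F} (h : Q.IsRat E) : Q.IsRat (-E) :=
  fun θ hθ => by rw [smul_neg, h θ hθ]

theorem IsRat.sub {E E' : Divisor K F} (h : Q.IsRat E) (h' : Q.IsRat E') : Q.IsRat (E - E') :=
  fun θ hθ => by rw [smul_sub, h θ hθ, h' θ hθ]

theorem smul_zsmul' (θ : SemilinearAut K F) (i : ℤ) (E : Divisor K F) :
    θ • (i • E) = i • (θ • E) := by
  ext v
  rw [SemilinearAut.divisor_smul_apply, Finsupp.smul_apply, Finsupp.smul_apply,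
    SemilinearAut.divisor_smul_apply]

theorem IsRat.zsmul {E : Divisor K F} (h : Q.IsRat E) (i : ℤ) : Q.IsRat (i • E) :=
  fun θ hθ => by rw [smul_zsmul', h θ hθ]

theorem isRat_zero : Q.IsRat (0 : Divisor K F) := fun θ _ => smul_zero θ

theorem isRat_DD (a b : ℕ) : Q.IsRat (DD K G.t a b) := fun θ hθ => smul_DD θ (Q.t_fix θ hθ) a b

theorem isRat_divisor {f : F} (hf : f ∈ Q.fld) : Q.IsRat (divisor K f) :=
  fun θ hθ => by rw [smul_divisor, hf θ hθ]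

theorem isRat_of_mul {f : F} (hf : f ∈ Q.fld) {m : ℕ} (hm : m ≠ 0) {D : Divisor K F}
    (hD : ∀ v, (m : ℤ) * D v = v.ord f) : Q.IsRat D := by
  intro θ hθ
  ext v
  have h1 := isRat_divisor hf θ hθ
  have h2 := congrArg (fun E : Divisor K F => E v) h1
  simp only [SemilinearAut.divisor_smul_apply, divisor_apply] at h2
  rw [← hD, ← hD] at h2
  rw [SemilinearAut.divisor_smul_apply]
  exact mul_left_cancel₀ (by exact_mod_cast hm) h2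

theorem IsRat.span {E : Divisor K F} (h : Q.IsRat E) :
    riemannRochSpace E ≤ Submodule.span K {x | x ∈ riemannRochSpace E ∧ x ∈ Q.fld} := by
  apply Q.desc _ inferInstance
  intro θ hθ x hx
  have := smul_mem_L θ hx
  rwa [h θ hθ] at this

include hk hspan in
/-- rational lifts in Riemann-Roch spaces -/
theorem IsRat.exists_lift {E : Divisor K F} (h : Q.IsRat E) {x : F} (hx : x ∈ G.W)
    (hxE : x ∈ riemannRochSpace E) :
    ∃ y : F, ∃ hy : y ∈ G.W, y ∈ Q.fld ∧ y ∈ riemannRochSpace E ∧ G.π ⟨y, hy⟩ = G.π ⟨x, hx⟩ :=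
  (Q.core hk hspan).exists_lift hk (riemannRochSpace E) h.span hx hxE

end RatStr

section Poly

variable {k E : Type*} [Field k] [IsAlgClosed k] [Field E] [Algebra k E] [FunField k E]

theorem reg_aeval (t : E) (q : k[X]) : Reg k t (aeval t q) := by
  intro v hv
  exact ge_aeval v (Ge.of_le hv) q
where
  ge_aeval (v : Place k E) {t : E} (ht : Ge v 0 t) (q : k[X]) : Ge v 0 (aeval t q) := by
    induction q using Polynomial.induction_on' with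
    | add p q hp hq => rw [map_add]; exact hp.add hq
    | monomial n a =>
      rw [aeval_monomial]
      have := (Ge.algebraMap v a).mul (ge_zero_pow ht n)
      simpa using this

/-- a multiple by a polynomial in `t` is regular away from the poles of `t` -/
theorem exists_poly_reg {t : E} (r : E) : ∃ q : k[X], q ≠ 0 ∧ Reg k t (aeval t q * r) := by
  classical
  rcases eq_or_ne r 0 with rfl | hr
  · exact ⟨1, one_ne_zero, by rw [mul_zero]; exact fun v _ => Ge.zero v 0⟩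
  have hfin := finite_ord (K := k) hr
  refine ⟨∏ v ∈ hfin.toFinset, (X - C (val v t)) ^ (-v.ord r).toNat, ?_, ?_⟩
  · exact Finset.prod_ne_zero_iff.2 fun v _ => pow_ne_zero _ (X_sub_C_ne_zero _)
  · intro v hv
    by_cases hv0 : 0 ≤ v.ord r
    · have := (reg_aeval t (∏ v ∈ hfin.toFinset, (X - C (val v t)) ^ (-v.ord r).toNat) v hv).mul
        (Ge.of_le hv0)
      simpa using this
    · push Not at hv0
      have hmem : v ∈ hfin.toFinset := by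
        rw [Set.Finite.mem_toFinset]; exact hv0.ne
      rw [← Finset.mul_prod_erase _ _ hmem, map_mul, mul_right_comm]
      have h1 : Ge v (-v.ord r) (aeval t ((X - C (val v t)) ^ (-v.ord r).toNat : k[X])) := by
        rw [map_pow, map_sub, aeval_X, aeval_C]
        have h2 := (val_spec (Ge.of_le hv : Ge v 0 t)).pow (-v.ord r).toNat
        rw [mul_one, Int.toNat_of_nonneg (by omega)] at h2
        exact h2
      have h3 := (h1.mul (Ge.of_le (le_refl (v.ord r)))).mul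
        (reg_aeval t (∏ x ∈ hfin.toFinset.erase v, (X - C (val x t)) ^ (-x.ord r).toNat) v hv)
      simpa using h3

end Poly

namespace RatStr

variable {G : GaussData A K F k (E₁ × E₂) ι₀} (Q : RatStr G)
  {hk : Function.Surjective (algebraMap A k)}
  {hspan : ∀ x : F, ∃ q : K[X], q ≠ 0 ∧ ∃ P : ι₀ → K[X], aeval G.t q * x = G.comb P}
  {ι : Type*} [Finite ι] {𝒩 : Nodes k E₁ E₂ ι} (H : NodMod G hk hspan 𝒩)

include H in
/-- every pair is the reduction of a rational function -/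
theorem exists_rat_lift (r : E₁ × E₂) : ∃ y : F, ∃ hy : y ∈ G.W, y ∈ Q.fld ∧ G.π ⟨y, hy⟩ = r := by
  classical
  obtain ⟨n₀, hn₀⟩ := H.eq
  obtain ⟨q₁, hq₁, hr₁⟩ := exists_poly_reg (k := k) (t := (tb G).1) r.1
  obtain ⟨q₂, hq₂, hr₂⟩ := exists_poly_reg (k := k) (t := (tb G).2) r.2
  haveI : Fintype (Nd G hk 𝒩) := Fintype.ofFinite _
  obtain ⟨q₀, hq₀⟩ : ∃ q₀ : k[X], q₀ = ∏ j : Nd G hk 𝒩, (X - C (Nod.val (𝒩.v j) (tb G).1)) :=
    ⟨_, rfl⟩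
  have hq₀0 : q₀ ≠ 0 := by
    rw [hq₀]
    exact Finset.prod_ne_zero_iff.2 fun v _ => X_sub_C_ne_zero _
  obtain ⟨q, hq⟩ : ∃ q : k[X], q = q₁ * q₂ * q₀ := ⟨_, rfl⟩
  have hq0 : q ≠ 0 := by rw [hq]; exact mul_ne_zero (mul_ne_zero hq₁ hq₂) hq₀0
  -- regularity
  have hreg1 : Reg k (tb G).1 (aeval (tb G).1 q * r.1) := by
    have e : aeval (tb G).1 q * r.1 = aeval (tb G).1 (q₂ * q₀) * (aeval (tb G).1 q₁ * r.1) := by
      rw [hq]; simp only [map_mul]; ring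
    rw [e]
    exact (reg_aeval _ _).mul hr₁
  have hreg2 : Reg k (tb G).2 (aeval (tb G).2 q * r.2) := by
    have e : aeval (tb G).2 q * r.2 = aeval (tb G).2 (q₁ * q₀) * (aeval (tb G).2 q₂ * r.2) := by
      rw [hq]; simp only [map_mul]; ring
    rw [e]
    exact (reg_aeval _ _).mul hr₂
  -- vanishing at the nodes
  have hv1 : ∀ j : Nd G hk 𝒩, Ge (𝒩.v j) 1 (aeval (tb G).1 q * r.1) := by
    intro j
    have h0 : (0 : ℤ) ≤ (𝒩.v j).ord (tb G).1 := (H.hv j).ge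
    have h1 : Ge (𝒩.v j) 1 ((tb G).1 - algebraMap k E₁ (Nod.val (𝒩.v j) (tb G).1)) :=
      val_spec (Ge.of_le h0)
    have e : aeval (tb G).1 q * r.1 = ((tb G).1 - algebraMap k E₁ (Nod.val (𝒩.v j) (tb G).1)) *
        (aeval (tb G).1 (q₂ * ∏ i ∈ Finset.univ.erase j, (X - C (Nod.val (𝒩.v i) (tb G).1))) *
        (aeval (tb G).1 q₁ * r.1)) := by
      rw [hq, hq₀, ← Finset.mul_prod_erase _ _ (Finset.mem_univ j)]
      simp only [map_mul, map_sub, aeval_X, aeval_C]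
      ring
    rw [e]
    exact (h1.mul (((reg_aeval (k := k) (tb G).1 _).mul hr₁) _ h0)).mono (by norm_num)
  have hv2 : ∀ j : Nd G hk 𝒩, Ge (𝒩.w j) 1 (aeval (tb G).2 q * r.2) := by
    intro j
    have h0 : (0 : ℤ) ≤ (𝒩.w j).ord (tb G).2 := (H.hw j).ge
    have h1 : Ge (𝒩.w j) 1 ((tb G).2 - algebraMap k E₂ (Nod.val (𝒩.v j) (tb G).1)) := by
      rw [val_tb_eq j.2]
      exact val_spec (Ge.of_le h0)
    have e : aeval (tb G).2 q * r.2 = ((tb G).2 - algebraMap k E₂ (Nod.val (𝒩.v j) (tb G).1)) *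
        (aeval (tb G).2 (q₁ * ∏ i ∈ Finset.univ.erase j, (X - C (Nod.val (𝒩.v i) (tb G).1))) *
        (aeval (tb G).2 q₂ * r.2)) := by
      rw [hq, hq₀, ← Finset.mul_prod_erase _ _ (Finset.mem_univ j)]
      simp only [map_mul, map_sub, aeval_X, aeval_C]
      ring
    rw [e]
    exact (h1.mul (((reg_aeval (k := k) (tb G).2 _).mul hr₂) _ h0)).mono (by norm_num)
  obtain ⟨a₁, ha₁⟩ := exists_mem_DD (transcendental_tb_fst G) hreg1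
  obtain ⟨a₂, ha₂⟩ := exists_mem_DD (transcendental_tb_snd G) hreg2
  obtain ⟨a, h1a, h2a, h3a⟩ : ∃ a : ℕ, a₁ ≤ a ∧ a₂ ≤ a ∧ n₀ ≤ a := ⟨a₁ + a₂ + n₀, by omega,
    by omega, by omega⟩
  have hGS : aeval (tb G) q * r ∈ GS G hk 𝒩 a 0 := by
    refine (mem_GG _).2 ⟨fun j => ⟨?_, ?_, ?_⟩, ?_, ?_⟩
    · change Ge (𝒩.v j) 0 ((aeval (tb G) q).1 * r.1)
      rw [aeval_fst]
      exact (hv1 j).mono (by norm_num)
    · change Ge (𝒩.w j) 0 ((aeval (tb G) q).2 * r.2)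
      rw [aeval_snd]
      exact (hv2 j).mono (by norm_num)
    · change Nod.val (𝒩.v j) ((aeval (tb G) q).1 * r.1) =
        1 * Nod.val (𝒩.w j) ((aeval (tb G) q).2 * r.2)
      rw [aeval_fst, aeval_snd, val_of_pos (hv1 j), val_of_pos (hv2 j), mul_zero]
    · change (aeval (tb G) q).1 * r.1 ∈ _
      rw [aeval_fst]
      exact L_mono (DD_mono _ h1a le_rfl) ha₁
    · change (aeval (tb G) q).2 * r.2 ∈ _
      rw [aeval_snd]
      exact L_mono (DD_mono _ h2a le_rfl) ha₂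
  rw [← hn₀ a 0 (by omega), mem_RS] at hGS
  obtain ⟨x, hx, hxL, hπx⟩ := hGS
  obtain ⟨y, hy, hyF, -, hπy⟩ := IsRat.exists_lift hk hspan (Q := Q) (isRat_DD a 0) hx hxL
  -- lift the polynomial
  choose c hcF hc using Q.res
  let q' : A[X] := ∑ i ∈ q.support, C (c (q.coeff i)) * X ^ i
  have hq'k : q'.map (algebraMap A k) = q := by
    rw [Polynomial.map_sum]
    conv_rhs => rw [q.as_sum_support_C_mul_X_pow]
    refine Finset.sum_congr rfl fun i _ => ?_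
    rw [Polynomial.map_mul, map_C, hc, Polynomial.map_pow, map_X]
  have hz : ∃ z : G.W, z = aeval (⟨G.t, G.ht⟩ : G.W) q' := ⟨_, rfl⟩
  obtain ⟨z, hz⟩ := hz
  have hπz : G.π z = aeval (tb G) q := by
    rw [hz, G.π_aeval, hq'k]; rfl
  have hzF : (z : F) ∈ Q.fld := by
    have e : (z : F) = ∑ i ∈ q.support, algebraMap A F (c (q.coeff i)) * G.t ^ i := by
      rw [hz, G.coe_aeval]
      simp only [q', map_sum, map_mul, aeval_C, map_pow, aeval_X]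
    rw [e]
    exact sum_mem fun i _ => mul_mem (hcF _) (pow_mem Q.t_mem i)
  have hzu := G.isUnit_t q hq0
  have h1 : (G.π z).1 ≠ 0 := by
    rw [hπz]
    exact (hzu.map (RingHom.fst E₁ E₂)).ne_zero
  have h2 : (G.π z).2 ≠ 0 := by
    rw [hπz]
    exact (hzu.map (RingHom.snd E₁ E₂)).ne_zero
  obtain ⟨hz', hπz'⟩ := inv_mem_W z.2 h1 h2
  refine ⟨y * (z : F)⁻¹, mul_mem hy hz', mul_mem hyF (inv_mem hzF), ?_⟩
  have e : (⟨y * (z : F)⁻¹, mul_mem hy hz'⟩ : G.W) = ⟨y, hy⟩ * ⟨(z : F)⁻¹, hz'⟩ := rfl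
  rw [e, map_mul, hπy, hπx, hπz', ← hπz]
  have e2 : G.π ⟨(z : F), z.2⟩ = G.π z := rfl
  rw [e2, mul_comm, pinv_mul_cancel h1 h2]

end RatStr

end Fermat.Agent.PRem
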