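import Fermat.Agent.Nod.Wx
import Fermat.Agent.Kum.Final
import Fermat.Agent.PRem.Rat
import Fermat.Agent.Spec.Level
import Fermat.Agent.ThmC.Theta

/-!
# Kummer classes of modular functions, on the full function field
-/

set_option autoImplicit false
set_option linter.style.haveILetI false
set_option linter.unusedSectionVars false

noncomputable section

namespace Fermat.Agent.PRem

open ModularCurve AlgebraicCurve Polynomial IntermediateField Fermat.Agent.ModPoly Fermat.Agent.Red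
  Fermat.Agent.SemiSt Fermat.Agent.Kum Fermat.Agent.KumF Fermat.Agent.Nod
  Fermat.Agent.HeckeProd Fermat.Agent.HeckeHom Fermat.Agent.Cosets Fermat.Agent.RR

section Cast

variable {K L : Type*} [Field K] [Field L] [Algebra K L]

theorem kd_cast {E E' : IntermediateField K L} (h : E = E') (m : ℤ) {x : L} (hx : x ∈ E)
    (hx' : x ∈ E') : (∀ v : Place K E, m ∣ v.ord ⟨x, hx⟩) ↔ ∀ v : Place K E', m ∣ v.ord ⟨x, hx'⟩ := by
  subst h; rfl

theorem bd_cast {E E' : IntermediateField K L} (h : E = E') (n : ℤ) {x j : L} (hx : x ∈ E)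
    (hx' : x ∈ E') (hj : j ∈ E) (hj' : j ∈ E') :
    (∀ v : Place K E, n * min 0 (v.ord ⟨j, hj⟩) ≤ v.ord ⟨x, hx⟩) ↔
      ∀ v : Place K E', n * min 0 (v.ord ⟨j, hj'⟩) ≤ v.ord ⟨x, hx'⟩ := by
  subst h; rfl

end Cast

variable {K : Type*} [Field K] [Algebra ℚ K] [IsAlgClosed K] [CharZero K] (ι : K →+* ℂ)
  {N m : ℕ} [NeZero N] [NeZero m]

theorem FK_eq : FK K N = FF K N := X0Genus.baseChange_eq K N

theorem mem_FK_iff {x : LaurentSeries K} : x ∈ FK K N ↔ x ∈ FF K N := by rw [FK_eq]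

/-- the identification of the two function fields -/
def toK (x : FF K N) : FK K N := ⟨x.1, mem_FK_iff.2 x.2⟩

/-- the identification of the two function fields -/
def ofK (x : FK K N) : FF K N := ⟨x.1, mem_FK_iff.1 x.2⟩

theorem val_mk' {α : Type*} {P : α → Prop} (a : α) (h : P a) : (⟨a, h⟩ : Subtype P).val = a := rfl

theorem coe_toK (x : FF K N) : ((toK x : FK K N) : LaurentSeries K) = x := val_mk' _ _

theorem coe_ofK (x : FK K N) : ((ofK x : FF K N) : LaurentSeries K) = x := val_mk' _ _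

theorem coe_eq_zero_iff {E : IntermediateField K (LaurentSeries K)} {x : E} :
    (x : LaurentSeries K) = 0 ↔ x = 0 := by
  constructor
  · intro h
    exact Subtype.ext h
  · rintro rfl
    rfl

theorem toK_eq_zero {x : FF K N} : toK x = 0 ↔ x = 0 := by
  rw [← coe_eq_zero_iff, coe_toK, coe_eq_zero_iff]

theorem kd_toK {x : FF K N} {n : ℕ} : KD n (toK x) ↔ x ≠ 0 ∧
    ∀ v : Place K (FF K N), (n : ℤ) ∣ v.ord x :=
  and_congr (not_congr toK_eq_zero) (kd_cast FK_eq (n : ℤ) _ _)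

variable (m) in
/-- The Kummer class of the function `x` is `ξ`. -/
def HasCls (x : FF K N) (ξ : XL N m) : Prop :=
  ∃ Φ : LZ N, mkX Φ = ξ ∧ Rep N (coeffMap ι (x : LaurentSeries K)) (redI m Φ)

namespace HasCls

variable {ι} {x y : FF K N} {ξ η : XL N m}

theorem ne_zero (h : HasCls ι m x ξ) : x ≠ 0 := by
  rintro rfl
  obtain ⟨Φ, -, h⟩ := h
  exact h.ne_zero (map_zero _)

theorem mul (h : HasCls ι m x ξ) (h' : HasCls ι m y η) : HasCls ι m (x * y) (ξ + η) := by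
  obtain ⟨Φ, rfl, h⟩ := h
  obtain ⟨Ψ, rfl, h'⟩ := h'
  refine ⟨Φ + Ψ, map_add _ _ _, ?_⟩
  rw [redI_add, MulMemClass.coe_mul, map_mul]
  exact h.mul h'

theorem inv (h : HasCls ι m x ξ) : HasCls ι m x⁻¹ (-ξ) := by
  obtain ⟨Φ, rfl, h⟩ := h
  refine ⟨-Φ, map_neg _ _, ?_⟩
  have e : coeffMap ι ((x⁻¹ : FF K N) : LaurentSeries K) = (coeffMap ι (x : LaurentSeries K))⁻¹ := by
    rw [IntermediateField.coe_inv, map_inv₀]
  rw [redI_neg, e]
  exact h.inv

theorem pow (h : HasCls ι m x ξ) (n : ℕ) : HasCls ι m (x ^ n) (n • ξ) := by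
  obtain ⟨Φ, rfl, h⟩ := h
  refine ⟨n • Φ, map_nsmul _ _ _, ?_⟩
  rw [redI_nsmul, SubmonoidClass.coe_pow, map_pow]
  exact h.pow n

theorem zpow (h : HasCls ι m x ξ) (n : ℤ) : HasCls ι m (x ^ n) (n • ξ) := by
  obtain ⟨n, rfl | rfl⟩ := n.eq_nat_or_neg
  · rw [zpow_natCast, natCast_zsmul]
    exact h.pow n
  · rw [zpow_neg, zpow_natCast, neg_smul, natCast_zsmul]
    exact (h.pow n).inv

theorem div (h : HasCls ι m x ξ) (h' : HasCls ι m y η) : HasCls ι m (x * y⁻¹) (ξ - η) := by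
  rw [sub_eq_add_neg]
  exact h.mul h'.inv

variable (ι) in
theorem pow_self {z : FF K N} (hz : z ≠ 0) : HasCls ι m (z ^ m) 0 := by
  refine ⟨0, map_zero _, ?_⟩
  rw [redI_zero, SubmonoidClass.coe_pow, map_pow]
  refine rep_pow (coeffMap_mem_MFun_FF ι z) fun h => hz ?_
  apply Subtype.ext
  exact (map_eq_zero_iff _ (coeffMap_injective ι.injective)).1 h

variable (ι) in
theorem const {c : K} (hc : c ≠ 0) : HasCls ι m (algebraMap K (FF K N) c) 0 := by
  obtain ⟨d, hd⟩ := IsAlgClosed.exists_pow_nat_eq c (NeZero.pos m)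
  have hd0 : d ≠ 0 := by
    rintro rfl
    rw [zero_pow (NeZero.ne m)] at hd
    exact hc hd.symm
  rw [← hd, map_pow]
  exact pow_self ι (by simpa using hd0)

theorem mul_pow (h : HasCls ι m x ξ) {z : FF K N} (hz : z ≠ 0) : HasCls ι m (x * z ^ m) ξ := by
  have := h.mul (pow_self ι (m := m) hz)
  rwa [add_zero] at this

theorem mul_const (h : HasCls ι m x ξ) {c : K} (hc : c ≠ 0) :
    HasCls ι m (x * algebraMap K (FF K N) c) ξ := by
  have := h.mul (const ι (m := m) (N := N) hc)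
  rwa [add_zero] at this

theorem exists_pow_of_zero (h : HasCls ι m x 0) : ∃ z : FF K N, x = z ^ m := by
  obtain ⟨Φ, h1, h⟩ := h
  rw [← map_zero (mkX (N := N) (m := m)), mkX_eq_iff, redI_zero] at h1
  rw [h1] at h
  exact exists_pow_FF ι h

theorem exists_pow (h : HasCls ι m x ξ) (h' : HasCls ι m y ξ) :
    ∃ z : FF K N, z ≠ 0 ∧ y = x * z ^ m := by
  have h1 := h'.div h
  rw [sub_self] at h1
  obtain ⟨z, hz⟩ := h1.exists_pow_of_zero
  refine ⟨z, ?_, ?_⟩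
  · rintro rfl
    rw [zero_pow (NeZero.ne m)] at hz
    exact mul_ne_zero h'.ne_zero (inv_ne_zero h.ne_zero) hz
  · rw [← hz, mul_comm, inv_mul_cancel_right₀ h.ne_zero]

theorem unique (h : HasCls ι m x ξ) (h' : HasCls ι m x η) : ξ = η := by
  obtain ⟨Φ, rfl, h⟩ := h
  obtain ⟨Ψ, rfl, h'⟩ := h'
  rw [mkX_eq_iff]
  exact h.unique h'

end HasCls

theorem exists_good (ξ : XL N m) (c : ℕ) [NeZero c] :
    ∃ x : FK K N, KD (m * tb N * c) x ∧ cls ι m x = ξ ∧ HasCls ι m (ofK x) ξ := by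
  obtain ⟨x, hx, h⟩ := exists_cls_eq ι ξ c
  have hg : Good m x := hx.of_dvd (dvd_mul_right _ _)
  obtain ⟨Φ, hΦ⟩ := hg.exists_mk ι
  have h1 := cls_eq ι hg hΦ
  refine ⟨x, hx, h, Φ, by rw [← h1, h], ?_⟩
  rw [coe_ofK]
  exact hΦ

namespace HasCls

variable {ι} {x y : FF K N} {ξ η : XL N m}

theorem kd (h : HasCls ι m x ξ) (v : Place K (FF K N)) : (m : ℤ) ∣ v.ord x := by
  obtain ⟨y, hy, -, hy'⟩ := exists_good ι ξ 1
  obtain ⟨z, hz, rfl⟩ := hy'.exists_pow h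
  have e : toK (ofK y) = y := Subtype.ext (by rw [coe_toK, coe_ofK])
  have hy2 : KD m (toK (ofK y)) := by
    rw [e]
    exact hy.of_dvd ⟨Kum.tb N * 1, by ring⟩
  have h1 := (kd_toK.1 hy2).2 v
  rw [v.ord_mul hy'.ne_zero (pow_ne_zero m hz), Curve.ord_pow]
  exact dvd_add h1 (dvd_mul_right _ _)

theorem gal (h : HasCls ι m x ξ) (σ : K ≃ₐ[ℚ] K) :
    HasCls ι m (act N (σ : K ≃+* K) x) (rhoF ι m σ ξ) := by
  obtain ⟨y, hy, hy1, hy'⟩ := exists_good ι ξ 1
  have hg : Good m y := hy.of_dvd (dvd_mul_right _ _)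
  obtain ⟨z, hz, rfl⟩ := hy'.exists_pow h
  rw [map_mul, map_pow]
  refine HasCls.mul_pow ?_ (by simpa using hz)
  have h1 := rhoF_cls ι σ hg
  obtain ⟨Φ, hΦ⟩ := (show Good m (galK σ y) from KD.gal σ hg).exists_mk ι
  rw [← hy1, h1, cls_eq ι (KD.gal σ hg) hΦ]
  refine ⟨Φ, rfl, ?_⟩
  rw [coe_act, coe_ofK]
  rw [coe_galK] at hΦ
  exact hΦ

/-- Hecke operators -/
theorem TT (h : HasCls ι m x ξ) {S : Set ℕ} {ℓ : ℕ} [NeZero ℓ] (hℓ : ℓ.Prime) (hℓN : ¬ ℓ ∣ N)
    (hℓS : ℓ ∉ S) {ζ : Kˣ} (hζ : IsPrimitiveRoot ζ ℓ) {y : FF K N}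
    (hy : (y : LaurentSeries K) = HeckeProd.TT hζ (x : LaurentSeries K)) :
    HasCls ι m y (actX N m S (CuspForm.heckeAlgebra.T hℓ hℓN hℓS) ξ) := by
  obtain ⟨Φ, rfl, h⟩ := h
  refine ⟨actL N S (CuspForm.heckeAlgebra.T hℓ hℓN hℓS) Φ, (actX_mkX _ _).symm, ?_⟩
  have h1 : redI m (actL N S (CuspForm.heckeAlgebra.T hℓ hℓN hℓS) Φ) =
      opT N hℓ hℓN (ZMod m) (redI m Φ) := by
    rw [redI, actL_T, comp_opT]
    rfl
  obtain ⟨ζ', hζ'⟩ := exists_primitive ℓ
  rw [h1, hy, coeffMap_TT_of_injective ι ι.injective hζ hζ']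
  exact Kum.Rep.TT hℓ hℓN hζ' (redI_parabolic Φ) h

end HasCls

section Fixed

attribute [local instance] Spec.algFF

theorem bd_toK {x : FF K N} {n : ℕ} : Bd n (toK x) ↔
    ∀ v : Place K (FF K N), (n : ℤ) * min 0 (v.ord (jF' K N)) ≤ v.ord x := by
  have h1 : (X0Genus.jj K N : LaurentSeries K) = jF' K N := by
    rw [X0Genus.coe_jj]
    exact (ThmC.coe_jF').symm
  have hm : (jF' K N : LaurentSeries K) ∈ FK K N := mem_FK_iff.2 (jF' K N).2
  have h2 : X0Genus.jj K N = ⟨(jF' K N : LaurentSeries K), hm⟩ := Subtype.ext h1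
  rw [Bd, h2]
  exact bd_cast FK_eq (n : ℤ) _ _ hm (jF' K N).2

theorem exists_bdK {x : FF K N} (hx : x ≠ 0) : ∃ z : FF K N, z ≠ 0 ∧ ∃ n : ℕ,
    Bd n (toK (x * z ^ m)) := by
  haveI : NeZero ((N : ℕ) : K) := ⟨Nat.cast_ne_zero.2 (NeZero.ne N)⟩
  haveI := funField_FF (k := K) (M := N) (NeZero.ne _)
  have ht := RR.transcendental_jF (k := K) N
  obtain ⟨q, hq, h⟩ := exists_poly_reg (k := K) (t := jF' K N) x
  have hz : aeval (jF' K N) q ≠ 0 := fun h0 => ht ⟨q, hq, h0⟩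
  refine ⟨aeval (jF' K N) q, hz, ?_⟩
  have h1 : Reg K (jF' K N) (x * aeval (jF' K N) q ^ m) := by
    have h2 : x * aeval (jF' K N) q ^ m = (aeval (jF' K N) q * x) * aeval (jF' K N) (q ^ (m - 1)) := by
      rw [map_pow, mul_comm _ x, mul_assoc, ← pow_succ', Nat.sub_add_cancel (NeZero.pos m)]
    rw [h2]
    exact Reg.mul (k := K) h (reg_aeval (k := K) (jF' K N) _)
  obtain ⟨n, hn⟩ := exists_mem_DD ht h1
  refine ⟨n, ?_⟩
  refine bd_toK.2 fun v => ?_
  have h3 : x * aeval (jF' K N) q ^ m = 0 ∨ -(DD K (jF' K N) n 0) v ≤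
      v.ord (x * aeval (jF' K N) q ^ m) := mem_L.1 hn v
  rw [DD_apply] at h3
  rcases h3 with h3 | h3
  · exact absurd h3 (mul_ne_zero hx (pow_ne_zero _ hz))
  · have e1 : n * min 0 (v.ord (jF' K N)) ≤ v.ord (x * aeval (jF' K N) q ^ m) := by
      rcases le_total 0 (v.ord (jF' K N)) with h4 | h4
      · rw [min_eq_left h4]
        rw [max_eq_right (by linarith)] at h3
        simpa using h3
      · rw [min_eq_right h4]
        rw [max_eq_left (by linarith)] at h3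
        simpa using h3
    exact e1

/-- fixed representatives of fixed classes -/
theorem exists_fixed (ξ : XL N m) : ∃ x : FF K N, HasCls ι m x ξ ∧
    ∀ σ : K ≃ₐ[ℚ] K, rhoF ι m σ ξ = ξ → act N (σ : K ≃+* K) x = x := by
  obtain ⟨y, hy, -, hy'⟩ := exists_good ι ξ 1
  obtain ⟨z, hz, n, hn⟩ := exists_bdK (m := m) hy'.ne_zero
  have hx := hy'.mul_pow hz
  have hkd : KD m (toK (ofK y * z ^ m)) := kd_toK.2 ⟨hx.ne_zero, hx.kd⟩
  obtain ⟨w, hw, hcan⟩ := exists_isCan hkd hn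
  set c : FK K N := toK (ofK y * z ^ m) * w ^ m with hc
  have hofw : ofK w ≠ 0 := by
    intro h
    apply hw
    rw [← coe_eq_zero_iff, ← coe_ofK, h]
    rfl
  have hcls : HasCls ι m (ofK c) ξ := by
    have e : ofK c = (ofK y * z ^ m) * (ofK w) ^ m := by
      apply Subtype.ext
      rw [coe_ofK, hc]
      simp only [IntermediateField.coe_mul, IntermediateField.coe_pow, coe_toK, coe_ofK]
    rw [e]
    exact hx.mul_pow hofw
  refine ⟨ofK c, hcls, fun σ hσ => ?_⟩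
  have h1 := hcls.gal σ
  rw [hσ] at h1
  obtain ⟨u, hu, hu'⟩ := hcls.exists_pow h1
  have h2 : galK σ c = c * (toK u) ^ m := by
    apply Subtype.ext
    have := congrArg Subtype.val hu'
    rw [MulMemClass.coe_mul, SubmonoidClass.coe_pow, coe_toK, coe_galK]
    rw [MulMemClass.coe_mul, SubmonoidClass.coe_pow, coe_act, coe_ofK] at this
    exact this
  have h3 := hcan.gal σ
  rw [h2] at h3
  have h4 := hcan.unique (by rwa [Ne, toK_eq_zero]) h3
  apply Subtype.ext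
  rw [coe_act, coe_ofK]
  rw [h4] at h2
  have := congrArg Subtype.val h2
  rw [coe_galK] at this
  exact this

end Fixed

end Fermat.Agent.PRem
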