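import Fermat.Agent.PRem.WildVal

/-!
# Wild inertia acting on the `p`-torsion, multiplicative reduction
-/

set_option autoImplicit false
set_option linter.unusedSectionVars false
set_option linter.style.haveILetI false

noncomputable section

namespace Fermat.Agent.PRem

open WeierstrassCurve WeierstrassCurve.Affine WeierstrassCurve.Affine.Point
open IntermediateField Module Fermat.Agent.FlatRam Fermat.Agent.FlatRam.RVal Fermat.Agent.Flat
open Fermat.Agent.EC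

local notation "Ω" => AlgebraicClosure ℚ

variable {A : ValuationSubring (AlgebraicClosure ℚ)} {p : ℕ} [hp : Fact p.Prime]
  [DecidableEq (AlgebraicClosure ℚ)] {W : Affine ℚ} {r t : ℚ} {tp tm : AlgebraicClosure ℚ}

theorem nsmul_neg_eq_zero {G : Type*} [AddCommGroup G] {n : ℕ} {Q : G} (h : n • Q = 0) :
    n • (-Q) = 0 := by rw [smul_neg, h, _root_.neg_zero]

theorem nsmul_zsmul_eq_zero {G : Type*} [AddCommGroup G] {n : ℕ} {Q : G} (h : n • Q = 0)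
    (m : ℤ) : n • (m • Q) = 0 := by
  rw [← natCast_zsmul, smul_comm, natCast_zsmul, h, smul_zero]

theorem exists_nat_of_nsmul {G : Type*} [AddCommGroup G] {p : ℕ} (hp : 0 < p) {Q : G}
    (h : p • Q = 0) (n : ℤ) : ∃ m < p, n • Q = m • Q := by
  have hp0 : (0 : ℤ) < p := by exact_mod_cast hp
  refine ⟨(n % p).toNat, ?_, ?_⟩
  · have h1 := Int.emod_lt_of_pos n hp0
    have h2 := Int.emod_nonneg n hp0.ne'
    omega
  · have h2 := Int.emod_nonneg n hp0.ne'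
    have h3 : (((n % p).toNat : ℕ) : ℤ) = n % p := Int.toNat_of_nonneg h2
    rw [← natCast_zsmul, h3]
    have h4 : n = n % p + n / p * p := by
      have := Int.emod_add_mul_ediv n p
      linarith
    nth_rewrite 1 [h4]
    rw [add_zsmul, mul_zsmul, natCast_zsmul, h, smul_zero, add_zero]

/-- Basic data on torsion points. -/
structure PD (hA : A.LiesOverPrime p)
    (M : MultT A.valuation (W⁄Ω) (algebraMap ℚ Ω r) (algebraMap ℚ Ω t) tp tm)
    (Q0 Q1 : (W⁄Ω).Point) : Prop where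
  Q00 : Q0 ≠ 0
  pQ0 : p • Q0 = 0
  Q0E : Q0 ∈ M.toIntT.E1
  pQ1 : p • Q1 = 0
  Q1D : InD A.valuation (W⁄Ω) (algebraMap ℚ Ω r) (algebraMap ℚ Ω t) tp Q1
  span0 : ∀ Q, p • Q = 0 → Q ∈ M.toIntT.E0 M.hm → ∃ n : ℤ, Q = n • Q0
  span : ∀ Q, p • Q = 0 → ∃ a b : ℤ, Q = a • Q0 + b • Q1
  w0 : ∀ Q, Q ≠ 0 → p • Q = 0 → Q ∈ M.toIntT.E1 → (rval A p hA).w (xc Q) = -2 / (p - 1)

theorem exists_PD (hA : A.LiesOverPrime p) (hp2 : p ≠ 2)
    (M : MultT A.valuation (W⁄Ω) (algebraMap ℚ Ω r) (algebraMap ℚ Ω t) tp tm)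
    (hI : IsInt A.valuation (W⁄Ω)) (hΔ : (W⁄Ω).Δ ≠ 0) {r' t' : Ω} (M' : TModel (W⁄Ω) r' t')
    (hr' : A.valuation r' ≤ 1) (hA' : A.valuation (tA4 (W⁄Ω) r' t') = 1) :
    ∃ Q0 Q1 : (W⁄Ω).Point, PD hA M Q0 Q1 := by
  obtain ⟨Q0, h00, hp0, h0E, hspan, hval, hv, Q, hpQ, hQE⟩ :=
    exists_formal_line hΔ hI hp.out hp2 (v_p_lt_one hA) M' hr' hA' M.toIntT M.hm
  -- the second point
  obtain ⟨Q1, hpQ1, hQ1⟩ : ∃ Q1 : (W⁄Ω).Point, p • Q1 = 0 ∧
      InD A.valuation (W⁄Ω) (algebraMap ℚ Ω r) (algebraMap ℚ Ω t) tp Q1 := by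
    rcases M.multiples hp.out hp2 hpQ hQE 1 with h | h | h
    · rw [one_nsmul] at h
      rw [h] at hQE
      exact absurd (zero_mem _) hQE
    · rw [one_nsmul] at h
      exact ⟨Q, hpQ, h⟩
    · rw [one_nsmul] at h
      exact ⟨-Q, nsmul_neg_eq_zero hpQ, M.swap.neg_inD h⟩
  have hQ1E : Q1 ∉ M.toIntT.E0 M.hm := M.inD_not_mem_E0 hQ1
  refine ⟨Q0, Q1, h00, hp0, h0E, hpQ1, hQ1, hspan, ?_, ?_⟩
  · -- spanning
    let T : AddSubgroup (W⁄Ω).Point := (nsmulAddMonoidHom p).ker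
    have hodd : Odd p := hp.out.odd_of_ne_two hp2
    have hcT : Nat.card T = p ^ 2 := by
      rw [← ncard_torsion hΔ hodd]
      rfl
    have hfT : Finite T :=
      Nat.finite_of_card_ne_zero (by rw [hcT]; exact pow_ne_zero 2 hp.out.ne_zero)
    have hN := card_line hp.out (N := AddSubgroup.zmultiples Q0) (V := T)
      (by rw [AddSubgroup.zmultiples_le]; exact hp0) (fun x hx => hx) hfT hcT.le
      (by rw [Ne, AddSubgroup.zmultiples_eq_bot]; exact h00)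
      (by
        intro h
        have h1 : Q1 ∈ AddSubgroup.zmultiples Q0 := by rw [h]; exact hpQ1
        apply hQ1E
        apply M.toIntT.E1_le_E0 M.hm
        exact (AddSubgroup.zmultiples_le.2 h0E) h1)
    have hsup := sup_eq_of_not_mem hp.out hN.1 hcT
      (by rw [AddSubgroup.zmultiples_le]; exact hp0) (y := Q1) hpQ1 (by
        intro h1
        apply hQ1E
        apply M.toIntT.E1_le_E0 M.hm
        exact (AddSubgroup.zmultiples_le.2 h0E) h1)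
    intro Q' hQ'
    have h1 : Q' ∈ AddSubgroup.zmultiples Q0 ⊔ AddSubgroup.zmultiples Q1 := by
      rw [hsup]; exact hQ'
    obtain ⟨y, hy, z, hz, rfl⟩ := AddSubgroup.mem_sup.1 h1
    obtain ⟨a, rfl⟩ := AddSubgroup.mem_zmultiples_iff.1 hy
    obtain ⟨b, rfl⟩ := AddSubgroup.mem_zmultiples_iff.1 hz
    exact ⟨a, b, rfl⟩
  · intro Q' hQ0' hpQ' hQE'
    have h1 := hval Q' hQ0' hpQ' hQE'
    rw [← h1] at hv
    have hp0' : (p : Ω) ≠ 0 := Nat.cast_ne_zero.2 hp.out.ne_zero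
    have hx : xc Q' ≠ 0 := by
      intro h0
      have := (mem_E1_iff' M.toIntT hQ0').1 hQE'
      rw [h0, _root_.map_zero] at this
      exact absurd this (not_lt.2 zero_le)
    rw [← map_pow, ← map_mul, ← _root_.map_one A.valuation,
      v_eq_iff hA (mul_ne_zero hp0' (pow_ne_zero _ hx)) one_ne_zero,
      w_mul hp0' (pow_ne_zero _ hx), w_pow hx, (rval A p hA).w_p, w_one] at hv
    obtain ⟨k, hk⟩ := hp.out.odd_of_ne_two hp2
    have e1 : (p - 1) / 2 = k := by omega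
    have e2 : (p : ℚ) = 2 * k + 1 := by exact_mod_cast hk
    have hk0 : (k : ℚ) ≠ 0 := by
      have : k ≠ 0 := by
        rintro rfl
        exact hp.out.one_lt.ne' (by omega)
      exact_mod_cast this
    rw [e1] at hv
    rw [e2]
    have e3 : (2 * (k : ℚ) + 1 - 1) = 2 * k := by ring
    rw [e3, eq_div_iff (by positivity)]
    linear_combination 2 * hv

namespace PD

variable {hA : A.LiesOverPrime p}
  {M : MultT A.valuation (W⁄Ω) (algebraMap ℚ Ω r) (algebraMap ℚ Ω t) tp tm}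
  {Q0 Q1 : (W⁄Ω).Point} (D : PD hA M Q0 Q1)
include D

theorem smul_Q0 {τ : Ω ≃ₐ[ℚ] Ω} (hτ : IsInert A.valuation τ) : ∃ n : ℤ, τ • Q0 = n • Q0 := by
  obtain ⟨n, hn⟩ := D.span0 (τ • Q0 - Q0) (nsmul_smul_sub D.pQ0 τ)
    (M.toIntT.E1_le_E0 M.hm (hτ.sub_mem_E1 M.toIntT M.hm (M.toIntT.E1_le_E0 M.hm D.Q0E)))
  refine ⟨n + 1, ?_⟩
  rw [add_zsmul, one_zsmul, ← hn, sub_add_cancel]

theorem smul_sub (hp2 : p ≠ 2) {τ : Ω ≃ₐ[ℚ] Ω} (hτ : IsInert A.valuation τ) {Q : (W⁄Ω).Point}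
    (hQ : p • Q = 0) : ∃ n : ℤ, τ • Q - Q = n • Q0 :=
  D.span0 (τ • Q - Q) (nsmul_smul_sub hQ τ) (hτ.sub_mem_E0 M hp.out hp2 hQ)

theorem Q1ne : Q1 ≠ 0 := by
  obtain ⟨x, y, h, rfl, -⟩ := D.Q1D
  exact Point.some_ne_zero _

/-- the coordinate `ξ` -/
theorem xi_ne : xc Q1 - algebraMap ℚ Ω r ≠ 0 := by
  obtain ⟨x, y, h, rfl, h1, h2, h3⟩ := D.Q1D
  rw [xc_some]
  exact sub_ne_zero.2 (M.ne_of_lt h1)

theorem two_lt (hp2 : p ≠ 2) : (0 : ℚ) < p - 1 ∧ (2 : ℚ) < p := by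
  have h1 : 2 < p := lt_of_le_of_ne hp.out.two_le (Ne.symm hp2)
  have h2 : (2 : ℚ) < p := by exact_mod_cast h1
  exact ⟨by linarith, h2⟩

/-- the key estimate -/
theorem key (hp2 : p ≠ 2) {τ : Ω ≃ₐ[ℚ] Ω} (hτ : IsInert A.valuation τ) (hne : τ • Q1 ≠ Q1) :
    τ (xc Q1) - xc Q1 ≠ 0 ∧ (rval A p hA).w (τ (xc Q1) - xc Q1) =
      (rval A p hA).w (xc Q1 - algebraMap ℚ Ω r) + 1 / (p - 1) := by
  have hp1 := (D.two_lt hp2).1
  have hξ := D.xi_ne
  have hE0 := hτ.sub_mem_E0 M hp.out hp2 D.pQ1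
  obtain ⟨n, hn⟩ := D.span0 _ (nsmul_smul_sub D.pQ1 τ) hE0
  have hE1 : τ • Q1 - Q1 ∈ M.toIntT.E1 := by rw [hn]; exact zsmul_mem D.Q0E n
  have hw3 := D.w0 _ (sub_ne_zero.2 hne) (nsmul_smul_sub D.pQ1 τ) hE1
  have hv3 := (mem_E1_iff' M.toIntT (sub_ne_zero.2 hne)).1 hE1
  obtain ⟨x, y, h, rfl, h1, h2, h3⟩ := D.Q1D
  have DQ := D.Q1D
  have DT := hτ.inD M DQ
  have Dn := M.neg_inD DQ
  rw [xc_some] at hξ ⊢
  have hxr : x ≠ algebraMap ℚ Ω r := M.ne_of_lt h1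
  have hτx : A.valuation (τ x - algebraMap ℚ Ω r) = A.valuation (x - algebraMap ℚ Ω r) := by
    rw [← hτ.map_eq (x - algebraMap ℚ Ω r), map_sub τ, AlgEquiv.commutes]
  have hτxr : τ x ≠ algebraMap ℚ Ω r := by
    apply M.ne_of_lt
    rw [hτx]; exact h1
  have hτn := nonsingular_map τ h
  have hnn := (nonsingular_neg (W' := W⁄Ω) x y).mpr h
  have hx : τ x ≠ x := by
    intro hx
    rcases Y_eq_of_X_eq hτn.1 h.1 hx with h4 | h4
    · apply hne
      rw [smul_some, Point.some.injEq]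
      exact ⟨hx, h4⟩
    · have e : (Point.some (τ x) (τ y) hτn : (W⁄Ω).Point) = - Point.some x y h := by
        rw [Point.neg_some, Point.some.injEq]
        exact ⟨hx, h4⟩
      rw [e] at DT
      exact M.not_both DT Dn
  refine ⟨sub_ne_zero.2 hx, ?_⟩
  rw [sub_eq_add_neg, smul_some, Point.neg_some, Point.add_some (fun hh => hx hh.1), xc_some]
    at hw3 hv3
  have hB := M.toIntT.toTModel.sumB hτn.1 hnn.1 hτxr hxr hx
  set x3 := (W⁄Ω).addX (τ x) x ((W⁄Ω).slope (τ x) x (τ y) ((W⁄Ω).negY x y)) with hx3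
  -- slopes
  have hs : A.valuation (sl (algebraMap ℚ Ω r) (algebraMap ℚ Ω t) (τ x) (τ y) -
      sl (algebraMap ℚ Ω r) (algebraMap ℚ Ω t) x ((W⁄Ω).negY x y)) = 1 := by
    obtain ⟨x', y', h', he', a1, a2, a3⟩ := DT
    rw [Point.some.injEq] at he'
    obtain ⟨rfl, rfl⟩ := he'
    rw [Point.neg_some] at Dn
    obtain ⟨x', y', h', he', b1, b2, b3⟩ := Dn
    rw [Point.some.injEq] at he'
    obtain ⟨rfl, rfl⟩ := he'
    have e : sl (algebraMap ℚ Ω r) (algebraMap ℚ Ω t) (τ x) (τ y) -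
        sl (algebraMap ℚ Ω r) (algebraMap ℚ Ω t) x ((W⁄Ω).negY x y) =
        ((sl (algebraMap ℚ Ω r) (algebraMap ℚ Ω t) (τ x) (τ y) - tp) -
        (sl (algebraMap ℚ Ω r) (algebraMap ℚ Ω t) x ((W⁄Ω).negY x y) - tm)) + (tp - tm) := by ring
    rw [e, Valuation.map_add_eq_of_lt_right, M.hdiff]
    rw [M.hdiff]
    exact A.valuation.map_sub_lt a3 b3
  have hx30 : x3 - algebraMap ℚ Ω r ≠ 0 := by
    intro h0
    rw [sub_eq_zero] at h0
    rw [h0] at hv3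
    exact absurd hv3 (not_lt.2 M.toIntT.vr)
  have hv3' : A.valuation (x3 - algebraMap ℚ Ω r) = A.valuation x3 :=
    Valuation.map_sub_eq_of_lt_left _ (M.toIntT.vr.trans_lt hv3)
  have hx30' : x3 ≠ 0 := by
    intro h0
    rw [h0, _root_.map_zero] at hv3
    exact absurd hv3 (not_lt.2 zero_le)
  have hBv := congrArg A.valuation hB
  rw [map_mul, map_mul, map_pow, map_pow, hs, one_pow, mul_one, map_mul, hτx, hv3', ← sq,
    ← map_pow, ← map_pow, ← map_mul,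
    v_eq_iff hA (mul_ne_zero hx30' (pow_ne_zero _ (sub_ne_zero.2 hx))) (pow_ne_zero _ hξ),
    w_mul hx30' (pow_ne_zero _ (sub_ne_zero.2 hx)), w_pow (sub_ne_zero.2 hx), w_pow hξ, hw3] at hBv
  push_cast at hBv
  have e4 : (-2 : ℚ) / (p - 1) = -2 * (1 / (p - 1)) := by ring
  rw [e4] at hBv
  linarith

end PD

/-- the `y`-coordinate of a point (junk at the origin) -/
def yc {K : Type*} [Field K] {W : WeierstrassCurve K} (P : W.toAffine.Point) : K :=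
  match P with
  | 0 => 0
  | .some _ y _ => y

theorem yc_some {K : Type*} [Field K] {W : WeierstrassCurve K} {x y : K}
    (h : W.toAffine.Nonsingular x y) : yc (Point.some x y h : W.toAffine.Point) = y := rfl

theorem smul_eq_smul_iff {τ τ' : Ω ≃ₐ[ℚ] Ω} {Q : (W⁄Ω).Point} :
    τ • Q = τ' • Q ↔ τ (xc Q) = τ' (xc Q) ∧ τ (yc Q) = τ' (yc Q) := by
  rcases Q with _ | ⟨x, y, h⟩
  · refine iff_of_true rfl ⟨?_, ?_⟩
    · change τ 0 = τ' 0
      rw [_root_.map_zero, _root_.map_zero]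
    · change τ 0 = τ' 0
      rw [_root_.map_zero, _root_.map_zero]
  · rw [smul_some, smul_some, Point.some.injEq]
    rfl

theorem smul_eq_iff {τ : Ω ≃ₐ[ℚ] Ω} {Q : (W⁄Ω).Point} :
    τ • Q = Q ↔ τ (xc Q) = xc Q ∧ τ (yc Q) = yc Q := by
  have := smul_eq_smul_iff (τ := τ) (τ' := 1) (Q := Q)
  rwa [one_smul] at this

theorem mem_fixing_adjoin {K E : Type*} [Field K] [Field E] [Algebra K E] {S : Set E}
    {σ : E ≃ₐ[K] E} : σ ∈ (adjoin K S).fixingSubgroup ↔ ∀ x ∈ S, σ x = x := by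
  rw [IntermediateField.mem_fixingSubgroup_iff]
  constructor
  · intro h x hx
    exact h x (subset_adjoin K S hx)
  · intro h x hx
    induction hx using adjoin_induction with
    | mem x hx => exact h x hx
    | algebraMap x => exact σ.commutes x
    | add x y _ _ hx hy => rw [_root_.map_add, hx, hy]
    | inv x _ hx => rw [map_inv₀, hx]
    | mul x y _ _ hx hy => rw [_root_.map_mul, hx, hy]

/-- restriction of scalars -/
def rs (τ : Ω ≃ₐ[K0 A] Ω) : Ω ≃ₐ[ℚ] Ω := AlgEquiv.restrictScalars ℚ τ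

theorem rs_mul (σ τ : Ω ≃ₐ[K0 A] Ω) : rs (σ * τ) = rs σ * rs τ := rfl
theorem rs_one : rs (1 : Ω ≃ₐ[K0 A] Ω) = 1 := rfl
theorem rs_pow (σ : Ω ≃ₐ[K0 A] Ω) (n : ℕ) : rs (σ ^ n) = rs σ ^ n := by
  induction n with
  | zero => rfl
  | succ n ih => rw [pow_succ, pow_succ, rs_mul, ih]

theorem rs_apply (τ : Ω ≃ₐ[K0 A] Ω) (x : Ω) : rs τ x = τ x := rfl

theorem rs_mem (τ : Ω ≃ₐ[K0 A] Ω) : rs τ ∈ A.inertiaSubgroupIn ℚ := by
  apply mem_inertia_of_fixing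
  intro y hy
  exact τ.commutes ⟨y, hy⟩

theorem rs_inert (τ : Ω ≃ₐ[K0 A] Ω) : IsInert A.valuation (rs τ) := isInert_of_mem A (rs_mem τ)

variable (A) in
/-- the field of definition of a set of points -/
def FD (S : Set (W⁄Ω).Point) : IntermediateField (K0 A) Ω :=
  adjoin (K0 A) (xc '' S ∪ yc '' S)

theorem mem_FD {S : Set (W⁄Ω).Point} {σ : Ω ≃ₐ[K0 A] Ω} :
    σ ∈ (FD A S).fixingSubgroup ↔ ∀ Q ∈ S, rs σ • Q = Q := by
  rw [FD, mem_fixing_adjoin]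
  constructor
  · intro h Q hQ
    rw [smul_eq_iff]
    exact ⟨h _ (Or.inl ⟨Q, hQ, rfl⟩), h _ (Or.inr ⟨Q, hQ, rfl⟩)⟩
  · rintro h _ (⟨Q, hQ, rfl⟩ | ⟨Q, hQ, rfl⟩)
    · exact (smul_eq_iff.1 (h Q hQ)).1
    · exact (smul_eq_iff.1 (h Q hQ)).2

theorem xc_mem_FD {S : Set (W⁄Ω).Point} {Q : (W⁄Ω).Point} (hQ : Q ∈ S) : xc Q ∈ FD A S :=
  subset_adjoin _ _ (Or.inl ⟨Q, hQ, rfl⟩)

theorem yc_mem_FD {S : Set (W⁄Ω).Point} {Q : (W⁄Ω).Point} (hQ : Q ∈ S) : yc Q ∈ FD A S :=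
  subset_adjoin _ _ (Or.inr ⟨Q, hQ, rfl⟩)

theorem FD_mono {S T : Set (W⁄Ω).Point} (h : S ⊆ T) : FD A S ≤ FD A T :=
  adjoin.mono _ _ _ (Set.union_subset_union (Set.image_mono h) (Set.image_mono h))

theorem finite_FD {S : Set (W⁄Ω).Point} (h : S.Finite) : FiniteDimensional (K0 A) (FD A S) := by
  haveI : Finite ↥(xc '' S ∪ yc '' S) := ((h.image _).union (h.image _)).to_subtype
  exact finiteDimensional_adjoin fun x _ => Algebra.IsIntegral.isIntegral (R := K0 A) x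

/-- embeddings of the field of definition are determined by points -/
theorem finrank_FD_le {S : Set (W⁄Ω).Point} (h : S.Finite) {Y : Type*} [DecidableEq Y]
    (F : (Ω ≃ₐ[K0 A] Ω) → Y) (s : Finset Y) (hF : ∀ τ, F τ ∈ s)
    (hF' : ∀ τ τ', F τ = F τ' → ∀ Q ∈ S, rs τ • Q = rs τ' • Q) :
    finrank (K0 A) (FD A S) ≤ s.card := by
  classical
  haveI := finite_FD (A := A) h
  choose l hl using fun f : (FD A S) →ₐ[K0 A] Ω => exists_lift_aut (FD A S) f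
  rw [← AlgHom.card (K0 A) (FD A S) Ω, ← Finset.card_univ]
  refine Finset.card_le_card_of_injOn (fun f => F (l f)) (fun f _ => hF _) ?_
  intro f _ g _ hfg
  have h1 := hF' _ _ hfg
  have h2 : (l g)⁻¹ * l f ∈ (FD A S).fixingSubgroup := by
    rw [mem_FD]
    intro Q hQ
    rw [rs_mul, mul_smul, h1 Q hQ, ← mul_smul, ← rs_mul, inv_mul_cancel, rs_one, one_smul]
  apply AlgHom.ext
  intro x
  rw [hl, hl]
  have h3 := (IntermediateField.mem_fixingSubgroup_iff _ _).1 h2 x x.2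
  have h4 : (l g) (((l g)⁻¹ * l f) (x : Ω)) = (l f) (x : Ω) := by
    rw [← AlgEquiv.mul_apply, mul_inv_cancel_left]
  rw [← h4, h3]

namespace PD

variable {hA : A.LiesOverPrime p}
  {M : MultT A.valuation (W⁄Ω) (algebraMap ℚ Ω r) (algebraMap ℚ Ω t) tp tm}
  {Q0 Q1 : (W⁄Ω).Point} (D : PD hA M Q0 Q1)
include D

/-- multiples with natural coefficients `< p` -/
theorem exists_nat (n : ℤ) : ∃ m < p, n • Q0 = m • Q0 :=
  exists_nat_of_nsmul hp.out.pos D.pQ0 n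

theorem smul_ne (τ : Ω ≃ₐ[ℚ] Ω) : τ • Q0 ≠ 0 := by
  intro h
  apply D.Q00
  have h1 : τ⁻¹ • (τ • Q0) = τ⁻¹ • 0 := by rw [h]
  rw [inv_smul_smul] at h1
  have h2 := smul_zero (A := (W⁄Ω).Point) τ⁻¹
  exact h1.trans h2

open Classical in
theorem finrank_M_le : finrank (K0 A) (FD A {Q0}) ≤ p - 1 := by
  refine (finrank_FD_le (Set.finite_singleton Q0) (fun τ => rs τ • Q0)
    ((Finset.Icc 1 (p - 1)).image fun n => n • Q0) ?_ ?_).trans
      (Finset.card_image_le.trans (by simp))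
  · intro τ
    obtain ⟨n, hn⟩ := D.smul_Q0 (rs_inert τ)
    obtain ⟨m, hm, hmn⟩ := D.exists_nat n
    rw [Finset.mem_image]
    refine ⟨m, ?_, by rw [hn, hmn]⟩
    rw [Finset.mem_Icc]
    have hm0 : m ≠ 0 := by
      rintro rfl
      rw [zero_nsmul] at hmn
      rw [hmn] at hn
      exact D.smul_ne _ hn
    omega
  · intro τ τ' h Q hQ
    rw [Set.mem_singleton_iff] at hQ
    rw [hQ]; exact h

omit D in
theorem finite_T (hp2 : p ≠ 2) : {Q : (W⁄Ω).Point | p • Q = 0}.Finite :=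
  (finite_torsion (W := W⁄Ω) (hp.out.odd_of_ne_two hp2)
    (Nat.cast_ne_zero.2 hp.out.ne_zero)).1

omit D in
theorem smul_zsmul' (τ : Ω ≃ₐ[ℚ] Ω) (n : ℤ) (Q : (W⁄Ω).Point) : τ • (n • Q) = n • (τ • Q) :=
  algEquiv_smul_zsmul τ n Q

/-- automorphisms agreeing on `Q0`, `Q1` agree on the `p`-torsion -/
theorem eq_of_eq {τ τ' : Ω ≃ₐ[ℚ] Ω} (h0 : τ • Q0 = τ' • Q0) (h1 : τ • Q1 = τ' • Q1)
    {Q : (W⁄Ω).Point} (hQ : p • Q = 0) : τ • Q = τ' • Q := by
  obtain ⟨a, b, rfl⟩ := D.span Q hQ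
  have e : ∀ σ : Ω ≃ₐ[ℚ] Ω, σ • (a • Q0 + b • Q1) = a • (σ • Q0) + b • (σ • Q1) := by
    intro σ
    rw [← smul_zsmul', ← smul_zsmul']
    exact smul_add σ (a • Q0) (b • Q1)
  rw [e, e, h0, h1]

open Classical in
theorem finrank_L_le (hp2 : p ≠ 2) :
    finrank (K0 A) (FD A {Q : (W⁄Ω).Point | p • Q = 0}) ≤ (p - 1) * p := by
  refine (finrank_FD_le (finite_T hp2) (fun τ => (rs τ • Q0, rs τ • Q1 - Q1))
    (((Finset.Icc 1 (p - 1)).image fun n => n • Q0) ×ˢ ((Finset.range p).image fun n => n • Q0))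
    ?_ ?_).trans ?_
  · intro τ
    rw [Finset.mem_product]
    constructor
    · obtain ⟨n, hn⟩ := D.smul_Q0 (rs_inert τ)
      obtain ⟨m, hm, hmn⟩ := D.exists_nat n
      rw [Finset.mem_image]
      refine ⟨m, ?_, by rw [← hmn]; exact hn.symm⟩
      rw [Finset.mem_Icc]
      have hm0 : m ≠ 0 := by
        rintro rfl
        rw [zero_nsmul] at hmn
        rw [hmn] at hn
        exact D.smul_ne _ hn
      omega
    · obtain ⟨n, hn⟩ := D.smul_sub hp2 (rs_inert τ) D.pQ1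
      obtain ⟨m, hm, hmn⟩ := D.exists_nat n
      rw [Finset.mem_image]
      exact ⟨m, Finset.mem_range.2 hm, by rw [← hmn]; exact hn.symm⟩
  · intro τ τ' h Q hQ
    rw [Prod.mk.injEq] at h
    refine D.eq_of_eq h.1 ?_ hQ
    exact sub_left_inj.1 h.2
  · rw [Finset.card_product]
    exact Nat.mul_le_mul (Finset.card_image_le.trans (by simp))
      (Finset.card_image_le.trans (by simp))

/-- the slope of `Q0` -/
theorem w_sl (hp2 : p ≠ 2) : sl (algebraMap ℚ Ω r) (algebraMap ℚ Ω t) (xc Q0) (yc Q0) ≠ 0 ∧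
    (rval A p hA).w (sl (algebraMap ℚ Ω r) (algebraMap ℚ Ω t) (xc Q0) (yc Q0)) =
      -(1 / (p - 1)) := by
  have hw := D.w0 Q0 D.Q00 D.pQ0 D.Q0E
  have hx := (mem_E1_iff' M.toIntT D.Q00).1 D.Q0E
  rcases hQ : Q0 with _ | ⟨x, y, h⟩
  · exact absurd hQ D.Q00
  rw [hQ, xc_some] at hw hx
  rw [xc_some, yc_some]
  have hvx : A.valuation (x - algebraMap ℚ Ω r) = A.valuation x :=
    Valuation.map_sub_eq_of_lt_left _ (M.toIntT.vr.trans_lt hx)
  have hx1 : 1 < A.valuation (x - algebraMap ℚ Ω r) := by rw [hvx]; exact hx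
  have hxr : x ≠ algebraMap ℚ Ω r := M.toIntT.ne_of_one_le hx1.le
  have hx0 : x ≠ 0 := by
    rintro rfl
    rw [_root_.map_zero] at hx
    exact absurd hx (not_lt.2 zero_le)
  have c := M.toIntT.toTModel.curve' h.1 hxr
  set s := sl (algebraMap ℚ Ω r) (algebraMap ℚ Ω t) x y
  have hR : A.valuation ((x - algebraMap ℚ Ω r) + tA2 (W⁄Ω) (algebraMap ℚ Ω r) +
      tA4 (W⁄Ω) (algebraMap ℚ Ω r) (algebraMap ℚ Ω t) / (x - algebraMap ℚ Ω r)) =
      A.valuation x := by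
    rw [add_assoc, Valuation.map_add_eq_of_lt_left, hvx]
    refine lt_of_le_of_lt (A.valuation.map_add_le M.toIntT.vA2 ?_) hx1
    rw [map_div₀]
    exact (div_le_of_le_mul₀ zero_le zero_le
      (M.toIntT.vA4.trans (by rw [one_mul]; exact hx1.le)))
  rw [← c] at hR
  have hs1 : 1 < A.valuation s := by
    by_contra hle
    push Not at hle
    have h1 : A.valuation (s ^ 2 + (W⁄Ω).a₁ * s) ≤ 1 := by
      refine A.valuation.map_add_le ?_ ?_
      · rw [map_pow]; exact pow_le_one' hle 2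
      · rw [_root_.map_mul]; exact mul_le_one' M.toIntT.va1 hle
    rw [hR] at h1
    exact absurd hx (not_lt.2 h1)
  have hs0 : s ≠ 0 := by
    intro h0
    rw [h0, _root_.map_zero] at hs1
    exact absurd hs1 (not_lt.2 zero_le)
  have h2 : A.valuation (s ^ 2 + (W⁄Ω).a₁ * s) = A.valuation (s ^ 2) := by
    refine Valuation.map_add_eq_of_lt_left _ ?_
    rw [_root_.map_mul, map_pow, sq]
    refine lt_of_le_of_lt (mul_le_of_le_one_left' M.toIntT.va1) ?_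
    exact lt_mul_of_one_lt_left (zero_lt_one.trans hs1) hs1
  rw [hR, v_eq_iff hA hx0 (pow_ne_zero 2 hs0), w_pow hs0, hw] at h2
  refine ⟨hs0, ?_⟩
  push_cast at h2
  have e4 : (-2 : ℚ) / (p - 1) = -2 * (1 / (p - 1)) := by ring
  rw [e4] at h2
  linarith

theorem w_sl' (hp2 : p ≠ 2) : ∃ z ∈ FD A {Q0}, z ≠ 0 ∧ (rval A p hA).w z = 1 / (p - 1) := by
  obtain ⟨h1, h2⟩ := D.w_sl hp2
  obtain ⟨z, hz⟩ : ∃ z, z = sl (algebraMap ℚ Ω r) (algebraMap ℚ Ω t) (xc Q0) (yc Q0) := ⟨_, rfl⟩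
  rw [← hz] at h1 h2
  refine ⟨z⁻¹, ?_, inv_ne_zero h1, ?_⟩
  · apply inv_mem
    rw [hz, sl]
    have hr : ∀ q : ℚ, algebraMap ℚ Ω q ∈ FD A {Q0} := fun q => by
      have : algebraMap ℚ Ω q = algebraMap (K0 A) Ω (algebraMap ℚ (K0 A) q) := rfl
      rw [this]
      exact IntermediateField.algebraMap_mem _ _
    exact div_mem (sub_mem (yc_mem_FD rfl) (hr _)) (sub_mem (xc_mem_FD rfl) (hr _))
  · rw [w_inv h1, h2, neg_neg]

theorem dvd_of_z (hp2 : p ≠ 2) {E : IntermediateField (K0 A) Ω} [FiniteDimensional (K0 A) E]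
    {z : Ω} (hzE : z ∈ E) (hz0 : z ≠ 0) (hz : (rval A p hA).w z = 1 / (p - 1)) :
    ∃ e : ℕ, finrank (K0 A) E = (p - 1) * e := by
  have hp1 := (D.two_lt hp2).1
  obtain ⟨n, hn⟩ := exists_int (rval A p hA) E (x := ⟨z, hzE⟩)
    (fun h => hz0 (congrArg Subtype.val h))
  have hn' : (finrank (K0 A) E : ℚ) * (rval A p hA).w z = n := hn
  rw [hz] at hn'
  have h3 : (finrank (K0 A) E : ℚ) = n * (p - 1) := by
    field_simp at hn'
    linarith
  have h4 : (finrank (K0 A) E : ℤ) = n * ((p - 1 : ℕ) : ℤ) := by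
    have : ((p - 1 : ℕ) : ℚ) = p - 1 := by
      rw [Nat.cast_sub hp.out.one_lt.le, Nat.cast_one]
    rw [← this] at h3
    exact_mod_cast h3
  exact Int.natCast_dvd_natCast.1 ⟨n, by rw [h4, mul_comm]⟩

theorem finrank_M (hp2 : p ≠ 2) : finrank (K0 A) (FD A {Q0}) = p - 1 := by
  haveI := finite_FD (A := A) (Set.finite_singleton Q0)
  refine le_antisymm D.finrank_M_le ?_
  obtain ⟨z, hzM, hz0, hz⟩ := D.w_sl' hp2
  obtain ⟨e, he⟩ := D.dvd_of_z hp2 hzM hz0 hz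
  exact Nat.le_of_dvd finrank_pos ⟨e, he⟩

/-- the valuation of `ξ` is an integer -/
theorem xi_int (hp2 : p ≠ 2) {m : ℤ}
    (h4 : (rval A p hA).w (tA4 (W⁄Ω) (algebraMap ℚ Ω r) (algebraMap ℚ Ω t)) = p * m) :
    ∃ a : ℤ, (rval A p hA).w (xc Q1 - algebraMap ℚ Ω r) = a := by
  have hξ := D.xi_ne
  obtain ⟨x, y, h, rfl, h1, h2, h3⟩ := D.Q1D
  rw [xc_some] at hξ ⊢
  obtain ⟨k, hk⟩ := M.class_prime hp.out hp2 D.pQ1 D.Q1D
  have hp0 : (p : ℚ) ≠ 0 := by exact_mod_cast hp.out.ne_zero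
  rw [← map_pow, ← map_pow, ← map_zpow₀, v_eq_iff hA (pow_ne_zero _ hξ)
    (zpow_ne_zero _ (pow_ne_zero _ M.hm0)), w_pow hξ, w_zpow (pow_ne_zero _ M.hm0), w_pow M.hm0,
    h4] at hk
  refine ⟨2 * k * m, ?_⟩
  apply mul_left_cancel₀ hp0
  rw [hk]
  push_cast
  ring

/-- good approximations -/
theorem exists_b (hp2 : p ≠ 2) {m : ℤ}
    (h4 : (rval A p hA).w (tA4 (W⁄Ω) (algebraMap ℚ Ω r) (algebraMap ℚ Ω t)) = p * m) :
    ∃ b : K0 A, algebraMap (K0 A) Ω b ≠ 0 ∧ (rval A p hA).w (algebraMap (K0 A) Ω b) =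
      (rval A p hA).w (xc Q1 - algebraMap ℚ Ω r) ∧
      (rval A p hA).Gt 0 ((xc Q1 - algebraMap ℚ Ω r) / algebraMap (K0 A) Ω b - 1) := by
  have hξ := D.xi_ne
  obtain ⟨a, ha⟩ := D.xi_int hp2 h4
  obtain ⟨ξ, hξ'⟩ : ∃ ξ, ξ = xc Q1 - algebraMap ℚ Ω r := ⟨_, rfl⟩
  rw [← hξ'] at hξ ha ⊢
  have hp0 : (p : Ω) ≠ 0 := Nat.cast_ne_zero.2 hp.out.ne_zero
  have hpa : (p : Ω) ^ a ≠ 0 := zpow_ne_zero _ hp0
  have hw : (rval A p hA).w (ξ / (p : Ω) ^ a) = 0 := by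
    rw [w_div hξ hpa, w_zpow hp0, (rval A p hA).w_p, ha, mul_one, sub_self]
  obtain ⟨c, -, hc⟩ := (rval A p hA).res (ξ / (p : Ω) ^ a) (div_ne_zero hξ hpa) hw.ge
  have hc' : (rval A p hA).Gt ((rval A p hA).w (ξ / (p : Ω) ^ a))
      (algebraMap (K0 A) Ω c - ξ / (p : Ω) ^ a) := by
    rw [hw, ← neg_sub]
    exact Gt.neg hc
  obtain ⟨hc0, hcw⟩ := w_add_eq' (div_ne_zero hξ hpa) hc'
  have e : algebraMap (K0 A) Ω (c * (p : K0 A) ^ a) = algebraMap (K0 A) Ω c * (p : Ω) ^ a := by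
    rw [_root_.map_mul, map_zpow₀, map_natCast]
  refine ⟨c * (p : K0 A) ^ a, ?_, ?_, ?_⟩
  · rw [e]; exact mul_ne_zero hc0 hpa
  · rw [e, w_mul hc0 hpa, hcw, hw, w_zpow hp0, (rval A p hA).w_p, ha]; ring
  · rw [e]
    have e2 : ξ / (algebraMap (K0 A) Ω c * (p : Ω) ^ a) - 1 =
        (ξ / (p : Ω) ^ a - algebraMap (K0 A) Ω c) * (algebraMap (K0 A) Ω c)⁻¹ := by
      field_simp
    rw [e2]
    have h5 : (rval A p hA).Ge 0 (algebraMap (K0 A) Ω c)⁻¹ := by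
      right
      rw [w_inv hc0, hcw, hw, _root_.neg_zero]
    have := Gt.mul (V := rval A p hA) hc h5
    rwa [add_zero] at this

theorem pow_smul_Q1 (hp2 : p ≠ 2) {σ : Ω ≃ₐ[ℚ] Ω} (hσ : IsInert A.valuation σ)
    (h0 : σ • Q0 = Q0) : σ ^ p • Q1 = Q1 := by
  obtain ⟨n, hn⟩ := D.smul_sub hp2 hσ D.pQ1
  have h1 : σ • Q1 = Q1 + n • Q0 := by rw [← hn]; abel
  have h2 : ∀ k : ℕ, σ ^ k • Q1 = Q1 + k • (n • Q0) := by
    intro k
    induction k with
    | zero => rw [pow_zero, one_smul, zero_nsmul, add_zero]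
    | succ k ih =>
      rw [pow_succ', mul_smul, ih]
      have e1 := smul_add σ Q1 (k • (n • Q0))
      have e2 : σ • (k • (n • Q0)) = k • (n • Q0) := by
        rw [← natCast_zsmul, smul_zsmul', smul_zsmul', h0]
      rw [e2] at e1
      refine e1.trans ?_
      rw [h1, succ_nsmul]
      abel
  rw [h2 p]
  have h3 : p • (n • Q0) = 0 := nsmul_zsmul_eq_zero D.pQ0 n
  rw [h3, add_zero]

set_option maxHeartbeats 1000000 in
theorem main_L (hp2 : p ≠ 2) {m : ℤ}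
    (h4 : (rval A p hA).w (tA4 (W⁄Ω) (algebraMap ℚ Ω r) (algebraMap ℚ Ω t)) = p * m) :
    FD A {Q : (W⁄Ω).Point | p • Q = 0} = FD A {Q0} ∨
    (finrank (K0 A) (FD A {Q : (W⁄Ω).Point | p • Q = 0}) = p * (p - 1) ∧
      ∃ ϖ ∈ FD A {Q : (W⁄Ω).Point | p • Q = 0}, ϖ ≠ 0 ∧
        (rval A p hA).w ϖ = 1 / (p * (p - 1)) ∧
        ∀ σ ∈ (FD A {Q0}).fixingSubgroup,
          σ ∉ (FD A {Q : (W⁄Ω).Point | p • Q = 0}).fixingSubgroup →
          σ ϖ - ϖ ≠ 0 ∧ (rval A p hA).w (σ ϖ - ϖ) = 2 / (p * (p - 1))) := by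
  obtain ⟨hp1, hp2'⟩ := D.two_lt hp2
  have hle : FD A {Q0} ≤ FD A {Q : (W⁄Ω).Point | p • Q = 0} :=
    FD_mono (Set.singleton_subset_iff.2 D.pQ0)
  by_cases hLM : ∀ σ : Ω ≃ₐ[K0 A] Ω, rs σ • Q0 = Q0 → rs σ • Q1 = Q1
  · left
    refine le_antisymm ?_ hle
    rw [← InfiniteGalois.fixedField_fixingSubgroup (FD A {Q0}), le_iff_le]
    intro σ hσ
    rw [mem_FD] at hσ ⊢
    have h0 := hσ Q0 rfl
    intro Q hQ
    have h1 : rs σ • Q = (1 : Ω ≃ₐ[ℚ] Ω) • Q :=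
      D.eq_of_eq (by rw [h0, one_smul]) (by rw [hLM σ h0, one_smul]) hQ
    rw [h1, one_smul]
  right
  push Not at hLM
  obtain ⟨σ₀, hσ0, hσ1⟩ := hLM
  haveI hfL := finite_FD (A := A) (finite_T (W := W) hp2)
  obtain ⟨z, hzM, hz0, hz⟩ := D.w_sl' hp2
  obtain ⟨b, hb0, hbw, hb⟩ := D.exists_b hp2 h4
  have hξ := D.xi_ne
  obtain ⟨u, hu⟩ : ∃ u, u = (xc Q1 - algebraMap ℚ Ω r) / algebraMap (K0 A) Ω b - 1 := ⟨_, rfl⟩
  rw [← hu] at hb
  have hτu : ∀ τ : Ω ≃ₐ[K0 A] Ω, τ u - u = (rs τ (xc Q1) - xc Q1) / algebraMap (K0 A) Ω b := by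
    intro τ
    rw [hu, map_sub, map_div₀, τ.commutes, map_sub, _root_.map_one, rs_apply]
    have : τ (algebraMap ℚ Ω r) = algebraMap ℚ Ω r := (rs τ).commutes r
    rw [this]
    ring
  have hfix : ∀ τ : Ω ≃ₐ[K0 A] Ω, rs τ • Q1 = Q1 → τ u = u := by
    intro τ hτ
    rw [← sub_eq_zero, hτu, (smul_eq_iff.1 hτ).1, sub_self, zero_div]
  have hmove : ∀ τ : Ω ≃ₐ[K0 A] Ω, rs τ • Q1 ≠ Q1 → τ u - u ≠ 0 ∧
      (rval A p hA).w (τ u - u) = 1 / (p - 1) := by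
    intro τ hτ
    obtain ⟨h5, h6⟩ := D.key hp2 (rs_inert τ) hτ
    rw [hτu]
    refine ⟨div_ne_zero h5 hb0, ?_⟩
    rw [w_div h5 hb0, h6, hbw]
    ring
  have hu0 : u ≠ 0 := by
    rintro rfl
    have := (hmove σ₀ hσ1).1
    rw [_root_.map_zero, sub_self] at this
    exact this rfl
  obtain ⟨q, hq⟩ : ∃ q, q = (rval A p hA).w u := ⟨_, rfl⟩
  have hq0 : 0 < q := by rw [hq]; exact hb.lt hu0
  -- wild
  have hq1 : q < 1 / (p - 1) := by
    have h5 : FxV (rval A p hA) σ₀ u := by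
      refine fx_of_pow hA hu0 ?_
      apply hfix
      rw [rs_pow]
      exact D.pow_smul_Q1 hp2 (rs_inert σ₀) hσ0
    rw [fx_iff hu0] at h5
    obtain ⟨h6, h7⟩ := hmove σ₀ hσ1
    have := h5.lt h6
    rwa [h7, ← hq] at this
  have hFx : ∀ τ : Ω ≃ₐ[K0 A] Ω, FxV (rval A p hA) τ u := by
    intro τ
    rw [fx_iff hu0]
    by_cases hτ : rs τ • Q1 = Q1
    · left; rw [hfix τ hτ, sub_self]
    · right
      rw [(hmove τ hτ).2, ← hq]
      exact hq1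
  -- memberships
  have hT1 : Q1 ∈ {Q : (W⁄Ω).Point | p • Q = 0} := D.pQ1
  have huL : u ∈ FD A {Q : (W⁄Ω).Point | p • Q = 0} := by
    rw [hu]
    have hr : algebraMap ℚ Ω r ∈ FD A {Q : (W⁄Ω).Point | p • Q = 0} := by
      have : algebraMap ℚ Ω r = algebraMap (K0 A) Ω (algebraMap ℚ (K0 A) r) := rfl
      rw [this]
      exact IntermediateField.algebraMap_mem _ _
    exact sub_mem (div_mem (sub_mem (xc_mem_FD hT1) hr)
      (IntermediateField.algebraMap_mem _ _)) (one_mem _)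
  have hzL := hle hzM
  obtain ⟨e, he⟩ := D.dvd_of_z hp2 hzL hz0 hz
  have hd0 : 0 < finrank (K0 A) (FD A {Q : (W⁄Ω).Point | p • Q = 0}) := finrank_pos
  have hpn : 0 < p - 1 := by have := hp.out.one_lt; omega
  have he0 : 0 < e := by
    rcases Nat.eq_zero_or_pos e with rfl | h
    · rw [he, mul_zero] at hd0; exact absurd hd0 (lt_irrefl _)
    · exact h
  have hep : e ≤ p := by
    have h5 := D.finrank_L_le hp2
    rw [he] at h5
    exact Nat.le_of_mul_le_mul_left h5 hpn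
  obtain ⟨n, hn⟩ := exists_int (rval A p hA) (FD A {Q : (W⁄Ω).Point | p • Q = 0})
    (x := ⟨u, huL⟩) (fun h => hu0 (congrArg Subtype.val h))
  have hn' : ((p - 1 : ℚ) * e) * q = n := by
    rw [hq, ← hn, he]
    push_cast [Nat.cast_sub hp.out.one_lt.le]
    rfl
  have heQ : (0 : ℚ) < e := by exact_mod_cast he0
  have hnpos : 0 < n := by
    have : (0 : ℚ) < n := by rw [← hn']; positivity
    exact_mod_cast this
  obtain ⟨k, rfl⟩ : ∃ k : ℕ, n = k := ⟨n.toNat, (Int.toNat_of_nonneg hnpos.le).symm⟩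
  have hwk : (rval A p hA).w (u ^ e) = (rval A p hA).w (z ^ k) := by
    rw [w_pow hu0, w_pow hz0, hz, ← hq]
    have : (k : ℚ) = (p - 1) * e * q := by rw [hn']; simp
    rw [this]
    field_simp
  haveI hfM := finite_FD (A := A) (Set.finite_singleton Q0)
  obtain ⟨n2, hn2⟩ := tame_int (rval A p hA) (FD A {Q0}) (x := z ^ k) (by
      rw [D.finrank_M hp2]
      intro hdvd
      have := Nat.le_of_dvd hpn hdvd
      omega) (pow_mem hzM k) (pow_ne_zero k hz0) (fun τ =>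
      ((hFx τ).pow hu0 e).congr (pow_ne_zero e hu0) (pow_ne_zero k hz0) hwk)
  rw [← hwk, w_pow hu0, ← hq] at hn2
  have hn2pos : 0 < n2 := by
    have : (0 : ℚ) < n2 := by rw [← hn2]; positivity
    exact_mod_cast this
  have hn2' : (1 : ℚ) ≤ n2 := by exact_mod_cast hn2pos
  have hq1' : q * (p - 1) < 1 := by rwa [lt_div_iff₀ hp1] at hq1
  have hge : (p : ℚ) - 1 < e := by
    have h5 : (1 : ℚ) ≤ e * q := by rw [hn2]; exact hn2'
    by_contra hcon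
    push Not at hcon
    have : e * q ≤ (p - 1) * q := mul_le_mul_of_nonneg_right hcon hq0.le
    linarith
  have hep' : e = p := by
    have h5 : ((p - 1 : ℕ) : ℚ) < e := by
      rw [Nat.cast_sub hp.out.one_lt.le, Nat.cast_one]; exact hge
    have h6 : p - 1 < e := by exact_mod_cast h5
    omega
  subst hep'
  have hn21 : n2 = 1 := by
    have h5 : (n2 : ℚ) < 2 := by
      rw [← hn2]
      nlinarith
    have h6 : n2 < 2 := by exact_mod_cast h5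
    omega
  rw [hn21, Int.cast_one] at hn2
  have he' : (0 : ℚ) < e := heQ
  have hqe : q = 1 / e := by field_simp; linarith
  refine ⟨by rw [he, mul_comm], z / u, div_mem hzL huL, div_ne_zero hz0 hu0, ?_, ?_⟩
  · rw [w_div hz0 hu0, hz, ← hq, hqe]
    field_simp
    ring
  · intro σ hσM hσL
    have h5 : rs σ • Q0 = Q0 := mem_FD.1 hσM Q0 rfl
    have h6 : rs σ • Q1 ≠ Q1 := by
      intro h6
      apply hσL
      rw [mem_FD]
      intro Q hQ
      have h1 : rs σ • Q = (1 : Ω ≃ₐ[ℚ] Ω) • Q :=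
        D.eq_of_eq (by rw [h5, one_smul]) (by rw [h6, one_smul]) hQ
      rw [h1, one_smul]
    have h7 : σ z = z := (IntermediateField.mem_fixingSubgroup_iff _ _).1 hσM z hzM
    obtain ⟨h8, h9⟩ := hmove σ h6
    have hσu : σ u ≠ 0 := map_ne hu0
    have e1 : σ (z / u) - z / u = -(z * (σ u - u) / (u * σ u)) := by
      rw [map_div₀, h7]
      field_simp
      ring
    rw [e1]
    refine ⟨neg_ne_zero.2 (div_ne_zero (mul_ne_zero hz0 h8) (mul_ne_zero hu0 hσu)), ?_⟩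
    rw [w_neg, w_div (mul_ne_zero hz0 h8) (mul_ne_zero hu0 hσu), w_mul hz0 h8, w_mul hu0 hσu,
      (rval A e hA).w_gal, h9, hz, ← hq, hqe]
    field_simp
    ring

end PD

/-- **Inertia at `p` on the `p`-torsion**, multiplicative reduction, `p ∣ v(Δ)`. -/
theorem wild_general (hA : A.LiesOverPrime p) (hp2 : p ≠ 2)
    (M : MultT A.valuation (W⁄Ω) (algebraMap ℚ Ω r) (algebraMap ℚ Ω t) tp tm)
    (hI : IsInt A.valuation (W⁄Ω)) (hΔ : (W⁄Ω).Δ ≠ 0) {r' t' : Ω} (M' : TModel (W⁄Ω) r' t')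
    (hr' : A.valuation r' ≤ 1) (hA' : A.valuation (tA4 (W⁄Ω) r' t') = 1) {m : ℤ}
    (h4 : (rval A p hA).w (tA4 (W⁄Ω) (algebraMap ℚ Ω r) (algebraMap ℚ Ω t)) = p * m) :
    ∃ Q0 : (W⁄Ω).Point, Q0 ≠ 0 ∧ p • Q0 = 0 ∧
      (∀ τ ∈ A.inertiaSubgroupIn ℚ, (∃ n : ℤ, τ • Q0 = n • Q0) ∧
        ∀ Q : (W⁄Ω).Point, p • Q = 0 → ∃ n : ℤ, τ • Q - Q = n • Q0) ∧
      ∃ M L : IntermediateField (K0 A) Ω, FiniteDimensional (K0 A) M ∧
        FiniteDimensional (K0 A) L ∧ M ≤ L ∧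
        (∀ σ : Ω ≃ₐ[K0 A] Ω, σ ∈ M.fixingSubgroup ↔ rs σ • Q0 = Q0) ∧
        (∀ σ : Ω ≃ₐ[K0 A] Ω, σ ∈ L.fixingSubgroup ↔
          ∀ Q : (W⁄Ω).Point, p • Q = 0 → rs σ • Q = Q) ∧
        finrank (K0 A) M = p - 1 ∧
        (L = M ∨ (finrank (K0 A) L = p * (p - 1) ∧
          ∃ ϖ ∈ L, ϖ ≠ 0 ∧ (rval A p hA).w ϖ = 1 / (p * (p - 1)) ∧
            ∀ σ ∈ M.fixingSubgroup, σ ∉ L.fixingSubgroup →
              σ ϖ - ϖ ≠ 0 ∧ (rval A p hA).w (σ ϖ - ϖ) = 2 / (p * (p - 1)))) := by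
  obtain ⟨Q0, Q1, D⟩ := exists_PD hA hp2 M hI hΔ M' hr' hA'
  refine ⟨Q0, D.Q00, D.pQ0, fun τ hτ => ⟨D.smul_Q0 (isInert_of_mem A hτ),
    fun Q hQ => D.smul_sub hp2 (isInert_of_mem A hτ) hQ⟩, FD A {Q0},
    FD A {Q : (W⁄Ω).Point | p • Q = 0}, finite_FD (Set.finite_singleton Q0),
    finite_FD (PD.finite_T hp2), FD_mono (Set.singleton_subset_iff.2 D.pQ0), fun σ => ?_,
    fun σ => mem_FD, D.finrank_M hp2, D.main_L hp2 h4⟩
  rw [mem_FD]
  exact ⟨fun h => h Q0 rfl, fun h Q hQ => by rw [Set.mem_singleton_iff.1 hQ]; exact h⟩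

section Frey

variable (P : FreyPackage)

/-- the model with `T = (-b ^ p / 4, b ^ p / 8)` -/
theorem frey_TB {K : Type*} [Field K] [Algebra ℚ K] :
    TModel (P.freyCurve⁄K) (algebraMap ℚ K (-P.b ^ P.p / 4)) (algebraMap ℚ K (P.b ^ P.p / 8)) where
  eqn := by
    rw [Affine.equation_iff]
    have h : (P.b ^ P.p / 8 : ℚ) ^ 2 + P.freyCurve.a₁ * (-P.b ^ P.p / 4) * (P.b ^ P.p / 8)
      + P.freyCurve.a₃ * (P.b ^ P.p / 8) = (-P.b ^ P.p / 4) ^ 3 + P.freyCurve.a₂ *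
        (-P.b ^ P.p / 4) ^ 2 + P.freyCurve.a₄ * (-P.b ^ P.p / 4) + P.freyCurve.a₆ := by
      simp only [FreyPackage.freyCurve]
      ring
    have := congrArg (algebraMap ℚ K) h
    simp only [_root_.map_add, _root_.map_mul, map_pow] at this
    exact this
  two := by
    have h : 2 * (P.b ^ P.p / 8 : ℚ) + P.freyCurve.a₁ * (-P.b ^ P.p / 4) + P.freyCurve.a₃ = 0 := by
      simp only [FreyPackage.freyCurve]
      ring
    have := congrArg (algebraMap ℚ K) h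
    rw [_root_.map_add, _root_.map_add, _root_.map_mul, _root_.map_mul, map_ofNat,
      _root_.map_zero] at this
    exact this

theorem frey_TB_A4 : tA4 P.freyCurve (-P.b ^ P.p / 4) (P.b ^ P.p / 8) =
    (P.b : ℚ) ^ P.p * P.c ^ P.p / 16 := by
  rw [← frey_FLT]
  simp only [FreyPackage.freyCurve, tA4]
  ring

theorem frey_T0_A4' : P.freyCurve.a₄ = -(((P.a * P.b : ℤ) : ℚ)) ^ P.p / 16 := by
  simp only [FreyPackage.freyCurve]
  push_cast
  ring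

theorem w_int_pow (hA : A.LiesOverPrime p) (hp2 : p ≠ 2) {x : ℤ} (hx : x ≠ 0) {ε : Ω}
    (hε : ε = 1 ∨ ε = -1) {y : Ω} (hy : y = ε * (x : Ω) ^ p / 16) :
    ∃ m : ℤ, (rval A p hA).w y = p * m := by
  have hx0 : (x : Ω) ≠ 0 := by exact_mod_cast hx
  have h16 : (16 : Ω) ≠ 0 := by norm_num
  have hε0 : ε ≠ 0 := by rcases hε with rfl | rfl <;> norm_num
  have hwε : (rval A p hA).w ε = 0 := by
    rcases hε with rfl | rfl
    · exact w_one
    · rw [w_neg, w_one]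
  obtain ⟨m, hm⟩ := (rval A p hA).w_int (x : K0 A) (by exact_mod_cast hx)
  have hm' : (rval A p hA).w (x : Ω) = m := by rw [← hm, map_intCast]
  have h3 : (rval A p hA).w (16 : Ω) = 0 := by
    have := w_natCast (V := rval A p hA) (m := 16) (by
      intro h
      rw [show 16 = 2 ^ 4 by norm_num] at h
      have := hp.out.dvd_of_dvd_pow h
      rw [Nat.prime_dvd_prime_iff_eq hp.out Nat.prime_two] at this
      exact hp2 this)
    exact_mod_cast this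
  refine ⟨m, ?_⟩
  rw [hy, w_div (mul_ne_zero hε0 (pow_ne_zero _ hx0)) h16, w_mul hε0 (pow_ne_zero _ hx0),
    w_pow hx0, hwε, h3, hm']
  ring

/-- **Inertia at `p` on the `p`-torsion of the Frey curve**, `p ∣ abc`. -/
theorem frey_wild [Fact P.p.Prime] (hA : A.LiesOverPrime P.p)
    (hpabc : (P.p : ℤ) ∣ P.a * P.b * P.c) :
    ∃ Q0 : (P.freyCurve⁄Ω).Point, Q0 ≠ 0 ∧ P.p • Q0 = 0 ∧
      (∀ τ ∈ A.inertiaSubgroupIn ℚ, (∃ n : ℤ, τ • Q0 = n • Q0) ∧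
        ∀ Q : (P.freyCurve⁄Ω).Point, P.p • Q = 0 → ∃ n : ℤ, τ • Q - Q = n • Q0) ∧
      ∃ M L : IntermediateField (K0 A) Ω, FiniteDimensional (K0 A) M ∧
        FiniteDimensional (K0 A) L ∧ M ≤ L ∧
        (∀ σ : Ω ≃ₐ[K0 A] Ω, σ ∈ M.fixingSubgroup ↔ rs σ • Q0 = Q0) ∧
        (∀ σ : Ω ≃ₐ[K0 A] Ω, σ ∈ L.fixingSubgroup ↔
          ∀ Q : (P.freyCurve⁄Ω).Point, P.p • Q = 0 → rs σ • Q = Q) ∧
        finrank (K0 A) M = P.p - 1 ∧
        (L = M ∨ (finrank (K0 A) L = P.p * (P.p - 1) ∧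
          ∃ ϖ ∈ L, ϖ ≠ 0 ∧ (rval A P.p hA).w ϖ = 1 / (P.p * (P.p - 1)) ∧
            ∀ σ ∈ M.fixingSubgroup, σ ∉ L.fixingSubgroup →
              σ ϖ - ϖ ≠ 0 ∧ (rval A P.p hA).w (σ ϖ - ϖ) = 2 / (P.p * (P.p - 1)))) := by
  obtain ⟨v, hv⟩ : ∃ v, v = A.valuation := ⟨_, rfl⟩
  have hq : P.p.Prime := P.pp
  have hqi := Nat.prime_iff_prime_int.mp hq
  have hp2 : P.p ≠ 2 := by have := P.hp5; omega
  have hvp : A.valuation (P.p : Ω) < 1 := v_p_lt_one hA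
  have h2 : A.valuation (2 : Ω) = 1 := by
    have : ¬ (P.p : ℤ) ∣ ((2 : ℕ) : ℤ) := by
      intro h
      rw [Int.natCast_dvd_natCast, Nat.prime_dvd_prime_iff_eq hq Nat.prime_two] at h
      exact hp2 h
    exact_mod_cast val_int_eq_one_of_not_dvd A.valuation hq hvp this
  have h16 : A.valuation (algebraMap ℚ Ω 16) = 1 := by
    rw [map_ofNat, show (16 : Ω) = 2 * 2 * 2 * 2 by norm_num, _root_.map_mul, _root_.map_mul,
      _root_.map_mul, h2, one_mul, one_mul, one_mul]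
  have h4' : A.valuation (algebraMap ℚ Ω 4) = 1 := by
    rw [map_ofNat, show (4 : Ω) = 2 * 2 by norm_num, _root_.map_mul, h2, one_mul]
  have hcab : IsCoprime P.a P.b :=
    (gcd_isUnit_iff P.a P.b).mp (by rw [P.hgcdab]; exact isUnit_one)
  have hcac : IsCoprime P.a P.c :=
    (gcd_isUnit_iff P.a P.c).mp (by rw [P.hgcdac]; exact isUnit_one)
  have hcbc : ∀ q : ℤ, Prime q → q ∣ P.b → q ∣ P.c → False := by
    intro q hq' hb hc
    have h3 : q ∣ P.a ^ P.p := by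
      have e : P.a ^ P.p = P.c ^ P.p - P.b ^ P.p := by rw [← P.hFLT]; ring
      rw [e]
      exact dvd_sub (dvd_pow hc P.hp0) (dvd_pow hb P.hp0)
    exact hq'.not_isUnit (hcac.isUnit_of_dvd' (hq'.dvd_of_dvd_pow h3) hc)
  have hvu : ∀ x : ℤ, ¬ (P.p : ℤ) ∣ x → A.valuation (algebraMap ℚ Ω x) = 1 := by
    intro x hx
    rw [map_intCast]
    exact val_int_eq_one_of_not_dvd A.valuation hq hvp hx
  have hA0 : algebraMap ℚ Ω P.freyCurve.a₄ = (-1) * (((P.a * P.b : ℤ)) : Ω) ^ P.p / 16 := by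
    rw [frey_T0_A4', map_div₀, _root_.map_neg, map_pow, map_intCast, map_ofNat]
    ring
  rcases hqi.dvd_or_dvd hpabc with hab | hc
  · have hm : A.valuation (tA4 (P.freyCurve⁄Ω) (algebraMap ℚ Ω 0) (algebraMap ℚ Ω 0)) < 1 := by
      rw [frey_T0_A4]
      rw [frey_T0_A4', map_div₀, map_div₀, h16, div_one, _root_.map_neg, Valuation.map_neg,
        map_pow, map_pow]
      refine pow_lt_one₀ zero_le ?_ P.hp0
      rw [map_intCast]
      exact val_int_lt A.valuation hvp hab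
    obtain ⟨tp, tm, M⟩ := frey_MultT0 P A.valuation hq hvp hab hm
    obtain ⟨m, hm4⟩ := w_int_pow hA hp2 (x := P.a * P.b) (mul_ne_zero P.ha0 P.hb0) (Or.inr rfl)
      (y := tA4 (P.freyCurve⁄Ω) (algebraMap ℚ Ω 0) (algebraMap ℚ Ω 0))
      (by rw [frey_T0_A4]; exact hA0)
    rcases hqi.dvd_or_dvd hab with ha | hb
    · -- good point: `TB`
      have hb' : ¬ (P.p : ℤ) ∣ P.b := fun hb => hqi.not_isUnit (hcab.isUnit_of_dvd' ha hb)
      have hc' : ¬ (P.p : ℤ) ∣ P.c := fun hc => hqi.not_isUnit (hcac.isUnit_of_dvd' ha hc)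
      refine wild_general hA hp2 M (frey_isInt P A.valuation) (frey_Δ_ne' P)
        (frey_TB P (K := Ω)) ?_ ?_ hm4
      · rw [map_div₀, map_div₀, h4', div_one, _root_.map_neg, Valuation.map_neg, map_pow, map_pow,
          hvu _ hb', one_pow]
      · rw [tA4_baseChange, frey_TB_A4, map_div₀, map_div₀, h16, div_one, _root_.map_mul,
          _root_.map_mul, map_pow, map_pow, map_pow, map_pow, hvu _ hb', hvu _ hc', one_pow,
          one_mul]
    · -- good point: `TC`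
      have ha' : ¬ (P.p : ℤ) ∣ P.a := fun ha => hqi.not_isUnit (hcab.isUnit_of_dvd' ha hb)
      have hc' : ¬ (P.p : ℤ) ∣ P.c := fun hc => hcbc _ hqi hb hc
      refine wild_general hA hp2 M (frey_isInt P A.valuation) (frey_Δ_ne' P)
        (frey_TC P A.valuation h2).toTModel (frey_TC P A.valuation h2).vr ?_ hm4
      rw [tA4_baseChange, frey_TC_A4, map_div₀, map_div₀, h16, div_one, _root_.map_mul,
        _root_.map_mul, map_pow, map_pow, map_pow, map_pow, hvu _ ha', hvu _ hc', one_pow,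
        one_mul]
  · have ha' : ¬ (P.p : ℤ) ∣ P.a := fun ha => hqi.not_isUnit (hcac.isUnit_of_dvd' ha hc)
    have hb' : ¬ (P.p : ℤ) ∣ P.b := fun hb => hcbc _ hqi hb hc
    have hm : A.valuation (tA4 (P.freyCurve⁄Ω) (algebraMap ℚ Ω (P.a ^ P.p / 4))
        (algebraMap ℚ Ω (- P.a ^ P.p / 8))) < 1 := by
      rw [tA4_baseChange, frey_TC_A4, map_div₀, map_div₀, h16, div_one, _root_.map_mul,
        _root_.map_mul, map_pow, map_pow, map_pow, map_pow]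
      refine lt_of_le_of_lt (mul_le_of_le_one_left' ?_) ?_
      · rw [map_intCast]; exact pow_le_one' (val_int_le A.valuation _) _
      · refine pow_lt_one₀ zero_le ?_ P.hp0
        rw [map_intCast]
        exact val_int_lt A.valuation hvp hc
    obtain ⟨tp, tm, M⟩ := frey_MultTC P A.valuation hq hvp hc h2 hm
    obtain ⟨m, hm4⟩ := w_int_pow hA hp2 (x := P.a * P.c) (mul_ne_zero P.ha0 P.hc0) (Or.inl rfl)
      (y := tA4 (P.freyCurve⁄Ω) (algebraMap ℚ Ω (P.a ^ P.p / 4))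
        (algebraMap ℚ Ω (- P.a ^ P.p / 8))) (by
      rw [tA4_baseChange, frey_TC_A4, map_div₀, _root_.map_mul, map_pow, map_pow, map_intCast,
        map_intCast, map_ofNat]
      push_cast
      ring)
    refine wild_general hA hp2 M (frey_isInt P A.valuation) (frey_Δ_ne' P)
      (frey_T0 P A.valuation).toTModel (frey_T0 P A.valuation).vr ?_ hm4
    rw [frey_T0_A4, frey_T0_A4', map_div₀, map_div₀, h16, div_one, _root_.map_neg,
      Valuation.map_neg, map_pow, map_pow, hvu _ (fun h => ?_), one_pow]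
    rcases hqi.dvd_or_dvd h with h | h
    · exact ha' h
    · exact hb' h

end Frey

end Fermat.Agent.PRem
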