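import Fermat.Agent.PRem.ThickC

/-!
# There are supersingular points
-/

set_option autoImplicit false
set_option linter.unusedSectionVars false
set_option linter.style.haveILetI false

noncomputable section

namespace Fermat.Agent.PRem

open ModularCurve Polynomial IntermediateField Fermat.Agent.ModPoly Fermat.Agent.Red
  Fermat.Agent.RedMod Fermat.Agent.Cusp Fermat.Agent.SemiSt AlgebraicCurve Fermat.Agent.Curve
  Fermat.Agent.RR Fermat.Agent.Nod

section Abs

variable {A K F k E₁ E₂ : Type*} [CommRing A] [IsDomain A] [ValuationRing A]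
  [Field K] [Algebra A K] [IsFractionRing A K] [Field F] [Algebra K F] [Algebra A F]
  [IsScalarTower A K F] [Field k] [Algebra A k] [Field E₁] [Field E₂] [Algebra k E₁]
  [Algebra k E₂] [Algebra A E₁] [Algebra A E₂] [IsScalarTower A k E₁] [IsScalarTower A k E₂]
  [IsAlgClosed K] [IsAlgClosed k] [CharZero K] [FunField K F] [FunField k E₁] [FunField k E₂]

variable {ι₀ : Type*} [Fintype ι₀] [Nonempty ι₀] {G : GaussData A K F k (E₁ × E₂) ι₀}
  {hk : Function.Surjective (algebraMap A k)}
  {hspan : ∀ x : F, ∃ q : K[X], q ≠ 0 ∧ ∃ P : ι₀ → K[X], aeval G.t q * x = G.comb P}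
  {ι : Type*} [Finite ι] {𝒩 : Nodes k E₁ E₂ ι}

/-- a model without nodes has idempotents -/
theorem exists_idem (H : NodMod G hk hspan 𝒩) (he : IsEmpty (Nd G hk 𝒩)) :
    ∃ n : ℕ, ∃ x : F, ∃ hx : x ∈ G.W, x ∈ riemannRochSpace (DD K G.t n 0) ∧
      G.π ⟨x, hx⟩ = (1, 0) := by
  obtain ⟨n₀, h⟩ := H.eq
  have h1 : ((1, 0) : E₁ × E₂) ∈ RS G hk hspan n₀ 0 := by
    rw [h n₀ 0 (by omega)]
    refine ⟨fun j => (he.false j).elim, ?_, ?_⟩
    · have : (1 : E₁) ∈ riemannRochSpace (DD k (tb G).1 n₀ 0) := by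
        rw [mem_L]
        intro v
        refine (Ge.one v).mono ?_
        rw [DD_apply]
        have := le_max_right (-v.ord (tb G).1) 0
        have h2 : (0 : ℤ) ≤ n₀ := by positivity
        push_cast
        nlinarith [mul_nonneg h2 this]
      exact this
    · exact zero_mem _
  obtain ⟨x, hx, hxL, hxe⟩ := (mem_RS hspan).1 h1
  exact ⟨n₀, x, hx, hxL, hxe⟩

end Abs

section Rm

variable {k : Type*} [Field k] [IsAlgClosed k] {M : ℕ} [FunField k (FF k M)]

theorem coe_aeval_jF' (P : k[X]) : ((aeval (jF' k M) P : FF k M) : LaurentSeries k) =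
    aeval (jqModC k) P := by
  have h1 := aeval_algHom_apply (FF k M).val (jF' k M) P
  rw [← show (FF k M).val (jF' k M) = jqModC k from Jc_one_one]
  exact h1.symm

/-- rational functions of `j` regular on the affine part are polynomials -/
theorem exists_poly_of_reg {r : FF k M} (h1 : (r : LaurentSeries k) ∈ FF k 1)
    (hr : Reg k (jF' k M) r) : ∃ P : k[X], (r : LaurentSeries k) = aeval (jqModC k) P := by
  classical
  have h2 : (r : LaurentSeries k) ∈ k⟮jqModC k⟯ := by
    rw [FF_eq_adjoin] at h1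
    refine IntermediateField.adjoin_le_iff.2 ?_ h1
    rintro x ⟨m, hm, rfl⟩
    have hm1 : m = 1 := PNat.eq (Nat.dvd_one.1 hm)
    subst hm1
    have : (Jc 1 1 : LaurentSeries k) = jqModC k := Jc_one_one
    rw [this]
    exact mem_adjoin_simple_self k _
  obtain ⟨P, Q, hPQ⟩ := (IntermediateField.mem_adjoin_simple_iff k _).1 h2
  rcases eq_or_ne Q 0 with rfl | hQ
  · refine ⟨0, ?_⟩
    rw [hPQ, map_zero, div_zero]
  obtain ⟨g, hg⟩ : ∃ g, g = EuclideanDomain.gcd P Q := ⟨_, rfl⟩
  have hg0 : g ≠ 0 := by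
    rw [hg]
    intro h0
    exact hQ (EuclideanDomain.gcd_eq_zero_iff.1 h0).2
  obtain ⟨P', hP'⟩ : g ∣ P := hg ▸ EuclideanDomain.gcd_dvd_left P Q
  obtain ⟨Q', hQ'⟩ : g ∣ Q := hg ▸ EuclideanDomain.gcd_dvd_right P Q
  have hcop : IsCoprime P' Q' := by
    obtain ⟨a, b, hab⟩ : ∃ a b, g = P * a + Q * b := ⟨_, _, hg ▸ EuclideanDomain.gcd_eq_gcd_ab P Q⟩
    refine ⟨a, b, mul_left_cancel₀ hg0 ?_⟩
    rw [mul_one]
    conv_rhs => rw [hab, hP', hQ']
    ring
  have hQ'0 : Q' ≠ 0 := by rintro rfl; exact hQ (by rw [hQ', mul_zero])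
  have hinj : ∀ R : k[X], R ≠ 0 → aeval (jqModC k) R ≠ 0 := fun R hR h =>
    hR (aeval_jqModC_injective (h.trans (map_zero _).symm))
  have h3 : (r : LaurentSeries k) * aeval (jqModC k) Q' = aeval (jqModC k) P' := by
    rw [hPQ, hP', hQ', map_mul, map_mul]
    have := hinj g hg0
    have := hinj Q' hQ'0
    field_simp
  have h4 : r * aeval (jF' k M) Q' = aeval (jF' k M) P' := by
    apply Subtype.ext
    rw [MulMemClass.coe_mul, coe_aeval_jF', coe_aeval_jF']
    exact h3
  by_cases hdeg : Q'.natDegree = 0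
  · obtain ⟨c, hc⟩ := natDegree_eq_zero.1 hdeg
    have hc0 : c ≠ 0 := by rintro rfl; exact hQ'0 (by rw [← hc, C_0])
    refine ⟨C c⁻¹ * P', ?_⟩
    rw [map_mul, ← h3, ← hc, aeval_C, aeval_C]
    have : algebraMap k (LaurentSeries k) c ≠ 0 := (_root_.map_ne_zero _).2 hc0
    rw [map_inv₀]
    field_simp
  · exfalso
    obtain ⟨β, hβ⟩ := IsAlgClosed.exists_root Q' (fun h => hdeg (natDegree_eq_of_degree_eq_some h))
    have ht : Transcendental k (jF' k M - algebraMap k _ β) := by
      intro h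
      apply RR.transcendental_jF (k := k) M
      have := h.add (isAlgebraic_algebraMap β)
      simpa using this
    obtain ⟨v, hv⟩ := exists_zero' ht
    have hvj : 0 ≤ v.ord (jF' k M) := (ord_sub_const_nonneg_iff β).1 hv.le
    have hval : ∀ R : k[X], Ge v 1 (aeval (jF' k M) R - algebraMap k _ (R.eval β)) := by
      intro R
      obtain ⟨S, hS⟩ : (X - C β) ∣ R - C (R.eval β) := X_sub_C_dvd_sub_C_eval
      have e : aeval (jF' k M) R - algebraMap k _ (R.eval β) =
          (jF' k M - algebraMap k _ β) * aeval (jF' k M) S := by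
        have := congrArg (aeval (jF' k M)) hS
        simpa using this
      rw [e]
      have h5 : Ge v 1 (jF' k M - algebraMap k _ β) := Ge.of_le (by omega)
      have h6 : Ge v 0 (aeval (jF' k M) S) := by
        apply Ge.of_le
        rw [← mem_iff_ord_nonneg]
        exact aeval_mem_place v hvj S
      exact (h5.mul h6).mono (by omega)
    have g1 := hval Q'
    rw [hβ, map_zero, sub_zero] at g1
    have g2 : Ge v 1 (aeval (jF' k M) P') := by
      rw [← h4]
      exact ((hr v hvj).mul g1).mono (by omega)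
    have g3 := hval P'
    have g4 : Ge v 1 (algebraMap k (FF k M) (P'.eval β)) := by
      have := g2.sub g3
      rwa [sub_sub_cancel] at this
    have g5 : P'.eval β = 0 := by
      by_contra hne
      have h7 := g4.resolve_left ((_root_.map_ne_zero _).2 hne)
      rw [ord_algebraMap] at h7
      omega
    obtain ⟨a, b, hab⟩ := hcop
    have := congrArg (fun R => R.eval β) hab
    simp only [eval_add, eval_mul, eval_one, g5, show Q'.eval β = 0 from hβ, mul_zero,
      add_zero] at this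
    exact zero_ne_one this

omit [IsAlgClosed k] [FunField k (FF k M)] in
theorem rm_ne_poly (p : ℕ) [hp : Fact p.Prime] (P : k[X]) :
    rm k (pp p) ≠ aeval (jqModC k) P := by
  intro h
  have hP : P ≠ 0 := by
    rintro rfl
    rw [map_zero] at h
    exact rm_ne_zero _ h
  haveI : NeZero 1 := ⟨one_ne_zero⟩
  have h1 : (aeval (jqModC k) P).order = -(P.natDegree : ℤ) := by
    have h2 := evJ_order (k := k) 1 P hP
    rw [one_mul] at h2
    rw [← h2, evJ_eq_aeval, qExpand_one_apply]
    rfl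
  have h3 : rm k (pp p) * Dc 1 1 = Dc 1 (pp p) := by
    rw [rm, inv_mul_cancel_right₀ (Dc_ne_zero _ _)]
  have h4 := congrArg HahnSeries.order h3
  rw [HahnSeries.order_mul (rm_ne_zero _) (Dc_ne_zero _ _), order_Dc, order_Dc, h, h1] at h4
  have h5 := hp.out.one_lt
  simp only [coe_pp, PNat.one_coe, Nat.cast_one] at h4
  omega

end Rm

section Main

variable {A K k : Type*} [CommRing A] [IsDomain A] [ValuationRing A]
  [Field K] [IsAlgClosed K] [CharZero K] [Algebra A K] [IsFractionRing A K] [Field k]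
  [IsAlgClosed k] [Algebra A k]
  {q M : ℕ} [hq : Fact q.Prime] [NeZero M] (hco : q.Coprime M) [CharP k q]
  (hk : Function.Surjective (algebraMap A k)) (hM : (M : k) ≠ 0)

include hco hk hM in
/-- powers of functions vanishing at the first component are divisible by constants -/
theorem exists_pow_div (hrank : ∀ a c : A, algebraMap A k a = 0 → c ≠ 0 → ∃ n : ℕ, c ∣ a ^ n)
    {ϖ : A} (h0 : ϖ ≠ 0) {y : FF K (q * M)} (hy : Rd A (y : LaurentSeries K)
      (0 : LaurentSeries k)) : ∃ n : ℕ, Rd A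
      (HahnSeries.C (algebraMap A K ϖ)⁻¹ * (y : LaurentSeries K) ^ (n + 1))
      (0 : LaurentSeries k) := by
  rcases eq_or_ne y 0 with rfl | hy0
  · refine ⟨0, ?_⟩
    have : ((0 : FF K (q * M)) : LaurentSeries K) = 0 := rfl
    rw [this, zero_add, pow_one, mul_zero]
    exact Rd.zero
  obtain ⟨c, hc0, hc⟩ := exists_scale_one (A := A) (k := k) hco hM hy0
  obtain ⟨a, ha, ha0⟩ : ∃ a : A, algebraMap A K a = c⁻¹ ∧ algebraMap A k a = 0 := by
    apply isU_C_inv hk
    rw [inv_inv]
    rintro ⟨a, rfl⟩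
    obtain ⟨h1, h2⟩ := hc
    have h3 := (Rd.C (K := K) (k := k) a).mul hy
    rw [mul_zero] at h3
    exact h2 (h3.uniq ⟨h1, rfl⟩).symm
  obtain ⟨n, d, hd⟩ := hrank a ϖ ha0 h0
  refine ⟨n, ?_⟩
  obtain ⟨h1, h2⟩ := hc
  have h3 : Rd A (HahnSeries.C c * (y : LaurentSeries K))
      (πL A K k ⟨_, h1⟩) := ⟨h1, rfl⟩
  have h4 := (Rd.C (K := K) (k := k) (d * a)).mul (h3.pow (n + 1))
  have h40 : algebraMap A k (d * a) = 0 := by rw [map_mul, ha0, mul_zero]
  rw [h40, map_zero, zero_mul] at h4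
  have hϖ : algebraMap A K ϖ ≠ 0 := (map_ne_zero_iff _ (IsFractionRing.injective A K)).2 h0
  have e : HahnSeries.C (algebraMap A K (d * a)) *
      (HahnSeries.C c * (y : LaurentSeries K)) ^ (n + 1) =
      HahnSeries.C (algebraMap A K ϖ)⁻¹ * (y : LaurentSeries K) ^ (n + 1) := by
    rw [mul_pow, ← mul_assoc, ← map_pow, ← map_mul]
    congr 2
    have h5 : algebraMap A K a ^ n = algebraMap A K ϖ * algebraMap A K d := by
      rw [← map_pow, hd, map_mul]
    have h6 : algebraMap A K d = (algebraMap A K ϖ)⁻¹ * algebraMap A K a ^ n := by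
      rw [h5, inv_mul_cancel_left₀ hϖ]
    have hcn := pow_ne_zero n hc0
    rw [map_mul, h6, ha, inv_pow, pow_succ]
    field_simp
  rw [e] at h4
  exact h4

variable [Algebra A (FF K (q * M))] [IsScalarTower A K (FF K (q * M))]
  [Algebra A (FF k M)] [IsScalarTower A k (FF k M)]
  [FunField k (FF k M)] [FunField K (FF K M)] [FunField K (FF K (q * M))]

include hco in
/-- **There are nodes.** -/
theorem nonempty_nd (hgen : rrGenus k (FF k M) = rrGenus K (FF K M)) (b : A)
    (hb : (algebraMap A k b) ^ (q * q) ≠ algebraMap A k b)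
    (hrank : ∀ a c : A, algebraMap A k a = 0 → c ≠ 0 → ∃ n : ℕ, c ∣ a ^ n) :
    Nonempty (Nd (ng K hco hk hM b) hk (fd k q M).nodes) := by
  by_contra hcon
  rw [not_nonempty_iff] at hcon
  have hqK : (q : K) ≠ 0 := Nat.cast_ne_zero.2 hq.out.ne_zero
  have hqA : (q : A) ^ 12 ≠ 0 := by
    apply pow_ne_zero
    intro h
    apply hqK
    have := congrArg (algebraMap A K) h
    rwa [map_natCast, map_zero] at this
  obtain ⟨n, x, hx, hxL, hxe⟩ := exists_idem (nodMod_ng (K := K) hco hk hM hgen b hb) hcon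
  have hx1 : Rd A (x : LaurentSeries K) (1 : LaurentSeries k) := by
    refine ⟨hx.1, ?_⟩
    have := congrArg (fun y : FF k M × FF k M => (y.1 : LaurentSeries k)) hxe
    exact this
  have hx2 : Rd A (w K hco x : LaurentSeries K) (0 : LaurentSeries k) := by
    refine ⟨hx.2, ?_⟩
    have := congrArg (fun y : FF k M × FF k M => (y.2 : LaurentSeries k)) hxe
    exact this
  obtain ⟨N, hN⟩ := exists_pow_div hco hk hM hrank hqA hx2
  -- the function `y = r x ^ (N + 1)`
  have hr := rd_rm (A := A) (K := K) (k := k) (pp q)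
  have hrk := rm_ne_zero (k := k) (pp q)
  have hy1 : Rd A ((rF K q M * x ^ (N + 1) : FF K (q * M)) : LaurentSeries K) (rm k (pp q)) := by
    have := hr.mul (hx1.pow (N + 1))
    rw [one_pow, mul_one] at this
    exact this
  have hy2 : Rd A (w K hco (rF K q M * x ^ (N + 1)) : LaurentSeries K) (0 : LaurentSeries k) := by
    have := (hr.inv hrk).mul hN
    rw [mul_zero] at this
    convert this using 1
    have e1 : w K hco (rF K q M * x ^ (N + 1)) =
        (rF K q M)⁻¹ * (algebraMap K _ (((q : K) ^ 12)⁻¹) * w K hco x ^ (N + 1)) := by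
      rw [map_mul, map_pow, w_rF]
      ring
    rw [e1, MulMemClass.coe_mul, val_algebraMap_mul, map_pow (algebraMap A K), map_natCast]
    rfl
  have hyW : rF K q M * x ^ (N + 1) ∈ WW A K k hco := ⟨hy1.choose, hy2.choose⟩
  obtain ⟨g1, -⟩ := reg_rF (K := K) (q := q) (M := M)
  have hyR : Reg K (jF' K (q * M)) (rF K q M * x ^ (N + 1)) := by
    have h1 : Reg K (jF' K (q * M)) x := by
      rw [← reg_ng hco hk hM b]
      exact reg_of_mem_DD hxL
    have h2 : ∀ m : ℕ, Reg K (jF' K (q * M)) (x ^ m) := by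
      intro m
      induction m with
      | zero => rw [pow_zero]; exact Reg.one _
      | succ m ih => rw [pow_succ]; exact ih.mul h1
    exact g1.mul (h2 _)
  have hyB := reg_of_mem_BB (G := ng K hco hk hM b) hk (ng_hspan hco hk hM b)
    (mem_BB_ng hco hk hM b hyW hyR)
  rw [ng_tb] at hyB
  have h3 : Reg k (jF' k M) (sred K hco hk hM ⟨_, hyW⟩).1 := by
    intro v hv
    exact hyB.1 v ((ord_sub_const_nonneg_iff _).2 hv)
  have h4 : ((sred K hco hk hM ⟨_, hyW⟩).1 : LaurentSeries k) = rm k (pp q) := by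
    rw [coe_sred_fst]
    exact hy1.uniq ⟨_, rfl⟩ |>.symm
  -- the reduction is a rational function of `j`
  have h5 : rm k (pp q) ∈ FF k 1 := by
    have hM1 : ((1 : ℕ) : k) ≠ 0 := by rw [Nat.cast_one]; exact one_ne_zero
    have h6 : ((rF K q 1 : FF K (q * 1)) : LaurentSeries K) ∈ WL A K k := hr.choose
    have h7 := red_mem (A := A) (K := K) (k := k) (q := q) (M := 1) (Nat.coprime_one_right q)
      hM1 hk (rF K q 1) h6
    have h8 : πL A K k ⟨_, h6⟩ = rm k (pp q) := (hr.uniq ⟨h6, rfl⟩).symm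
    rwa [h8] at h7
  obtain ⟨P, hP⟩ := exists_poly_of_reg (k := k) (M := M)
    (r := (sred K hco hk hM ⟨_, hyW⟩).1) (by rw [h4]; exact h5) h3
  rw [h4] at hP
  exact rm_ne_poly q P hP

end Main

end Fermat.Agent.PRem
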