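import Fermat.Agent.PRem.ConcA

/-!
# Wild automorphisms from ramification data
-/

set_option autoImplicit false
set_option linter.unusedSectionVars false
set_option linter.style.haveILetI false

noncomputable section

namespace Fermat.Agent.PRem

open Polynomial IntermediateField Fermat.Agent.Flat Fermat.Agent.FlatRam Fermat.Agent.Places
open Fermat.Agent.FlatRam.RVal

local notation "Ω" => AlgebraicClosure ℚ

variable {A : ValuationSubring (AlgebraicClosure ℚ)} {p : ℕ} [hp : Fact p.Prime]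
  {E : IntermediateField (K0 A) Ω} [FiniteDimensional (K0 A) E]

theorem ge_of_mem (hA : A.LiesOverPrime p) {x : Ω} (hx : x ∈ A) : (rval A p hA).Ge 0 x :=
  (rval_ge_zero_iff hA).2 hx

theorem mem_of_ge (hA : A.LiesOverPrime p) {ϖ : Ω} (h0 : ϖ ≠ 0) {e : ℚ}
    (hw : (rval A p hA).w ϖ = 1 / e) {x : Ω} {n : ℕ} (h : (rval A p hA).Ge (n / e) x) :
    ∃ y ∈ A, x = ϖ ^ n * y := by
  have hn := pow_ne_zero n h0
  refine ⟨(ϖ ^ n)⁻¹ * x, ?_, by rw [mul_inv_cancel_left₀ hn]⟩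
  rw [← rval_ge_zero_iff hA]
  have h1 : (rval A p hA).Ge (-(n / e)) (ϖ ^ n)⁻¹ := by
    right
    rw [w_inv hn, w_pow h0, hw, mul_one_div]
  have h2 := h1.mul h
  rwa [neg_add_cancel] at h2

theorem waut_of (hA : A.LiesOverPrime p) {ϖ : Ω} (hE : ϖ ∈ E) (h0 : ϖ ≠ 0)
    (hw : (rval A p hA).w ϖ = 1 / Module.finrank (K0 A) E) (hϖA : ϖ ∈ A) {σ : Ω ≃ₐ[K0 A] Ω}
    (h1 : σ ϖ - ϖ ≠ 0) (h2 : (rval A p hA).w (σ ϖ - ϖ) = 2 / Module.finrank (K0 A) E) :
    ∃ c : A, WAut E ⟨ϖ, hϖA⟩ (σ : Ω ≃+* Ω) c ∧ (c : Ω) ∉ A.nonunits := by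
  have hn : (0 : ℚ) < Module.finrank (K0 A) E := by
    exact_mod_cast Module.finrank_pos (R := K0 A) (M := E)
  obtain ⟨c, hc, hcϖ⟩ := mem_of_ge hA (n := 2) h0 hw (x := σ ϖ - ϖ) (Or.inr (by
    rw [h2]; norm_num))
  have hc0 : c ≠ 0 := by
    rintro rfl
    rw [mul_zero] at hcϖ
    exact h1 hcϖ
  refine ⟨⟨c, hc⟩, ⟨?_, ?_⟩, ?_⟩
  · intro x hx hxA
    rcases eq_or_ne x 0 with rfl | hx0
    · exact ⟨0, A.zero_mem, by rw [map_zero, mul_zero, add_zero]⟩
    obtain ⟨d, hd, hdg⟩ := FlatRam.exists_rep (rval A p hA) (E := E) (ϖ := ⟨ϖ, hE⟩)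
      (fun h => h0 (congrArg Subtype.val h)) (by
        change (Module.finrank (K0 A) E : ℚ) * (rval A p hA).w ϖ = 1
        rw [hw]; field_simp) ⟨x, hx⟩ (fun h => hx0 (congrArg Subtype.val h))
    have hd' : x = ∑ i, algebraMap (K0 A) Ω (d i) * ϖ ^ (i : ℕ) := by
      have := congrArg (algebraMap E Ω) hd
      rw [map_sum] at this
      refine this.trans (Finset.sum_congr rfl fun i _ => ?_)
      rw [Algebra.smul_def, map_mul, map_pow]
      rfl
    have hg : ∀ i : Fin (Module.finrank (K0 A) E),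
        (rval A p hA).Ge (2 / Module.finrank (K0 A) E)
          (algebraMap (K0 A) Ω (d i) * ((σ ϖ) ^ (i : ℕ) - ϖ ^ (i : ℕ))) := by
      intro i
      rcases eq_or_ne (d i) 0 with hd0 | hd0
      · left; rw [hd0, map_zero, zero_mul]
      have hd0' : algebraMap (K0 A) Ω (d i) ≠ 0 := (_root_.map_ne_zero _).2 hd0
      have hdw : (rval A p hA).Ge 0 (algebraMap (K0 A) Ω (d i)) := by
        right
        obtain ⟨m, hm⟩ := (rval A p hA).w_int (d i) hd0
        rw [hm]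
        have h3 := (hdg i).le (mul_ne_zero hd0' (pow_ne_zero _ h0))
        rw [w_mul hd0' (pow_ne_zero _ h0), w_pow h0, hm, hw] at h3
        have h4 : 0 ≤ (rval A p hA).w x := (wA_nonneg_iff hA hx0).2 hxA
        have h4' : 0 ≤ (rval A p hA).w (((⟨x, hx⟩ : E) : Ω)) := h4
        have h5 : ((i : ℕ) : ℚ) < Module.finrank (K0 A) E := by exact_mod_cast i.2
        have h6 : ((i : ℕ) : ℚ) * (1 / Module.finrank (K0 A) E) < 1 := by
          rw [mul_one_div, div_lt_one hn]; exact h5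
        have h7 : (-1 : ℚ) < m := by linarith
        have h8 : (-1 : ℤ) < m := by exact_mod_cast h7
        exact_mod_cast (by omega : (0 : ℤ) ≤ m)
      have h3 : (σ ϖ) ^ (i : ℕ) - ϖ ^ (i : ℕ) = (σ ϖ - ϖ) *
          ∑ j ∈ Finset.range i, (σ ϖ) ^ j * ϖ ^ (i - 1 - j : ℕ) := by
        rw [mul_comm]
        exact ((Commute.all (σ ϖ) ϖ).geom_sum₂_mul i).symm
      rw [h3]
      have h4 : (rval A p hA).Ge 0 (∑ j ∈ Finset.range i, (σ ϖ) ^ j * ϖ ^ (i - 1 - j : ℕ)) := by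
        apply ge_of_mem
        refine sum_mem fun j _ => mul_mem (pow_mem ?_ _) (pow_mem hϖA _)
        exact aut_mem A σ hϖA
      have h5 : (rval A p hA).Ge (2 / Module.finrank (K0 A) E) (σ ϖ - ϖ) := Or.inr h2.ge
      have := hdw.mul (h5.mul h4)
      rwa [zero_add, add_zero] at this
    have hs := RVal.Ge.sum Finset.univ _ (fun i _ => hg i)
    obtain ⟨y, hy, h⟩ := mem_of_ge hA (n := 2) h0 hw (by exact_mod_cast hs)
    refine ⟨y, hy, ?_⟩
    change σ x = x + ϖ ^ 2 * y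
    rw [← h]
    conv_lhs => rw [hd']
    conv_rhs => rw [hd']
    rw [map_sum, ← Finset.sum_add_distrib]
    refine Finset.sum_congr rfl fun i _ => ?_
    rw [map_mul, AlgEquiv.commutes, map_pow]
    ring
  · change σ ϖ = ϖ + ϖ ^ 2 * c
    rw [← hcϖ]; ring
  · have h3 : (rval A p hA).w c = 0 := by
      have := congrArg (rval A p hA).w hcϖ
      rw [h2, w_mul (pow_ne_zero _ h0) hc0, w_pow h0, hw] at this
      have e1 : ((2 : ℕ) : ℚ) * (1 / (Module.finrank (K0 A) E : ℚ)) =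
        2 / Module.finrank (K0 A) E := by push_cast; ring
      rw [e1] at this
      linarith
    exact ((rval_eq_zero_iff hA hc0).1 h3).2

end Fermat.Agent.PRem
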