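import Fermat.Agent.PRem.Asm11
import Fermat.Agent.PRem.FreyWild
import Fermat.Agent.PRem.NodeNE
import Fermat.Agent.PRem.WAutE
import Fermat.Agent.Flat.Fib
import Fermat.Agent.Nod.Qbar

/-!
# Removing `p` from the level: assembly
-/

set_option autoImplicit false
set_option linter.unusedSectionVars false
set_option linter.style.haveILetI false

noncomputable section

namespace Fermat.Agent.PRem

open ModularCurve Polynomial IntermediateField Fermat.Agent.ModPoly Fermat.Agent.Red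
  Fermat.Agent.RedMod Fermat.Agent.Cusp Fermat.Agent.SemiSt AlgebraicCurve Fermat.Agent.Curve
  Fermat.Agent.RR Fermat.Agent.Nod Fermat.Agent.Flat Fermat.Agent.FlatRam Fermat.Agent.Places
  Module

local notation "Ω" => AlgebraicClosure ℚ

section Rep

variable {A : ValuationSubring (AlgebraicClosure ℚ)} {p : ℕ} [hp : Fact p.Prime]
  {T : Type*} [AddCommGroup T] [DistribMulAction (Ω ≃ₐ[ℚ] Ω) T]

theorem rep_zsmul (g : Ω ≃ₐ[ℚ] Ω) (n : ℤ) (x : T) : g • n • x = n • g • x :=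
  map_zsmul (DistribSMul.toAddMonoidHom T g) n x

theorem rep_coeff (hT : ∀ x : T, p • x = 0) {Q0 : T} {n : ℤ} (h : n • Q0 ≠ Q0) :
    ¬ (p : ℤ) ∣ n - 1 ∧ ∃ u : ℤ, (u * (n - 1)) • Q0 = Q0 := by
  have hT' : ∀ m : ℤ, ((p : ℤ) * m) • Q0 = 0 := fun m => by
    rw [mul_comm, mul_smul, natCast_zsmul, hT, smul_zero]
  have h1 : ¬ (p : ℤ) ∣ n - 1 := by
    rintro ⟨m, hm⟩
    apply h
    have h2 := hT' m
    rw [← hm, sub_smul, one_smul] at h2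
    exact sub_eq_zero.1 h2
  refine ⟨h1, ?_⟩
  have h2 : IsCoprime (p : ℤ) (n - 1) :=
    (Int.isCoprime_iff_gcd_eq_one).2 (by
      rcases (Nat.dvd_prime hp.out).1 (Int.natCast_dvd_natCast.1
        ((Int.gcd_dvd_left (p : ℤ) (n - 1)))) with h3 | h3
      · exact h3
      · exact absurd (h3 ▸ Int.gcd_dvd_right (p : ℤ) (n - 1)) h1)
  obtain ⟨a, u, hau⟩ := h2
  refine ⟨u, ?_⟩
  have h3 : u * (n - 1) = 1 - p * a := by linear_combination hau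
  rw [h3, sub_smul, one_smul, hT', sub_zero]

/-- fixed vectors in the split case -/
theorem rep_fix (hT : ∀ x : T, p • x = 0) {Q0 : T}
    (hI : ∀ τ : Ω ≃ₐ[K0 A] Ω, (∃ n : ℤ, rs τ • Q0 = n • Q0) ∧
      ∀ Q : T, ∃ n : ℤ, rs τ • Q - Q = n • Q0)
    (hfix : ∀ τ : Ω ≃ₐ[K0 A] Ω, rs τ • Q0 = Q0 → ∀ Q : T, rs τ • Q = Q)
    {τ₀ : Ω ≃ₐ[K0 A] Ω} (h0 : rs τ₀ • Q0 ≠ Q0) {Q : T} (hQ : ∀ n : ℤ, Q ≠ n • Q0) :
    ∃ Q1 : T, Q1 ≠ 0 ∧ ∀ τ : Ω ≃ₐ[K0 A] Ω, rs τ • Q1 = Q1 := by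
  obtain ⟨⟨n, hn⟩, h1⟩ := hI τ₀
  obtain ⟨m, hm⟩ := h1 Q
  obtain ⟨-, u, hu⟩ := rep_coeff hT (by rw [← hn]; exact h0)
  have hQ1 : rs τ₀ • (Q - (m * u) • Q0) = Q - (m * u) • Q0 := by
    have e1 : rs τ₀ • Q = Q + m • Q0 := by rw [← hm]; abel
    rw [smul_sub, rep_zsmul, hn, e1]
    have e2 : (m * u) • n • Q0 = m • Q0 + (m * u) • Q0 := by
      have : m • Q0 = m • (u * (n - 1)) • Q0 := by rw [hu]
      rw [this, smul_smul, smul_smul, ← add_smul]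
      congr 1
      ring
    rw [e2]
    abel
  refine ⟨Q - (m * u) • Q0, fun h => hQ _ (sub_eq_zero.1 h), fun τ => ?_⟩
  obtain ⟨⟨n', hn'⟩, h2⟩ := hI τ
  obtain ⟨m', hm'⟩ := h2 (Q - (m * u) • Q0)
  obtain ⟨Q1, hQ1e⟩ : ∃ Q1, Q1 = Q - (m * u) • Q0 := ⟨_, rfl⟩
  rw [← hQ1e] at hQ1 hm' ⊢
  -- commutation
  have hc : rs (τ₀ * τ) • Q1 = rs (τ * τ₀) • Q1 := by
    have e1 : rs ((τ * τ₀)⁻¹ * (τ₀ * τ)) • Q0 = Q0 := by
      have e2 : rs (τ₀ * τ) • Q0 = rs (τ * τ₀) • Q0 := by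
        rw [rs_mul, rs_mul, mul_smul, mul_smul, hn', hn, rep_zsmul, rep_zsmul, hn', hn,
          smul_smul, smul_smul, mul_comm]
      rw [rs_mul, mul_smul, e2, ← mul_smul, ← rs_mul, inv_mul_cancel, rs_one, one_smul]
    have e3 := hfix _ e1 Q1
    rw [rs_mul, mul_smul] at e3
    have e4 := congrArg (fun x => rs (τ * τ₀) • x) e3
    beta_reduce at e4
    rwa [← mul_smul, ← rs_mul, mul_inv_cancel, rs_one, one_smul] at e4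
  rw [rs_mul, rs_mul, mul_smul, mul_smul, hQ1] at hc
  have e5 : rs τ • Q1 = Q1 + m' • Q0 := by rw [← hm']; abel
  rw [e5, smul_add, hQ1, rep_zsmul, hn] at hc
  have e6 : m' • n • Q0 = m' • Q0 := add_left_cancel hc
  have e7 : m' • Q0 = 0 := by
    have e8 : m' • Q0 = m' • (u * (n - 1)) • Q0 := by rw [hu]
    rw [e8]
    have e9 : m' • (u * (n - 1)) • Q0 = u • (m' • n • Q0 - m' • Q0) := by
      rw [smul_sub, smul_smul, smul_smul, smul_smul, smul_smul, ← sub_smul]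
      congr 1
      ring
    rw [e9, e6, sub_self, smul_zero]
  rw [e5, e7, add_zero]

end Rep

section Galois

variable {A : ValuationSubring (AlgebraicClosure ℚ)} {p : ℕ} [hp : Fact p.Prime]

theorem mem_of_fixing {E : IntermediateField (K0 A) Ω} {y : Ω}
    (h : ∀ σ ∈ E.fixingSubgroup, σ y = y) : y ∈ E := by
  refine mem_of_Fx fun σ hσ => ?_
  obtain ⟨τ, hτ, rfl⟩ := exists_of_mem_Fx hσ
  exact h τ hτ

theorem le_of_fixing {E E' : IntermediateField (K0 A) Ω}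
    (h : E'.fixingSubgroup ≤ E.fixingSubgroup) : E ≤ E' := fun x hx =>
  mem_of_fixing fun σ hσ => ((IntermediateField.mem_fixingSubgroup_iff _ _).1 (h hσ)) x hx

/-- automorphisms of `Ω` fixing an extension of `K0` -/
theorem exists_rs {E : IntermediateField (K0 A) Ω} {σ : Ω ≃ₐ[ℚ] Ω} (h : ∀ x ∈ E, σ x = x) :
    ∃ τ : Ω ≃ₐ[K0 A] Ω, τ ∈ E.fixingSubgroup ∧ rs τ = σ := by
  obtain ⟨τ, hτ, e⟩ := exists_of_mem_Fx (E := E) (σ := (σ : Ω ≃+* Ω)) h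
  exact ⟨τ, hτ, AlgEquiv.ext fun x => RingEquiv.congr_fun e x⟩

end Galois

section Main

variable {A : ValuationSubring (AlgebraicClosure ℚ)} {p : ℕ} [hp : Fact p.Prime]
  {M : ℕ} [NeZero M] {k : Type*} [Field k] [Algebra A k] [CharP k p] [IsAlgClosed k]
  {hk : Function.Surjective (algebraMap A k)} {hco : p.Coprime M} {hM : (M : k) ≠ 0} {b : A}
  [Algebra A (FF Ω (p * M))] [IsScalarTower A Ω (FF Ω (p * M))]
  [Algebra A (FF k M)] [IsScalarTower A k (FF k M)]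
  [FunField k (FF k M)] [FunField Ω (FF Ω M)] [FunField Ω (FF Ω (p * M))]
  {c : ℕ → ℤ} {P : ℕ → Prop}
  {T : Type*} [AddCommGroup T] [DistribMulAction (Ω ≃ₐ[ℚ] Ω) T]
  (H : NodMod (ng Ω hco hk hM b) hk (ng_hspan hco hk hM b) (fd k p M).nodes)

theorem exists_RS_bot (hk : Function.Surjective (algebraMap A k)) (hco : p.Coprime M)
    (hM : (M : k) ≠ 0) (hA : A.LiesOverPrime p) {b : A}
    (hb : (b : Ω) ∈ K0 A) : ∃ (ϖ : A) (Q : RatStr (ng Ω hco hk hM b)),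
      RS (⊥ : IntermediateField (K0 A) Ω) 1 ϖ Q := by
  obtain ⟨ϖ, U⟩ := exists_Unif hA (⊥ : IntermediateField (K0 A) Ω)
  rw [IntermediateField.finrank_bot] at U
  obtain ⟨Q, R⟩ := exists_RS hk hco hM U hA hb
  exact ⟨ϖ, Q, R⟩

theorem zpow_aux {F : Type*} [Field F] {x y a a₀ a₁ : F} (hx : x ≠ 0) (ha : a ≠ 0)
    (ha₀ : a₀ ≠ 0) (hy0 : y ≠ 0) {k : ℤ} {q m : ℕ} (hy : y = x ^ k * a)
    (h : y ^ m * a₀ = x ^ (q * m) * a₁) :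
    x ^ ((k - q) * m) = a₁ * (a ^ m)⁻¹ * a₀⁻¹ := by
  rw [hy, mul_pow, ← zpow_natCast (x ^ k) m, ← zpow_mul] at h
  rw [sub_mul, zpow_sub₀ hx]
  have h1 : x ^ ((q : ℤ) * m) = x ^ (q * m) := by
    rw [← zpow_natCast x (q * m)]; push_cast; rfl
  rw [h1]
  have h2 := pow_ne_zero (q * m) hx
  field_simp
  linear_combination h

/-- comparison of uniformizers -/
theorem exists_sq {E₀ L : IntermediateField (K0 A) Ω} [FiniteDimensional (K0 A) L]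
    (hE₀L : E₀ ≤ L) {q m : ℕ} {ϖ₀ ϖ : A} (U₀ : Unif E₀ p m ϖ₀)
    {Q : RatStr (ng Ω hco hk hM b)} (R : RS L (q * m) ϖ Q) (hm : 0 < m) (hq : 2 ≤ q) :
    ∃ v : A, ϖ₀ = ϖ ^ 2 * v := by
  obtain ⟨k', a, -, haA, hau, hk'⟩ := R.U.unit (ϖ₀ : Ω) (hE₀L U₀.mem) U₀.ne
  obtain ⟨u₀, -, hu₀⟩ := U₀.hp
  obtain ⟨u₁, -, hu₁⟩ := R.U.hp
  obtain ⟨a', ha'⟩ := isUnit_of (x := ⟨a, haA⟩) hau
  have haa : ((a' : A) : Ω) = a := by rw [ha']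
  have ha0 : a ≠ 0 := by
    rw [← haa]
    exact fun h => a'.ne_zero (Subtype.ext h)
  have hu₀0 : ((u₀ : A) : Ω) ≠ 0 := fun h => u₀.ne_zero (Subtype.ext h)
  have h1 : (ϖ₀ : Ω) ^ m * ((u₀ : A) : Ω) = (ϖ : Ω) ^ (q * m) * ((u₁ : A) : Ω) := by
    have := congrArg (fun x : A => (x : Ω)) (hu₀.symm.trans hu₁)
    beta_reduce at this
    push_cast at this
    exact this
  have h2 := zpow_aux R.U.ne ha0 hu₀0 U₀.ne hk' h1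
  have h3 : (ϖ : Ω) ^ ((k' - q) * m) = (((u₁ * (a' ^ m)⁻¹ * u₀⁻¹ : Aˣ) : A) : Ω) := by
    rw [h2, Units.val_mul, Units.val_mul, coeA_mul, coeA_mul, coeA_inv, coeA_inv,
      Units.val_pow_eq_pow_val, ← haa]
    push_cast
    rfl
  have h4 := R.zpow_unit h3
  have h5 : k' = q := by
    rcases mul_eq_zero.1 h4 with h | h
    · linarith
    · exfalso
      have : m = 0 := by exact_mod_cast h
      omega
  refine ⟨ϖ ^ (q - 2) * ⟨a, haA⟩, Subtype.ext ?_⟩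
  rw [hk', h5, zpow_natCast]
  push_cast
  rw [← mul_assoc, ← pow_add]
  congr 2
  omega

include H in
theorem concl_split [hN : Nonempty (Nd (ng Ω hco hk hM b) hk (fd k p M).nodes)]
    (ι : Ω →+* ℂ) (hA : A.LiesOverPrime p) (h5 : 5 ≤ p) (hPp : ∀ ℓ, P ℓ → ℓ ≠ p)
    (hb : (b : Ω) ∈ K0 A) (hT : ∀ x : T, p • x = 0) (κ : T →+ Kum.XL (p * M) p)
    (hκ : Function.Injective κ)
    (hκσ : ∀ (σ : Ω ≃ₐ[ℚ] Ω) (Q : T), κ (σ • Q) = Kum.rhoF ι p σ (κ Q))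
    (hκE : ∀ Q : T, EigCls c P (κ Q)) {Q0 : T}
    (hI : ∀ τ : Ω ≃ₐ[K0 A] Ω, (∃ n : ℤ, rs τ • Q0 = n • Q0) ∧
      ∀ Q : T, ∃ n : ℤ, rs τ • Q - Q = n • Q0)
    (hfix : ∀ τ : Ω ≃ₐ[K0 A] Ω, rs τ • Q0 = Q0 → ∀ Q : T, rs τ • Q = Q)
    {τ₀ : Ω ≃ₐ[K0 A] Ω} (h0 : rs τ₀ • Q0 ≠ Q0) {Q : T} (hQ : ∀ n : ℤ, Q ≠ n • Q0)
    {ℓ : ℕ} [hl : Fact ℓ.Prime] (hℓN : ¬ ℓ ∣ p * M) (hPℓ : P ℓ)
    (hne : ¬ (p : ℤ) ∣ c ℓ - ℓ - 1) : CONC p M c P := by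
  obtain ⟨Q1, hQ1, hQ1f⟩ := rep_fix hT hI hfix h0 hQ
  obtain ⟨ϖ, Q', R⟩ := exists_RS_bot hk hco hM hA hb
  refine split_case H ι hA h5 hPp R (ξ := κ Q1) (fun h => hQ1 (hκ (by rw [h, map_zero])))
    (fun σ hσ => ?_) (hκE Q1) hℓN hPℓ hne
  obtain ⟨τ, -, rfl⟩ := exists_rs hσ
  rw [← hκσ, hQ1f]

include H in
theorem concl_nonsplit [hN : Nonempty (Nd (ng Ω hco hk hM b) hk (fd k p M).nodes)]
    (ι : Ω →+* ℂ) (hA : A.LiesOverPrime p) (h5 : 5 ≤ p) (hPp : ∀ ℓ, P ℓ → ℓ ≠ p)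
    (hb : (b : Ω) ∈ K0 A) (hT : ∀ x : T, p • x = 0) (κ : T →+ Kum.XL (p * M) p)
    (hκ : Function.Injective κ)
    (hκσ : ∀ (σ : Ω ≃ₐ[ℚ] Ω) (Q : T), κ (σ • Q) = Kum.rhoF ι p σ (κ Q))
    (hκE : ∀ Q : T, EigCls c P (κ Q)) {Q0 : T}
    (hI : ∀ τ : Ω ≃ₐ[K0 A] Ω, (∃ n : ℤ, rs τ • Q0 = n • Q0) ∧
      ∀ Q : T, ∃ n : ℤ, rs τ • Q - Q = n • Q0)
    {E₀ L : IntermediateField (K0 A) Ω} [FiniteDimensional (K0 A) E₀]
    [FiniteDimensional (K0 A) L] (hE₀L : E₀ ≤ L)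
    (hE₀ : ∀ σ : Ω ≃ₐ[K0 A] Ω, σ ∈ E₀.fixingSubgroup ↔ rs σ • Q0 = Q0)
    (hL : ∀ σ : Ω ≃ₐ[K0 A] Ω, σ ∈ L.fixingSubgroup ↔ ∀ Q : T, rs σ • Q = Q)
    (hfE₀ : finrank (K0 A) E₀ = p - 1) (hfL : finrank (K0 A) L = p * (p - 1))
    {ϖ : Ω} (hϖL : ϖ ∈ L) (hϖ0 : ϖ ≠ 0) (hϖw : (rval A p hA).w ϖ = 1 / (p * (p - 1)))
    (hϖσ : ∀ σ ∈ E₀.fixingSubgroup, σ ∉ L.fixingSubgroup →
      σ ϖ - ϖ ≠ 0 ∧ (rval A p hA).w (σ ϖ - ϖ) = 2 / (p * (p - 1)))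
    {τ₀ : Ω ≃ₐ[K0 A] Ω} (h0 : rs τ₀ • Q0 ≠ Q0)
    {ℓ : ℕ} [hl : Fact ℓ.Prime] (hℓN : ¬ ℓ ∣ p * M) (hPℓ : P ℓ)
    (hne : ¬ (p : ℤ) ∣ c ℓ - ℓ - 1) : CONC p M c P := by
  have hp1 := hp.out.one_lt
  -- the wild automorphism
  obtain ⟨σ, hσE₀, hσL⟩ : ∃ σ : Ω ≃ₐ[K0 A] Ω, σ ∈ E₀.fixingSubgroup ∧ σ ∉ L.fixingSubgroup := by
    by_contra hcon
    push Not at hcon
    have h1 : L = E₀ := le_antisymm (le_of_fixing hcon) hE₀L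
    rw [h1, hfE₀] at hfL
    obtain ⟨d, rfl⟩ : ∃ d, p = d + 5 := ⟨p - 5, by omega⟩
    have h2 : d + 5 - 1 = d + 4 := by omega
    rw [h2] at hfL
    nlinarith
  obtain ⟨Q1, hQ1⟩ : ∃ Q1 : T, rs σ • Q1 ≠ Q1 := by
    by_contra hcon
    push Not at hcon
    exact hσL ((hL σ).2 hcon)
  obtain ⟨m, hm⟩ := (hI σ).2 Q1
  have hm0 : m • Q0 ≠ 0 := fun h => hQ1 (sub_eq_zero.1 (hm.trans h))
  -- the uniformizers
  have hcast : ((finrank (K0 A) L : ℕ) : ℚ) = p * (p - 1) := by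
    rw [hfL]; push_cast [Nat.cast_sub hp1.le]; ring
  have hpos : (0 : ℚ) < p * (p - 1) := by
    have : (1 : ℚ) < p := by exact_mod_cast hp1
    nlinarith
  obtain ⟨hϖA, U⟩ := unif_of_w hA hϖL hϖ0
    (by rw [hcast, hϖw, mul_one_div, div_self hpos.ne'])
  rw [hfL] at U
  obtain ⟨Q', R⟩ := exists_RS hk hco hM U hA hb
  obtain ⟨ϖ₀, U₀⟩ := exists_Unif hA E₀
  rw [hfE₀] at U₀
  obtain ⟨Q₀, R₀⟩ := exists_RS hk hco hM U₀ hA hb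
  obtain ⟨ϖ₁, Q₁, R₁⟩ := exists_RS_bot hk hco hM hA hb
  -- the relation between the uniformizers
  obtain ⟨v, hv⟩ : ∃ v : A, Q₀.ϖ = Q'.ϖ ^ 2 * v := by
    rw [R₀.hϖ, R.hϖ]
    exact exists_sq hE₀L U₀ R (by omega) hp1
  -- the automorphism
  obtain ⟨h1, h2⟩ := hϖσ σ hσE₀ hσL
  obtain ⟨c', W, hc'⟩ := waut_of hA hϖL hϖ0 (by rw [hcast, hϖw]) hϖA h1 (by rw [hcast, h2])
  obtain ⟨n, hn⟩ := R.ψ
  obtain ⟨z, S⟩ := W.wild hk U hco hM hA (b := b) (σ.commutes ⟨b, hb⟩) Q' R.S R.hϖ hn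
    (by rw [R.hψ', hn]) (fun h => hc' ((red_eq_zero_iff hk).1 h))
  -- the stability of `L`
  have hσE : ∀ x ∈ L, σ x ∈ L := by
    intro x hx
    refine mem_of_fixing fun τ hτ => ?_
    have h3 : σ⁻¹ * τ * σ ∈ L.fixingSubgroup := by
      rw [hL] at hτ ⊢
      intro Q
      rw [rs_mul, rs_mul, mul_smul, mul_smul, hτ, ← mul_smul, ← rs_mul, inv_mul_cancel, rs_one,
        one_smul]
    have h4 := (IntermediateField.mem_fixingSubgroup_iff _ _).1 h3 x hx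
    have h5 := congrArg σ h4
    rw [AlgEquiv.mul_apply, AlgEquiv.mul_apply, ← AlgEquiv.mul_apply σ σ⁻¹, mul_inv_cancel] at h5
    exact h5
  obtain ⟨⟨n', hn'⟩, -⟩ := hI τ₀
  have hn'1 := (rep_coeff hT (by rw [← hn']; exact h0)).1
  have hσ0 : rs σ • Q0 = Q0 := (hE₀ σ).1 hσE₀
  refine nonsplit_case H ι hA h5 hPp R₁ R₀ R hE₀L hv hσE S (τ := τ₀) hn'1
    (ξ := κ Q1) (ξ₀ := κ (m • Q0)) (fun h => hm0 (hκ (by rw [h, map_zero]))) ?_ ?_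
    (fun σ' hσ' => ?_) (fun σ' hσ' => ?_) (hκE _) (hκE _) hℓN hPℓ hne
  · rw [← map_add, ← hm]
    have := (hκσ (rs σ) Q1).symm
    rw [add_sub_cancel]
    exact this
  · have := (hκσ (rs τ₀) (m • Q0)).symm
    rw [rep_zsmul, hn', smul_comm, map_zsmul κ n' (m • Q0)] at this
    exact this
  · obtain ⟨τ, hτ, rfl⟩ := exists_rs hσ'
    rw [← hκσ, (hL τ).1 hτ]
  · obtain ⟨τ, hτ, rfl⟩ := exists_rs hσ'
    rw [← hκσ, rep_zsmul, (hE₀ τ).1 hτ]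

end Main

end Fermat.Agent.PRem
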