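import Fermat.Agent.PRem.Asm12
import Fermat.Agent.PRem.BLR
import Fermat.Agent.Places.Existence
import Fermat.Agent.Spec.Level
import Fermat.Prelude.Def_FreyPackage_IsConductorLevel
import Fermat.Prelude.Def_FLTPrelim_ModularRep

/-!
# Removing `p` from the level
-/

set_option autoImplicit false
set_option linter.unusedSectionVars false
set_option linter.style.haveILetI false

noncomputable section

namespace Fermat.Agent.PRem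

open ModularCurve Polynomial IntermediateField Fermat.Agent.ModPoly Fermat.Agent.Red
  Fermat.Agent.RedMod Fermat.Agent.Cusp Fermat.Agent.SemiSt AlgebraicCurve Fermat.Agent.Curve
  Fermat.Agent.RR Fermat.Agent.Nod Fermat.Agent.Flat Fermat.Agent.FlatRam Fermat.Agent.Places
  Module WeierstrassCurve WeierstrassCurve.Affine WeierstrassCurve.Affine.Point

local notation "Ω" => AlgebraicClosure ℚ

section Main

variable {A : ValuationSubring (AlgebraicClosure ℚ)} {p : ℕ} [hp : Fact p.Prime]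
  {M : ℕ} [NeZero M] {k : Type*} [Field k] [Algebra A k] [CharP k p] [IsAlgClosed k]
  {hk : Function.Surjective (algebraMap A k)} {hco : p.Coprime M} {hM : (M : k) ≠ 0} {b : A}
  [Algebra A (FF Ω (p * M))] [IsScalarTower A Ω (FF Ω (p * M))]
  [Algebra A (FF k M)] [IsScalarTower A k (FF k M)]
  [FunField k (FF k M)] [FunField Ω (FF Ω M)] [FunField Ω (FF Ω (p * M))]
  {c : ℕ → ℤ} {P : ℕ → Prop}
  {T : Type*} [AddCommGroup T] [DistribMulAction (Ω ≃ₐ[ℚ] Ω) T]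
  (H : NodMod (ng Ω hco hk hM b) hk (ng_hspan hco hk hM b) (fd k p M).nodes)

include H in
theorem concl_all [hN : Nonempty (Nd (ng Ω hco hk hM b) hk (fd k p M).nodes)]
    (ι : Ω →+* ℂ) (hA : A.LiesOverPrime p) (h5 : 5 ≤ p) (hPp : ∀ ℓ, P ℓ → ℓ ≠ p)
    (hb : (b : Ω) ∈ K0 A) (hT : ∀ x : T, p • x = 0) (κ : T →+ Kum.XL (p * M) p)
    (hκ : Function.Injective κ)
    (hκσ : ∀ (σ : Ω ≃ₐ[ℚ] Ω) (Q : T), κ (σ • Q) = Kum.rhoF ι p σ (κ Q))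
    (hκE : ∀ Q : T, EigCls c P (κ Q)) {Q0 : T}
    (hI : ∀ τ : Ω ≃ₐ[K0 A] Ω, (∃ n : ℤ, rs τ • Q0 = n • Q0) ∧
      ∀ Q : T, ∃ n : ℤ, rs τ • Q - Q = n • Q0)
    {Q : T} (hQ : ∀ n : ℤ, Q ≠ n • Q0)
    {E₀ L : IntermediateField (K0 A) Ω} [FiniteDimensional (K0 A) E₀]
    [FiniteDimensional (K0 A) L] (hE₀L : E₀ ≤ L)
    (hE₀ : ∀ σ : Ω ≃ₐ[K0 A] Ω, σ ∈ E₀.fixingSubgroup ↔ rs σ • Q0 = Q0)
    (hL : ∀ σ : Ω ≃ₐ[K0 A] Ω, σ ∈ L.fixingSubgroup ↔ ∀ Q : T, rs σ • Q = Q)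
    (hfE₀ : finrank (K0 A) E₀ = p - 1)
    (hcase : L = E₀ ∨ (finrank (K0 A) L = p * (p - 1) ∧
      ∃ ϖ ∈ L, ϖ ≠ 0 ∧ (rval A p hA).w ϖ = 1 / (p * (p - 1)) ∧
        ∀ σ ∈ E₀.fixingSubgroup, σ ∉ L.fixingSubgroup →
          σ ϖ - ϖ ≠ 0 ∧ (rval A p hA).w (σ ϖ - ϖ) = 2 / (p * (p - 1))))
    {ℓ : ℕ} [hl : Fact ℓ.Prime] (hℓN : ¬ ℓ ∣ p * M) (hPℓ : P ℓ)
    (hne : ¬ (p : ℤ) ∣ c ℓ - ℓ - 1) : CONC p M c P := by
  obtain ⟨τ₀, h0⟩ : ∃ τ₀ : Ω ≃ₐ[K0 A] Ω, rs τ₀ • Q0 ≠ Q0 := by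
    by_contra hcon
    push Not at hcon
    have h1 : E₀ = ⊥ := by
      refine le_bot_iff.1 (le_of_fixing fun σ _ => (hE₀ σ).2 (hcon σ))
    rw [h1, IntermediateField.finrank_bot] at hfE₀
    omega
  rcases hcase with h | ⟨hfL, ϖ, hϖL, hϖ0, hϖw, hϖσ⟩
  · subst h
    exact concl_split H ι hA h5 hPp hb hT κ hκ hκσ hκE hI
      (fun τ hτ => (hL τ).1 ((hE₀ τ).2 hτ)) h0 hQ hℓN hPℓ hne
  · exact concl_nonsplit H ι hA h5 hPp hb hT κ hκ hκσ hκE hI hE₀L hE₀ hL hfE₀ hfL hϖL hϖ0 hϖw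
      hϖσ h0 hℓN hPℓ hne

end Main

section Frey

attribute [local instance] Spec.algFF

variable {P : FreyPackage}

/-- points of order `p` outside a line -/
theorem exists_not_mem {E : WeierstrassCurve ℚ} [E.IsElliptic] {p : ℕ} [hp : Fact p.Prime]
    (hp2 : p ≠ 2) (Q0 : TE E p) : ∃ Q : TE E p, ∀ n : ℤ, Q ≠ n • Q0 := by
  by_contra hcon
  push Not at hcon
  have h1 : ⊤ ≤ Submodule.span (ZMod p) {Q0} := by
    intro x _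
    obtain ⟨n, rfl⟩ := hcon x
    rw [← intCast_smul_TE]
    exact Submodule.smul_mem _ _ (Submodule.mem_span_singleton_self _)
  have h2 := finrank_TE (E := E) hp2
  have h3 : finrank (ZMod p) (Submodule.span (ZMod p) {Q0}) ≤ 1 := 
    (finrank_span_le_card _).trans (by simp)
  rw [top_le_iff.1 h1, finrank_top, h2] at h3
  omega

theorem ell_frey (P : FreyPackage) : P.freyCurve.IsElliptic :=
  ⟨isUnit_iff_ne_zero.2 (EC.frey_Δ_ne P)⟩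

theorem conc_k (P : FreyPackage) [hp : Fact P.p.Prime] {M : ℕ} [NeZero M]
    (hpM : ¬ P.p ∣ M) (hpabc : (P.p : ℤ) ∣ P.a * P.b * P.c)
    {A : ValuationSubring (AlgebraicClosure ℚ)} (hA : A.LiesOverPrime P.p)
    {k : Type*} [Field k] [Algebra A k] [CharP k P.p] [IsAlgClosed k]
    (hk : Function.Surjective (algebraMap A k)) (hM : (M : k) ≠ 0)
    (hkK0 : ∀ x : k, ∃ b : A, (b : Ω) ∈ K0 A ∧ algebraMap A k b = x)
    (ι : Ω →+* ℂ) {c : ℕ → ℤ} {R : ℕ → Prop} (hRp : ∀ ℓ, R ℓ → ℓ ≠ P.p)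
    (κ : TE P.freyCurve P.p →+ Kum.XL (P.p * M) P.p) (hκ : Function.Injective κ)
    (hκσ : ∀ (σ : Ω ≃ₐ[ℚ] Ω) (Q : TE P.freyCurve P.p), κ (σ • Q) = Kum.rhoF ι P.p σ (κ Q))
    (hκE : ∀ Q : TE P.freyCurve P.p, EigCls c R (κ Q))
    {ℓ : ℕ} [hl : Fact ℓ.Prime] (hℓN : ¬ ℓ ∣ P.p * M) (hPℓ : R ℓ)
    (hne : ¬ (P.p : ℤ) ∣ c ℓ - ℓ - 1) : CONC P.p M c R := by
  have h5 := P.hp5
  have hp2 : P.p ≠ 2 := by omega
  haveI := ell_frey P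
  have hco : P.p.Coprime M := (Nat.Prime.coprime_iff_not_dvd hp.out).2 hpM
  haveI := funField_FF (k := k) (M := M) hM
  haveI := funField_FF (k := Ω) (M := M) (natCast_ne_zero_K Ω M)
  haveI := funField_FF (k := Ω) (M := P.p * M) (natCast_ne_zero_K Ω (P.p * M))
  have hgen := Spec.rrGenus_eq_level (A := A) (K := Ω) ι hk hM
  have hrank := hrank_of hk hA
  have hq1 := hp.out.one_lt
  obtain ⟨b', hb'⟩ := exists_pow_ne k (n := P.p * P.p) (by nlinarith)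
  obtain ⟨b, hb, rfl⟩ := hkK0 b'
  have H := nodMod_ng (K := Ω) hco hk hM hgen b hb'
  haveI := nonempty_nd (K := Ω) hco hk hM hgen b hb' hrank
  obtain ⟨Q0, hQ0, hpQ0, hI, E₀, L, hfdE₀, hfdL, hE₀L, hE₀, hL, hfE₀, hcase⟩ :=
    frey_wild P hA hpabc
  obtain ⟨Q0', rfl⟩ : ∃ Q0' : TE P.freyCurve P.p, (Q0' : (P.freyCurve⁄Ω).Point) = Q0 :=
    ⟨⟨Q0, by rw [Submodule.mem_torsionBy_iff, natCast_zsmul]; exact hpQ0⟩, rfl⟩
  have hT : ∀ x : TE P.freyCurve P.p, P.p • x = 0 := fun x => by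
    apply Subtype.ext
    have := (Submodule.mem_torsionBy_iff _ _).1 x.2
    rw [natCast_zsmul] at this
    exact this
  obtain ⟨Q, hQ⟩ := exists_not_mem (E := P.freyCurve) hp2 Q0'
  refine concl_all H ι hA h5 hRp hb hT κ hκ hκσ hκE (Q0 := Q0') (fun τ => ?_) hQ hE₀L
    (fun σ => ?_) (fun σ => ?_) hfE₀ hcase hℓN hPℓ hne
  · obtain ⟨⟨n, hn⟩, h2⟩ := hI _ (rs_mem τ)
    refine ⟨⟨n, Subtype.ext hn⟩, fun Q => ?_⟩
    obtain ⟨m, hm⟩ := h2 Q.1 (congrArg Subtype.val (hT Q))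
    exact ⟨m, Subtype.ext hm⟩
  · rw [hE₀]
    exact ⟨fun h => Subtype.ext h, fun h => congrArg Subtype.val h⟩
  · rw [hL]
    exact ⟨fun h Q => Subtype.ext (h Q.1 (congrArg Subtype.val (hT Q))), fun h Q hQ =>
      congrArg Subtype.val (h ⟨Q, by rw [Submodule.mem_torsionBy_iff, natCast_zsmul]; exact hQ⟩)⟩

theorem conc_frey (P : FreyPackage) [hp : Fact P.p.Prime] {M : ℕ} [NeZero M]
    (hpM : ¬ P.p ∣ M) (hpabc : (P.p : ℤ) ∣ P.a * P.b * P.c)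
    (hirr : GaloisRepIsIrreducible (K := AlgebraicClosure ℚ) ℚ P.freyCurve P.p)
    {W : WeierstrassCurve ℤ} (hW : W.IsIntegralModelOf P.freyCurve)
    {f : CuspForm (CongruenceSubgroup.Gamma0 (P.p * M)) 2}
    (hf : f.IsNormalizedEigenform) {𝔪 : Ideal (integralClosure ℤ ℂ)} (h𝔪 : 𝔪.IsMaximal)
    (hp𝔪 : (P.p : integralClosure ℤ ℂ) ∈ 𝔪)
    (hcong : ∀ ℓ : ℕ, ℓ.Prime → W.IsGoodPrimeFor ℓ → ¬ ℓ ∣ P.p * M → ℓ ≠ P.p →
      ∃ b : integralClosure ℤ ℂ, (b : ℂ) = ModularFormClass.qCoeff f ℓ ∧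
        b - ((W.apOfModel ℓ : ℤ) : integralClosure ℤ ℂ) ∈ 𝔪) :
    CONC P.p M (fun ℓ => W.apOfModel ℓ) (fun ℓ => W.IsGoodPrimeFor ℓ ∧ ℓ ≠ P.p) := by
  have h5 := P.hp5
  have hp2 : P.p ≠ 2 := by omega
  haveI := ell_frey P
  obtain ⟨ι⟩ := exists_ιC
  obtain ⟨κ, hκ, hκσ, hκT⟩ := exists_blr (N := P.p * M) ι hW hp2 hirr hf h𝔪 hp𝔪 hcong
  obtain ⟨ℓ, hℓ, hℓN, hℓp, hℓW, hne⟩ := exists_not_eis hp2 hW hirr (P.p * M)
    (NeZero.ne _)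
  haveI : Fact ℓ.Prime := ⟨hℓ⟩
  obtain ⟨A, hA⟩ := exists_liesOverPrime Ω P.pp
  haveI : CharP (kk A) P.p := RedMod.charP_residue hA
  refine conc_k P hpM hpabc hA (k := kk A) IsLocalRing.residue_surjective
    (natCast_residue_ne_zero hA hpM) (fun x => ?_) ι (fun ℓ h => h.2) κ hκ hκσ
    (fun Q l hl hlN hPl => ?_) hℓN ⟨hℓW, hℓp⟩ hne
  · obtain ⟨r, hr⟩ := algebraMap_kk_surjective hA x
    exact ⟨⟨r, r.2.1⟩, r.2.2, hr⟩
  · exact hκT ∅ l hl hlN (Set.notMem_empty l) hPl.2 hPl.1 Q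

end Frey

end Fermat.Agent.PRem
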