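import Fermat.Agent.PRem.Slope

/-!
# Wild automorphisms and glueing at the nodes
-/

set_option autoImplicit false
set_option linter.unusedSectionVars false
set_option linter.style.haveILetI false

namespace Fermat.Agent.PRem

open AlgebraicCurve Fermat.Agent.Curve Fermat.Agent.RR Fermat.Agent.Red Fermat.Agent.Nod Module
  Polynomial

section General

theorem exists_one_add_mul_pow {S : Type*} [CommRing S] (d z : S) (i : ℕ) :
    ∃ w : S, (1 + d * z) ^ i = 1 + i * (d * z) + d ^ 2 * w := by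
  induction i with
  | zero => exact ⟨0, by simp⟩
  | succ i ih =>
    obtain ⟨w, hw⟩ := ih
    refine ⟨i * z ^ 2 + w * (1 + d * z), ?_⟩
    rw [pow_succ, hw]; push_cast; ring

variable {k E : Type*} [Field k] [IsAlgClosed k] [Field E] [Algebra k E] [FunField k E]

theorem mem_L_neg_divisor {f : E} : f ∈ riemannRochSpace (-divisor k f) := by
  rw [mem_L]
  intro v
  right
  rw [Finsupp.neg_apply, divisor_apply, neg_neg]

/-- moving poles to zeros -/
theorem mem_L_DD_swap {t : E} (ht : t ≠ 0) (D : Divisor k E) {a : ℕ} {x : E} :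
    x ∈ riemannRochSpace (DD k t 0 a - D) ↔ t ^ a * x ∈ riemannRochSpace (DD k t a 0 - D) := by
  have h := mem_L_add_zsmul ht (DD k t a 0 - D) (a : ℤ) x
  rw [zpow_natCast] at h
  rw [← h]
  have e : DD k t a 0 - D + (a : ℤ) • divisor k t = DD k t 0 a - D := by
    ext v
    rw [Finsupp.add_apply, Finsupp.sub_apply, Finsupp.sub_apply, DD_apply, DD_apply,
      Finsupp.smul_apply, divisor_apply, smul_eq_mul]
    have h1 : max (v.ord t) 0 = max (-v.ord t) 0 + v.ord t := by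
      rcases le_total 0 (v.ord t) with h | h
      · rw [max_eq_left h, max_eq_right (neg_nonpos.2 h), zero_add]
      · rw [max_eq_right h, max_eq_left (neg_nonneg.2 h)]; ring
    rw [h1]
    push_cast
    ring
  rw [e]

end General

variable {A K F k E₁ E₂ : Type*} [CommRing A] [IsDomain A] [ValuationRing A]
  [Field K] [Algebra A K] [IsFractionRing A K] [Field F] [Algebra K F] [Algebra A F]
  [IsScalarTower A K F] [Field k] [Algebra A k] [Field E₁] [Field E₂] [Algebra k E₁]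
  [Algebra k E₂] [Algebra A E₁] [Algebra A E₂] [IsScalarTower A k E₁] [IsScalarTower A k E₂]
  [IsAlgClosed K] [IsAlgClosed k] [CharZero K] [FunField K F] [FunField k E₁] [FunField k E₂]

variable {ι₀ : Type*} [Fintype ι₀] [Nonempty ι₀]
  {G : GaussData A K F k (E₁ × E₂) ι₀} {Q : RatStr G}
  {hk : Function.Surjective (algebraMap A k)}
  {hspan : ∀ x : F, ∃ q : K[X], q ≠ 0 ∧ ∃ P : ι₀ → K[X], aeval G.t q * x = G.comb P}
  {ι : Type*} [Finite ι] {𝒩 : Nodes k E₁ E₂ ι} (H : NodMod G hk hspan 𝒩)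

variable (G) in
/-- `D` is trivial modulo `c`: there are sections congruent to `1` modulo `c`. -/
structure Triv (D : Divisor K F) (c : A) : Prop where
  P : ∃ b : ℕ, ∃ g : F, g ∈ riemannRochSpace (DD K G.t b 0 + D) ∧
    ∃ g' ∈ G.W, g = 1 + algebraMap A F c * g'
  Z : ∃ b : ℕ, ∃ g : F, g ∈ riemannRochSpace (DD K G.t 0 b + D) ∧
    ∃ g' ∈ G.W, g = 1 + algebraMap A F c * g'

variable (Q) in
/-- an automorphism in the wild inertia group, with break `1` -/
structure WildAut (σ : SemilinearAut K F) (z : F) (θ : k) : Prop where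
  t_fix : σ • G.t = G.t
  sub : ∀ x ∈ Q.fld, x ∈ G.W → ∃ y ∈ G.W, σ • x = x + algebraMap A F Q.ϖ ^ 2 * y
  hz : z ∈ G.W
  z1 : r1 G z = 0
  z2 : r2 G z = algebraMap k E₂ θ
  θ0 : θ ≠ 0
  ψ : σ • Q.ψ = Q.ψ * (1 + algebraMap A F Q.ϖ * z)

theorem r1_natCast (i : ℕ) : r1 G (i : F) = i := by
  have h := r1_algebraMap (G := G) (i : A)
  rwa [map_natCast, map_natCast, map_natCast] at h

theorem r2_natCast (i : ℕ) : r2 G (i : F) = i := by
  have h := r2_algebraMap (G := G) (i : A)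
  rwa [map_natCast, map_natCast, map_natCast] at h

theorem r1_ϖ : r1 G (algebraMap A F Q.ϖ) = 0 := by
  rw [r1_algebraMap, Q.ϖk, map_zero]

theorem r2_ϖ : r2 G (algebraMap A F Q.ϖ) = 0 := by
  rw [r2_algebraMap, Q.ϖk, map_zero]

theorem WildAut.twist {σ : SemilinearAut K F} {z : F} {θ : k} (S : WildAut Q σ z θ)
    {D D₀ : Divisor K F} {Fh h : F} (hF : Fh = 1 + algebraMap A F Q.ϖ * h)
    (hh : h ∈ G.W) (hDσ : σ • D + divisor K Fh = D + D₀) {a c b d : ℕ} {g g' : F}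
    (hg : g ∈ riemannRochSpace (DD K G.t b d + D₀)) (hg' : g' ∈ G.W)
    (hgg : g = 1 + algebraMap A F Q.ϖ ^ 2 * g') {i : ℕ} {x : F} (hx : x ∈ Q.fld) (hxW : x ∈ G.W)
    (hxL : Q.ψ ^ i * x ∈ riemannRochSpace (DD K G.t a c - D)) :
    ∃ y ∈ G.W, Q.ψ ^ i * y ∈ riemannRochSpace (DD K G.t (a + b) (c + d) - D) ∧
      r1 G y = r1 G h * r1 G x ∧ r2 G y = (algebraMap k E₂ (i * θ) + r2 G h) * r2 G x := by
  obtain ⟨x', hx', hxx⟩ := S.sub x hx hxW
  have hd : algebraMap A F Q.ϖ ∈ G.W := G.W.algebraMap_mem _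
  set δ := algebraMap A F Q.ϖ with hδ
  obtain ⟨w, hw⟩ := exists_one_add_mul_pow (⟨δ, hd⟩ : G.W) ⟨z, S.hz⟩ i
  have hw' : (1 + δ * z) ^ i = 1 + i * (δ * z) + δ ^ 2 * (w : F) := by
    have := congrArg Subtype.val hw
    push_cast at this
    exact this
  have hiW : (i : F) ∈ G.W := natCast_mem _ i
  -- the element
  let R : F := (i * z * h + w + δ * w * h) * x + (x' + x * g' + δ ^ 2 * x' * g') *
    (1 + δ * (i * z + h) + δ ^ 2 * (i * z * h + w + δ * w * h))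
  have hR1 : (i : F) * z * h + w + δ * w * h ∈ G.W :=
    add_mem (add_mem (mul_mem (mul_mem hiW S.hz) hh) w.2) (mul_mem (mul_mem hd w.2) hh)
  have hR : R ∈ G.W := by
    refine add_mem (mul_mem hR1 hxW) (mul_mem (add_mem (add_mem hx' (mul_mem hxW hg'))
      (mul_mem (mul_mem (pow_mem hd 2) hx') hg')) ?_)
    exact add_mem (add_mem (one_mem _) (mul_mem hd (add_mem (mul_mem hiW S.hz) hh)))
      (mul_mem (pow_mem hd 2) hR1)
  have hy1 : ((i : F) * z + h) * x ∈ G.W := mul_mem (add_mem (mul_mem hiW S.hz) hh) hxW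
  have hy2 : δ * R ∈ G.W := mul_mem hd hR
  refine ⟨((i : F) * z + h) * x + δ * R, add_mem hy1 hy2, ?_, ?_, ?_⟩
  · -- membership
    have h1 : σ • (Q.ψ ^ i * x) ∈ riemannRochSpace (DD K G.t a c - σ • D) := by
      have := smul_mem_L σ hxL
      rwa [smul_sub, smul_DD σ S.t_fix] at this
    have h2 := L_mul_mem (L_mul_mem h1 (mem_L_neg_divisor (f := Fh))) hg
    have e1 : DD K G.t a c - σ • D + -divisor K Fh + (DD K G.t b d + D₀) =
        DD K G.t (a + b) (c + d) - D := by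
      rw [← DD_add]
      have : D₀ = σ • D + divisor K Fh - D := by rw [hDσ]; abel
      rw [this]; abel
    rw [e1] at h2
    have h3 : Q.ψ ^ i * x ∈ riemannRochSpace (DD K G.t (a + b) (c + d) - D) :=
      L_mono (sub_le_sub_right (DD_mono _ (Nat.le_add_right _ _) (Nat.le_add_right _ _)) _) hxL
    have h4 := sub_mem h2 h3
    have e2 : σ • (Q.ψ ^ i * x) * Fh * g - Q.ψ ^ i * x =
        δ * (Q.ψ ^ i * (((i : F) * z + h) * x + δ * R)) := by
      rw [smul_mul', smul_pow', S.ψ, mul_pow, hw', hxx, hF, hgg]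
      simp only [R]
      ring
    rw [e2] at h4
    have h5 := Submodule.smul_mem _ (algebraMap A K Q.ϖ)⁻¹ h4
    have e3 : (algebraMap A K Q.ϖ)⁻¹ • (δ * (Q.ψ ^ i * (((i : F) * z + h) * x + δ * R))) =
        Q.ψ ^ i * (((i : F) * z + h) * x + δ * R) := by
      rw [Algebra.smul_def, map_inv₀, ← IsScalarTower.algebraMap_apply A K F, ← hδ,
        inv_mul_cancel_left₀ Q.ϖF0]
    rwa [e3] at h5
  · rw [r1_add hy1 hy2, r1_mul hd hR, r1_ϖ, zero_mul, add_zero,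
      r1_mul (add_mem (mul_mem hiW S.hz) hh) hxW, r1_add (mul_mem hiW S.hz) hh,
      r1_mul hiW S.hz, S.z1, mul_zero, zero_add]
  · rw [r2_add hy1 hy2, r2_mul hd hR, r2_ϖ, zero_mul, add_zero,
      r2_mul (add_mem (mul_mem hiW S.hz) hh) hxW, r2_add (mul_mem hiW S.hz) hh,
      r2_mul hiW S.hz, S.z2, r2_natCast, map_mul, map_natCast]

theorem uw_t : UW G G.t := by
  have h := G.isUnit_t X X_ne_zero
  rw [aeval_X, Prod.isUnit_iff] at h
  exact ⟨G.ht, h.1.ne_zero, h.2.ne_zero⟩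

theorem r1_t : r1 G G.t = (tb G).1 := r1_of G.ht

theorem t_mem_fld : G.t ∈ Q.fld := Q.t_fix

include H in
/-- the first component of `h` is regular -/
theorem WildAut.regular {σ : SemilinearAut K F} {z : F} {θ : k} (S : WildAut Q σ z θ)
    {φ : F} {m c₀ : ℕ} (T : Thick Q φ m c₀) {p : ℕ} (hp : p ≠ 0)
    {f : F} (hf : UW G f) (hfF : f ∈ Q.fld)
    {D D₀ : Divisor K F} (hD : ∀ v, (p : ℤ) * D v = v.ord f)
    {Fh h : F} (hF : Fh = 1 + algebraMap A F Q.ϖ * h)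
    (hh : h ∈ G.W) (hDσ : σ • D + divisor K Fh = D + D₀) (T₀ : Triv G D₀ (Q.ϖ ^ 2))
    (v : Place k E₁) : Ge v 0 (r1 G h) := by
  by_cases hr : r1 G h = 0
  · exact Or.inl hr
  right
  have hpp : (0 : ℤ) < p := by exact_mod_cast Nat.pos_of_ne_zero hp
  by_cases hv : ∃ j : Nd G hk 𝒩, 𝒩.v j = v
  · obtain ⟨j, rfl⟩ := hv
    obtain ⟨b, g, hg, g', hg', hgg⟩ := T₀.P
    rw [map_pow] at hgg
    obtain ⟨a₀, ha₀⟩ := T.node H hf hfF hD hp 0 j
    obtain ⟨α, ⟨x, hxF, hxW, hxL, hx1, hxα⟩, h1, h2⟩ := ha₀ a₀ le_rfl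
    obtain ⟨y, hy, hyL, hy1, -⟩ := S.twist hF hh hDσ (a := a₀) (c := 0) (i := 0) hg hg' hgg hxF hxW
      (by rw [pow_zero]; rwa [zpow_zero] at hxL)
    have hy0 : r1 G y ≠ 0 := by rw [hy1]; exact mul_ne_zero hr hx1
    have h3 := T.lower H hf hD hp (i := 0) hy (by rw [zpow_zero]; rwa [pow_zero] at hyL) hy0 j
    rw [hy1, Place.ord_mul _ hr hx1, hxα] at h3
    have hν := T.pos H j
    have hm : (0 : ℤ) < m := by exact_mod_cast T.m0
    have h4 : (p : ℤ) * (𝒩.v j).ord (r1 G φ) ≤ p * (m * ((𝒩.v j).ord (r1 G h) + 1)) := by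
      linarith
    have h5 := le_of_mul_le_mul_left h4 hpp
    by_contra hcon
    have h6 : (𝒩.v j).ord (r1 G h) + 1 ≤ 0 := by omega
    have h7 := mul_nonpos_of_nonneg_of_nonpos hm.le h6
    linarith
  · push Not at hv
    obtain ⟨a₀, ha₀⟩ := RatStr.smooth H hf hfF hD hp
    obtain ⟨x, hxF, hxW, hxL, hx1, hxv⟩ := ha₀ a₀ le_rfl v hv
    by_cases ht : 0 ≤ v.ord (tb G).1
    · obtain ⟨b, g, hg, g', hg', hgg⟩ := T₀.P
      rw [map_pow] at hgg
      obtain ⟨y, hy, hyL, hy1, -⟩ := S.twist hF hh hDσ (a := a₀) (c := 0) (i := 0) hg hg' hgg hxF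
        hxW (by rw [pow_zero, one_mul]; exact hxL)
      have hy0 : r1 G y ≠ 0 := by rw [hy1]; exact mul_ne_zero hr hx1
      have h3 := RatStr.lower_zero (Q := Q) H hf hD hp (i := 0) hy (by
        rw [Nat.cast_zero, zpow_zero]; rwa [pow_zero] at hyL) hy0 v
      rw [hy1, Place.ord_mul _ hr hx1] at h3
      have e : ∀ n : ℕ, DD k (tb G).1 n 0 v = 0 := fun n => by
        rw [DD_apply, max_eq_right (neg_nonpos.2 ht)]; ring
      rw [e] at h3 hxv
      have h4 : (p : ℤ) * 0 ≤ p * v.ord (r1 G h) := by linarith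
      exact le_of_mul_le_mul_left h4 hpp
    · push Not at ht
      obtain ⟨d, g, hg, g', hg', hgg⟩ := T₀.Z
      rw [map_pow] at hgg
      have ht0 := uw_t (G := G)
      have htn : G.t ≠ 0 := ht0.ne_zero
      set x' := (G.t ^ a₀)⁻¹ * x with hx'
      have hx'F : x' ∈ Q.fld := mul_mem (inv_mem (pow_mem t_mem_fld _)) hxF
      have hx'W : x' ∈ G.W := mul_mem (ht0.pow a₀).inv.mem hxW
      have hx'L : Q.ψ ^ 0 * x' ∈ riemannRochSpace (DD K G.t 0 a₀ - D) := by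
        rw [pow_zero, one_mul, mem_L_DD_swap htn, hx', mul_inv_cancel_left₀ (pow_ne_zero _ htn)]
        exact hxL
      obtain ⟨y, hy, hyL, hy1, -⟩ := S.twist hF hh hDσ (a := 0) (c := a₀) (i := 0) hg hg' hgg hx'F
        hx'W hx'L
      rw [pow_zero, one_mul, zero_add, mem_L_DD_swap htn] at hyL
      have ht1 := ht0.r1_ne
      have hx'1 : r1 G x' = (r1 G G.t ^ a₀)⁻¹ * r1 G x := by
        rw [hx', r1_mul (ht0.pow a₀).inv.mem hxW, (ht0.pow a₀).r1_inv, r1_pow ht0.mem]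
      have hx'0 : r1 G x' ≠ 0 := by
        rw [hx'1]; exact mul_ne_zero (inv_ne_zero (pow_ne_zero _ ht1)) hx1
      have hyW : G.t ^ (a₀ + d) * y ∈ G.W := mul_mem (pow_mem ht0.mem _) hy
      have hY : r1 G (G.t ^ (a₀ + d) * y) = r1 G G.t ^ (a₀ + d) * (r1 G h * r1 G x') := by
        rw [r1_mul (pow_mem ht0.mem _) hy, r1_pow ht0.mem, hy1]
      have hY0 : r1 G (G.t ^ (a₀ + d) * y) ≠ 0 := by
        rw [hY]; exact mul_ne_zero (pow_ne_zero _ ht1) (mul_ne_zero hr hx'0)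
      have h3 := RatStr.lower_zero (Q := Q) H hf hD hp (i := 0) hyW (by
        rw [Nat.cast_zero, zpow_zero, one_mul]; exact hyL) hY0 v
      rw [hY, Place.ord_mul _ (pow_ne_zero _ ht1) (mul_ne_zero hr hx'0), ord_pow,
        Place.ord_mul _ hr hx'0, hx'1, Place.ord_mul _ (inv_ne_zero (pow_ne_zero _ ht1)) hx1,
        Place.ord_inv, ord_pow, r1_t] at h3
      have e : ∀ n : ℕ, DD k (tb G).1 n 0 v = -(n * v.ord (tb G).1) := fun n => by
        rw [DD_apply, max_eq_left (neg_nonneg.2 ht.le)]; push_cast; ring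
      rw [e] at h3 hxv
      push_cast at h3
      have h4 : (p : ℤ) * 0 ≤ p * v.ord (r1 G h) := by linarith
      exact le_of_mul_le_mul_left h4 hpp

theorem r1_neg {x : F} (hx : x ∈ G.W) : r1 G (-x) = -r1 G x := by
  rw [r1_of hx, r1_of (neg_mem hx)]
  have e : (⟨-x, neg_mem hx⟩ : G.W) = -⟨x, hx⟩ := rfl
  rw [e, map_neg]; rfl

theorem r2_neg {x : F} (hx : x ∈ G.W) : r2 G (-x) = -r2 G x := by
  rw [r2_of hx, r2_of (neg_mem hx)]
  have e : (⟨-x, neg_mem hx⟩ : G.W) = -⟨x, hx⟩ := rfl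
  rw [e, map_neg]; rfl

theorem r1_sub {x y : F} (hx : x ∈ G.W) (hy : y ∈ G.W) : r1 G (x - y) = r1 G x - r1 G y := by
  rw [sub_eq_add_neg, r1_add hx (neg_mem hy), r1_neg hy, sub_eq_add_neg]

theorem r2_sub {x y : F} (hx : x ∈ G.W) (hy : y ∈ G.W) : r2 G (x - y) = r2 G x - r2 G y := by
  rw [sub_eq_add_neg, r2_add hx (neg_mem hy), r2_neg hy, sub_eq_add_neg]

/-- if `h` reduces to a constant, sections extend to the next level -/
theorem WildAut.jump {σ : SemilinearAut K F} {z : F} {θ : k} (S : WildAut Q σ z θ)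
    {D D₀ : Divisor K F} (hDr : Q.IsRat D) {Fh h : F} (hF : Fh = 1 + algebraMap A F Q.ϖ * h)
    (hh : h ∈ G.W) (hDσ : σ • D + divisor K Fh = D + D₀) (T₀ : Triv G D₀ (Q.ϖ ^ 2))
    {c : k} (h1 : r1 G h = algebraMap k E₁ c) (h2 : r2 G h = algebraMap k E₂ c) :
    ∃ b : ℕ, ∀ (a i : ℕ) (x : F), ((i : ℕ) : k) ≠ 0 → x ∈ Q.fld → x ∈ G.W →
      Q.ψ ^ i * x ∈ riemannRochSpace (DD K G.t a 0 - D) →
      r1 G x ∈ Q.AA hk hspan D (a + b) (i + 1) := by
  obtain ⟨b, g, hg, g', hg', hgg⟩ := T₀.P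
  rw [map_pow] at hgg
  refine ⟨b, fun a i x hi hxF hxW hxL => ?_⟩
  obtain ⟨y, hy, hyL, hy1, hy2⟩ := S.twist hF hh hDσ (a := a) (c := 0) (i := i) hg hg' hgg hxF
    hxW hxL
  obtain ⟨ct, hct⟩ := hk c
  obtain ⟨μ, hμ⟩ := hk ((i : k) * θ)⁻¹
  have hctW : algebraMap A F ct ∈ G.W := G.W.algebraMap_mem _
  have hμW : algebraMap A F μ ∈ G.W := G.W.algebraMap_mem _
  have hYW : y - algebraMap A F ct * x ∈ G.W := sub_mem hy (mul_mem hctW hxW)
  have hXW : x - algebraMap A F μ * (y - algebraMap A F ct * x) ∈ G.W :=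
    sub_mem hxW (mul_mem hμW hYW)
  rw [RatStr.mem_AA_succ hDr, RatStr.mem_RR]
  refine ⟨_, hXW, ?_, ?_⟩
  · rw [zpow_natCast]
    rw [add_zero] at hyL
    have hxL' : Q.ψ ^ i * x ∈ riemannRochSpace (DD K G.t (a + b) 0 - D) :=
      L_mono (sub_le_sub_right (DD_mono _ (Nat.le_add_right _ _) le_rfl) _) hxL
    have e : Q.ψ ^ i * (x - algebraMap A F μ * (y - algebraMap A F ct * x)) =
        Q.ψ ^ i * x - algebraMap A K μ • (Q.ψ ^ i * y - algebraMap A K ct • (Q.ψ ^ i * x)) := by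
      rw [Algebra.smul_def, Algebra.smul_def, ← IsScalarTower.algebraMap_apply A K F,
        ← IsScalarTower.algebraMap_apply A K F]
      ring
    rw [e]
    exact sub_mem hxL' (Submodule.smul_mem _ _ (sub_mem hyL (Submodule.smul_mem _ _ hxL')))
  · have e1 : r1 G (x - algebraMap A F μ * (y - algebraMap A F ct * x)) = r1 G x := by
      rw [r1_sub hxW (mul_mem hμW hYW), r1_mul hμW hYW, r1_sub hy (mul_mem hctW hxW),
        r1_mul hctW hxW, hy1, h1, r1_algebraMap, r1_algebraMap, hct, sub_self, mul_zero, sub_zero]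
    have e2 : r2 G (x - algebraMap A F μ * (y - algebraMap A F ct * x)) = 0 := by
      rw [r2_sub hxW (mul_mem hμW hYW), r2_mul hμW hYW, r2_sub hy (mul_mem hctW hxW),
        r2_mul hctW hxW, hy2, h2, r2_algebraMap, r2_algebraMap, hct, hμ, add_mul, add_sub_cancel_right,
        ← mul_assoc, ← map_mul, inv_mul_cancel₀ (mul_ne_zero hi S.θ0), map_one, one_mul, sub_self]
    rw [r1_of hXW] at e1
    rw [r2_of hXW] at e2
    exact Prod.ext e1 e2

include H in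
/-- **The nonsplit case**: orders at the nodes are divisible by `p`. -/
theorem WildAut.dvd_node {σ : SemilinearAut K F} {z : F} {θ : k} (S : WildAut Q σ z θ)
    {p : ℕ} (hp : p.Prime) (hp5 : 5 ≤ p) [CharP k p]
    {φ : F} {c₀ : ℕ} (T : Thick Q φ (12 * (p * (p - 1))) c₀)
    {f : F} (hf : UW G f) (hfF : f ∈ Q.fld)
    {D D₀ : Divisor K F} (hD : ∀ v, (p : ℤ) * D v = v.ord f)
    {Fh h : F} (hF : Fh = 1 + algebraMap A F Q.ϖ * h)
    (hh : h ∈ G.W) (hDσ : σ • D + divisor K Fh = D + D₀) (T₀ : Triv G D₀ (Q.ϖ ^ 2))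
    {c : k} (h1 : r1 G h = algebraMap k E₁ c) (h2 : r2 G h = algebraMap k E₂ c)
    (j : Nd G hk 𝒩) (hν12 : (𝒩.v j).ord (r1 G φ) ∣ 12) :
    (p : ℤ) ∣ (𝒩.v j).ord (r1 G f) := by
  have hDr : Q.IsRat D := RatStr.isRat_of_mul hfF hp.ne_zero hD
  have hν := T.pos H j
  set ν := (𝒩.v j).ord (r1 G φ) with hνdef
  set n := (𝒩.v j).ord (r1 G f) with hn
  obtain ⟨k', hk'⟩ := hν12
  have hk0 : 0 < k' := by
    by_contra hcon
    have : k' ≤ 0 := by omega
    nlinarith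
  have hpk : ¬ (p : ℤ) ∣ k' := by
    intro hd
    have h1 : (p : ℤ) ∣ 12 := hd.trans ⟨ν, by rw [hk']; ring⟩
    have h2 : p ∣ 12 := by exact_mod_cast h1
    have h3 : p ∣ 2 * 2 * 3 := h2
    rcases (Nat.Prime.dvd_mul hp).1 h3 with h4 | h4
    · rcases (Nat.Prime.dvd_mul hp).1 h4 with h5 | h5 <;>
        exact absurd (Nat.le_of_dvd (by norm_num) h5) (by omega)
    · exact absurd (Nat.le_of_dvd (by norm_num) h4) (by omega)
  have hpp : (0 : ℤ) < p := by exact_mod_cast hp.pos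
  have hp1 : ((p - 1 : ℕ) : ℤ) = (p : ℤ) - 1 := by
    rw [Nat.cast_sub hp.one_le, Nat.cast_one]
  have hp1pos : (0 : ℤ) < (p : ℤ) - 1 := by
    have : (5 : ℤ) ≤ p := by exact_mod_cast hp5
    linarith
  by_contra hcon
  -- the critical level
  set r : ℤ := (n.natAbs : ℤ) with hr
  have hrn : 0 ≤ r * p - n := by
    have h3 : n ≤ r := Int.le_natAbs
    have h4 : 0 ≤ r := Int.natCast_nonneg _
    nlinarith
  obtain ⟨i, hi⟩ : ∃ i : ℕ, (i : ℤ) = ((p : ℤ) - 1) * k' * (r * p - n) :=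
    ⟨_, Int.toNat_of_nonneg (mul_nonneg (mul_nonneg hp1pos.le hk0.le) hrn)⟩
  have hpi : ¬ (p : ℤ) ∣ (i : ℤ) := by
    rw [hi]
    intro hd
    have hpp' := Nat.prime_iff_prime_int.1 hp
    rcases hpp'.dvd_or_dvd hd with h3 | h3
    · rcases hpp'.dvd_or_dvd h3 with h4 | h4
      · have h5 := Int.le_of_dvd hp1pos h4
        linarith
      · exact hpk h4
    · apply hcon
      have : n = r * p - (r * p - n) := by ring
      rw [this]
      exact dvd_sub (Dvd.intro_left _ rfl) h3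
  have hik : ((i : ℕ) : k) ≠ 0 := by
    intro h0
    apply hpi
    exact_mod_cast (CharP.cast_eq_zero_iff k p i).1 h0
  obtain ⟨a₀, ha₀⟩ := T.node H hf hfF hD hp.ne_zero i j
  obtain ⟨α, ⟨x, hxF, hxW, hxL, hx1, hxα⟩, h3, h4⟩ := ha₀ a₀ le_rfl
  rw [← hνdef, ← hn] at h3 h4
  have hm : ((12 * (p * (p - 1)) : ℕ) : ℤ) = 12 * (p * ((p : ℤ) - 1)) := by
    push_cast
    rw [hp1]
  rw [hm] at h3 h4
  have key : 12 * (p * ((p : ℤ) - 1)) * n + p * i * ν = p * (12 * (p * ((p : ℤ) - 1))) * r := by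
    rw [hi, hk']; ring
  rw [key] at h3
  have h4' : p * (12 * (p * ((p : ℤ) - 1))) * α ≤ p * (12 * (p * ((p : ℤ) - 1))) +
      p * (12 * (p * ((p : ℤ) - 1))) * r - p * ν := by linarith
  have hM : (0 : ℤ) < p * (12 * (p * ((p : ℤ) - 1))) := by positivity
  have hrα : r ≤ α := le_of_mul_le_mul_left h3 hM
  have hαr : α < r + 1 := by
    refine lt_of_mul_lt_mul_left (a := p * (12 * (p * ((p : ℤ) - 1)))) ?_ hM.le
    nlinarith [mul_pos hpp hν]
  have hα : α = r := by omega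
  obtain ⟨b, hb⟩ := S.jump (hk := hk) (hspan := hspan) hDr hF hh hDσ T₀ h1 h2
  have h5 := hb a₀ i x hik hxF hxW (by rwa [zpow_natCast] at hxL)
  obtain ⟨x', hx'W, hx'L, hx'1⟩ := RatStr.mem_AA.1 h5
  rw [← r1_of hx'W] at hx'1
  have h6 := T.lower H hf hD hp.ne_zero hx'W hx'L (by rw [hx'1]; exact hx1) j
  rw [hx'1, hxα, hα, ← hνdef, ← hn, hm] at h6
  have h7 := mul_pos hpp hν
  have h8 : 12 * (p * ((p : ℤ) - 1)) * n + p * (i + 1) * ν =
      12 * (p * ((p : ℤ) - 1)) * n + p * i * ν + p * ν := by ring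
  rw [h8, key] at h6
  linarith

end Fermat.Agent.PRem
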