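import Fermat.Agent.PRem.Levels

/-!
# First order expansions on nodal models
-/

set_option autoImplicit false
set_option linter.unusedSectionVars false

namespace Fermat.Agent.PRem

open AlgebraicCurve Fermat.Agent.Curve Fermat.Agent.RR Fermat.Agent.Red Fermat.Agent.Nod Module
  Polynomial

variable {A K F k E₁ E₂ : Type*} [CommRing A] [IsDomain A] [ValuationRing A]
  [Field K] [Algebra A K] [IsFractionRing A K] [Field F] [Algebra K F] [Algebra A F]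
  [IsScalarTower A K F] [Field k] [Algebra A k] [Field E₁] [Field E₂] [Algebra k E₁]
  [Algebra k E₂] [Algebra A E₁] [Algebra A E₂] [IsScalarTower A k E₁] [IsScalarTower A k E₂]
  [IsAlgClosed K] [IsAlgClosed k] [CharZero K] [FunField K F] [FunField k E₁] [FunField k E₂]

variable {ι₀ : Type*} [Fintype ι₀] [Nonempty ι₀]
  {G : GaussData A K F k (E₁ × E₂) ι₀}

variable (G) in
/-- `x = 1 + d X` with `X` integral of reduction `(a, b)` -/
def Fo (d x : F) (a : E₁) (b : E₂) : Prop := ∃ X ∈ G.W, x = 1 + d * X ∧ r1 G X = a ∧ r2 G X = b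

variable (G) in
/-- `d` is integral with trivial reduction -/
structure Sm (d : F) : Prop where
  mem : d ∈ G.W
  h1 : r1 G d = 0
  h2 : r2 G d = 0

variable {d : F} (hd : Sm G d)

section

include hd

theorem Fo.mul {x y : F} {a a' : E₁} {b b' : E₂} (h : Fo G d x a b) (h' : Fo G d y a' b') :
    Fo G d (x * y) (a + a') (b + b') := by
  obtain ⟨X, hX, rfl, rfl, rfl⟩ := h
  obtain ⟨Y, hY, rfl, rfl, rfl⟩ := h'
  have h1 : d * (X * Y) ∈ G.W := mul_mem hd.mem (mul_mem hX hY)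
  refine ⟨X + Y + d * (X * Y), add_mem (add_mem hX hY) h1, by ring, ?_, ?_⟩
  · rw [r1_add (add_mem hX hY) h1, r1_add hX hY, r1_mul hd.mem (mul_mem hX hY), hd.h1]; ring
  · rw [r2_add (add_mem hX hY) h1, r2_add hX hY, r2_mul hd.mem (mul_mem hX hY), hd.h2]; ring

theorem Fo.mem {x : F} {a : E₁} {b : E₂} (h : Fo G d x a b) : x ∈ G.W := by
  obtain ⟨X, hX, rfl, -, -⟩ := h
  exact add_mem (one_mem _) (mul_mem hd.mem hX)

theorem Fo.r1_eq {x : F} {a : E₁} {b : E₂} (h : Fo G d x a b) : r1 G x = 1 := by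
  obtain ⟨X, hX, rfl, -, -⟩ := h
  rw [r1_add (one_mem _) (mul_mem hd.mem hX), r1_mul hd.mem hX, hd.h1, r1_one]; ring

theorem Fo.r2_eq {x : F} {a : E₁} {b : E₂} (h : Fo G d x a b) : r2 G x = 1 := by
  obtain ⟨X, hX, rfl, -, -⟩ := h
  rw [r2_add (one_mem _) (mul_mem hd.mem hX), r2_mul hd.mem hX, hd.h2, r2_one]; ring

theorem Fo.uw {x : F} {a : E₁} {b : E₂} (h : Fo G d x a b) : UW G x :=
  UW.mk' (h.mem hd) (by rw [h.r1_eq hd]; exact one_ne_zero) (by rw [h.r2_eq hd]; exact one_ne_zero)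

theorem Fo.inv {x : F} {a : E₁} {b : E₂} (h : Fo G d x a b) : Fo G d x⁻¹ (-a) (-b) := by
  have hu := h.uw hd
  have e1 := h.r1_eq hd
  have e2 := h.r2_eq hd
  obtain ⟨X, hX, rfl, rfl, rfl⟩ := h
  have hi := hu.inv
  refine ⟨-(X * (1 + d * X)⁻¹), neg_mem (mul_mem hX hi.mem), ?_, ?_, ?_⟩
  · have := hu.ne_zero
    field_simp
    ring
  · rw [r1_neg (mul_mem hX hi.mem), r1_mul hX hi.mem, hu.r1_inv, e1, inv_one, mul_one]
  · rw [r2_neg (mul_mem hX hi.mem), r2_mul hX hi.mem, hu.r2_inv, e2, inv_one, mul_one]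

omit hd in
theorem Fo.one : Fo G d 1 0 0 := by
  refine ⟨0, zero_mem _, by ring, ?_, ?_⟩
  · have := r1_natCast (G := G) 0
    simpa using this
  · have := r2_natCast (G := G) 0
    simpa using this

theorem Fo.pow {x : F} {a : E₁} {b : E₂} (h : Fo G d x a b) (n : ℕ) :
    Fo G d (x ^ n) (n * a) (n * b) := by
  induction n with
  | zero => simpa using Fo.one
  | succ n ih =>
    have := ih.mul hd h
    rw [pow_succ]
    push_cast
    rw [add_mul, add_mul, one_mul, one_mul]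
    exact this

theorem Fo.zpow {x : F} {a : E₁} {b : E₂} (h : Fo G d x a b) (n : ℤ) :
    Fo G d (x ^ n) (n * a) (n * b) := by
  obtain ⟨n, rfl | rfl⟩ := n.eq_nat_or_neg
  · rw [zpow_natCast]
    push_cast
    exact h.pow hd n
  · rw [zpow_neg, zpow_natCast]
    have := (h.pow hd n).inv hd
    push_cast
    rw [neg_mul, neg_mul]
    exact this

/-- uniqueness of first order terms -/
theorem Fo.uniq (hd0 : d ≠ 0) {x : F} {a a' : E₁} {b b' : E₂} (h : Fo G d x a b)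
    (h' : Fo G d x a' b') : a = a' ∧ b = b' := by
  obtain ⟨X, hX, e, rfl, rfl⟩ := h
  obtain ⟨Y, hY, e', rfl, rfl⟩ := h'
  rw [e] at e'
  have := mul_left_cancel₀ hd0 (add_left_cancel e')
  rw [this]
  exact ⟨rfl, rfl⟩

end

theorem Sm.pow (hd : Sm G d) {n : ℕ} (hn : n ≠ 0) : Sm G (d ^ n) where
  mem := pow_mem hd.mem n
  h1 := by rw [r1_pow hd.mem, hd.h1, zero_pow hn]
  h2 := by rw [r2_pow hd.mem, hd.h2, zero_pow hn]

theorem Fo.of_higher (hd : Sm G d) {x : F} {w : F} (hw : w ∈ G.W) (e : x = 1 + d ^ 2 * w) :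
    Fo G d x 0 0 := by
  have h1 : d * w ∈ G.W := mul_mem hd.mem hw
  refine ⟨d * w, h1, by rw [e]; ring, ?_, ?_⟩
  · rw [r1_mul hd.mem hw, hd.h1, zero_mul]
  · rw [r2_mul hd.mem hw, hd.h2, zero_mul]

variable {Q : RatStr G} {p : ℕ} [hp : Fact p.Prime] [CharP k p]

theorem sm_ϖ (Q : RatStr G) : Sm G (algebraMap A F Q.ϖ) where
  mem := Subalgebra.algebraMap_mem _ _
  h1 := r1_ϖ
  h2 := r2_ϖ

/-- `p`-th powers -/
theorem fo_pow_p {e : ℕ} {u : A} (hpe : (p : A) = Q.ϖ ^ e * u) {n : ℕ} (hn : 1 ≤ n)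
    (he : p * n + 1 ≤ e + n) {z z₁ : F} (hz₁ : z₁ ∈ G.W)
    (hz : z = 1 + algebraMap A F Q.ϖ ^ n * z₁) :
    Fo G (algebraMap A F Q.ϖ ^ (p * n)) (z ^ p) (r1 G z₁ ^ p) (r2 G z₁ ^ p) := by
  have h1 := (pow_cg (Q := Q) hp.out hpe hz₁ (n := n)).mono he
  obtain ⟨w, hw, h2⟩ := h1
  have hs := sm_ϖ Q
  have h3 : algebraMap A F Q.ϖ * w ∈ G.W := mul_mem hs.mem hw
  refine ⟨z₁ ^ p + algebraMap A F Q.ϖ * w, add_mem (pow_mem hz₁ _) h3, ?_, ?_, ?_⟩
  · rw [hz, h2, pow_succ]; ring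
  · rw [r1_add (pow_mem hz₁ _) h3, r1_pow hz₁, r1_mul hs.mem hw, hs.h1]; ring
  · rw [r2_add (pow_mem hz₁ _) h3, r2_pow hz₁, r2_mul hs.mem hw, hs.h2]; ring

end Fermat.Agent.PRem
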