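import Fermat.Agent.PRem.Asm6
import Fermat.Agent.PRem.First

/-!
# Component lemma for leading terms; constants
-/

set_option autoImplicit false
set_option linter.unusedSectionVars false
set_option linter.style.haveILetI false

noncomputable section

namespace Fermat.Agent.PRem

open ModularCurve Polynomial IntermediateField Fermat.Agent.ModPoly Fermat.Agent.Red
  Fermat.Agent.RedMod Fermat.Agent.Cusp Fermat.Agent.SemiSt AlgebraicCurve Fermat.Agent.Curve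
  Fermat.Agent.RR Fermat.Agent.Nod Fermat.Agent.Flat Fermat.Agent.FlatRam Fermat.Agent.Places

local notation "Ω" => AlgebraicClosure ℚ

variable {A : ValuationSubring (AlgebraicClosure ℚ)} {p : ℕ} [hp : Fact p.Prime]
  {M : ℕ} [NeZero M] {k : Type*} [Field k] [Algebra A k] [CharP k p] [IsAlgClosed k]
  {hk : Function.Surjective (algebraMap A k)} {hco : p.Coprime M} {hM : (M : k) ≠ 0} {b : A}
  [Algebra A (FF Ω (p * M))] [IsScalarTower A Ω (FF Ω (p * M))]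
  [Algebra A (FF k M)] [IsScalarTower A k (FF k M)]
  [FunField k (FF k M)] [FunField Ω (FF Ω M)] [FunField Ω (FF Ω (p * M))]
  {E : IntermediateField (K0 A) Ω} [FiniteDimensional (K0 A) E]
  {e : ℕ} {ϖ : A} {Q : RatStr (ng Ω hco hk hM b)} {c : ℕ → ℤ} {P : ℕ → Prop}

theorem Fo.w' {d : A} {x : FF Ω (p * M)} {a a' : FF k M}
    (h : Fo (ng Ω hco hk hM b) (algebraMap A (FF Ω (p * M)) d) x a a') :
    Fo (ng Ω hco hk hM b) (algebraMap A (FF Ω (p * M)) d) (SemiSt.w Ω hco x) a' a := by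
  obtain ⟨X, hX, rfl, rfl, rfl⟩ := h
  exact ⟨SemiSt.w Ω hco X, w_mem hX, by rw [algA, w_one_add], r1_w hX, r2_w hX⟩

theorem fo_TTf {ℓ : ℕ} [hl : Fact ℓ.Prime] {ζ : Aˣ} (Z : Zt A Ω k ℓ ζ) (hℓ : ℓ.Coprime (p * M))
    {d : A} (hd : algebraMap A k d = 0) (hd0 : d ≠ 0) {x : FF Ω (p * M)} {a a' : FF k M}
    (h : Fo (ng Ω hco hk hM b) (algebraMap A (FF Ω (p * M)) d) x a a') :
    ∃ t t' : FF k M, (t : LaurentSeries k) = Tr ℓ (a : LaurentSeries k) ∧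
      (t' : LaurentSeries k) = Tr ℓ (a' : LaurentSeries k) ∧
      Fo (ng Ω hco hk hM b) (algebraMap A (FF Ω (p * M)) d) (TTf Ω ℓ (p * M) x) t t' := by
  obtain ⟨X, hX, rfl, rfl, rfl⟩ := h
  obtain ⟨T, hT, e, h1, h2⟩ := TTf_first Z hℓ hd hd0 hX
  exact ⟨_, _, h1, h2, T, hT, e, rfl, rfl⟩

theorem coe_intCast_mul (n : ℤ) (x : FF k M) (i : ℤ) :
    (((n : FF k M) * x : FF k M) : LaurentSeries k).coeff i = n * (x : LaurentSeries k).coeff i := by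
  have e : (((n : FF k M) * x : FF k M) : LaurentSeries k) =
      HahnSeries.C (n : k) * (x : LaurentSeries k) := by
    rw [map_intCast]
    push_cast
    rfl
  rw [e, HahnSeries.C_mul_eq_smul, HahnSeries.coeff_smul, smul_eq_mul]

/-- **the component lemma for leading terms**, first component -/
theorem compA1 (ι : Ω →+* ℂ) (h5 : 5 ≤ p) (hPp : ∀ ℓ, P ℓ → ℓ ≠ p) {u : A}
    (hpe : (p : A) = Q.ϖ ^ (p * (p - 1)) * u) {n : ℕ} (hn : 1 ≤ n) (hnp : n < p)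
    {f : FF Ω (p * M)} (hE : Eig c P f) {H : FF Ω (p * M)} (hH : H ∈ (ng Ω hco hk hM b).W)
    (hf : f = 1 + algebraMap A (FF Ω (p * M)) Q.ϖ ^ (p * n) * H)
    (hreg : ∀ v : Place k (FF k M), ∃ y, Ge v 0 (r1 (ng Ω hco hk hM b) H - y ^ p)) :
    (∃ y, r1 (ng Ω hco hk hM b) H = y ^ p) ∨ CONC p M c P := by
  refine comp_add (A := A) (K := Ω) ι hk h5 hM c P (fun v => ?_) fun ℓ hℓ' hℓM hPℓ => ?_
  · obtain ⟨y, hy⟩ := hreg v
    exact ⟨_, y, hy, by ring⟩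
  haveI hl : Fact ℓ.Prime := ⟨hℓ'⟩
  have hℓp := hPp ℓ hPℓ
  have hℓN := not_dvd_of hℓp hℓM
  obtain ⟨z, hz, h⟩ := hE ℓ hℓN hPℓ
  obtain ⟨ζ, Z⟩ := exists_Zt (A := A) (K := Ω) (k := k) hl.out (natCast_ne_of (p := p) hℓp)
  have hpn : p * n ≠ 0 := mul_ne_zero hp.out.ne_zero (by omega)
  have hϖk : algebraMap A k (Q.ϖ ^ (p * n)) = 0 := by rw [map_pow, Q.ϖk, zero_pow hpn]
  have hsm : Sm (ng Ω hco hk hM b) (algebraMap A (FF Ω (p * M)) (Q.ϖ ^ (p * n))) := by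
    rw [map_pow]; exact (sm_ϖ Q).pow hpn
  have hd0 : algebraMap A (FF Ω (p * M)) (Q.ϖ ^ (p * n)) ≠ 0 := by
    rw [map_pow]; exact pow_ne_zero _ Q.ϖF0
  have f1 : Fo (ng Ω hco hk hM b) (algebraMap A (FF Ω (p * M)) (Q.ϖ ^ (p * n))) f
      (r1 (ng Ω hco hk hM b) H) (r2 (ng Ω hco hk hM b) H) := ⟨H, hH, by rw [hf, map_pow], rfl, rfl⟩
  obtain ⟨t, t', ht, ht', f2⟩ := fo_TTf Z (coprime_of' hℓN) hϖk (pow_ne_zero _ Q.ϖ0) f1
  have f3 := (f1.zpow hsm (c ℓ)).inv hsm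
  have f4 := f2.mul hsm f3
  have hfc := zpow_ne_zero (c ℓ) (f1.uw hsm).ne_zero
  have e1 : TTf Ω ℓ (p * M) f * (f ^ c ℓ)⁻¹ = z ^ p := by rw [h]; field_simp
  rw [e1] at f4
  have hcg : Cg Q (p * n) (z ^ p) 1 := by
    obtain ⟨X, hX, e2, -, -⟩ := f4
    exact ⟨X, hX, by rw [e2, map_pow]⟩
  obtain ⟨z₁, hz₁, e3⟩ := root_cg hpe (by omega) hcg
  have he : p * n + 1 ≤ p * (p - 1) + n := by
    obtain ⟨l, rfl⟩ : ∃ l, p = n + 1 + l := ⟨p - (n + 1), by omega⟩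
    have h3 : n + 1 + l - 1 = n + l := by omega
    rw [h3]
    nlinarith [Nat.zero_le l, mul_nonneg (Nat.zero_le n) (Nat.zero_le l)]
  have f5 := fo_pow_p hpe hn he hz₁ e3
  rw [← map_pow] at f5
  have e4 := (f4.uniq hsm hd0 f5).1
  refine ⟨((r1 (ng Ω hco hk hM b) z₁ : FF k M) : LaurentSeries k), fun i => ?_⟩
  have e5 : t = (c ℓ : FF k M) * r1 (ng Ω hco hk hM b) H + r1 (ng Ω hco hk hM b) z₁ ^ p := by
    linear_combination e4
  have e6 := congrArg (fun y : FF k M => (y : LaurentSeries k).coeff i) e5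
  beta_reduce at e6
  rw [ht, Tr_coeff] at e6
  have e7 : (((c ℓ : FF k M) * r1 (ng Ω hco hk hM b) H + r1 (ng Ω hco hk hM b) z₁ ^ p : FF k M) :
      LaurentSeries k).coeff i = (c ℓ : k) * ((r1 (ng Ω hco hk hM b) H : FF k M) :
        LaurentSeries k).coeff i + (((r1 (ng Ω hco hk hM b) z₁ : FF k M) : LaurentSeries k) ^ p).coeff i := by
    rw [← coe_intCast_mul]
    rfl
  rw [e7] at e6
  rw [← e6]
  ring

/-- **the component lemma for leading terms**, second component -/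
theorem compA2 (ι : Ω →+* ℂ) (h5 : 5 ≤ p) (hPp : ∀ ℓ, P ℓ → ℓ ≠ p) {u : A}
    (hpe : (p : A) = Q.ϖ ^ (p * (p - 1)) * u) {n : ℕ} (hn : 1 ≤ n) (hnp : n < p)
    {f : FF Ω (p * M)} (hE : Eig c P f) {H : FF Ω (p * M)} (hH : H ∈ (ng Ω hco hk hM b).W)
    (hf : f = 1 + algebraMap A (FF Ω (p * M)) Q.ϖ ^ (p * n) * H)
    (hreg : ∀ v : Place k (FF k M), ∃ y, Ge v 0 (r2 (ng Ω hco hk hM b) H - y ^ p)) :
    (∃ y, r2 (ng Ω hco hk hM b) H = y ^ p) ∨ CONC p M c P := by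
  have h1 := compA1 ι h5 hPp hpe hn hnp (hE.w hco) (w_mem hH) (by
    rw [hf, ← map_pow, algA, w_one_add]) (by rw [r1_w hH]; exact hreg)
  rwa [r1_w hH] at h1

end Fermat.Agent.PRem
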