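import Fermat.Agent.PRem.RmW
import Fermat.Agent.PRem.WAutE
import Fermat.Agent.Nod.Classify

/-!
# Thickness of the nodes, and the base of the rational structure
-/

set_option autoImplicit false
set_option linter.unusedSectionVars false
set_option linter.style.haveILetI false

noncomputable section

namespace Fermat.Agent.PRem

open ModularCurve Polynomial IntermediateField Fermat.Agent.ModPoly Fermat.Agent.Red
  Fermat.Agent.RedMod Fermat.Agent.Cusp Fermat.Agent.SemiSt AlgebraicCurve Fermat.Agent.Curve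
  Fermat.Agent.RR Fermat.Agent.Nod Fermat.Agent.Flat Fermat.Agent.FlatRam Fermat.Agent.Places

local notation "Ω" => AlgebraicClosure ℚ

variable {A : ValuationSubring (AlgebraicClosure ℚ)} {p : ℕ} [hp : Fact p.Prime]
  {M : ℕ} [NeZero M] {k : Type*} [Field k] [Algebra A k] [CharP k p] [IsAlgClosed k]
  (hk : Function.Surjective (algebraMap A k))
  {E : IntermediateField (K0 A) Ω} [FiniteDimensional (K0 A) E]
  {e : ℕ} {ϖ : A} (U : Unif E p e ϖ)
  (hco : p.Coprime M) (hM : (M : k) ≠ 0)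
  [Algebra A (FF Ω (p * M))] [IsScalarTower A Ω (FF Ω (p * M))]
  [Algebra A (FF k M)] [IsScalarTower A k (FF k M)]
  [FunField k (FF k M)] [FunField Ω (FF Ω M)] [FunField Ω (FF Ω (p * M))]

include U in
/-- **Thickness**: the function `Δ(q) / Δ(q^p)`. -/
theorem exists_thick {b : A} (Q : RatStr (ng Ω hco hk hM b)) (hϖ : Q.ϖ = ϖ)
    (he : 0 < e) {n : ℕ} (hψ : Q.ψ = psi hco ϖ n)
    (h2 : Rd A (HahnSeries.C (ϖ : Ω)⁻¹ *
      ((w Ω hco (psi hco ϖ n) : FF Ω (p * M)) : LaurentSeries Ω)) (1 : LaurentSeries k)) :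
    ∃ c₀, Thick Q (rF Ω p M)⁻¹ (12 * e) c₀ := by
  have h0 : algebraMap A k ϖ = 0 := (red_eq_zero_iff hk).2 U.non
  have h1 := psi_fst (k := k) (M := M) hco (n := n) h0
  have hr := rd_rm (A := A) (K := Ω) (k := k) (pp p)
  have hrc : ((rF Ω p M : FF Ω (p * M)) : LaurentSeries Ω) = rm Ω (pp p) := rfl
  rw [← hrc] at hr
  have hrk := rm_ne_zero (k := k) (pp p)
  have hψ0 := psi_ne (k := k) (M := M) hco h0 (n := n)
  obtain ⟨g1, g2⟩ := reg_rF (K := Ω) (q := p) (M := M)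
  obtain ⟨n1, hn1⟩ := exists_mem_DD (ng Ω hco hk hM b).transcendental ((reg_ng hco hk hM b).2 g1)
  obtain ⟨n2, hn2⟩ := exists_mem_DD (ng Ω hco hk hM b).transcendental ((reg_ng hco hk hM b).2 g2)
  obtain ⟨u, huE, hu⟩ := U.hp
  -- the two reductions
  obtain ⟨m, hm⟩ : ∃ m, m = 12 * e := ⟨_, rfl⟩
  have r1' : IsU A Ω k ((Q.ψ ^ (-(m : ℤ)) * (rF Ω p M)⁻¹ : FF Ω (p * M)) : LaurentSeries Ω) := by
    rw [MulMemClass.coe_mul, coe_zpow', hψ]
    exact (isU_zpow (h1.isU one_ne_zero) _).mul (hr.inv hrk |>.isU (inv_ne_zero hrk))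
  have hpu : ((p : Ω) ^ 12) = (ϖ : Ω) ^ m * ((u : A) : Ω) ^ 12 := by
    have e1 : (p : Ω) = (ϖ : Ω) ^ e * ((u : A) : Ω) := by
      have := congrArg (algebraMap A Ω) hu
      rw [map_natCast, map_mul, map_pow] at this
      exact this
    rw [e1, hm, mul_pow, ← pow_mul, mul_comm e]
  have r2' : IsU A Ω k ((w Ω hco (Q.ψ ^ (-(m : ℤ)) * (rF Ω p M)⁻¹) : FF Ω (p * M)) :
      LaurentSeries Ω) := by
    have hwψ0 : w Ω hco Q.ψ ≠ 0 := (_root_.map_ne_zero _).2 Q.ψ0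
    have hϖF : algebraMap Ω (FF Ω (p * M)) (ϖ : Ω) ≠ 0 := (_root_.map_ne_zero _).2 U.ne
    have e2 : w Ω hco (Q.ψ ^ (-(m : ℤ)) * (rF Ω p M)⁻¹) =
        (algebraMap Ω _ (ϖ : Ω)⁻¹ * w Ω hco Q.ψ) ^ (-(m : ℤ)) *
          (algebraMap Ω _ (((u : A) : Ω) ^ 12) * rF Ω p M) := by
      rw [map_mul, map_zpow₀, map_inv₀, w_rF, mul_inv, inv_inv, ← map_inv₀, inv_inv, hpu,
        mul_zpow, map_inv₀, inv_zpow', neg_neg, zpow_natCast, map_mul, map_pow]
      ring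
    rw [e2, MulMemClass.coe_mul, coe_zpow', hψ, coe_algebraMap_mul, coe_algebraMap_mul]
    refine (isU_zpow (h2.isU one_ne_zero) _).mul ?_
    have hu12 : algebraMap A k ((u : A) ^ 12) ≠ 0 := by
      rw [map_pow]
      exact pow_ne_zero _ (u.isUnit.map (algebraMap A k)).ne_zero
    have h3 := (Rd.C (K := Ω) (k := k) ((u : A) ^ 12)).mul hr
    have e3 : algebraMap A Ω ((u : A) ^ 12) = ((u : A) : Ω) ^ 12 := map_pow _ _ _
    rw [e3] at h3
    exact h3.isU (mul_ne_zero (HahnSeries.C_ne_zero hu12) hrk)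
  have hW : Q.ψ ^ (-(m : ℤ)) * (rF Ω p M)⁻¹ ∈ WW A Ω k hco := ⟨r1'.choose, r2'.choose⟩
  have huw : UW (ng Ω hco hk hM b) (Q.ψ ^ (-(m : ℤ)) * (rF Ω p M)⁻¹) :=
    ⟨hW, sred_fst_ne hk hco hM hW r1', sred_snd_ne hk hco hM hW r2'⟩
  rw [← hm]
  refine ⟨max n1 n2, by omega, huw, ?_, ?_⟩
  · exact L_mono (DD_mono _ (le_max_right _ _) le_rfl) hn2
  · rw [inv_inv]
    exact L_mono (DD_mono _ (le_max_left _ _) le_rfl) hn1

end Fermat.Agent.PRem
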