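import Fermat.Agent.PRem.Asm3
import Fermat.Agent.PRem.ThickC

/-!
# The split case
-/

set_option autoImplicit false
set_option linter.unusedSectionVars false
set_option linter.style.haveILetI false

noncomputable section

namespace Fermat.Agent.PRem

open ModularCurve Polynomial IntermediateField Fermat.Agent.ModPoly Fermat.Agent.Red
  Fermat.Agent.RedMod Fermat.Agent.Cusp Fermat.Agent.SemiSt AlgebraicCurve Fermat.Agent.Curve
  Fermat.Agent.RR Fermat.Agent.Nod Fermat.Agent.Flat Fermat.Agent.FlatRam Fermat.Agent.Places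

local notation "Ω" => AlgebraicClosure ℚ

variable {A : ValuationSubring (AlgebraicClosure ℚ)} {p : ℕ} [hp : Fact p.Prime]
  {M : ℕ} [NeZero M] {k : Type*} [Field k] [Algebra A k] [CharP k p] [IsAlgClosed k]
  {hk : Function.Surjective (algebraMap A k)} {hco : p.Coprime M} {hM : (M : k) ≠ 0} {b : A}
  [Algebra A (FF Ω (p * M))] [IsScalarTower A Ω (FF Ω (p * M))]
  [Algebra A (FF k M)] [IsScalarTower A k (FF k M)]
  [FunField k (FF k M)] [FunField Ω (FF Ω M)] [FunField Ω (FF Ω (p * M))]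
  {E : IntermediateField (K0 A) Ω} [FiniteDimensional (K0 A) E]
  {e : ℕ} {ϖ : A} {Q : RatStr (ng Ω hco hk hM b)}
  (H : NodMod (ng Ω hco hk hM b) hk (ng_hspan hco hk hM b) (fd k p M).nodes)
  {c : ℕ → ℤ} {P : ℕ → Prop}

theorem π_eq_one {x : FF Ω (p * M)} (hx : x ∈ (ng Ω hco hk hM b).W)
    (h1 : r1 (ng Ω hco hk hM b) x = 1) (h2 : r2 (ng Ω hco hk hM b) x = 1) :
    (ng Ω hco hk hM b).π ⟨x, hx⟩ = 1 := by
  rw [r1_of hx] at h1
  rw [r2_of hx] at h2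
  exact Prod.ext h1 h2

include H in
/-- classes whose reductions are `p`-th powers have representatives with trivial reduction -/
theorem normalize {ι : Ω →+* ℂ} {ξ : Kum.XL (p * M) p} {f : FF Ω (p * M)} (hfF : f ∈ Q.fld)
    (hf : UW (ng Ω hco hk hM b) f) (hcl : HasCls ι p f ξ)
    (h1 : ∃ y, r1 (ng Ω hco hk hM b) f = y ^ p) (h2 : ∃ y, r2 (ng Ω hco hk hM b) f = y ^ p) :
    ∃ f' ∈ Q.fld, UW (ng Ω hco hk hM b) f' ∧ r1 (ng Ω hco hk hM b) f' = 1 ∧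
      r2 (ng Ω hco hk hM b) f' = 1 ∧ HasCls ι p f' ξ := by
  obtain ⟨α, hα⟩ := h1
  obtain ⟨β, hβ⟩ := h2
  have hp0 := hp.out.ne_zero
  obtain ⟨U, hUW, hUF, hU⟩ := RatStr.exists_rat_lift Q H (α, β)
  have u1 : r1 (ng Ω hco hk hM b) U = α := by rw [r1_of hUW, hU]
  have u2 : r2 (ng Ω hco hk hM b) U = β := by rw [r2_of hUW, hU]
  have hα0 : α ≠ 0 := by
    rintro rfl
    rw [zero_pow hp0] at hα
    exact hf.r1_ne hα
  have hβ0 : β ≠ 0 := by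
    rintro rfl
    rw [zero_pow hp0] at hβ
    exact hf.r2_ne hβ
  have hUU : UW (ng Ω hco hk hM b) U := UW.mk' hUW (by rw [u1]; exact hα0) (by rw [u2]; exact hβ0)
  have hi := hUU.inv
  refine ⟨f * (U⁻¹) ^ p, mul_mem hfF (pow_mem (inv_mem hUF) _), hf.mul (hi.pow p), ?_, ?_,
    hcl.mul_pow hi.ne_zero⟩
  · rw [r1_mul hf.mem (hi.pow p).mem, r1_pow hi.mem, hUU.r1_inv, u1, hα, ← mul_pow,
      mul_inv_cancel₀ hα0, one_pow]
  · rw [r2_mul hf.mem (hi.pow p).mem, r2_pow hi.mem, hUU.r2_inv, u2, hβ, ← mul_pow,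
      mul_inv_cancel₀ hβ0, one_pow]

theorem RS.exists_thick (R : RS E e ϖ Q) (he : 0 < e) :
    ∃ c₀, Thick Q (rF Ω p M)⁻¹ (12 * e) c₀ := by
  obtain ⟨n, hn⟩ := R.ψ
  exact PRem.exists_thick (k := k) hk R.U hco hM Q R.hϖ he hn (by rw [← hn]; exact R.hψ2)

theorem RS.hpe (R : RS E e ϖ Q) : ∃ u : Aˣ, (p : A) = Q.ϖ ^ e * u := by
  obtain ⟨u, -, hu⟩ := R.U.hp
  exact ⟨u, by rw [R.hϖ]; exact hu⟩

theorem hrank_of (hk : Function.Surjective (algebraMap A k)) (hA : A.LiesOverPrime p) :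
    ∀ a c : A, algebraMap A k a = 0 → c ≠ 0 → ∃ n : ℕ, c ∣ a ^ n := fun a c ha hc =>
  rank_one hA a c (residue_eq_zero_iff.2 ((red_eq_zero_iff hk).1 ha)) hc

theorem RS.hAt (R : RS E e ϖ Q) : ∃ t : A, t ≠ 0 ∧ ¬ IsUnit t := by
  refine ⟨ϖ, fun h => R.U.ne (by rw [h]; rfl), fun h => ?_⟩
  have h1 : algebraMap A k ϖ = 0 := (red_eq_zero_iff hk).2 R.U.non
  have h2 := h.map (algebraMap A k)
  rw [h1] at h2
  exact not_isUnit_zero h2

include H in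
/-- **The split case.** -/
theorem split_case [hN : Nonempty (Nd (ng Ω hco hk hM b) hk (fd k p M).nodes)]
    (ι : Ω →+* ℂ) (hA : A.LiesOverPrime p) (h5 : 5 ≤ p) (hPp : ∀ ℓ, P ℓ → ℓ ≠ p)
    (R : RS E 1 ϖ Q) {ξ : Kum.XL (p * M) p} (hξ : ξ ≠ 0)
    (hfix : ∀ σ : Ω ≃ₐ[ℚ] Ω, (∀ x ∈ E, σ x = x) → Kum.rhoF ι p σ ξ = ξ)
    (hE : EigCls c P ξ) {ℓ : ℕ} [hl : Fact ℓ.Prime] (hℓN : ¬ ℓ ∣ p * M) (hPℓ : P ℓ)
    (hne : ¬ (p : ℤ) ∣ c ℓ - ℓ - 1) : CONC p M c P := by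
  by_contra hcon
  obtain ⟨f, hfF, hf, hcl⟩ := R.exists_rep ι hfix hE hℓN hPℓ (hPp ℓ hPℓ) hne
  obtain ⟨c₀, T⟩ := R.exists_thick one_pos
  rw [mul_one] at T
  have hEf := hE.eig hcl
  have h1 : ∃ y, r1 (ng Ω hco hk hM b) f = y ^ p :=
    (comp1 ι h5 hPp hf hEf fun v => RatStr.dvd_of_unramified hp.out h5 T hf hfF hcl.kd H
      v).resolve_right hcon
  have h2 : ∃ y, r2 (ng Ω hco hk hM b) f = y ^ p :=
    (comp2 ι h5 hPp hf hEf fun v => by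
      rw [← r1_w hf.mem]
      exact RatStr.dvd_of_unramified hp.out h5 T (uw_w hf) (R.w_fld hfF)
        (dvd_ord_w hf.ne_zero hcl.kd) H v).resolve_right hcon
  obtain ⟨f', hf'F, hf', e1, e2, hcl'⟩ := normalize H hfF hf hcl h1 h2
  obtain ⟨D, hD⟩ := exists_divisor hp.out.ne_zero hf'.ne_zero hcl'.kd
  obtain ⟨u, hu⟩ := R.hpe
  obtain ⟨x, hx⟩ := split_final H R.hAt (hrank_of hk hA) (by omega) hu hf'F hf'.mem
    (π_eq_one hf'.mem e1 e2) hD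
  have hx0 : x ≠ 0 := by
    rintro rfl
    rw [zero_pow hp.out.ne_zero] at hx
    exact hf'.ne_zero hx.symm
  apply hξ
  rw [← hx] at hcl'
  exact hcl'.unique (HasCls.pow_self ι hx0)

end Fermat.Agent.PRem
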