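import Fermat.Agent.Nod.Rigid

/-!
# Wild rigidity: `p`-th roots lift from congruences beyond the critical level
-/

set_option autoImplicit false
set_option linter.unusedSectionVars false
set_option linter.style.haveILetI false

namespace Fermat.Agent.PRem

open Module Fermat.Agent.Red

section Poly

open Polynomial

/-- `(1+y)^p = 1 + p y (1 + y Q(y)) + y^p` -/
theorem exists_one_add_pow {p : ℕ} (hp : p.Prime) {S : Type*} [CommRing S] (y : S) :
    ∃ q : S, (1 + y) ^ p = 1 + p * (y * (1 + y * q)) + y ^ p := by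
  obtain ⟨r, hr⟩ := exists_add_pow_prime_eq hp (1 : ℤ[X]) X
  have h1 : r.coeff 0 = 1 := by
    have h2 := congrArg (fun q => coeff q 1) hr
    simp only [one_pow, coeff_add, mul_one] at h2
    rw [coeff_one_add_X_pow, coeff_X_pow, if_neg (by have := hp.one_lt; omega),
      Nat.choose_one_right, coeff_one, if_neg (by norm_num)] at h2
    have h3 : ((p : ℤ[X]) * X * r).coeff 1 = p * r.coeff 0 := by
      have : (p : ℤ[X]) * X * r = C (p : ℤ) * (X * r) := by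
        rw [mul_assoc]; simp
      rw [this, coeff_C_mul, coeff_X_mul]
    rw [h3] at h2
    have hp0 : (p : ℤ) ≠ 0 := by exact_mod_cast hp.ne_zero
    have h4 : (p : ℤ) * 1 = p * r.coeff 0 := by
      push_cast at h2 ⊢
      linarith
    exact (mul_left_cancel₀ hp0 h4).symm
  obtain ⟨Q, hQ⟩ : X ∣ r - 1 := by
    rw [X_dvd_iff, coeff_sub, h1, coeff_one_zero, sub_self]
  have hr' : r = 1 + X * Q := by rw [← hQ]; ring
  refine ⟨aeval y Q, ?_⟩
  have h5 := congrArg (aeval y) hr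
  simp only [map_pow, map_add, map_one, aeval_X, map_mul, map_natCast, one_pow, mul_one] at h5
  rw [h5, hr']
  simp only [map_add, map_one, map_mul, aeval_X]
  ring

/-- Newton iteration for the `p`-th root of `(1 + p c₀ X)⁻¹`. -/
theorem newton_poly {A : Type*} [CommRing A] {p : ℕ} (hp : p.Prime) {c₀ ε μ c' ε' : A}
    (h1 : c₀ = μ * c') (h2 : ε = μ * ε') (hε : c₀ ^ (p - 1) = p * ε) (m : ℕ) :
    ∃ B Z : A[X], (∃ C' : A[X], B = 1 + C c₀ * C') ∧
      B ^ p * (1 + C (p * c₀) * X) = 1 + C (p * (c₀ * μ ^ m)) * Z := by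
  induction m with
  | zero =>
    refine ⟨1, X, ⟨0, by simp⟩, by simp⟩
  | succ m ih =>
    obtain ⟨B, Z, ⟨C', hC'⟩, hB⟩ := ih
    obtain ⟨d, hd⟩ : ∃ d : A, d = c₀ * μ ^ m := ⟨_, rfl⟩
    obtain ⟨y, hy⟩ : ∃ y : A[X], y = -(C d * Z) := ⟨_, rfl⟩
    rw [← hd] at hB
    obtain ⟨q, hq⟩ := exists_one_add_pow hp y
    have hdp : d ^ p = p * d * μ * (ε' * μ ^ (m * (p - 1))) := by
      have e1 : d ^ p = d * d ^ (p - 1) := by
        rw [← pow_succ', Nat.sub_add_cancel hp.one_lt.le]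
      have e2 : d ^ (p - 1) = p * ε * μ ^ (m * (p - 1)) := by
        rw [hd, mul_pow, hε, ← pow_mul]
      rw [e1, e2, h2]; ring
    have hd2 : d * d = d * (μ * (c' * μ ^ m)) := by
      have : d = μ * (c' * μ ^ m) := by rw [hd]; nth_rewrite 1 [h1]; ring
      nth_rewrite 2 [this]
      rfl
    refine ⟨B * (1 + y), -((p : A[X]) * C (c' * μ ^ m) * Z ^ 2) +
      (1 - (p : A[X]) * y) * (C (c' * μ ^ m) * Z ^ 2 *
      q + (-1) ^ p * C (ε' * μ ^ (m * (p - 1))) * Z ^ p), ⟨C' - C (μ ^ m) * Z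
        - C d * C' * Z, ?_⟩, ?_⟩
    · rw [hC', hy]
      have : (C d : A[X]) = C c₀ * C (μ ^ m) := by rw [hd, C_mul]
      rw [this]; ring
    · rw [mul_pow, hq]
      have e1 : y ^ p = (-1) ^ p * (C (d ^ p) * Z ^ p) := by
        rw [hy, neg_pow, mul_pow, C_pow]
      have e2 : y * y = C d * (C μ * C (c' * μ ^ m)) * Z ^ 2 := by
        have : y * y = C (d * d) * Z ^ 2 := by rw [hy, C_mul]; ring
        rw [this, hd2, C_mul, C_mul]
      have e3 : (1 + C (p * c₀) * X) * B ^ p = 1 - (p : A[X]) * y := by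
        rw [mul_comm, hB, hy]
        rw [C_mul]
        simp only [map_natCast]
        ring
      have e4 : (C (p * (c₀ * μ ^ (m + 1))) : A[X]) = (p : A[X]) * (C d * C μ) := by
        rw [hd, pow_succ]
        simp only [C_mul, map_natCast]
        ring
      have e5 : y ^ p = (-1) ^ p * ((p : A[X]) * (C d * C μ) * C (ε' * μ ^ (m * (p - 1))) * Z ^ p) := by
        rw [e1, hdp]
        simp only [C_mul, map_natCast]
        ring
      rw [e4]
      have e6 : B ^ p * (1 + (p : A[X]) * (y * (1 + y * q)) + y ^ p) *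
          (1 + C (p * c₀) * X) =
          (1 - (p : A[X]) * y) * (1 + (p : A[X]) * (y * (1 + y * q)) + y ^ p) := by
        rw [← e3]; ring
      rw [e6, e5]
      have e7 : (1 - (p : A[X]) * y) * (1 + (p : A[X]) * (y * (1 + y * q)) +
          (-1) ^ p * ((p : A[X]) * (C d * C μ) * C (ε' * μ ^ (m * (p - 1))) * Z ^ p)) =
          1 - (p : A[X]) * p * (y * y) + (1 - (p : A[X]) * y) * ((p : A[X]) * (y * y) * q +
          (-1) ^ p * ((p : A[X]) * (C d * C μ) * C (ε' * μ ^ (m * (p - 1))) * Z ^ p)) := by ring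
      rw [e7, e2]
      ring

end Poly

variable {A K F k R : Type*} [CommRing A] [IsDomain A] [ValuationRing A]
  [Field K] [Algebra A K] [IsFractionRing A K] [Field F] [Algebra K F] [Algebra A F]
  [IsScalarTower A K F] [Field k] [Algebra A k] [CommRing R] [Algebra k R] [Algebra A R]
  [IsScalarTower A k R]

section

variable (M : RedModel A K F k R)

/-- cancellation -/
theorem smul_cancel {a : A} (ha : a ≠ 0) {x y : M.W} (h : a • x = a • y) : x = y := by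
  have h1 : a • ((x - y : M.W) : F) = 0 := by
    have := congrArg Subtype.val h
    have h2 : a • (x : F) = a • (y : F) := this
    rw [AddSubgroupClass.coe_sub, smul_sub, h2, sub_self]
  rcases RedModel.smul_eq_zero_F (K := K) h1 with h2 | h2
  · exact absurd h2 ha
  · exact sub_eq_zero.1 (Subtype.ext h2)

/-- If `x ≡ y ≡ 1` modulo `c₀` and `x ^ p ≡ y ^ p` modulo `p d` then `x ≡ y` modulo `d`. -/
theorem sub_eq_smul_of_pow_wild {p : ℕ} (hp : p.Prime) (hpA : (p : A) ≠ 0)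
    {c₀ ε : A} (hε : c₀ ^ (p - 1) = p * ε) (hc : algebraMap A k c₀ = 0)
    (hεk : algebraMap A k ε = 0) {d : A} {x y ρ : M.W} (hy : IsUnit y)
    (hxy : x = y * (1 + c₀ • ρ)) {w : M.W} (h : x ^ p - y ^ p = ((p : A) * d) • w) :
    ∃ w' : M.W, x - y = d • w' := by
  obtain ⟨z, hz⟩ : ∃ z : M.W, z = c₀ • ρ := ⟨_, rfl⟩
  rw [← hz] at hxy
  obtain ⟨q, hq⟩ := exists_one_add_pow hp z
  have hz0 : M.π z = 0 := by rw [hz, map_smul, ← algebraMap_smul k c₀, hc, zero_smul]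
  have hzp : z ^ p = ((p : A)) • (z * (ε • ρ ^ (p - 1))) := by
    have e1 : z ^ p = z * z ^ (p - 1) := by rw [← pow_succ', Nat.sub_add_cancel hp.one_lt.le]
    have e2 : z ^ (p - 1) = ((p : A) * ε) • ρ ^ (p - 1) := by rw [hz, smul_pow, hε]
    rw [e1, e2, mul_smul, mul_smul_comm]
  obtain ⟨v, hv⟩ : ∃ v : M.W, v = 1 + z * q + ε • ρ ^ (p - 1) := ⟨_, rfl⟩
  have hvu : IsUnit v := by
    apply M.isUnit_of
    rw [hv, map_add, map_add, map_one, map_mul, hz0, zero_mul, map_smul, ← algebraMap_smul k ε,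
      hεk, zero_smul, add_zero, add_zero]
    exact isUnit_one
  have h1 : (1 + z) ^ p - 1 = (p : A) • (z * v) := by
    have : ∀ u : M.W, (p : M.W) * u = (p : A) • u := by
      intro u
      rw [Algebra.smul_def, map_natCast]
    rw [hq, hzp, hv, this, mul_add z (1 + _), smul_add, add_assoc, add_sub_cancel_left]
  have h2 : (p : A) • (y ^ p * (z * v)) = (p : A) • (d • w) := by
    rw [← mul_smul, ← h, hxy, mul_pow]
    have : y ^ p * (1 + z) ^ p - y ^ p = y ^ p * ((1 + z) ^ p - 1) := by ring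
    rw [this, h1, mul_smul_comm]
  have h3 := smul_cancel M hpA h2
  obtain ⟨yu, rfl⟩ := hy
  obtain ⟨vu, hvu'⟩ := hvu
  have h4 : z = d • (w * (↑yu⁻¹ : M.W) ^ p * ↑vu⁻¹) := by
    have : z = (↑yu : M.W) ^ p * (z * v) * (↑yu⁻¹ : M.W) ^ p * ↑vu⁻¹ := by
      rw [← hvu']
      have e1 : (↑yu : M.W) ^ p * (↑yu⁻¹ : M.W) ^ p = 1 := by
        rw [← mul_pow, Units.mul_inv, one_pow]
      have e2 : (↑vu : M.W) * (↑vu⁻¹ : M.W) = 1 := Units.mul_inv vu
      linear_combination (-z * ↑vu * ↑vu⁻¹) * e1 - z * e2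
    rw [this, h3, smul_mul_assoc, smul_mul_assoc]
  refine ⟨↑yu * (w * (↑yu⁻¹ : M.W) ^ p * ↑vu⁻¹), ?_⟩
  rw [hxy, mul_add, mul_one, add_sub_cancel_left, h4, mul_smul_comm]

/-- **Wild rigidity**, abstract form. -/
theorem wild_rigidity_abstract [IsAlgClosed K] (hk : Function.Surjective (algebraMap A k))
    (hA : ∃ t : A, t ≠ 0 ∧ ¬ IsUnit t)
    (hrank : ∀ a c : A, algebraMap A k a = 0 → c ≠ 0 → ∃ n : ℕ, c ∣ a ^ n)
    {p : ℕ} (hp : p.Prime) (hpA : (p : A) ≠ 0) {f : F} (hf : f ∈ M.W)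
    (hfu : IsUnit (⟨f, hf⟩ : M.W)) {c₀ ε : A} (hc₀ : c₀ ≠ 0) (hε : c₀ ^ (p - 1) = p * ε)
    (hck : algebraMap A k c₀ = 0) (hεk : algebraMap A k ε = 0)
    (L V : ℕ → ℕ → Submodule K F) [∀ a b, FiniteDimensional K (L a b)]
    [∀ a b, FiniteDimensional K (V a b)]
    (hLmono : ∀ {a b a' b'}, a ≤ a' → b ≤ b' → L a b ≤ L a' b')
    (hVmono : ∀ {a b a' b'}, a ≤ a' → b ≤ b' → V a b ≤ V a' b')
    (hLone : (1 : F) ∈ L 0 0)
    (hLL : ∀ {a b c d x y}, x ∈ L a b → y ∈ L c d → x * y ∈ L (a + c) (b + d))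
    (hVL : ∀ {a b c d x y}, x ∈ V a b → y ∈ L c d → x * y ∈ V (a + c) (b + d))
    (hVf : ∀ {a b x}, x ∈ V a b → x ^ p * f⁻¹ ∈ L (p * a) (p * b))
    (Lk : ℕ → ℕ → Submodule k R) (n0 : ℕ)
    (hrd : ∀ a b, n0 ≤ a + b → ∀ r : R, r ∈ M.rd hk (V a b) ↔ r ∈ Lk a b)
    (hsum : ∀ a b, n0 ≤ a → n0 ≤ b → ∀ s ∈ Lk a b, ∃ s1 ∈ Lk a n0, ∃ s2 ∈ Lk n0 b, s = s1 + s2)
    (hinf : ∀ a b, n0 ≤ a → n0 ≤ b → V a n0 ⊓ V n0 b ≤ V n0 n0)
    {s₁ s₂ ρ₁ ρ₂ w₁ w₂ : M.W} {a₀ : ℕ} (ha₀ : n0 ≤ a₀)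
    (hs₁ : (s₁ : F) ∈ V a₀ 0) (hs₂ : (s₂ : F) ∈ V 0 a₀)
    (e₁ : s₁ = 1 + c₀ • ρ₁) (e₂ : s₂ = 1 + c₀ • ρ₂)
    (q₁ : s₁ ^ p = ⟨f, hf⟩ * (1 + ((p : A) * c₀) • w₁))
    (q₂ : s₂ ^ p = ⟨f, hf⟩ * (1 + ((p : A) * c₀) • w₂)) :
    ∃ x ∈ V n0 n0, x ^ p = f := by
  have hpc : (p : A) * c₀ ≠ 0 := mul_ne_zero hpA hc₀
  have hε0 : ε ≠ 0 := by
    rintro rfl
    rw [mul_zero] at hε
    exact hc₀ (pow_eq_zero_iff (by have := hp.one_lt; omega) |>.1 hε)
  -- `f` is a unit of `W`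
  obtain ⟨fu, hfu'⟩ := hfu
  have hfinv : ((↑fu⁻¹ : M.W) : F) = f⁻¹ := by
    have h1 : ((↑fu : M.W) : F) * ((↑fu⁻¹ : M.W) : F) = 1 := by
      rw [← MulMemClass.coe_mul, Units.mul_inv]; rfl
    rw [hfu'] at h1
    exact eq_inv_of_mul_eq_one_right h1
  -- the common divisor `μ`
  obtain ⟨μ, c', ε', hμk, hμ1, hμ2⟩ : ∃ μ c' ε' : A, algebraMap A k μ = 0 ∧ c₀ = μ * c' ∧
      ε = μ * ε' := by
    rcases ValuationRing.dvd_total c₀ ε with ⟨x, hx⟩ | ⟨x, hx⟩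
    · exact ⟨c₀, 1, x, hck, by ring, hx⟩
    · exact ⟨ε, x, 1, hεk, hx, by ring⟩
  refine M.exists_root_of_approx hA (V n0 n0) p f hf ?_
  intro c hc
  obtain ⟨N, hN⟩ := hrank μ c hμk hc
  obtain ⟨B, Z, ⟨C', hC'⟩, hB⟩ := newton_poly hp hμ1 hμ2 hε N
  -- Newton approximations
  have h2 : ∀ a b, ∀ s ρ w : M.W, (s : F) ∈ V a b → s = 1 + c₀ • ρ →
      s ^ p = ⟨f, hf⟩ * (1 + ((p : A) * c₀) • w) →
      ∃ η : M.W, (η : F) ∈ V (a + p * a * B.natDegree) (b + p * b * B.natDegree) ∧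
        (∃ ρ' : M.W, η = 1 + c₀ • ρ') ∧
        ∃ z : M.W, η ^ p = ⟨f, hf⟩ * (1 + ((p : A) * (c₀ * μ ^ N)) • z) := by
    intro a b s ρ w hs hsρ hsw
    have hwL : (w : F) ∈ L (p * a) (p * b) := by
      have e : ((p : A) * c₀) • (w : F) = (s : F) ^ p * f⁻¹ - 1 := by
        have h3 := congrArg Subtype.val hsw
        have h4 : (s : F) ^ p = f * (1 + ((p : A) * c₀) • (w : F)) := h3
        rw [h4]
        have hf0 : f ≠ 0 := by
          rintro rfl
          have : ((↑fu : M.W) : F) = 0 := by rw [hfu']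
          have h5 : (fu : M.W) = 0 := Subtype.ext this
          have h8 : (1 : M.W) = 0 := by rw [← Units.mul_inv fu, h5, zero_mul]
          exact one_ne_zero (congrArg Subtype.val h8)
        field_simp
        ring
      rw [← RedModel.smul_mem_iff (K := K) hpc, e]
      exact sub_mem (hVf hs) (hLmono (Nat.zero_le _) (Nat.zero_le _) hLone)
    have hpow : ∀ j, ((w : F)) ^ j ∈ L (p * a * j) (p * b * j) := by
      intro j
      induction j with
      | zero => simpa using hLone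
      | succ j ih =>
        rw [pow_succ, Nat.mul_succ, Nat.mul_succ]
        exact hLL ih hwL
    refine ⟨s * Polynomial.aeval w B, ?_, ?_, Polynomial.aeval w Z, ?_⟩
    · have e : ((s * Polynomial.aeval w B : M.W) : F) =
          s * ∑ j ∈ Finset.range (B.natDegree + 1), (B.coeff j) • (w : F) ^ j := by
        push_cast
        congr 1
        rw [Polynomial.aeval_eq_sum_range' (Nat.lt_succ_self _)]
      rw [e]
      refine hVL hs ?_
      refine Submodule.sum_mem _ fun j hj => ?_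
      rw [Finset.mem_range] at hj
      rw [← algebraMap_smul K (B.coeff j)]
      refine Submodule.smul_mem _ _ ?_
      exact hLmono (Nat.mul_le_mul_left _ (by omega)) (Nat.mul_le_mul_left _ (by omega)) (hpow j)
    · refine ⟨ρ + Polynomial.aeval w C' + c₀ • (ρ * Polynomial.aeval w C'), ?_⟩
      rw [hC', hsρ]
      simp only [map_add, map_one, map_mul, Polynomial.aeval_C, Algebra.smul_def]
      ring
    · have h3 := congrArg (Polynomial.aeval w) hB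
      simp only [map_mul, map_add, map_one, map_pow, Polynomial.aeval_C, Polynomial.aeval_X] at h3
      rw [mul_pow, hsw]
      have e1 : ((p : A) * c₀) • w = algebraMap A M.W p * algebraMap A M.W c₀ * w := by
        rw [Algebra.smul_def, map_mul]
      have e2 : ((p : A) * (c₀ * μ ^ N)) • Polynomial.aeval w Z = algebraMap A M.W p *
          (algebraMap A M.W c₀ * algebraMap A M.W μ ^ N) * Polynomial.aeval w Z := by
        rw [Algebra.smul_def, map_mul, map_mul, map_pow]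
      rw [e1, e2]
      linear_combination (⟨f, hf⟩ : M.W) * h3
  obtain ⟨η1, hη1, ⟨ρ1', hρ1⟩, z1, hz1⟩ := h2 a₀ 0 s₁ ρ₁ w₁ hs₁ e₁ q₁
  obtain ⟨η2, hη2, ⟨ρ2', hρ2⟩, z2, hz2⟩ := h2 0 a₀ s₂ ρ₂ w₂ hs₂ e₂ q₂
  set n1 := a₀ + p * a₀ * B.natDegree with hn1
  simp only [mul_zero, zero_mul, add_zero] at hη1 hη2
  have hη2u : IsUnit η2 := by
    apply M.isUnit_of
    rw [hρ2, map_add, map_one, map_smul, ← algebraMap_smul k c₀, hck, zero_smul, add_zero]
    exact isUnit_one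
  -- difference
  obtain ⟨z, hz⟩ : ∃ z : M.W, η1 - η2 = (c₀ * μ ^ N) • z := by
    obtain ⟨u, hu⟩ := id hη2u
    refine sub_eq_smul_of_pow_wild M hp hpA hε hck hεk (ρ := ↑u⁻¹ * (ρ1' - ρ2')) hη2u ?_
      (w := (⟨f, hf⟩ : M.W) * (z1 - z2)) ?_
    · rw [mul_add, mul_one, mul_smul_comm, ← mul_assoc, ← hu, Units.mul_inv, one_mul, hu, hρ1, hρ2,
        smul_sub]
      abel
    · rw [hz1, hz2, mul_sub, smul_sub, mul_add, mul_add, mul_smul_comm, mul_smul_comm]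
      abel
  have hz' : (η1 : F) - η2 = (c₀ * μ ^ N) • (z : F) := congrArg Subtype.val hz
  have hcN : c ∣ c₀ * μ ^ N := Dvd.dvd.mul_left hN _
  have hdne : c₀ * μ ^ N ≠ 0 := by
    refine mul_ne_zero hc₀ (pow_ne_zero _ ?_)
    rintro rfl
    rw [zero_mul] at hμ1
    exact hc₀ hμ1
  have hzV : (z : F) ∈ M.lat (V n1 n1) := by
    refine ⟨z.2, ?_⟩
    change (z : F) ∈ V n1 n1
    rw [← RedModel.smul_mem_iff (K := K) hdne, ← hz']
    exact sub_mem (hVmono le_rfl (Nat.zero_le _) hη1) (hVmono (Nat.zero_le _) le_rfl hη2)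
  -- splitting
  have hn1' : n0 ≤ n1 := by rw [hn1]; exact le_trans ha₀ (Nat.le_add_right _ _)
  have hsplit : M.lat (V n1 n1) ≤ M.lat (V n1 n0) ⊔ M.lat (V n0 n1) := by
    haveI : Module.Finite A (M.lat (V n1 n1)) := inferInstance
    apply Submodule.le_of_le_smul_of_le_jacobson_bot (I := IsLocalRing.maximalIdeal A)
    · exact M.fg _ inferInstance
    · exact IsLocalRing.maximalIdeal_le_jacobson _
    · intro x hx
      have hx1 : M.π ⟨x, hx.1⟩ ∈ M.rd hk (V n1 n1) := ⟨x, hx, rfl⟩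
      rw [hrd _ _ (by omega)] at hx1
      obtain ⟨r1, hr1, r2, hr2, hxs⟩ := hsum n1 n1 hn1' hn1' _ hx1
      obtain ⟨x1, hx1, hx1'⟩ := (hrd n1 n0 (by omega) r1).2 hr1
      obtain ⟨x2, hx2, hx2'⟩ := (hrd n0 n1 (by omega) r2).2 hr2
      have hx12 : x1 + x2 ∈ M.lat (V n1 n0) ⊔ M.lat (V n0 n1) :=
        Submodule.add_mem_sup hx1 hx2
      have hx12' : x1 + x2 ∈ M.lat (V n1 n1) :=
        add_mem (M.lat_mono (hVmono le_rfl hn1') hx1) (M.lat_mono (hVmono hn1' le_rfl) hx2)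
      have hx3 : x - (x1 + x2) ∈ M.lat (V n1 n1) := sub_mem hx hx12'
      have hx4 : M.π ⟨x - (x1 + x2), hx3.1⟩ = 0 := by
        have : (⟨x - (x1 + x2), hx3.1⟩ : M.W) = ⟨x, hx.1⟩ - (⟨x1, hx1.1⟩ + ⟨x2, hx2.1⟩) := rfl
        rw [this, map_sub, map_add, hx1', hx2', hxs]
        ring
      obtain ⟨a, ha, y, hy, hxy⟩ := M.exists_of_red_eq_zero hx3 hx4
      have : x = (x1 + x2) + a • y := by rw [← hxy]; ring
      rw [this]
      refine Submodule.add_mem_sup hx12 ?_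
      refine Submodule.smul_mem_smul ?_ hy
      rw [IsLocalRing.mem_maximalIdeal]
      intro hau
      have := hau.map (algebraMap A k)
      rw [ha] at this
      exact not_isUnit_zero this
  obtain ⟨ψ1, hψ1, ψ2, hψ2, hψ⟩ := Submodule.mem_sup.1 (hsplit hzV)
  obtain ⟨d, hd⟩ := hcN
  refine ⟨(η1 : F) - (c₀ * μ ^ N) • ψ1, ⟨sub_mem η1.2 (M.W.smul_mem hψ1.1 _), ?_⟩, ?_⟩
  · apply hinf n1 n1 hn1' hn1'
    refine ⟨sub_mem (hVmono le_rfl (Nat.zero_le _) hη1) ?_, ?_⟩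
    · rw [← algebraMap_smul K (c₀ * μ ^ N)]; exact Submodule.smul_mem _ _ hψ1.2
    · have e : (η1 : F) - (c₀ * μ ^ N) • ψ1 = η2 + (c₀ * μ ^ N) • ψ2 := by
        have : (η1 : F) = η2 + (c₀ * μ ^ N) • (z : F) := by rw [← hz']; ring
        rw [this, ← hψ, smul_add]; ring
      change (η1 : F) - (c₀ * μ ^ N) • ψ1 ∈ V n0 n1
      rw [e]
      refine add_mem (hVmono (Nat.zero_le _) le_rfl hη2) ?_
      rw [← algebraMap_smul K (c₀ * μ ^ N)]; exact Submodule.smul_mem _ _ hψ2.2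
  · -- power estimate
    obtain ⟨q, hq⟩ : (η1 - (c₀ * μ ^ N) • ⟨ψ1, hψ1.1⟩) - η1 ∣
        (η1 - (c₀ * μ ^ N) • ⟨ψ1, hψ1.1⟩) ^ p - η1 ^ p :=
      sub_dvd_pow_sub_pow _ _ p
    refine ⟨((d • (-(⟨ψ1, hψ1.1⟩ : M.W))) * q + (⟨f, hf⟩ : M.W) * (((p : A) * d) • z1) : M.W),
      Subtype.prop _, ?_⟩
    have hkey : (η1 - (c₀ * μ ^ N) • (⟨ψ1, hψ1.1⟩ : M.W)) ^ p - (⟨f, hf⟩ : M.W) =
        c • ((d • (-(⟨ψ1, hψ1.1⟩ : M.W))) * q + (⟨f, hf⟩ : M.W) * (((p : A) * d) • z1)) := by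
      have e1 : (η1 - (c₀ * μ ^ N) • (⟨ψ1, hψ1.1⟩ : M.W)) ^ p =
          η1 ^ p + ((η1 - (c₀ * μ ^ N) • ⟨ψ1, hψ1.1⟩) - η1) * q := by
        rw [← hq]; ring
      rw [e1, hz1, hd]
      simp only [Algebra.smul_def, map_mul, map_natCast]
      ring
    have := congrArg Subtype.val hkey
    exact this

end

end Fermat.Agent.PRem
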