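import Fermat.Agent.PRem.Slope2
import Fermat.Agent.PRem.Wild

/-!
# Levels of triviality of Kummer classes
-/

set_option autoImplicit false
set_option linter.unusedSectionVars false
set_option linter.style.haveILetI false

namespace Fermat.Agent.PRem

open AlgebraicCurve Fermat.Agent.Curve Fermat.Agent.RR Fermat.Agent.Red Fermat.Agent.Nod Module
  Polynomial
open scoped IntermediateField

section General

variable {k E : Type*} [Field k] [IsAlgClosed k] [Field E] [Algebra k E] [FunField k E]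

theorem exists_const_of_ge {x : E} (h : ∀ v : Place k E, Ge v 0 x) : ∃ c : k, x = algebraMap k E c := by
  have h1 : x ∈ riemannRochSpace (0 : Divisor k E) := by
    rw [mem_L]
    intro v
    exact (h v).mono (by simp)
  rw [L_zero] at h1
  obtain ⟨c, hc⟩ := Submodule.mem_span_singleton.1 h1
  exact ⟨c, by rw [← hc, Algebra.smul_def, mul_one]⟩

theorem one_mem_DD (t : E) (a b : ℕ) : (1 : E) ∈ riemannRochSpace (DD k t a b) := by
  rw [mem_L]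
  intro v
  refine (Ge.one v).mono ?_
  rw [DD_apply]
  have h1 : (0 : ℤ) ≤ a * max (-v.ord t) 0 := mul_nonneg (Int.natCast_nonneg _) (le_max_right _ _)
  have h2 : (0 : ℤ) ≤ b * max (v.ord t) 0 := mul_nonneg (Int.natCast_nonneg _) (le_max_right _ _)
  linarith

end General

variable {A K F k E₁ E₂ : Type*} [CommRing A] [IsDomain A] [ValuationRing A]
  [Field K] [Algebra A K] [IsFractionRing A K] [Field F] [Algebra K F] [Algebra A F]
  [IsScalarTower A K F] [Field k] [Algebra A k] [Field E₁] [Field E₂] [Algebra k E₁]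
  [Algebra k E₂] [Algebra A E₁] [Algebra A E₂] [IsScalarTower A k E₁] [IsScalarTower A k E₂]
  [IsAlgClosed K] [IsAlgClosed k] [CharZero K] [FunField K F] [FunField k E₁] [FunField k E₂]

variable {ι₀ : Type*} [Fintype ι₀] [Nonempty ι₀]
  {G : GaussData A K F k (E₁ × E₂) ι₀} {Q : RatStr G}
  {hk : Function.Surjective (algebraMap A k)}
  {hspan : ∀ x : F, ∃ q : K[X], q ≠ 0 ∧ ∃ P : ι₀ → K[X], aeval G.t q * x = G.comb P}
  {ι : Type*} [Finite ι] {𝒩 : Nodes k E₁ E₂ ι} (H : NodMod G hk hspan 𝒩)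
  {p : ℕ} [hp : Fact p.Prime] [CharP k p]

include H in
theorem GS_of_pow {a b : ℕ} {r : E₁ × E₂} (h : r ^ p ∈ GS G hk 𝒩 (p * a) (p * b)) :
    r ∈ GS G hk 𝒩 a b := by
  obtain ⟨h1, h2, h3⟩ := (mem_GG _).1 h
  have h4 : r.1 ∈ riemannRochSpace (DD k (tb G).1 a b) := mem_DD_of_pow_mem hp.out.ne_zero h2
  have h5 : r.2 ∈ riemannRochSpace (DD k (tb G).2 a b) := mem_DD_of_pow_mem hp.out.ne_zero h3
  refine (mem_GG _).2 ⟨fun j => ?_, h4, h5⟩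
  have g1 := ge_of_DD_fst H.toNodPos j h4
  have g2 := ge_of_DD_snd H.toNodPos j h5
  refine ⟨g1, g2, ?_⟩
  have h6 := (h1 j).2.2
  rw [Pi.one_apply, one_mul] at h6 ⊢
  have e1 : (r ^ p).1 = r.1 ^ p := rfl
  have e2 : (r ^ p).2 = r.2 ^ p := rfl
  rw [e1, e2] at h6
  change val (𝒩.v j) (r.1 ^ p) = val (𝒩.w j) (r.2 ^ p) at h6
  rw [val_pow g1, val_pow g2] at h6
  exact frobenius_inj k p h6

include H in
theorem GS_const [hN : Nonempty (Nd G hk 𝒩)] {a b : ℕ} {r : E₁ × E₂}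
    (h : r ∈ GS G hk 𝒩 a 0) (h' : r ∈ GS G hk 𝒩 0 b) :
    ∃ c : k, r = (algebraMap k E₁ c, algebraMap k E₂ c) := by
  obtain ⟨h1, h2, h3⟩ := (mem_GG _).1 h
  obtain ⟨h1', h2', h3'⟩ := (mem_GG _).1 h'
  have k1 : ∀ v : Place k E₁, Ge v 0 r.1 := by
    intro v
    rcases le_total 0 (v.ord (tb G).1) with ho | ho
    · refine (mem_L.1 h2 v).mono ?_
      rw [DD_apply, max_eq_right (neg_nonpos.2 ho)]
      simp
    · refine (mem_L.1 h2' v).mono ?_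
      rw [DD_apply, max_eq_right ho]
      simp
  have k2 : ∀ v : Place k E₂, Ge v 0 r.2 := by
    intro v
    rcases le_total 0 (v.ord (tb G).2) with ho | ho
    · refine (mem_L.1 h3 v).mono ?_
      rw [DD_apply, max_eq_right (neg_nonpos.2 ho)]
      simp
    · refine (mem_L.1 h3' v).mono ?_
      rw [DD_apply, max_eq_right ho]
      simp
  obtain ⟨c₁, hc₁⟩ := exists_const_of_ge k1
  obtain ⟨c₂, hc₂⟩ := exists_const_of_ge k2
  obtain ⟨j⟩ := hN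
  have h6 := (h1 j).2.2
  rw [Pi.one_apply, one_mul, hc₁, hc₂] at h6
  erw [val_algebraMap, val_algebraMap] at h6
  exact ⟨c₁, Prod.ext hc₁ (by rw [hc₂, h6])⟩

include hspan H in
theorem tw_one {f : F} (hf : f ∈ G.W) (hπ : G.π ⟨f, hf⟩ = 1) {D : Divisor K F}
    (hD : ∀ v, (p : ℤ) * D v = v.ord f) : TwData G hk 𝒩 p f D 1 1 := by
  obtain ⟨ζ, T⟩ := TwData.exists_tw hspan H hf hp.out.ne_zero (γ := 1) (by rw [hπ, one_pow])
    one_ne_zero one_ne_zero hD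
  have : ζ = 1 := by
    funext j
    have h1 := T.root j
    have h2 : frobenius k p (ζ j) = frobenius k p 1 := by
      rw [map_one]; exact h1
    exact frobenius_inj k p h2
  rwa [this] at T

/-- lifting of glued functions to rational sections -/
theorem exists_sec (Q : RatStr G) (H : NodMod G hk hspan 𝒩) : ∃ n₀ : ℕ, ∀ (f : F) (_ : f ∈ Q.fld)
    (D : Divisor K F) (_ : TwData G hk 𝒩 p f D 1 1) (a b : ℕ) (_ : n₀ ≤ a + b),
    ∀ r ∈ GS G hk 𝒩 a b, ∃ s ∈ Q.fld, ∃ hs : s ∈ G.W,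
      s ∈ riemannRochSpace (DD K G.t a b - D) ∧ G.π ⟨s, hs⟩ = r := by
  obtain ⟨n₀, hn₀⟩ := TwData.exists_RV_eq hspan H
  refine ⟨n₀, fun f hfF D T a b hab r hr => ?_⟩
  have h1 := hn₀ p f D 1 1 hp.out.ne_zero T a b hab
  have h2 : r ∈ TwData.RV G hk hspan D 1 a b := by rw [h1]; exact hr
  obtain ⟨x, hx, hxL, hxr⟩ := (TwData.mem_RV hspan).1 h2
  have hDr : Q.IsRat D := RatStr.isRat_of_mul hfF hp.out.ne_zero T.hD
  obtain ⟨y, hy, hyF, hyL, hyπ⟩ := ((RatStr.isRat_DD a b).sub hDr).exists_lift hk hspan hx hxL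
  refine ⟨y, hyF, hy, hyL, ?_⟩
  rw [hyπ, ← hxr]
  have e : pinv (1 : E₁ × E₂) = 1 := Prod.ext (inv_one) (inv_one)
  rw [e, one_mul]

/-! ### Congruences -/

/-- congruence modulo a power of the uniformizer -/
def Cg (Q : RatStr G) (n : ℕ) (x y : F) : Prop := ∃ w ∈ G.W, x = y + algebraMap A F Q.ϖ ^ n * w

theorem δ_mem : algebraMap A F Q.ϖ ∈ G.W := G.W.algebraMap_mem _

namespace Cg

variable {n m : ℕ} {x y z x' y' : F}

theorem refl (x : F) : Cg Q n x x := ⟨0, zero_mem _, by ring⟩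

theorem symm (h : Cg Q n x y) : Cg Q n y x := by
  obtain ⟨w, hw, rfl⟩ := h
  exact ⟨-w, neg_mem hw, by ring⟩

theorem trans (h : Cg Q n x y) (h' : Cg Q n y z) : Cg Q n x z := by
  obtain ⟨w, hw, rfl⟩ := h
  obtain ⟨w', hw', rfl⟩ := h'
  exact ⟨w' + w, add_mem hw' hw, by ring⟩

theorem mono (h : Cg Q n x y) (hmn : m ≤ n) : Cg Q m x y := by
  obtain ⟨w, hw, rfl⟩ := h
  obtain ⟨d, rfl⟩ := Nat.exists_eq_add_of_le hmn
  exact ⟨algebraMap A F Q.ϖ ^ d * w, mul_mem (pow_mem δ_mem d) hw, by rw [pow_add]; ring⟩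

theorem mem (h : Cg Q n x y) (hy : y ∈ G.W) : x ∈ G.W := by
  obtain ⟨w, hw, rfl⟩ := h
  exact add_mem hy (mul_mem (pow_mem δ_mem n) hw)

theorem mul (h : Cg Q n x y) (h' : Cg Q n x' y') (hy : y ∈ G.W) (hy' : y' ∈ G.W) :
    Cg Q n (x * x') (y * y') := by
  obtain ⟨w, hw, rfl⟩ := h
  obtain ⟨w', hw', rfl⟩ := h'
  refine ⟨w * y' + y * w' + algebraMap A F Q.ϖ ^ n * w * w', ?_, by ring⟩
  exact add_mem (add_mem (mul_mem hw hy') (mul_mem hy hw'))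
    (mul_mem (mul_mem (pow_mem δ_mem n) hw) hw')

theorem pow (h : Cg Q n x y) (hy : y ∈ G.W) (i : ℕ) : Cg Q n (x ^ i) (y ^ i) := by
  induction i with
  | zero => rw [pow_zero, pow_zero]; exact refl _
  | succ i ih => rw [pow_succ, pow_succ]; exact ih.mul h (pow_mem hy i) hy

theorem sub (h : Cg Q n x y) (h' : Cg Q n x' y') : Cg Q n (x - x') (y - y') := by
  obtain ⟨w, hw, rfl⟩ := h
  obtain ⟨w', hw', rfl⟩ := h'
  exact ⟨w - w', sub_mem hw hw', by ring⟩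

theorem add (h : Cg Q n x y) (h' : Cg Q n x' y') : Cg Q n (x + x') (y + y') := by
  obtain ⟨w, hw, rfl⟩ := h
  obtain ⟨w', hw', rfl⟩ := h'
  exact ⟨w + w', add_mem hw hw', by ring⟩

theorem scale (h : Cg Q n x y) (m : ℕ) :
    Cg Q (m + n) (algebraMap A F Q.ϖ ^ m * x) (algebraMap A F Q.ϖ ^ m * y) := by
  obtain ⟨w, hw, rfl⟩ := h
  exact ⟨w, hw, by rw [pow_add]; ring⟩

theorem r1_eq (h : Cg Q n x y) (hn : 1 ≤ n) (hy : y ∈ G.W) : r1 G x = r1 G y := by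
  obtain ⟨w, hw, rfl⟩ := h
  have hd := mul_mem (pow_mem (δ_mem (Q := Q)) n) hw
  rw [r1_add hy hd, r1_mul (pow_mem δ_mem n) hw, r1_pow δ_mem, r1_ϖ, zero_pow (by omega),
    zero_mul, add_zero]

theorem r2_eq (h : Cg Q n x y) (hn : 1 ≤ n) (hy : y ∈ G.W) : r2 G x = r2 G y := by
  obtain ⟨w, hw, rfl⟩ := h
  have hd := mul_mem (pow_mem (δ_mem (Q := Q)) n) hw
  rw [r2_add hy hd, r2_mul (pow_mem δ_mem n) hw, r2_pow δ_mem, r2_ϖ, zero_pow (by omega),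
    zero_mul, add_zero]

theorem uw (h : Cg Q n x y) (hn : 1 ≤ n) (hy : UW G y) : UW G x :=
  UW.mk' (h.mem hy.mem) (by rw [h.r1_eq hn hy.mem]; exact hy.r1_ne)
    (by rw [h.r2_eq hn hy.mem]; exact hy.r2_ne)

theorem inv (h : Cg Q n x y) (hx : UW G x) (hy : UW G y) : Cg Q n x⁻¹ y⁻¹ := by
  obtain ⟨w, hw, hxy⟩ := h
  refine ⟨-(w * x⁻¹ * y⁻¹), neg_mem (mul_mem (mul_mem hw hx.inv.mem) hy.inv.mem), ?_⟩
  have h1 := hx.ne_zero
  have h2 := hy.ne_zero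
  have h3 : algebraMap A F Q.ϖ ^ n * w = x - y := by rw [hxy]; ring
  rw [show y⁻¹ + algebraMap A F Q.ϖ ^ n * -(w * x⁻¹ * y⁻¹) =
    y⁻¹ - (algebraMap A F Q.ϖ ^ n * w) * x⁻¹ * y⁻¹ by ring, h3]
  field_simp
  ring

/-- rational elements with the same reduction -/
theorem of_red (hx : x ∈ G.W) (hy : y ∈ G.W) (hxF : x ∈ Q.fld) (hyF : y ∈ Q.fld)
    (h1 : r1 G x = r1 G y) (h2 : r2 G x = r2 G y) : Cg Q 1 x y := by
  have h3 : G.π ⟨x - y, sub_mem hx hy⟩ = 0 := by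
    apply Prod.ext
    · rw [← r1_of, r1_sub hx hy, h1, sub_self]; rfl
    · rw [← r2_of, r2_sub hx hy, h2, sub_self]; rfl
  obtain ⟨w, -, hw, hxy⟩ := Q.disc (sub_mem hxF hyF) (sub_mem hx hy) h3
  refine ⟨w, hw, ?_⟩
  rw [pow_one, ← Algebra.smul_def, ← hxy]
  ring

end Cg

theorem uw_of_cg_one {n : ℕ} {x : F} (h : Cg Q n x 1) (hn : 1 ≤ n) : UW G x := h.uw hn UW.one

/-- `p`-th powers -/
theorem pow_cg (hp' : p.Prime) {e : ℕ} {u : A} (hpe : (p : A) = Q.ϖ ^ e * u) {n : ℕ} {s' : F}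
    (hs' : s' ∈ G.W) : Cg Q (e + n) ((1 + algebraMap A F Q.ϖ ^ n * s') ^ p)
      (1 + algebraMap A F Q.ϖ ^ (p * n) * s' ^ p) := by
  set y : G.W := ⟨algebraMap A F Q.ϖ ^ n * s', mul_mem (pow_mem δ_mem n) hs'⟩ with hy
  obtain ⟨q, hq⟩ := exists_one_add_pow hp' y
  have h1 := congrArg Subtype.val hq
  push_cast at h1
  refine ⟨algebraMap A F u * (s' * (1 + y * q)), mul_mem (G.W.algebraMap_mem _)
    (mul_mem hs' (add_mem (one_mem _) (mul_mem y.2 q.2))), ?_⟩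
  have h2 : (p : F) = algebraMap A F Q.ϖ ^ e * algebraMap A F u := by
    rw [← map_pow, ← map_mul, ← hpe, map_natCast]
  have h3 : (y : F) = algebraMap A F Q.ϖ ^ n * s' := rfl
  rw [h3] at h1 ⊢
  rw [h1, h2, mul_pow, ← pow_mul, mul_comm n p, pow_add]
  ring

theorem δ0 : algebraMap A F Q.ϖ ≠ 0 := Q.ϖF0

/-- elements divisible by a power of the uniformizer in Riemann-Roch spaces -/
theorem L_of_δ {n : ℕ} {E : Divisor K F} {x : F}
    (h : algebraMap A F Q.ϖ ^ n * x ∈ riemannRochSpace E) : x ∈ riemannRochSpace E := by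
  have h2 := Submodule.smul_mem _ ((algebraMap A K Q.ϖ)⁻¹ ^ n) h
  have e : (algebraMap A K Q.ϖ)⁻¹ ^ n • (algebraMap A F Q.ϖ ^ n * x) = x := by
    rw [Algebra.smul_def, map_pow, map_inv₀, ← IsScalarTower.algebraMap_apply A K F, inv_pow,
      inv_mul_cancel_left₀ (pow_ne_zero _ (δ0 (Q := Q)))]
  rwa [e] at h2

theorem δ_mul_L {n : ℕ} {E : Divisor K F} {x : F} (h : x ∈ riemannRochSpace E) :
    algebraMap A F Q.ϖ ^ n * x ∈ riemannRochSpace E := by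
  have h2 := Submodule.smul_mem _ (algebraMap A K Q.ϖ ^ n) h
  rwa [Algebra.smul_def, map_pow, ← IsScalarTower.algebraMap_apply A K F] at h2

include H in
/-- the leading term of a section to the power `p` -/
theorem lead_mem {f : F} {D : Divisor K F} (hD : ∀ v, (p : ℤ) * D v = v.ord f)
    {m : ℕ} (hm : 1 ≤ m) {g Hf : F} (hHf : Hf ∈ G.W) (hf : f = 1 + algebraMap A F Q.ϖ ^ m * Hf)
    {a b : ℕ} {s : F} (hs : s ∈ riemannRochSpace (DD K G.t a b - D)) (hg : g ∈ G.W)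
    (hsg : Cg Q (m + 1) (s ^ p) (1 + algebraMap A F Q.ϖ ^ m * g)) :
    (r1 G g - r1 G Hf, r2 G g - r2 G Hf) ∈ GS G hk 𝒩 (p * a) (p * b) := by
  have hfc : Cg Q m f 1 := ⟨Hf, hHf, hf⟩
  have hfu : UW G f := uw_of_cg_one hfc hm
  have hD0 : f ≠ 0 := hfu.ne_zero
  have h1 := pow_mul_inv_mem hD0 hp.out.ne_zero hD hs
  have hf1 : 1 + algebraMap A F Q.ϖ ^ m * g ∈ G.W :=
    add_mem (one_mem _) (mul_mem (pow_mem δ_mem m) hg)
  have h2 : Cg Q (m + 1) (s ^ p * f⁻¹) ((1 + algebraMap A F Q.ϖ ^ m * g) * f⁻¹) :=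
    hsg.mul (Cg.refl _) hf1 hfu.inv.mem
  obtain ⟨w, hw, hw2⟩ := h2
  set x := (g - Hf) * f⁻¹ + algebraMap A F Q.ϖ * w with hx
  have hxW : x ∈ G.W := add_mem (mul_mem (sub_mem hg hHf) hfu.inv.mem) (mul_mem δ_mem hw)
  have e1 : s ^ p * f⁻¹ - 1 = algebraMap A F Q.ϖ ^ m * x := by
    rw [hw2, hx]
    have e2 : (1 : F) = f * f⁻¹ := (mul_inv_cancel₀ hD0).symm
    have e3 : (1 + algebraMap A F Q.ϖ ^ m * g) * f⁻¹ - 1 =
        algebraMap A F Q.ϖ ^ m * ((g - Hf) * f⁻¹) := by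
      nth_rewrite 2 [e2]
      nth_rewrite 2 [hf]
      ring
    rw [mul_add, ← e3, pow_succ]
    ring
  have h3 : algebraMap A F Q.ϖ ^ m * x ∈ riemannRochSpace (DD K G.t (p * a) (p * b)) := by
    rw [← e1]
    exact sub_mem h1 (one_mem_DD _ _ _)
  have h4 := L_of_δ h3
  have h5 : G.π ⟨x, hxW⟩ ∈ GS G hk 𝒩 (p * a) (p * b) :=
    RS_le_GS hspan H.toNodPos _ _ ((mem_RS hspan).2 ⟨_, hxW, h4, rfl⟩)
  have hf1' : r1 G f⁻¹ = 1 := by
    rw [hfu.r1_inv, hfc.r1_eq hm (one_mem _), r1_one, inv_one]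
  have hf2' : r2 G f⁻¹ = 1 := by
    rw [hfu.r2_inv, hfc.r2_eq hm (one_mem _), r2_one, inv_one]
  have e2 : G.π ⟨x, hxW⟩ = (r1 G g - r1 G Hf, r2 G g - r2 G Hf) := by
    apply Prod.ext
    · rw [← r1_of, hx, r1_add (mul_mem (sub_mem hg hHf) hfu.inv.mem) (mul_mem δ_mem hw),
        r1_mul δ_mem hw, r1_ϖ, zero_mul, add_zero, r1_mul (sub_mem hg hHf) hfu.inv.mem, hf1',
        mul_one, r1_sub hg hHf]
    · rw [← r2_of, hx, r2_add (mul_mem (sub_mem hg hHf) hfu.inv.mem) (mul_mem δ_mem hw),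
        r2_mul δ_mem hw, r2_ϖ, zero_mul, add_zero, r2_mul (sub_mem hg hHf) hfu.inv.mem, hf2',
        mul_one, r2_sub hg hHf]
  rwa [e2] at h5

include H in
/-- absorbing constants: one step -/
theorem absorb_one [hN : Nonempty (Nd G hk 𝒩)] {f : F} (hfF : f ∈ Q.fld) {D : Divisor K F}
    (hD : ∀ v, (p : ℤ) * D v = v.ord f) {m : ℕ} (hm : 1 ≤ m) (hf : Cg Q m f 1)
    {a b : ℕ} {s₁ s₂ : F} (h₁ : s₁ ∈ riemannRochSpace (DD K G.t a 0 - D))
    (h₂ : s₂ ∈ riemannRochSpace (DD K G.t 0 b - D)) (c₁ : Cg Q (m + 1) (s₁ ^ p) 1)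
    (c₂ : Cg Q (m + 1) (s₂ ^ p) 1) :
    ∃ c : A, algebraMap A F c ∈ Q.fld ∧
      Cg Q (m + 1) f (1 + algebraMap A F Q.ϖ ^ m * algebraMap A F c) := by
  obtain ⟨Hf, hHf, hfe⟩ := hf
  have g1 := lead_mem H hD hm hHf hfe h₁ (zero_mem _) (by rwa [mul_zero, add_zero])
  have g2 := lead_mem H hD hm hHf hfe h₂ (zero_mem _) (by rwa [mul_zero, add_zero])
  have z1 : r1 G (0 : F) = 0 := by
    rw [r1_of (zero_mem _)]
    have e : (⟨0, zero_mem _⟩ : G.W) = 0 := rfl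
    rw [e, map_zero]; rfl
  have z2 : r2 G (0 : F) = 0 := by
    rw [r2_of (zero_mem _)]
    have e : (⟨0, zero_mem _⟩ : G.W) = 0 := rfl
    rw [e, map_zero]; rfl
  rw [mul_zero] at g1 g2
  obtain ⟨c, hc⟩ := GS_const H g1 g2
  rw [z1, z2, zero_sub, zero_sub, Prod.mk.injEq] at hc
  obtain ⟨ct, hctF, hct⟩ := Q.res (-c)
  have hctF' : algebraMap A F ct ∈ Q.fld := hctF
  refine ⟨ct, hctF', ?_⟩
  have hHF : Hf ∈ Q.fld := by
    have e : Hf = (f - 1) * (algebraMap A F Q.ϖ ^ m)⁻¹ := by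
      rw [hfe, add_sub_cancel_left, mul_comm, inv_mul_cancel_left₀ (pow_ne_zero _ δ0)]
    rw [e]
    exact mul_mem (sub_mem hfF (one_mem _)) (inv_mem (pow_mem Q.ϖ_mem m))
  have h3 : Cg Q 1 Hf (algebraMap A F ct) := by
    refine Cg.of_red hHf (G.W.algebraMap_mem _) hHF hctF' ?_ ?_
    · rw [r1_algebraMap, hct, map_neg, ← hc.1, neg_neg]
    · rw [r2_algebraMap, hct, map_neg, ← hc.2, neg_neg]
  have h4 := (Cg.refl (1 : F) (Q := Q) (n := m + 1)).add (h3.scale m)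
  rwa [← hfe] at h4

include H in
/-- absorbing constants -/
theorem absorb [hN : Nonempty (Nd G hk 𝒩)] {D : Divisor K F}
    {a b : ℕ} {s₁ s₂ : F} (h₁ : s₁ ∈ riemannRochSpace (DD K G.t a 0 - D))
    (h₂ : s₂ ∈ riemannRochSpace (DD K G.t 0 b - D)) {M : ℕ} (c₁ : Cg Q M (s₁ ^ p) 1)
    (c₂ : Cg Q M (s₂ ^ p) 1) (d : ℕ) : ∀ {f : F} (_ : f ∈ Q.fld)
    (_ : ∀ v, (p : ℤ) * D v = v.ord f) {m : ℕ} (_ : 1 ≤ m) (_ : Cg Q m f 1) (_ : m + d = M),
    ∃ κ : A, algebraMap A k κ = 1 ∧ algebraMap A F κ ∈ Q.fld ∧ Cg Q M f (algebraMap A F κ) := by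
  induction d with
  | zero =>
    intro f hfF hD m hm hf hM
    refine ⟨1, map_one _, by rw [map_one]; exact one_mem _, ?_⟩
    rw [map_one]
    rwa [← hM]
  | succ d ih =>
    intro f hfF hD m hm hf hM
    obtain ⟨c, hcF, hc⟩ := absorb_one H hfF hD hm hf h₁ h₂ (c₁.mono (by omega))
      (c₂.mono (by omega))
    have h3 : (1 + algebraMap A F Q.ϖ ^ m * algebraMap A F c) =
        algebraMap A F (1 + Q.ϖ ^ m * c) := by
      rw [map_add, map_one, map_mul, map_pow]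
    have hkc : algebraMap A k (1 + Q.ϖ ^ m * c) = 1 := by
      rw [map_add, map_one, map_mul, map_pow, Q.ϖk, zero_pow (by omega), zero_mul, add_zero]
    set κ₀ := algebraMap A F (1 + Q.ϖ ^ m * c) with hκ₀
    have hκ₀c : Cg Q m κ₀ 1 := by
      rw [← h3]; exact ⟨_, G.W.algebraMap_mem c, rfl⟩
    have hκu : UW G κ₀ := uw_of_cg_one hκ₀c hm
    have hκF : κ₀ ∈ Q.fld := by
      rw [← h3]; exact add_mem (one_mem _) (mul_mem (pow_mem Q.ϖ_mem m) hcF)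
    rw [h3] at hc
    have h5 : Cg Q (m + 1) (f * κ₀⁻¹) 1 := by
      have := hc.mul (Cg.refl κ₀⁻¹) hκu.mem hκu.inv.mem
      rwa [mul_inv_cancel₀ hκu.ne_zero] at this
    have hf0 : f ≠ 0 := (hf.uw hm UW.one).ne_zero
    obtain ⟨κ₁, hκ₁, hκ₁F, hκ₁c⟩ := ih (f := f * κ₀⁻¹) (mul_mem hfF (inv_mem hκF))
      (fun v => by
        rw [Place.ord_mul v hf0 (inv_ne_zero hκu.ne_zero), Place.ord_inv, hD]
        have : v.ord κ₀ = 0 := by
          rw [hκ₀, IsScalarTower.algebraMap_apply A K F]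
          exact Curve.ord_algebraMap v _
        rw [this, neg_zero, add_zero]) (m := m + 1) (by omega) h5 (by omega)
    refine ⟨κ₁ * (1 + Q.ϖ ^ m * c), by rw [map_mul, hκ₁, hkc, one_mul], ?_, ?_⟩
    · rw [map_mul]; exact mul_mem hκ₁F hκF
    · have h6 := hκ₁c.mul (Cg.refl κ₀) (G.W.algebraMap_mem _) hκu.mem
      rw [mul_assoc, inv_mul_cancel₀ hκu.ne_zero, mul_one] at h6
      rwa [map_mul]

/-- rational elements congruent to `1` -/
theorem cg_rat {n : ℕ} {s s' : F} (h : s = 1 + algebraMap A F Q.ϖ ^ n * s') (hs : s ∈ Q.fld) :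
    s' ∈ Q.fld := by
  have e : s' = (s - 1) * (algebraMap A F Q.ϖ ^ n)⁻¹ := by
    rw [h, add_sub_cancel_left, mul_comm, inv_mul_cancel_left₀ (pow_ne_zero _ δ0)]
  rw [e]
  exact mul_mem (sub_mem hs (one_mem _)) (inv_mem (pow_mem Q.ϖ_mem n))

variable (p) in
/-- improving sections -/
theorem exists_sec_step (Q : RatStr G) (H : NodMod G hk hspan 𝒩) : ∃ n₀ : ℕ,
    ∀ (f : F) (D : Divisor K F) (_ : ∀ v, (p : ℤ) * D v = v.ord f)
    (n e : ℕ) (u : A) (_ : (p : A) = Q.ϖ ^ e * u) (_ : 1 ≤ n) (_ : p * n + 1 ≤ e + n) (Hf h U : F)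
    (_ : Hf ∈ G.W) (_ : f = 1 + algebraMap A F Q.ϖ ^ (p * n) * Hf) (_ : h ∈ G.W) (_ : h ∈ Q.fld)
    (_ : U = 1 + algebraMap A F Q.ϖ ^ n * h) (_ : r1 G Hf = r1 G h ^ p) (_ : r2 G Hf = r2 G h ^ p)
    (a b : ℕ) (_ : n₀ ≤ a + b) (s : F) (_ : s ∈ Q.fld) (_ : s ∈ riemannRochSpace (DD K G.t a b - D))
    (_ : Cg Q n s 1), ∃ s₂ ∈ Q.fld,
      s₂ ∈ riemannRochSpace (DD K G.t (a + a) (b + b) - (D - divisor K U)) ∧ Cg Q (n + 1) s₂ 1 := by
  haveI : CharP E₁ p := charP_of_injective_algebraMap (algebraMap k E₁).injective p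
  haveI : CharP E₂ p := charP_of_injective_algebraMap (algebraMap k E₂).injective p
  obtain ⟨n₀, hn₀⟩ := H.eq
  refine ⟨n₀, ?_⟩
  intro f D hD n e u hpe hn he Hf h U hHf hf hh hhF hU hH1 hH2 a b hab s hsF hsL hs
  obtain ⟨s', hs', hss⟩ := hs
  have hs'F : s' ∈ Q.fld := cg_rat hss hsF
  have hp1 := hp.out.one_lt
  have hpn : 1 ≤ p * n := Nat.mul_pos hp.out.pos hn
  have h1 : Cg Q (p * n + 1) (s ^ p) (1 + algebraMap A F Q.ϖ ^ (p * n) * s' ^ p) := by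
    rw [hss]
    exact (pow_cg hp.out hpe hs').mono he
  have h2 := lead_mem H hD hpn hHf hf hsL (pow_mem hs' p) h1
  have h3 : (r1 G (s' - h), r2 G (s' - h)) ^ p ∈ GS G hk 𝒩 (p * a) (p * b) := by
    have e1 : ((r1 G (s' - h), r2 G (s' - h)) : E₁ × E₂) ^ p =
        (r1 G (s' ^ p) - r1 G Hf, r2 G (s' ^ p) - r2 G Hf) := by
      apply Prod.ext
      · change r1 G (s' - h) ^ p = r1 G (s' ^ p) - r1 G Hf
        rw [r1_sub hs' hh, sub_pow_char, r1_pow hs', hH1]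
      · change r2 G (s' - h) ^ p = r2 G (s' ^ p) - r2 G Hf
        rw [r2_sub hs' hh, sub_pow_char, r2_pow hs', hH2]
    rw [e1]; exact h2
  have h4 := GS_of_pow H h3
  rw [← hn₀ a b hab] at h4
  obtain ⟨t₀, ht₀, ht₀L, ht₀π⟩ := (mem_RS hspan).1 h4
  obtain ⟨t, ht, htF, htL, htπ⟩ := (RatStr.isRat_DD (Q := Q) a b).exists_lift hk hspan ht₀ ht₀L
  have hUc : Cg Q n U 1 := ⟨h, hh, hU⟩
  have hUu : UW G U := uw_of_cg_one hUc hn
  have hUF : U ∈ Q.fld := by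
    rw [hU]; exact add_mem (one_mem _) (mul_mem (pow_mem Q.ϖ_mem n) hhF)
  refine ⟨s * U⁻¹ * (1 - algebraMap A F Q.ϖ ^ n * t), ?_, ?_, ?_⟩
  · exact mul_mem (mul_mem hsF (inv_mem hUF))
      (sub_mem (one_mem _) (mul_mem (pow_mem Q.ϖ_mem n) htF))
  · have k1 : U⁻¹ ∈ riemannRochSpace (divisor K U) := by
      rw [mem_L]
      intro v
      right
      rw [Place.ord_inv, divisor_apply]
    have k2 : 1 - algebraMap A F Q.ϖ ^ n * t ∈ riemannRochSpace (DD K G.t a b) :=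
      sub_mem (one_mem_DD _ _ _) (δ_mul_L htL)
    have k3 := L_mul_mem (L_mul_mem hsL k1) k2
    have e1 : DD K G.t a b - D + divisor K U + DD K G.t a b =
        DD K G.t (a + a) (b + b) - (D - divisor K U) := by
      rw [← DD_add]; abel
    rwa [e1] at k3
  · have hU' : Cg Q (n + 1) U⁻¹ (1 - algebraMap A F Q.ϖ ^ n * h) := by
      refine ⟨algebraMap A F Q.ϖ ^ (n - 1) * (h ^ 2 * U⁻¹), mul_mem (pow_mem δ_mem _)
        (mul_mem (pow_mem hh 2) hUu.inv.mem), ?_⟩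
      have e1 : algebraMap A F Q.ϖ ^ (n + 1) * (algebraMap A F Q.ϖ ^ (n - 1) * (h ^ 2 * U⁻¹)) =
          (algebraMap A F Q.ϖ ^ n * h) ^ 2 * U⁻¹ := by
        rw [← mul_assoc, ← pow_add, mul_pow, ← pow_mul]
        have : n + 1 + (n - 1) = n * 2 := by omega
        rw [this]; ring
      rw [e1]
      have e2 : algebraMap A F Q.ϖ ^ n * h = U - 1 := by rw [hU]; ring
      rw [e2]
      have := hUu.ne_zero
      field_simp
      ring
    have hW1 : 1 + algebraMap A F Q.ϖ ^ n * s' ∈ G.W :=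
      add_mem (one_mem _) (mul_mem (pow_mem δ_mem n) hs')
    have hW2 : 1 - algebraMap A F Q.ϖ ^ n * h ∈ G.W :=
      sub_mem (one_mem _) (mul_mem (pow_mem δ_mem n) hh)
    have hW3 : 1 - algebraMap A F Q.ϖ ^ n * t ∈ G.W :=
      sub_mem (one_mem _) (mul_mem (pow_mem δ_mem n) ht)
    have k1 : Cg Q (n + 1) (s * U⁻¹ * (1 - algebraMap A F Q.ϖ ^ n * t))
        ((1 + algebraMap A F Q.ϖ ^ n * s') * (1 - algebraMap A F Q.ϖ ^ n * h) *
          (1 - algebraMap A F Q.ϖ ^ n * t)) := by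
      rw [hss]
      exact ((Cg.refl _).mul hU' hW1 hW2).mul (Cg.refl _) (mul_mem hW1 hW2) hW3
    have htr : G.π ⟨t, ht⟩ = (r1 G (s' - h), r2 G (s' - h)) := by rw [htπ, ht₀π]
    have k2 : Cg Q 1 (s' - h) t := by
      refine Cg.of_red (sub_mem hs' hh) ht (sub_mem hs'F hhF) htF ?_ ?_
      · rw [r1_of ht, htr]
      · rw [r2_of ht, htr]
    obtain ⟨w, hw, hw2⟩ := k2
    have k3 : Cg Q (n + 1) ((1 + algebraMap A F Q.ϖ ^ n * s') * (1 - algebraMap A F Q.ϖ ^ n * h) *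
          (1 - algebraMap A F Q.ϖ ^ n * t)) 1 := by
      refine ⟨w + algebraMap A F Q.ϖ ^ (n - 1) * (-(s' * h) - s' * t + h * t +
        algebraMap A F Q.ϖ ^ n * (s' * h * t)), ?_, ?_⟩
      · exact add_mem hw (mul_mem (pow_mem δ_mem _) (add_mem (add_mem (sub_mem
          (neg_mem (mul_mem hs' hh)) (mul_mem hs' ht)) (mul_mem hh ht))
          (mul_mem (pow_mem δ_mem n) (mul_mem (mul_mem hs' hh) ht))))
      · have e1 : algebraMap A F Q.ϖ ^ (n + 1) * (w + algebraMap A F Q.ϖ ^ (n - 1) *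
            (-(s' * h) - s' * t + h * t + algebraMap A F Q.ϖ ^ n * (s' * h * t))) =
            algebraMap A F Q.ϖ ^ n * (algebraMap A F Q.ϖ * w) +
            (algebraMap A F Q.ϖ ^ n) ^ 2 * (-(s' * h) - s' * t + h * t +
              algebraMap A F Q.ϖ ^ n * (s' * h * t)) := by
          rw [mul_add, ← mul_assoc (algebraMap A F Q.ϖ ^ (n + 1)) (algebraMap A F Q.ϖ ^ (n - 1)),
            ← pow_add, ← pow_mul]
          have : n + 1 + (n - 1) = n * 2 := by omega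
          rw [this, pow_succ]; ring
        rw [e1]
        have e2 : algebraMap A F Q.ϖ * w = s' - h - t := by
          rw [hw2]; ring
        rw [e2]
        ring
    exact k1.trans k3

variable (Q) in
/-- rational sections congruent to `1` modulo `ϖ ^ n` -/
structure Sec (D : Divisor K F) (n : ℕ) : Prop where
  P : ∃ a : ℕ, ∃ s ∈ Q.fld, s ∈ riemannRochSpace (DD K G.t a 0 - D) ∧ Cg Q n s 1
  Z : ∃ a : ℕ, ∃ s ∈ Q.fld, s ∈ riemannRochSpace (DD K G.t 0 a - D) ∧ Cg Q n s 1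

variable (Q p) in
/-- triviality of level `n` -/
structure Lev (f : F) (D : Divisor K F) (n : ℕ) : Prop where
  fF : f ∈ Q.fld
  hf : Cg Q (p * n) f 1
  hD : ∀ v, (p : ℤ) * D v = v.ord f
  sec : Sec Q D n
  sec' : Sec Q (-D) n

theorem Sec.enlarge {D : Divisor K F} {n : ℕ} (S : Sec Q D n) (n₀ : ℕ) :
    (∃ a : ℕ, n₀ ≤ a ∧ ∃ s ∈ Q.fld, s ∈ riemannRochSpace (DD K G.t a 0 - D) ∧ Cg Q n s 1) ∧
    (∃ a : ℕ, n₀ ≤ a ∧ ∃ s ∈ Q.fld, s ∈ riemannRochSpace (DD K G.t 0 a - D) ∧ Cg Q n s 1) := by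
  obtain ⟨⟨a, s, hsF, hsL, hs⟩, ⟨b, t, htF, htL, ht⟩⟩ := S
  exact ⟨⟨a + n₀, Nat.le_add_left _ _, s, hsF, L_mono (sub_le_sub_right (DD_mono _
    (Nat.le_add_right _ _) le_rfl) _) hsL, hs⟩, ⟨b + n₀, Nat.le_add_left _ _, t, htF,
    L_mono (sub_le_sub_right (DD_mono _ le_rfl (Nat.le_add_right _ _)) _) htL, ht⟩⟩

theorem one_mem_GS (a b : ℕ) : (1 : E₁ × E₂) ∈ GS G hk 𝒩 a b := by
  refine ⟨one_mem_glue _, ?_, ?_⟩
  · change (1 : E₁) ∈ riemannRochSpace (DD k (tb G).1 a b)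
    exact one_mem_DD _ _ _
  · change (1 : E₂) ∈ riemannRochSpace (DD k (tb G).2 a b)
    exact one_mem_DD _ _ _

theorem Sec.base (H : NodMod G hk hspan 𝒩) {f : F} (hfF : f ∈ Q.fld) {D : Divisor K F}
    (T : TwData G hk 𝒩 p f D 1 1) : Sec Q D 1 := by
  obtain ⟨n₀, hn₀⟩ := exists_sec (p := p) Q H
  have key : ∀ s : F, s ∈ Q.fld → ∀ hs : s ∈ G.W, G.π ⟨s, hs⟩ = 1 → Cg Q 1 s 1 := by
    intro s hsF hs hπ
    refine Cg.of_red hs (one_mem _) hsF (one_mem _) ?_ ?_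
    · rw [r1_of hs, hπ, r1_one]; rfl
    · rw [r2_of hs, hπ, r2_one]; rfl
  constructor
  · obtain ⟨s, hsF, hs, hsL, hsπ⟩ := hn₀ f hfF D T n₀ 0 (by omega) 1 (one_mem_GS _ _)
    exact ⟨n₀, s, hsF, hsL, key s hsF hs hsπ⟩
  · obtain ⟨s, hsF, hs, hsL, hsπ⟩ := hn₀ f hfF D T 0 n₀ (by omega) 1 (one_mem_GS _ _)
    exact ⟨n₀, s, hsF, hsL, key s hsF hs hsπ⟩

include H in
theorem absorb' [hN : Nonempty (Nd G hk 𝒩)] {D : Divisor K F} {n : ℕ} (S : Sec Q D n)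
    {e : ℕ} {u : A} (hpe : (p : A) = Q.ϖ ^ e * u) {f : F} (hfF : f ∈ Q.fld)
    (hD : ∀ v, (p : ℤ) * D v = v.ord f) {m M : ℕ} (hm : 1 ≤ m) (hf : Cg Q m f 1) (hmM : m ≤ M)
    (hM1 : M ≤ p * n) (hM2 : M ≤ e + n) :
    ∃ κ : A, algebraMap A k κ = 1 ∧ algebraMap A F κ ∈ Q.fld ∧ Cg Q M f (algebraMap A F κ) := by
  obtain ⟨⟨a, s, hsF, hsL, hs⟩, ⟨b, t, htF, htL, ht⟩⟩ := S
  have key : ∀ s : F, Cg Q n s 1 → Cg Q M (s ^ p) 1 := by
    rintro s ⟨s', hs', rfl⟩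
    refine ((pow_cg hp.out hpe hs').mono hM2).trans ?_
    obtain ⟨d, hd⟩ := Nat.exists_eq_add_of_le hM1
    exact ⟨algebraMap A F Q.ϖ ^ d * s' ^ p, mul_mem (pow_mem δ_mem d) (pow_mem hs' p),
      by rw [hd, pow_add]; ring⟩
  obtain ⟨d, hd⟩ := Nat.exists_eq_add_of_le hmM
  exact absorb H hsL htL (key s hs) (key t ht) d hfF hD hm hf hd.symm

theorem divisor_scale {κ : A} (hκ : algebraMap A F κ ≠ 0) {f : F} (hf : f ≠ 0) (v : Place K F) :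
    v.ord (f * (algebraMap A F κ)⁻¹) = v.ord f := by
  rw [Place.ord_mul v hf (inv_ne_zero hκ), Place.ord_inv, IsScalarTower.algebraMap_apply A K F,
    Curve.ord_algebraMap, neg_zero, add_zero]

theorem uw_const {κ : A} (h : algebraMap A k κ = 1) : UW G (algebraMap A F κ) :=
  UW.mk' (G.W.algebraMap_mem _) (by rw [r1_algebraMap, h, map_one]; exact one_ne_zero)
    (by rw [r2_algebraMap, h, map_one]; exact one_ne_zero)

theorem cg_div_const {κ : A} (h : algebraMap A k κ = 1) {n : ℕ} {f : F}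
    (hf : Cg Q n f (algebraMap A F κ)) : Cg Q n (f * (algebraMap A F κ)⁻¹) 1 := by
  have hu : UW G (algebraMap A F κ) := uw_const h
  have := hf.mul (Cg.refl (algebraMap A F κ)⁻¹) hu.mem hu.inv.mem
  rwa [mul_inv_cancel₀ hu.ne_zero] at this

include H in
/-- the first level -/
theorem Lev.base [hN : Nonempty (Nd G hk 𝒩)] {e : ℕ} {u : A} (hpe : (p : A) = Q.ϖ ^ e * u)
    (he : p ≤ e + 1) {f : F} (hfF : f ∈ Q.fld) (hfW : f ∈ G.W) (hπ : G.π ⟨f, hfW⟩ = 1)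
    {D : Divisor K F} (hD : ∀ v, (p : ℤ) * D v = v.ord f) :
    ∃ κ : A, algebraMap A k κ = 1 ∧ algebraMap A F κ ∈ Q.fld ∧
      Lev Q p (f * (algebraMap A F κ)⁻¹) D 1 := by
  have T : TwData G hk 𝒩 p f D 1 1 := tw_one (hspan := hspan) H hfW hπ hD
  have S := Sec.base (Q := Q) H hfF T
  have hfc : Cg Q 1 f 1 := by
    refine Cg.of_red hfW (one_mem _) hfF (one_mem _) ?_ ?_
    · rw [r1_of hfW, hπ, r1_one]; rfl
    · rw [r2_of hfW, hπ, r2_one]; rfl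
  have hfu : UW G f := uw_of_cg_one hfc le_rfl
  have hi : G.π ⟨f⁻¹, hfu.inv.mem⟩ = 1 := by
    have h1 := hfu.r1_inv
    have h2 := hfu.r2_inv
    rw [hfc.r1_eq le_rfl (one_mem _), r1_one, inv_one, r1_of hfu.inv.mem] at h1
    rw [hfc.r2_eq le_rfl (one_mem _), r2_one, inv_one, r2_of hfu.inv.mem] at h2
    exact Prod.ext h1 h2
  have hD' : ∀ v, (p : ℤ) * (-D) v = v.ord f⁻¹ := fun v => by
    rw [Finsupp.neg_apply, Place.ord_inv, ← hD]; ring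
  have T' : TwData G hk 𝒩 p f⁻¹ (-D) 1 1 := tw_one (hspan := hspan) H hfu.inv.mem hi hD'
  have S' := Sec.base (Q := Q) H (inv_mem hfF) T'
  have hp1 := hp.out.one_lt
  obtain ⟨κ, hκ, hκF, hκc⟩ := absorb' H S hpe hfF hD le_rfl hfc (M := p * 1) (by omega) le_rfl
    (by omega)
  have hu : UW G (algebraMap A F κ) := uw_const hκ
  exact ⟨κ, hκ, hκF, mul_mem hfF (inv_mem hκF), cg_div_const hκ hκc,
    fun v => by rw [divisor_scale hu.ne_zero hfu.ne_zero, hD], S, S'⟩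

include H in
/-- the inductive step -/
theorem Lev.step [hN : Nonempty (Nd G hk 𝒩)] {e : ℕ} {u : A} (hpe : (p : A) = Q.ϖ ^ e * u)
    {n : ℕ} (hn : 1 ≤ n) (he : p * n + 1 ≤ e + n) (he' : p * (n + 1) ≤ e + (n + 1)) {f : F}
    {D : Divisor K F} (L : Lev Q p f D n) {Hf : F} (hHf : Hf ∈ G.W)
    (hf : f = 1 + algebraMap A F Q.ϖ ^ (p * n) * Hf) {h₁ : E₁} {h₂ : E₂}
    (e₁ : r1 G Hf = h₁ ^ p) (e₂ : r2 G Hf = h₂ ^ p) :
    ∃ κ : A, algebraMap A k κ = 1 ∧ algebraMap A F κ ∈ Q.fld ∧ ∃ U ∈ Q.fld, Cg Q n U 1 ∧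
      Lev Q p (f * (U ^ p)⁻¹ * (algebraMap A F κ)⁻¹) (D - divisor K U) (n + 1) := by
  haveI : CharP E₁ p := charP_of_injective_algebraMap (algebraMap k E₁).injective p
  haveI : CharP E₂ p := charP_of_injective_algebraMap (algebraMap k E₂).injective p
  obtain ⟨n₀, hn₀⟩ := exists_sec_step (p := p) Q H
  have hpn : 1 ≤ p * n := Nat.mul_pos hp.out.pos hn
  have hfu : UW G f := uw_of_cg_one L.hf hpn
  obtain ⟨h, hh, hhF, hhπ⟩ := Q.exists_rat_lift (hk := hk) H (h₁, h₂)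
  have r1h : r1 G h = h₁ := by rw [r1_of hh, hhπ]
  have r2h : r2 G h = h₂ := by rw [r2_of hh, hhπ]
  set U := 1 + algebraMap A F Q.ϖ ^ n * h with hU
  have hUc : Cg Q n U 1 := ⟨h, hh, hU⟩
  have hUu : UW G U := uw_of_cg_one hUc hn
  have hUF : U ∈ Q.fld := add_mem (one_mem _) (mul_mem (pow_mem Q.ϖ_mem n) hhF)
  have hHF : Hf ∈ Q.fld := cg_rat hf L.fF
  -- sections of `D - div U`
  obtain ⟨⟨a, ha, s, hsF, hsL, hs⟩, ⟨b, hb, t, htF, htL, ht⟩⟩ := L.sec.enlarge n₀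
  obtain ⟨s₂, hs₂F, hs₂L, hs₂⟩ := hn₀ f D L.hD n e u hpe hn he Hf h U hHf hf hh hhF hU
    (by rw [e₁, r1h]) (by rw [e₂, r2h]) a 0 (by omega) s hsF hsL hs
  obtain ⟨t₂, ht₂F, ht₂L, ht₂⟩ := hn₀ f D L.hD n e u hpe hn he Hf h U hHf hf hh hhF hU
    (by rw [e₁, r1h]) (by rw [e₂, r2h]) 0 b (by omega) t htF htL ht
  have S₂ : Sec Q (D - divisor K U) (n + 1) :=
    ⟨⟨_, s₂, hs₂F, hs₂L, hs₂⟩, ⟨_, t₂, ht₂F, ht₂L, ht₂⟩⟩
  -- sections of the opposite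
  have hf' : f⁻¹ = 1 + algebraMap A F Q.ϖ ^ (p * n) * (-(Hf * f⁻¹)) := by
    have h1 : algebraMap A F Q.ϖ ^ (p * n) * Hf = f - 1 := by rw [hf]; ring
    rw [mul_neg, ← mul_assoc, h1, sub_mul, mul_inv_cancel₀ hfu.ne_zero, one_mul]; ring
  have hU' : U⁻¹ = 1 + algebraMap A F Q.ϖ ^ n * (-(h * U⁻¹)) := by
    have h1 : algebraMap A F Q.ϖ ^ n * h = U - 1 := by rw [hU]; ring
    rw [mul_neg, ← mul_assoc, h1, sub_mul, mul_inv_cancel₀ hUu.ne_zero, one_mul]; ring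
  have hHf' : -(Hf * f⁻¹) ∈ G.W := neg_mem (mul_mem hHf hfu.inv.mem)
  have hh' : -(h * U⁻¹) ∈ G.W := neg_mem (mul_mem hh hUu.inv.mem)
  have hhF' : -(h * U⁻¹) ∈ Q.fld := neg_mem (mul_mem hhF (inv_mem hUF))
  have f1 : r1 G f⁻¹ = 1 := by rw [hfu.r1_inv, L.hf.r1_eq hpn (one_mem _), r1_one, inv_one]
  have f2 : r2 G f⁻¹ = 1 := by rw [hfu.r2_inv, L.hf.r2_eq hpn (one_mem _), r2_one, inv_one]
  have u1 : r1 G U⁻¹ = 1 := by rw [hUu.r1_inv, hUc.r1_eq hn (one_mem _), r1_one, inv_one]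
  have u2 : r2 G U⁻¹ = 1 := by rw [hUu.r2_inv, hUc.r2_eq hn (one_mem _), r2_one, inv_one]
  have k1 : r1 G (-(Hf * f⁻¹)) = r1 G (-(h * U⁻¹)) ^ p := by
    rw [r1_neg (mul_mem hHf hfu.inv.mem), r1_mul hHf hfu.inv.mem, r1_neg (mul_mem hh hUu.inv.mem),
      r1_mul hh hUu.inv.mem, f1, u1, mul_one, mul_one, e₁, r1h, neg_pow, neg_one_pow_char]
    ring
  have k2 : r2 G (-(Hf * f⁻¹)) = r2 G (-(h * U⁻¹)) ^ p := by
    rw [r2_neg (mul_mem hHf hfu.inv.mem), r2_mul hHf hfu.inv.mem, r2_neg (mul_mem hh hUu.inv.mem),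
      r2_mul hh hUu.inv.mem, f2, u2, mul_one, mul_one, e₂, r2h, neg_pow, neg_one_pow_char]
    ring
  have hD' : ∀ v, (p : ℤ) * (-D) v = v.ord f⁻¹ := fun v => by
    rw [Finsupp.neg_apply, Place.ord_inv, ← L.hD]; ring
  have hdU : -D - divisor K U⁻¹ = -(D - divisor K U) := by
    ext v
    rw [Finsupp.sub_apply, Finsupp.neg_apply, Finsupp.neg_apply, Finsupp.sub_apply, divisor_apply,
      divisor_apply, Place.ord_inv]
    ring
  obtain ⟨⟨a', ha', s', hs'F, hs'L, hs'⟩, ⟨b', hb', t', ht'F, ht'L, ht'⟩⟩ := L.sec'.enlarge n₀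
  obtain ⟨s₃, hs₃F, hs₃L, hs₃⟩ := hn₀ f⁻¹ (-D) hD' n e u hpe hn he _ _ _ hHf' hf' hh' hhF' hU'
    k1 k2 a' 0 (by omega) s' hs'F hs'L hs'
  obtain ⟨t₃, ht₃F, ht₃L, ht₃⟩ := hn₀ f⁻¹ (-D) hD' n e u hpe hn he _ _ _ hHf' hf' hh' hhF' hU'
    k1 k2 0 b' (by omega) t' ht'F ht'L ht'
  rw [hdU] at hs₃L ht₃L
  have S₃ : Sec Q (-(D - divisor K U)) (n + 1) :=
    ⟨⟨_, s₃, hs₃F, hs₃L, hs₃⟩, ⟨_, t₃, ht₃F, ht₃L, ht₃⟩⟩
  -- the function
  have hUp : UW G (U ^ p) := hUu.pow p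
  have hfU : Cg Q (p * n + 1) f (U ^ p) := by
    have h1 : Cg Q 1 Hf (h ^ p) := by
      refine Cg.of_red hHf (pow_mem hh p) hHF (pow_mem hhF p) ?_ ?_
      · rw [r1_pow hh, r1h, e₁]
      · rw [r2_pow hh, r2h, e₂]
    have h2 := (Cg.refl (1 : F) (Q := Q) (n := p * n + 1)).add (h1.scale (p * n))
    rw [← hf] at h2
    exact h2.trans ((pow_cg hp.out hpe hh).mono he).symm
  have hf₁ : Cg Q (p * n + 1) (f * (U ^ p)⁻¹) 1 := by
    have := hfU.mul (Cg.refl (U ^ p)⁻¹) hUp.mem hUp.inv.mem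
    rwa [mul_inv_cancel₀ hUp.ne_zero] at this
  have hD₁ : ∀ v, (p : ℤ) * (D - divisor K U) v = v.ord (f * (U ^ p)⁻¹) := fun v => by
    rw [Place.ord_mul v hfu.ne_zero (inv_ne_zero hUp.ne_zero), Place.ord_inv, ord_pow,
      Finsupp.sub_apply, divisor_apply, ← L.hD]
    ring
  have hp1 := hp.out.one_lt
  have hf₁F : f * (U ^ p)⁻¹ ∈ Q.fld := mul_mem L.fF (inv_mem (pow_mem hUF p))
  obtain ⟨κ, hκ, hκF, hκc⟩ := absorb' H S₂ hpe hf₁F hD₁ (m := p * n + 1) (M := p * (n + 1))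
    (by omega) hf₁ (by rw [mul_add]; omega) le_rfl he'
  have hu : UW G (algebraMap A F κ) := uw_const hκ
  exact ⟨κ, hκ, hκF, U, hUF, hUc, mul_mem hf₁F (inv_mem hκF), cg_div_const hκ hκc,
    fun v => by rw [divisor_scale hu.ne_zero (mul_ne_zero hfu.ne_zero
      (inv_ne_zero hUp.ne_zero)), hD₁], S₂, S₃⟩

include hspan H in
/-- **Wild rigidity** on nodal models -/
theorem wild_rigid (hA : ∃ t : A, t ≠ 0 ∧ ¬ IsUnit t)
    (hrank : ∀ a c : A, algebraMap A k a = 0 → c ≠ 0 → ∃ n : ℕ, c ∣ a ^ n)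
    (hpA : (p : A) ≠ 0) {f : F} {D : Divisor K F} (T : TwData G hk 𝒩 p f D 1 1)
    {c₀ ε : A} (hc₀ : c₀ ≠ 0) (hε : c₀ ^ (p - 1) = p * ε)
    (hck : algebraMap A k c₀ = 0) (hεk : algebraMap A k ε = 0)
    {w : F} (hw : w ∈ G.W) (hfw : f = 1 + algebraMap A F (p * c₀) * w) {a₀ b₀ : ℕ} {s₁ s₂ ρ₁ ρ₂ : F}
    (hs₁ : s₁ ∈ riemannRochSpace (DD K G.t a₀ 0 - D))
    (hs₂ : s₂ ∈ riemannRochSpace (DD K G.t 0 b₀ - D))
    (hρ₁ : ρ₁ ∈ G.W) (hρ₂ : ρ₂ ∈ G.W)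
    (e₁ : s₁ = 1 + algebraMap A F c₀ * ρ₁) (e₂ : s₂ = 1 + algebraMap A F c₀ * ρ₂) :
    ∃ x : F, x ^ p = f := by
  classical
  haveI := Fintype.ofFinite (nodeSet G hk 𝒩 G.t)
  have hm0 : p ≠ 0 := hp.out.ne_zero
  obtain ⟨n₀, hn₀⟩ := TwData.exists_RV_eq hspan H
  obtain ⟨c₁, hc₁⟩ := exists_riemann (K := k) (F := E₁)
  obtain ⟨c₂, hc₂⟩ := exists_riemann (K := k) (F := E₂)
  have ht1 := transcendental_tb_fst G
  have ht2 := transcendental_tb_snd G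
  have hd1 : (1 : ℤ) ≤ finrank k⟮(tb G).1⟯ E₁ := by exact_mod_cast finrank_pos ht1
  have hd2 : (1 : ℤ) ≤ finrank k⟮(tb G).2⟯ E₂ := by exact_mod_cast finrank_pos ht2
  let n := n₀ + (c₁ + Nat.card (nodeSet G hk 𝒩 G.t)).toNat + c₂.toNat
  have q1 := Int.self_le_toNat (c₁ + Nat.card (nodeSet G hk 𝒩 G.t))
  have q2 := Int.self_le_toNat c₂
  have q3 : (n : ℤ) = n₀ + (c₁ + Nat.card (nodeSet G hk 𝒩 G.t)).toNat + c₂.toNat := by
    simp only [n]; push_cast; ring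
  have q4 : (0 : ℤ) ≤ n₀ := by positivity
  have q5 : (0 : ℤ) ≤ (c₁ + Nat.card (nodeSet G hk 𝒩 G.t)).toNat := by positivity
  have q6 : (0 : ℤ) ≤ c₂.toNat := by positivity
  have hsub_mono : ∀ {a b a' b' : ℕ}, a ≤ a' → b ≤ b' →
      riemannRochSpace (DD K G.t a b - D) ≤ riemannRochSpace (DD K G.t a' b' - D) :=
    fun ha hb => L_mono (sub_le_sub_right (DD_mono G.t ha hb) D)
  have hpinv : ∀ r : E₁ × E₂, pinv (1 : E₁ × E₂) * r = r := fun r => by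
    have e : pinv (1 : E₁ × E₂) = 1 := Prod.ext (inv_one) (inv_one)
    rw [e, one_mul]
  have hrd : ∀ a b, n ≤ a + b → ∀ r : E₁ × E₂,
      r ∈ (G.toRedModel hk hspan).rd hk (riemannRochSpace (DD K G.t a b - D)) ↔
        r ∈ GS G hk 𝒩 a b := by
    intro a b hab r
    have heq := hn₀ p f D 1 1 hm0 T a b (by omega)
    constructor
    · intro hr
      change r ∈ GG _ _ _ _
      rw [← heq]
      exact ⟨r, hr, hpinv r⟩
    · intro hs
      change r ∈ GG _ _ _ _ at hs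
      rw [← heq] at hs
      obtain ⟨r', hr', rfl⟩ := hs
      change pinv 1 * r' ∈ _
      rw [hpinv]
      exact hr'
  have hfu : IsUnit (⟨f, T.hf⟩ : G.W) := TwData.isUnit_f T.hπ T.h1 T.h2
  -- the `p`-th powers of the sections
  have key : ∀ s ρ : F, ∀ hρ : ρ ∈ G.W, s = 1 + algebraMap A F c₀ * ρ →
      ∃ hs : s ∈ G.W, (⟨s, hs⟩ : G.W) = 1 + c₀ • ⟨ρ, hρ⟩ ∧
        ∃ w₁ : G.W, (⟨s, hs⟩ : G.W) ^ p = ⟨f, T.hf⟩ * (1 + ((p : A) * c₀) • w₁) := by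
    intro s ρ hρ hs
    have hsW : s ∈ G.W := by
      rw [hs]; exact add_mem (one_mem _) (mul_mem (G.W.algebraMap_mem _) hρ)
    have e0 : (⟨s, hsW⟩ : G.W) = 1 + c₀ • ⟨ρ, hρ⟩ := by
      apply Subtype.ext
      change s = 1 + c₀ • ρ
      rw [hs, Algebra.smul_def]
    obtain ⟨fu, hfu'⟩ := hfu
    obtain ⟨q, hq⟩ := exists_one_add_pow hp.out (c₀ • (⟨ρ, hρ⟩ : G.W))
    refine ⟨hsW, e0, (↑fu⁻¹ : G.W) * (⟨ρ, hρ⟩ * (1 + c₀ • ⟨ρ, hρ⟩ * q) + ε • ⟨ρ, hρ⟩ ^ p -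
      ⟨w, hw⟩), ?_⟩
    have e1 : (⟨f, T.hf⟩ : G.W) = 1 + ((p : A) * c₀) • ⟨w, hw⟩ := by
      apply Subtype.ext
      change f = 1 + ((p : A) * c₀) • w
      rw [hfw, Algebra.smul_def]
    have e2 : c₀ ^ p = (p : A) * c₀ * ε := by
      have : p = (p - 1) + 1 := (Nat.succ_pred_prime hp.out).symm
      conv_lhs => rw [this, pow_succ, hε]
      ring
    have e3 : (c₀ • (⟨ρ, hρ⟩ : G.W)) ^ p = ((p : A) * c₀ * ε) • ⟨ρ, hρ⟩ ^ p := by
      rw [_root_.smul_pow, e2]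
    have hR : ∀ X : G.W, (fu : G.W) * (1 + ((p : A) * c₀) • ((↑fu⁻¹ : G.W) * X)) =
        fu + ((p : A) * c₀) • X := fun X => by
      rw [mul_add, mul_one, mul_smul_comm, Units.mul_inv_cancel_left]
    rw [e0, hq, e3, ← hfu', hR, hfu', e1]
    simp only [Algebra.smul_def, map_mul, map_natCast]
    ring
  obtain ⟨hsW₁, e0₁, w₁, hw₁⟩ := key s₁ ρ₁ hρ₁ e₁
  obtain ⟨hsW₂, e0₂, w₂, hw₂⟩ := key s₂ ρ₂ hρ₂ e₂
  obtain ⟨x, -, hx⟩ := wild_rigidity_abstract (G.toRedModel hk hspan) hk hA hrank hp.out hpA T.hf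
    hfu hc₀ hε hck hεk
    (fun a b => riemannRochSpace (DD K G.t a b)) (fun a b => riemannRochSpace (DD K G.t a b - D))
    (fun ha hb => L_mono (DD_mono G.t ha hb)) (fun ha hb => hsub_mono ha hb)
    (one_mem_DD _ _ _)
    (by
      intro a b c d x y hx hy
      have := L_mul_mem hx hy
      rwa [DD_add] at this)
    (by
      intro a b c d x y hx hy
      have := L_mul_mem hx hy
      have e : DD K G.t a b - D + DD K G.t c d = DD K G.t (a + c) (b + d) - D := by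
        rw [← DD_add]; abel
      rwa [e] at this)
    (fun hx => pow_mul_inv_mem T.ne_zero hm0 T.hD hx)
    (GS G hk 𝒩) n hrd
    (by
      intro a b ha hb s hs
      have key := GG_sup (𝒩.restrict (nodeSet G hk 𝒩 G.t)) (g₁ := rrGenus k E₁)
        (g₂ := rrGenus k E₂) hc₁ hc₂ 1
        (DD k (tb G).1 a n) (DD k (tb G).1 n b) (DD k (tb G).2 a n) (DD k (tb G).2 n b)
        (fun j => DD_eq_zero (H.hv j) _ _) (fun j => DD_eq_zero (H.hw j) _ _)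
        (fun j => DD_eq_zero (H.hv j) _ _) (fun j => DD_eq_zero (H.hw j) _ _)
        (by rw [DD_inf' _ ha hb, degree_DD ht1]; nlinarith)
        (by rw [DD_inf' _ ha hb, degree_DD ht2]; nlinarith)
      rw [DD_sup' _ ha hb, DD_sup' _ ha hb] at key
      change s ∈ GG _ _ _ _ at hs
      rw [← key] at hs
      obtain ⟨s1, hs1, s2, hs2, h⟩ := Submodule.mem_sup.1 hs
      exact ⟨s1, hs1, s2, hs2, h.symm⟩)
    (by
      rintro a b ha hb x ⟨hx1, hx2⟩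
      change x ∈ riemannRochSpace (DD K G.t a n - D) at hx1
      change x ∈ riemannRochSpace (DD K G.t n b - D) at hx2
      have h3 := (mem_L_inf _ _ _).2 ⟨hx1, hx2⟩
      have e : (DD K G.t a n - D) ⊓ (DD K G.t n b - D) = DD K G.t n n - D := by
        have h4 := DD_inf' (k := K) G.t ha hb
        ext v
        have h5 := congrArg (fun z : Divisor K F => z v) h4
        simp only [Finsupp.inf_apply] at h5
        rw [Finsupp.inf_apply, Finsupp.sub_apply, Finsupp.sub_apply, Finsupp.sub_apply, ← h5]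
        exact min_sub_sub_right _ _ _
      rwa [e] at h3)
    (a₀ := n + a₀ + b₀) (by omega) (s₁ := ⟨s₁, hsW₁⟩) (s₂ := ⟨s₂, hsW₂⟩)
    (hsub_mono (by omega) le_rfl hs₁) (hsub_mono le_rfl (by omega) hs₂) e0₁ e0₂ hw₁ hw₂
  exact ⟨x, hx⟩

include H in
/-- regularity of the leading term, modulo `p`-th powers -/
theorem Lev.regular {e : ℕ} {u : A} (hpe : (p : A) = Q.ϖ ^ e * u) {n : ℕ} (hn : 1 ≤ n)
    (he : p * n + 1 ≤ e + n) {f : F} {D : Divisor K F} (L : Lev Q p f D n) {Hf : F}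
    (hHf : Hf ∈ G.W) (hf : f = 1 + algebraMap A F Q.ϖ ^ (p * n) * Hf) :
    (∀ v : Place k E₁, ∃ y, Ge v 0 (r1 G Hf - y ^ p)) ∧
      (∀ v : Place k E₂, ∃ y, Ge v 0 (r2 G Hf - y ^ p)) := by
  have hpn : 1 ≤ p * n := Nat.mul_pos hp.out.pos hn
  obtain ⟨⟨a, s, hsF, hsL, s', hs', hss⟩, ⟨b, t, htF, htL, t', ht', htt⟩⟩ := L.sec
  have h1 : Cg Q (p * n + 1) (s ^ p) (1 + algebraMap A F Q.ϖ ^ (p * n) * s' ^ p) := by
    rw [hss]
    exact (pow_cg hp.out hpe hs').mono he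
  have h2 : Cg Q (p * n + 1) (t ^ p) (1 + algebraMap A F Q.ϖ ^ (p * n) * t' ^ p) := by
    rw [htt]
    exact (pow_cg hp.out hpe ht').mono he
  have g1 := (mem_GG _).1 (lead_mem H L.hD hpn hHf hf hsL (pow_mem hs' p) h1)
  have g2 := (mem_GG _).1 (lead_mem H L.hD hpn hHf hf htL (pow_mem ht' p) h2)
  constructor
  · intro v
    rcases le_total 0 (v.ord (tb G).1) with ho | ho
    · refine ⟨r1 G s', ?_⟩
      have h3 := mem_L.1 g1.2.1 v
      rw [DD_apply, max_eq_right (neg_nonpos.2 ho)] at h3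
      have h4 := h3.neg
      rw [neg_sub, r1_pow hs'] at h4
      exact h4.mono (by simp)
    · refine ⟨r1 G t', ?_⟩
      have h3 := mem_L.1 g2.2.1 v
      rw [DD_apply, max_eq_right ho] at h3
      have h4 := h3.neg
      rw [neg_sub, r1_pow ht'] at h4
      exact h4.mono (by simp)
  · intro v
    rcases le_total 0 (v.ord (tb G).2) with ho | ho
    · refine ⟨r2 G s', ?_⟩
      have h3 := mem_L.1 g1.2.2 v
      rw [DD_apply, max_eq_right (neg_nonpos.2 ho)] at h3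
      have h4 := h3.neg
      rw [neg_sub, r2_pow hs'] at h4
      exact h4.mono (by simp)
    · refine ⟨r2 G t', ?_⟩
      have h3 := mem_L.1 g2.2.2 v
      rw [DD_apply, max_eq_right ho] at h3
      have h4 := h3.neg
      rw [neg_sub, r2_pow ht'] at h4
      exact h4.mono (by simp)

variable (Q p) in
/-- rational representatives of the same Kummer class -/
def Rel (f f' : F) : Prop := ∃ U ∈ Q.fld, U ≠ 0 ∧ ∃ c : F, c ∈ Q.fld ∧ c ≠ 0 ∧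
  (∃ c' : K, c = algebraMap K F c') ∧ f' = f * U ^ p * c

theorem Rel.refl (f : F) : Rel Q p f f :=
  ⟨1, one_mem _, one_ne_zero, 1, one_mem _, one_ne_zero, ⟨1, (map_one _).symm⟩, by simp⟩

theorem Rel.trans {f f' f'' : F} (h : Rel Q p f f') (h' : Rel Q p f' f'') : Rel Q p f f'' := by
  obtain ⟨U, hU, hU0, c, hc, hc0, ⟨c₁, hc₁⟩, rfl⟩ := h
  obtain ⟨U', hU', hU0', c', hc', hc0', ⟨c₁', hc₁'⟩, rfl⟩ := h'
  exact ⟨U * U', mul_mem hU hU', mul_ne_zero hU0 hU0', c * c', mul_mem hc hc',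
    mul_ne_zero hc0 hc0', ⟨c₁ * c₁', by rw [map_mul, hc₁, hc₁']⟩, by ring⟩

include H in
/-- **Raising the level.** -/
theorem exists_lev [hN : Nonempty (Nd G hk 𝒩)] {u : A}
    (hpe : (p : A) = Q.ϖ ^ (p * (p - 1)) * u) {f : F} {D : Divisor K F} (L₁ : Lev Q p f D 1)
    (hE : ∀ (n : ℕ) (f' : F) (D' : Divisor K F), 1 ≤ n → n < p → Lev Q p f' D' n →
      Rel Q p f f' → ∀ Hf ∈ G.W, f' = 1 + algebraMap A F Q.ϖ ^ (p * n) * Hf →
      (∀ v : Place k E₁, ∃ y, Ge v 0 (r1 G Hf - y ^ p)) →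
      (∀ v : Place k E₂, ∃ y, Ge v 0 (r2 G Hf - y ^ p)) →
      (∃ h₁, r1 G Hf = h₁ ^ p) ∧ (∃ h₂, r2 G Hf = h₂ ^ p)) (n : ℕ) (hn : 1 ≤ n) (hnp : n ≤ p) :
    ∃ f' D', Lev Q p f' D' n ∧ Rel Q p f f' := by
  induction n, hn using Nat.le_induction with
  | base => exact ⟨f, D, L₁, Rel.refl f⟩
  | succ n hn ih =>
    obtain ⟨f', D', L, hR⟩ := ih (by omega)
    obtain ⟨Hf, hHf, hf⟩ := L.hf
    have hp1 := hp.out.one_lt
    obtain ⟨d, hd⟩ : ∃ d, p = n + 1 + d := Nat.exists_eq_add_of_le hnp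
    have e1 : p - 1 = n + d := by omega
    have he : p * n + 1 ≤ p * (p - 1) + n := by
      rw [e1, mul_add]; nlinarith
    have he' : p * (n + 1) ≤ p * (p - 1) + (n + 1) := by
      rw [e1, mul_add, mul_add]
      nlinarith
    obtain ⟨k1, k2⟩ := L.regular H hpe hn he hHf hf
    obtain ⟨⟨h₁, e₁⟩, ⟨h₂, e₂⟩⟩ := hE n f' D' hn (by omega) L hR Hf hHf hf k1 k2
    obtain ⟨κ, hκ, hκF, U, hUF, hUc, L'⟩ := L.step H hpe hn he he' hHf hf e₁ e₂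
    refine ⟨_, _, L', hR.trans ⟨U⁻¹, inv_mem hUF, inv_ne_zero (uw_of_cg_one hUc hn).ne_zero,
      (algebraMap A F κ)⁻¹, inv_mem hκF, inv_ne_zero (uw_const (G := G) hκ).ne_zero,
      ⟨(algebraMap A K κ)⁻¹, ?_⟩, ?_⟩⟩
    · rw [map_inv₀, ← IsScalarTower.algebraMap_apply A K F]
    · rw [inv_pow]

/-- wild automorphisms are trivial modulo higher powers -/
theorem WildAut.cg {σ : SemilinearAut K F} {z : F} {θ : k} (S : WildAut Q σ z θ) {n : ℕ}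
    {x : F} (hxF : x ∈ Q.fld) (hx : Cg Q n x 1) : Cg Q (n + 1) (σ • x) x := by
  obtain ⟨x', hx', hxx⟩ := hx
  have hx'F : x' ∈ Q.fld := cg_rat hxx hxF
  obtain ⟨y', hy', hy'2⟩ := S.sub x' hx'F hx'
  obtain ⟨y, hy, hy2⟩ := S.sub _ Q.ϖ_mem δ_mem
  have h1 : σ • algebraMap A F Q.ϖ = algebraMap A F Q.ϖ * (1 + algebraMap A F Q.ϖ * y) := by
    rw [hy2]; ring
  obtain ⟨w, hw⟩ := exists_one_add_mul_pow (⟨algebraMap A F Q.ϖ, δ_mem⟩ : G.W) ⟨y, hy⟩ n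
  have hw' : (1 + algebraMap A F Q.ϖ * y) ^ n =
      1 + n * (algebraMap A F Q.ϖ * y) + algebraMap A F Q.ϖ ^ 2 * (w : F) := by
    have := congrArg Subtype.val hw
    push_cast at this
    exact this
  have hnW : (n : F) ∈ G.W := natCast_mem _ n
  refine ⟨(n * y + algebraMap A F Q.ϖ * w) * (x' + algebraMap A F Q.ϖ ^ 2 * y') +
    algebraMap A F Q.ϖ * y', ?_, ?_⟩
  · exact add_mem (mul_mem (add_mem (mul_mem hnW hy) (mul_mem δ_mem w.2))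
      (add_mem hx' (mul_mem (pow_mem δ_mem 2) hy'))) (mul_mem δ_mem hy')
  · rw [hxx, smul_add, smul_one, smul_mul', smul_pow', h1, mul_pow, hw', hy'2]
    ring

include H in
/-- a section of `σ D - D` -/
theorem final_sec {σ : SemilinearAut K F} {z : F} {θ : k} (S : WildAut Q σ z θ)
    {D : Divisor K F} {n : ℕ} (hn : 1 ≤ n) {a b a' b' : ℕ} {s t : F} (hsF : s ∈ Q.fld)
    (hs : Cg Q n s 1) (hsL : s ∈ riemannRochSpace (DD K G.t a b - D)) (ht : Cg Q n t 1)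
    (htL : t ∈ riemannRochSpace (DD K G.t a' b' - -D)) :
    ∃ s₃ : F, s₃ ∈ riemannRochSpace (DD K G.t (a + a' + (a + a')) (b + b' + (b + b')) - (σ • D - D)) ∧
      Cg Q (n + 1) s₃ 1 := by
  have h1 : σ • s ∈ riemannRochSpace (DD K G.t a b - σ • D) := by
    have := smul_mem_L σ hsL
    rwa [smul_sub, smul_DD σ S.t_fix] at this
  have hstL := L_mul_mem hsL htL
  have e1 : DD K G.t a b - D + (DD K G.t a' b' - -D) = DD K G.t (a + a') (b + b') := by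
    rw [← DD_add]; abel
  rw [e1] at hstL
  have hst : Cg Q n (s * t) 1 := by
    have := hs.mul ht (one_mem _) (one_mem _)
    rwa [mul_one] at this
  obtain ⟨g, hg, hgg⟩ := hst
  have hgL : g ∈ riemannRochSpace (DD K G.t (a + a') (b + b')) := by
    apply L_of_δ (Q := Q) (n := n)
    have : algebraMap A F Q.ϖ ^ n * g = s * t - 1 := by rw [hgg]; ring
    rw [this]
    exact sub_mem hstL (one_mem_DD _ _ _)
  have hgL' : 1 - algebraMap A F Q.ϖ ^ n * g ∈ riemannRochSpace (DD K G.t (a + a') (b + b')) :=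
    sub_mem (one_mem_DD _ _ _) (δ_mul_L hgL)
  have hsW : s ∈ G.W := hs.mem (one_mem _)
  have htW : t ∈ G.W := ht.mem (one_mem _)
  have hgW : 1 - algebraMap A F Q.ϖ ^ n * g ∈ G.W :=
    sub_mem (one_mem _) (mul_mem (pow_mem δ_mem n) hg)
  refine ⟨σ • s * t * (1 - algebraMap A F Q.ϖ ^ n * g), ?_, ?_⟩
  · have h2 := L_mul_mem (L_mul_mem h1 htL) hgL'
    have e2 : DD K G.t a b - σ • D + (DD K G.t a' b' - -D) + DD K G.t (a + a') (b + b') =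
        DD K G.t (a + a' + (a + a')) (b + b' + (b + b')) - (σ • D - D) := by
      rw [← DD_add G.t (a + a') (b + b') (a + a') (b + b'), ← DD_add G.t a b a' b']; abel
    rwa [e2] at h2
  · have h3 := ((S.cg hsF hs).mul (Cg.refl t) hsW htW).mul (Cg.refl (1 - algebraMap A F Q.ϖ ^ n * g))
      (mul_mem hsW htW) hgW
    refine h3.trans ⟨algebraMap A F Q.ϖ ^ (n - 1) * (-(g ^ 2)), mul_mem (pow_mem δ_mem _)
      (neg_mem (pow_mem hg 2)), ?_⟩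
    rw [hgg, ← mul_assoc, ← pow_add]
    have : n + 1 + (n - 1) = n * 2 := by omega
    rw [this, pow_mul]
    ring

include H in
/-- **The final contradiction**: classes of level `p` are fixed by wild automorphisms. -/
theorem lev_final (hA : ∃ t : A, t ≠ 0 ∧ ¬ IsUnit t)
    (hrank : ∀ a c : A, algebraMap A k a = 0 → c ≠ 0 → ∃ n : ℕ, c ∣ a ^ n)
    {σ : SemilinearAut K F} {z : F} {θ : k} (S : WildAut Q σ z θ) {u : Aˣ}
    (hpe : (p : A) = Q.ϖ ^ (p * (p - 1)) * u) {f : F} {D : Divisor K F} (L : Lev Q p f D p) :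
    ∃ x : F, x ^ p = σ • f * f⁻¹ := by
  have hp1 := hp.out.one_lt
  have hpp : 1 ≤ p * p := Nat.mul_pos hp.out.pos hp.out.pos
  have hfu : UW G f := uw_of_cg_one L.hf hpp
  have hy : Cg Q (p * p + 1) (σ • f * f⁻¹) 1 := by
    have := (S.cg L.fF L.hf).mul (Cg.refl f⁻¹) hfu.mem hfu.inv.mem
    rwa [mul_inv_cancel₀ hfu.ne_zero] at this
  have hyu : UW G (σ • f * f⁻¹) := uw_of_cg_one hy (by omega)
  have hyπ : G.π ⟨_, hyu.mem⟩ = 1 := by
    have h1 := hy.r1_eq (by omega) (one_mem _)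
    have h2 := hy.r2_eq (by omega) (one_mem _)
    rw [r1_of hyu.mem, r1_one] at h1
    rw [r2_of hyu.mem, r2_one] at h2
    exact Prod.ext h1 h2
  have hσf : σ • f ≠ 0 := (smul_ne_zero_iff_ne σ).2 hfu.ne_zero
  have hyD : ∀ v, (p : ℤ) * (σ • D - D) v = v.ord (σ • f * f⁻¹) := fun v => by
    rw [Place.ord_mul v hσf (inv_ne_zero hfu.ne_zero), Place.ord_inv, Finsupp.sub_apply,
      SemilinearAut.divisor_smul_apply, mul_sub, L.hD, L.hD]
    have h3 := SemilinearAut.ord_smul σ (σ⁻¹ • v) f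
    rw [smul_inv_smul] at h3
    rw [h3]; ring
  have T := tw_one (hspan := hspan) H hyu.mem hyπ hyD
  obtain ⟨⟨a, s, hsF, hsL, hs⟩, ⟨b, t, htF, htL, ht⟩⟩ := L.sec
  obtain ⟨⟨a', s', hs'F, hs'L, hs'⟩, ⟨b', t', ht'F, ht'L, ht'⟩⟩ := L.sec'
  obtain ⟨s₁, hs₁L, ρ₁, hρ₁, hs₁⟩ := final_sec H S hp.out.one_le hsF hs hsL hs' hs'L
  obtain ⟨s₂, hs₂L, ρ₂, hρ₂, hs₂⟩ := final_sec H S hp.out.one_le htF ht htL ht' ht'L
  obtain ⟨w, hw, hw2⟩ := hy
  have hpA : (p : A) ≠ 0 := by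
    rw [hpe]
    exact mul_ne_zero (pow_ne_zero _ Q.ϖ0) u.ne_zero
  refine wild_rigid (hspan := hspan) H hA hrank hpA T (c₀ := Q.ϖ ^ (p + 1))
    (ε := Q.ϖ ^ (p - 1) * (u⁻¹ : Aˣ)) (pow_ne_zero _ Q.ϖ0) ?_ ?_ ?_
    (w := algebraMap A F (u⁻¹ : Aˣ) * w) (mul_mem (G.W.algebraMap_mem _) hw) ?_
    (a₀ := a + a' + (a + a')) (b₀ := b + b' + (b + b')) hs₁L hs₂L hρ₁ hρ₂ ?_ ?_
  · rw [hpe, ← pow_mul]
    have e1 : (p + 1) * (p - 1) = p * (p - 1) + (p - 1) := by ring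
    rw [e1, pow_add]
    calc Q.ϖ ^ (p * (p - 1)) * Q.ϖ ^ (p - 1) =
        Q.ϖ ^ (p * (p - 1)) * Q.ϖ ^ (p - 1) * ((u : A) * (u⁻¹ : Aˣ)) := by
          rw [Units.mul_inv, mul_one]
      _ = _ := by ring
  · rw [map_pow, Q.ϖk, zero_pow (by omega)]
  · rw [map_mul, map_pow, Q.ϖk, zero_pow (by omega), zero_mul]
  · rw [hw2]
    have e2 : (p : A) * Q.ϖ ^ (p + 1) * (u⁻¹ : Aˣ) = Q.ϖ ^ (p * p + 1) := by
      rw [hpe]
      have e3 : p * p + 1 = p * (p - 1) + (p + 1) := by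
        obtain ⟨q, rfl⟩ : ∃ q, p = q + 1 := ⟨p - 1, by omega⟩
        simp only [Nat.add_sub_cancel]; ring
      rw [e3, pow_add Q.ϖ (p * (p - 1)) (p + 1)]
      calc Q.ϖ ^ (p * (p - 1)) * u * Q.ϖ ^ (p + 1) * (u⁻¹ : Aˣ) =
          Q.ϖ ^ (p * (p - 1)) * Q.ϖ ^ (p + 1) * ((u : A) * (u⁻¹ : Aˣ)) := by ring
        _ = _ := by rw [Units.mul_inv, mul_one]
    rw [← mul_assoc, ← map_mul, e2, map_pow]
  · rw [hs₁, map_pow]
  · rw [hs₂, map_pow]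

include H in
/-- **The split case**: rational classes over an unramified base with trivial reduction vanish. -/
theorem split_final [hN : Nonempty (Nd G hk 𝒩)] (hA : ∃ t : A, t ≠ 0 ∧ ¬ IsUnit t)
    (hrank : ∀ a c : A, algebraMap A k a = 0 → c ≠ 0 → ∃ n : ℕ, c ∣ a ^ n)
    (hp3 : 3 ≤ p) {u : Aˣ}
    (hpe : (p : A) = Q.ϖ ^ 1 * u) {f : F} (hfF : f ∈ Q.fld) (hfW : f ∈ G.W)
    (hπ : G.π ⟨f, hfW⟩ = 1) {D : Divisor K F} (hD : ∀ v, (p : ℤ) * D v = v.ord f) :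
    ∃ x : F, x ^ p = f := by
  have T : TwData G hk 𝒩 p f D 1 1 := tw_one (hspan := hspan) H hfW hπ hD
  have S := Sec.base (Q := Q) H hfF T
  have hfc : Cg Q 1 f 1 := by
    refine Cg.of_red hfW (one_mem _) hfF (one_mem _) ?_ ?_
    · rw [r1_of hfW, hπ, r1_one]; rfl
    · rw [r2_of hfW, hπ, r2_one]; rfl
  have hfu : UW G f := uw_of_cg_one hfc le_rfl
  obtain ⟨κ, hκ, hκF, hκc⟩ := absorb' H S hpe hfF hD le_rfl hfc (M := 2) (by omega) (by omega)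
    (by omega)
  have hu : UW G (algebraMap A F κ) := uw_const hκ
  have hy := cg_div_const hκ hκc
  have hyu : UW G (f * (algebraMap A F κ)⁻¹) := uw_of_cg_one hy (by omega)
  have hyπ : G.π ⟨_, hyu.mem⟩ = 1 := by
    have h1 := hy.r1_eq (by omega) (one_mem _)
    have h2 := hy.r2_eq (by omega) (one_mem _)
    rw [r1_of hyu.mem, r1_one] at h1
    rw [r2_of hyu.mem, r2_one] at h2
    exact Prod.ext h1 h2
  have hyD : ∀ v, (p : ℤ) * D v = v.ord (f * (algebraMap A F κ)⁻¹) := fun v => by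
    rw [divisor_scale hu.ne_zero hfu.ne_zero, hD]
  have T' := tw_one (hspan := hspan) H hyu.mem hyπ hyD
  obtain ⟨⟨a, s, hsF, hsL, ρ₁, hρ₁, hs⟩, ⟨b, t, htF, htL, ρ₂, hρ₂, ht⟩⟩ := S
  obtain ⟨w, hw, hw2⟩ := hy
  have hpA : (p : A) ≠ 0 := by
    rw [hpe]
    exact mul_ne_zero (pow_ne_zero _ Q.ϖ0) u.ne_zero
  obtain ⟨x, hx⟩ := wild_rigid (hspan := hspan) H hA hrank hpA T' (c₀ := Q.ϖ)
    (ε := Q.ϖ ^ (p - 2) * (u⁻¹ : Aˣ)) Q.ϖ0 (by
      rw [hpe]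
      have e1 : p - 1 = 1 + (p - 2) := by omega
      rw [e1, pow_add]
      calc Q.ϖ ^ 1 * Q.ϖ ^ (p - 2) = Q.ϖ ^ 1 * Q.ϖ ^ (p - 2) * ((u : A) * (u⁻¹ : Aˣ)) := by
            rw [Units.mul_inv, mul_one]
        _ = _ := by ring) Q.ϖk (by rw [map_mul, map_pow, Q.ϖk, zero_pow (by omega), zero_mul])
    (w := algebraMap A F (u⁻¹ : Aˣ) * w) (mul_mem (G.W.algebraMap_mem _) hw) (by
      rw [hw2]
      have e2 : (p : A) * Q.ϖ * (u⁻¹ : Aˣ) = Q.ϖ ^ 2 := by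
        rw [hpe]
        calc Q.ϖ ^ 1 * (u : A) * Q.ϖ * (u⁻¹ : Aˣ) = Q.ϖ ^ 2 * ((u : A) * (u⁻¹ : Aˣ)) := by ring
          _ = _ := by rw [Units.mul_inv, mul_one]
      rw [← mul_assoc, ← map_mul, e2, map_pow])
    (a₀ := a) (b₀ := b) hsL htL hρ₁ hρ₂ (by rw [hs, pow_one]) (by rw [ht, pow_one])
  obtain ⟨c, hc⟩ := IsAlgClosed.exists_pow_nat_eq (algebraMap A K κ) hp.out.pos
  refine ⟨x * algebraMap K F c, ?_⟩
  rw [mul_pow, hx, ← map_pow, hc, ← IsScalarTower.algebraMap_apply A K F,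
    inv_mul_cancel_right₀ hu.ne_zero]

end Fermat.Agent.PRem
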