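import Fermat.Agent.PRem.ConcW
import Fermat.Agent.HeckeProd.Formal

/-!
# Reduction of the multiplicative Hecke operators
-/

set_option autoImplicit false
set_option linter.unusedSectionVars false
set_option linter.style.haveILetI false

noncomputable section

namespace Fermat.Agent.PRem

open ModularCurve IntermediateField Fermat.Agent.ModPoly Fermat.Agent.Red
  Fermat.Agent.RedMod Fermat.Agent.HeckeProd

section Formal

variable {R : Type*} [CommRing R] {ℓ : ℕ} [NeZero ℓ]

theorem contract_add (F G : LaurentSeries R) :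
    contract ℓ (F + G) = contract ℓ F + contract ℓ G := by
  ext n; simp only [contract_coeff, HahnSeries.coeff_add]

theorem contract_C_mul (c : R) (F : LaurentSeries R) :
    contract ℓ (HahnSeries.C c * F) = HahnSeries.C c * contract ℓ F := by
  ext n
  simp only [contract_coeff, HahnSeries.C_mul_eq_smul, HahnSeries.coeff_smul]

theorem contract_sum {ι : Type*} (s : Finset ι) (F : ι → LaurentSeries R) :
    contract ℓ (∑ i ∈ s, F i) = ∑ i ∈ s, contract ℓ (F i) := by
  classical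
  induction s using Finset.induction_on with
  | empty => rw [Finset.sum_empty, Finset.sum_empty]; exact contract_zero ℓ
  | insert i s hi ih => rw [Finset.sum_insert hi, Finset.sum_insert hi, contract_add, ih]

theorem contract_twist {c : Rˣ} (hc : c ^ ℓ = 1) (F : LaurentSeries R) :
    contract ℓ (twist c F) = contract ℓ F := by
  ext n
  rw [contract_coeff, twist_coeff, zpow_mul, zpow_natCast, hc, one_zpow, Units.val_one, one_mul,
    contract_coeff]

theorem twist_sum [IsDomain R] {ζ : Rˣ} (h : ζ ^ ℓ = 1) (F : LaurentSeries R) :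
    twist ζ (∑ x : ZMod ℓ, twist (ζ ^ x.val) F) = ∑ x : ZMod ℓ, twist (ζ ^ x.val) F := by
  rw [map_sum, ← Equiv.sum_comp (Equiv.addRight (1 : ZMod ℓ)) (fun x => twist (ζ ^ x.val) F)]
  refine Finset.sum_congr rfl fun x _ => ?_
  rw [twist_twist, Equiv.coe_addRight]
  congr 2
  change ζ * ζ ^ x.val = ζ ^ (x + 1).val
  have h1 : x + 1 = ((x.val + 1 : ℕ) : ZMod ℓ) := by
    rw [Nat.cast_add, ZMod.natCast_zmod_val, Nat.cast_one]
  rw [h1, pow_val_eq ℓ h, pow_succ']

theorem sum_coeff [IsDomain R] {ζ : Rˣ} (h : IsPrimitiveRoot ζ ℓ) (F : LaurentSeries R) {n : ℤ}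
    (hn : ¬ (ℓ : ℤ) ∣ n) : (∑ x : ZMod ℓ, twist (ζ ^ x.val) F).coeff n = 0 := by
  have h1 := congrArg (fun G : LaurentSeries R => G.coeff n) (twist_sum h.pow_eq_one F)
  set G := ∑ x : ZMod ℓ, twist (ζ ^ x.val) F
  simp only [twist_coeff] at h1
  have h2 : (((ζ ^ n : Rˣ) : R) - 1) * G.coeff n = 0 := by rw [sub_mul, h1]; ring
  rcases mul_eq_zero.mp h2 with h3 | h3
  · exfalso
    apply hn
    rw [← h.zpow_eq_one_iff_dvd]
    apply Units.ext
    rw [Units.val_one]
    exact sub_eq_zero.mp h3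
  · exact h3

theorem sum_twist [IsDomain R] {ζ : Rˣ} (h : IsPrimitiveRoot ζ ℓ) (F : LaurentSeries R) :
    ∑ x : ZMod ℓ, twist (ζ ^ x.val) F = qExpand R ℓ ((ℓ : LaurentSeries R) * contract ℓ F) := by
  rw [← qExpand_contract ℓ fun n hn => sum_coeff h F hn, contract_sum]
  congr 1
  rw [Finset.sum_congr rfl fun x _ => contract_twist (ℓ := ℓ) (c := ζ ^ x.val) (by
    rw [← pow_mul, mul_comm, pow_mul, h.pow_eq_one, one_pow]) F]
  rw [Finset.sum_const, Finset.card_univ, ZMod.card, nsmul_eq_mul]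

/-- product expansion to first order -/
theorem prod_add_mul {S ι : Type*} [CommRing S] [DecidableEq ι] (s : Finset ι) (c : S) (f g : ι → S) :
    ∃ r : S, ∏ i ∈ s, (f i + c * g i) =
      ∏ i ∈ s, f i + c * (∑ i ∈ s, g i * ∏ j ∈ s.erase i, f j + c * r) := by
  induction s using Finset.induction_on with
  | empty => exact ⟨0, by simp⟩
  | insert a s ha ih =>
    obtain ⟨r, hr⟩ := ih
    have e1 : ∑ i ∈ insert a s, g i * ∏ j ∈ (insert a s).erase i, f j =
        g a * ∏ j ∈ s, f j + f a * ∑ i ∈ s, g i * ∏ j ∈ s.erase i, f j := by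
      rw [Finset.sum_insert ha, Finset.erase_insert ha, Finset.mul_sum]
      congr 1
      refine Finset.sum_congr rfl fun i hi => ?_
      have hne : a ≠ i := fun h => ha (h ▸ hi)
      rw [Finset.erase_insert_of_ne hne, Finset.prod_insert (fun h => ha (Finset.mem_of_mem_erase h))]
      ring
    rw [e1, Finset.prod_insert ha, Finset.prod_insert ha, hr]
    refine ⟨f a * r + g a * (∑ i ∈ s, g i * ∏ j ∈ s.erase i, f j + c * r), ?_⟩
    ring

/-- additive Hecke operator (on functions) -/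
def Tr (ℓ : ℕ) [NeZero ℓ] (F : LaurentSeries R) : LaurentSeries R :=
  qExpand R ℓ F + (ℓ : LaurentSeries R) * contract ℓ F

theorem Tr_coeff (F : LaurentSeries R) (n : ℤ) : (Tr ℓ F).coeff n =
    (if (ℓ : ℤ) ∣ n then F.coeff (n / ℓ) else 0) + ℓ * F.coeff (ℓ * n) := by
  rw [Tr, HahnSeries.coeff_add]
  congr 1
  · split_ifs with h
    · obtain ⟨a, rfl⟩ := h
      rw [Int.mul_ediv_cancel_left _ (by exact_mod_cast NeZero.ne ℓ)]
      exact qExpand_coeff_mul _ _ _
    · exact qExpand_coeff_of_not_dvd _ _ h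
  · have : ((ℓ : ℕ) : LaurentSeries R) = HahnSeries.C (ℓ : R) := by simp
    rw [this, HahnSeries.C_mul_eq_smul, HahnSeries.coeff_smul, contract_coeff, smul_eq_mul]

/-- first order expansion of the multiplicative Hecke operator -/
theorem TF_add_mul (ζ : Rˣ) (v u : LaurentSeries R) (c : R) :
    ∃ r : LaurentSeries R, TF ℓ ζ (v + HahnSeries.C c * u) = TF ℓ ζ v + HahnSeries.C c *
      (qExpand R ℓ u * NN ℓ ζ v + qExpand R ℓ v * contract ℓ (∑ x : ZMod ℓ,
        twist (ζ ^ x.val) u * ∏ y ∈ Finset.univ.erase x, twist (ζ ^ y.val) v) +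
        HahnSeries.C c * r) := by
  classical
  obtain ⟨r, hr⟩ := prod_add_mul (Finset.univ : Finset (ZMod ℓ)) (HahnSeries.C c : LaurentSeries R)
    (fun x => twist (ζ ^ x.val) v) (fun x => twist (ζ ^ x.val) u)
  have h1 : PP ℓ ζ (v + HahnSeries.C c * u) = PP ℓ ζ v + HahnSeries.C c * (∑ x : ZMod ℓ,
      twist (ζ ^ x.val) u * ∏ y ∈ Finset.univ.erase x, twist (ζ ^ y.val) v + HahnSeries.C c * r) := by
    rw [PP, PP, ← hr]
    refine Finset.prod_congr rfl fun x _ => ?_
    have e : twist (ζ ^ x.val) (HahnSeries.C c : LaurentSeries R) = HahnSeries.C c := by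
      rw [HahnSeries.C_apply, twist_single, zpow_zero, Units.val_one, one_mul]
    rw [map_add, map_mul, e]
  have h2 : NN ℓ ζ (v + HahnSeries.C c * u) = NN ℓ ζ v + HahnSeries.C c * (contract ℓ (∑ x : ZMod ℓ,
      twist (ζ ^ x.val) u * ∏ y ∈ Finset.univ.erase x, twist (ζ ^ y.val) v) +
        HahnSeries.C c * contract ℓ r) := by
    rw [NN, h1, contract_add, contract_C_mul, contract_add, contract_C_mul]
    rfl
  have h3 : qExpand R ℓ (HahnSeries.C c : LaurentSeries R) = HahnSeries.C c := qExpand_C ℓ c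
  rw [TF, TF, h2, map_add, map_mul, h3]
  refine ⟨qExpand R ℓ v * contract ℓ r + qExpand R ℓ u * (contract ℓ (∑ x : ZMod ℓ,
      twist (ζ ^ x.val) u * ∏ y ∈ Finset.univ.erase x, twist (ζ ^ y.val) v) +
        HahnSeries.C c * contract ℓ r), ?_⟩
  ring

end Formal

section Red

variable {A K k : Type*} [CommRing A] [IsDomain A] [ValuationRing A]
  [Field K] [Algebra A K] [IsFractionRing A K] [Field k] [Algebra A k] {ℓ : ℕ} [NeZero ℓ]

variable (A K k ℓ) in
/-- `ζ` is a primitive root of unity in `A`, `K` and `k`. -/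
structure Zt (ζ : Aˣ) : Prop where
  hA : IsPrimitiveRoot ζ ℓ
  hK : IsPrimitiveRoot (Units.map (algebraMap A K : A →* K) ζ) ℓ
  hk : IsPrimitiveRoot (Units.map (algebraMap A k : A →* k) ζ) ℓ

theorem isPrim_of {M : Type*} [CommMonoid M] (hℓ : ℓ.Prime) {x : M} (h : x ^ ℓ = 1) (h1 : x ≠ 1) :
    IsPrimitiveRoot x ℓ := by
  haveI : Fact ℓ.Prime := ⟨hℓ⟩
  rw [IsPrimitiveRoot.iff_orderOf]
  exact orderOf_eq_prime h h1

theorem exists_Zt [IsAlgClosed K] [CharZero K] (hℓ : ℓ.Prime) (hℓk : (ℓ : k) ≠ 0) :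
    ∃ ζ : Aˣ, Zt A K k ℓ ζ := by
  obtain ⟨ζ, hζ⟩ : ∃ ζ : K, IsPrimitiveRoot ζ ℓ :=
    HasEnoughRootsOfUnity.exists_primitiveRoot K ℓ
  have hz : ∀ ζ : K, ζ ^ ℓ = 1 → ∃ a : A, algebraMap A K a = ζ := by
    intro ζ hζ
    have hint : IsIntegral A ζ := by
      refine ⟨Polynomial.X ^ ℓ - Polynomial.C 1, Polynomial.monic_X_pow_sub_C _ hℓ.ne_zero, ?_⟩
      rw [Polynomial.eval₂_sub, Polynomial.eval₂_pow, Polynomial.eval₂_X, Polynomial.eval₂_C,
        map_one, hζ, sub_self]
    exact IsIntegrallyClosed.isIntegral_iff.1 hint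
  obtain ⟨a, ha⟩ := hz ζ hζ.pow_eq_one
  obtain ⟨b, hb⟩ := hz ζ⁻¹ (by rw [inv_pow, hζ.pow_eq_one, inv_one])
  have hζ0 : ζ ≠ 0 := hζ.ne_zero hℓ.ne_zero
  have hab : a * b = 1 := by
    apply IsFractionRing.injective A K
    rw [map_mul, ha, hb, map_one, mul_inv_cancel₀ hζ0]
  have haℓ : a ^ ℓ = 1 := by
    apply IsFractionRing.injective A K
    rw [map_pow, ha, hζ.pow_eq_one, map_one]
  have ha1 : algebraMap A k a ≠ 1 := by
    intro h1
    have h2 := hζ.geom_sum_eq_zero hℓ.one_lt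
    have h3 : ∑ i ∈ Finset.range ℓ, a ^ i = 0 := by
      apply IsFractionRing.injective A K
      rw [map_sum, map_zero]
      simpa only [map_pow, ha] using h2
    have h4 := congrArg (algebraMap A k) h3
    simp only [map_sum, map_pow, h1, one_pow, Finset.sum_const, Finset.card_range, map_zero,
      nsmul_eq_mul, mul_one] at h4
    exact hℓk h4
  refine ⟨⟨a, b, hab, by rw [mul_comm]; exact hab⟩, ?_, ?_, ?_⟩
  · apply isPrim_of hℓ
    · exact Units.ext haℓ
    · intro h
      have h' : a = 1 := congrArg Units.val h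
      exact ha1 (by rw [h', map_one])
  · rw [← IsPrimitiveRoot.coe_units_iff]
    change IsPrimitiveRoot (algebraMap A K a) ℓ
    rw [ha]; exact hζ
  · apply isPrim_of hℓ
    · apply Units.ext
      change (algebraMap A k a) ^ ℓ = 1
      rw [← map_pow, haℓ, map_one]
    · intro h
      exact ha1 (congrArg Units.val h)

variable (k) in
theorem incL_TT {ζ : Aˣ} (Z : Zt A K k ℓ ζ) (u : LaurentSeries A) :
    TT Z.hK (incL A K u) = incL A K (TT Z.hA u) :=
  (coeffMap_TT (algebraMap A K) Z.hA Z.hK Z.hK u).symm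

variable (K) in
theorem redL_TT {ζ : Aˣ} (Z : Zt A K k ℓ ζ) (u : LaurentSeries A) :
    TT Z.hk (redL A k u) = redL A k (TT Z.hA u) :=
  (coeffMap_TT (algebraMap A k) Z.hA Z.hk Z.hk u).symm

theorem incL_ne_zero {v : LaurentSeries A} (hv : redL A k v ≠ 0) : incL A K v ≠ 0 := by
  intro h
  apply hv
  have : v = 0 := by
    apply coeffMap_injective (IsFractionRing.injective A K)
    rw [map_zero]
    exact h
  rw [this, map_zero]

theorem TT_incL_div {ζ : Aˣ} (Z : Zt A K k ℓ ζ) (u v : LaurentSeries A) :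
    TT Z.hK (incL A K u / incL A K v) = incL A K (TT Z.hA u) / incL A K (TT Z.hA v) := by
  rw [map_div₀, incL_TT k Z, incL_TT k Z]

theorem TT_redL_div {ζ : Aˣ} (Z : Zt A K k ℓ ζ) (u v : LaurentSeries A) :
    TT Z.hk (redL A k u / redL A k v) = redL A k (TT Z.hA u) / redL A k (TT Z.hA v) := by
  rw [map_div₀, redL_TT K Z, redL_TT K Z]

theorem redL_TT_ne {ζ : Aˣ} (Z : Zt A K k ℓ ζ) {v : LaurentSeries A} (hv : redL A k v ≠ 0) :
    redL A k (TT Z.hA v) ≠ 0 := by
  rw [← redL_TT K Z]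
  exact (map_ne_zero _).2 hv

theorem rd_div {u v : LaurentSeries A} (hv : redL A k v ≠ 0) :
    Rd A (incL A K u / incL A K v) (redL A k u / redL A k v) :=
  Rd.div (Rd.incL (K := K) (k := k) u) (Rd.incL (K := K) (k := k) v) hv

theorem Rd.exists_div {x : LaurentSeries K} {a : LaurentSeries k} (h : Rd A x a) :
    ∃ u v : LaurentSeries A, redL A k v ≠ 0 ∧ x = RedMod.incL A K u / RedMod.incL A K v ∧
      a = redL A k u / redL A k v := by
  obtain ⟨h1, rfl⟩ := h
  obtain ⟨u, v, hv, hx⟩ := id h1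
  have hπ : πL A K k ⟨x, h1⟩ = redL A k u / redL A k v := πL_eq _ hv hx
  have hv' : RedMod.incL A K v ≠ 0 := incL_ne_zero hv
  exact ⟨u, v, hv, by rw [← hx]; field_simp, hπ⟩

theorem rd_TT {ζ : Aˣ} (Z : Zt A K k ℓ ζ) {x : LaurentSeries K} {a : LaurentSeries k}
    (h : Rd A x a) : Rd A (TT Z.hK x) (TT Z.hk a) := by
  obtain ⟨u, v, hv, rfl, rfl⟩ := h.exists_div
  rw [TT_incL_div Z, TT_redL_div Z]
  exact rd_div (redL_TT_ne (K := K) Z hv)

theorem redL_C (c : A) : redL A k (HahnSeries.C c) = HahnSeries.C (algebraMap A k c) :=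
  coeffMap_C _ _

theorem incL_C (c : A) : incL A K (HahnSeries.C c) = HahnSeries.C (algebraMap A K c) :=
  coeffMap_C _ _

theorem redL_S (ζ : Aˣ) (v u : LaurentSeries A) : redL A k (∑ x : ZMod ℓ,
        twist (ζ ^ x.val) u * ∏ y ∈ Finset.univ.erase x, twist (ζ ^ y.val) v) =
      ∑ x : ZMod ℓ, twist ((Units.map (algebraMap A k : A →* k) ζ) ^ x.val)
        (redL A k u) * ∏ y ∈ Finset.univ.erase x,
          twist ((Units.map (algebraMap A k : A →* k) ζ) ^ y.val) (redL A k v) := by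
  rw [map_sum]
  refine Finset.sum_congr rfl fun x _ => ?_
  rw [map_mul, map_prod]
  have : ∀ (c : Aˣ) (F : LaurentSeries A), redL A k (twist c F) =
      twist (Units.map (algebraMap A k : A →* k) c) (redL A k F) :=
    fun c F => HeckeProd.coeffMap_twist _ _ _
  simp only [this, map_pow]

theorem sum_prod_eq {ζ : kˣ} (hζ : IsPrimitiveRoot ζ ℓ) {u v : LaurentSeries k} (hv : v ≠ 0) :
    ∑ x : ZMod ℓ, twist (ζ ^ x.val) u * ∏ y ∈ Finset.univ.erase x, twist (ζ ^ y.val) v =
      qExpand k ℓ (NN ℓ ζ v * ((ℓ : LaurentSeries k) * contract ℓ (u / v))) := by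
  classical
  have htw : ∀ c : kˣ, twist c v ≠ 0 := fun c => (map_ne_zero _).2 hv
  rw [map_mul, ← sum_twist hζ, qExpand_NN hζ, PP, Finset.mul_sum]
  refine Finset.sum_congr rfl fun x _ => ?_
  rw [← Finset.mul_prod_erase Finset.univ _ (Finset.mem_univ x), map_div₀]
  have := htw (ζ ^ x.val)
  field_simp

/-- first order expansion of the Hecke operator -/
theorem TT_first {ζ : Aˣ} (Z : Zt A K k ℓ ζ) {c : A} (hc : algebraMap A k c = 0)
    {H : LaurentSeries K} {h : LaurentSeries k} (hH : Rd A H h) :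
    ∃ T : LaurentSeries K, Rd A T (Tr ℓ h) ∧
      TT Z.hK (1 + HahnSeries.C (algebraMap A K c) * H) =
        1 + HahnSeries.C (algebraMap A K c) * T := by
  classical
  obtain ⟨u, v, hv, rfl, rfl⟩ := hH.exists_div
  have hv' : incL A K v ≠ 0 := incL_ne_zero hv
  obtain ⟨r, hr⟩ := TF_add_mul (ℓ := ℓ) ζ v u c
  set S : LaurentSeries A := ∑ x : ZMod ℓ,
        twist (ζ ^ x.val) u * ∏ y ∈ Finset.univ.erase x, twist (ζ ^ y.val) v with hS
  have hTv : redL A k (TT Z.hA v) ≠ 0 := redL_TT_ne (K := K) Z hv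
  have hTv' : incL A K (TT Z.hA v) ≠ 0 := incL_ne_zero hTv
  set Y := qExpand A ℓ u * NN ℓ ζ v + qExpand A ℓ v * contract ℓ S + HahnSeries.C c * r with hY
  refine ⟨incL A K Y / incL A K (TT Z.hA v), ?_, ?_⟩
  · have h2 : Rd A (incL A K Y / incL A K (TT Z.hA v)) (redL A k Y / redL A k (TT Z.hA v)) :=
      rd_div hTv
    have h3 : redL A k Y / redL A k (TT Z.hA v) = Tr ℓ (redL A k u / redL A k v) := by
      have e5 : ∀ F : LaurentSeries A, redL A k (qExpand A ℓ F) = qExpand k ℓ (redL A k F) :=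
        fun F => coeffMap_qExpand _ _ _
      have e6 : redL A k (NN ℓ ζ v) = NN ℓ (Units.map (algebraMap A k : A →* k) ζ) (redL A k v) :=
        coeffMap_NN _ _ _ _
      have e7 : redL A k (contract ℓ S) = contract ℓ (redL A k S) := coeffMap_contract _ _ _
      have hTT : redL A k (TT Z.hA v) = qExpand k ℓ (redL A k v) *
          NN ℓ (Units.map (algebraMap A k : A →* k) ζ) (redL A k v) := by
        rw [← redL_TT K Z]; rfl
      have hq : qExpand k ℓ (redL A k v) ≠ 0 := (map_ne_zero _).2 hv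
      have hN : NN ℓ (Units.map (algebraMap A k : A →* k) ζ) (redL A k v) ≠ 0 := by
        intro h0
        rw [hTT, h0, mul_zero] at hTv
        exact hTv rfl
      rw [hY, map_add, map_add, map_mul, map_mul, map_mul, redL_C, hc, map_zero, zero_mul,
        add_zero, e5, e5, e6, e7, hS, redL_S, sum_prod_eq Z.hk hv, contract_qExpand, hTT, Tr,
        map_div₀]
      field_simp
    rw [← h3]
    exact h2
  · have e2 : 1 + HahnSeries.C (algebraMap A K c) * (incL A K u / incL A K v) =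
        incL A K (v + HahnSeries.C c * u) / incL A K v := by
      rw [map_add, map_mul, incL_C]
      field_simp
    rw [e2, TT_incL_div Z, TT_def, hr, map_add, map_mul, incL_C, ← TT_def Z.hA]
    field_simp

end Red

end Fermat.Agent.PRem
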