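import Fermat.Agent.SemiSt.Norm

/-!
# The multiplicative Hecke operator on modular function fields

`TTf = N_{X₀(ℓN)/X₀(N)} ∘ (q ↦ q^ℓ)`, its `q`-expansion, its compatibility with the Atkin-Lehner
involution and with the Galois action.
-/

set_option autoImplicit false
set_option linter.style.haveILetI false
set_option linter.unusedSectionVars false

noncomputable section

namespace Fermat.Agent.PRem

open ModularCurve Polynomial IntermediateField Fermat.Agent.ModPoly Fermat.Agent.Red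
  Fermat.Agent.RedMod Fermat.Agent.Cusp Fermat.Agent.SemiSt

variable (K : Type*) [Field K] (ℓ : ℕ) [hl : Fact ℓ.Prime] (N : ℕ) [NeZero N]

/-- the multiplicative Hecke operator on functions of level `N` -/
def TTf : FF K N →* FF K N := (Nm K ℓ N).comp (qe K ℓ N : FF K N →* FF K (ℓ * N))

variable {K ℓ N}

theorem TTf_apply (x : FF K N) : TTf K ℓ N x = Nm K ℓ N (qe K ℓ N x) := rfl

theorem prod_zmod {M : Type*} [CommMonoid M] (f : ℕ → M) :
    ∏ x : ZMod ℓ, f x.val = ∏ b : Fin ℓ, f b := by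
  symm
  refine Fintype.prod_equiv (ZMod.finEquiv ℓ).toEquiv _ _ fun b => ?_
  congr 1
  have : ∀ (n : ℕ) [NeZero n] (b : Fin n), (b : ℕ) = (ZMod.finEquiv n b).val := by
    intro n hn b
    cases n with
    | zero => exact absurd rfl hn.out
    | succ n => rfl
  exact this ℓ b

variable [IsAlgClosed K] [CharZero K]

/-- the `q`-expansion of `T_ℓ x` -/
theorem coe_TTf (hℓ : ℓ.Coprime N) {ζ : Kˣ} (hζ : IsPrimitiveRoot ζ ℓ) (x : FF K N) :
    (TTf K ℓ N x : LaurentSeries K) = HeckeProd.TT hζ (x : LaurentSeries K) := by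
  apply qExpand_injective ℓ
  rw [TTf_apply, qExpand_Nm hℓ hζ, w_qe, coe_qe, coe_incl, HeckeProd.TT_def,
    HeckeProd.qExpand_TF hζ, qExpand_qExpand,
    prod_zmod (fun i => twist (ζ ^ i) (x : LaurentSeries K))]

theorem TTf_act (hℓ : ℓ.Coprime N) (σ : K ≃+* K) (x : FF K N) :
    TTf K ℓ N (act N σ x) = act N σ (TTf K ℓ N x) := by
  obtain ⟨ζ, hζ⟩ := exists_zeta (k := K) (N := ℓ) (natCast_ne_zero_K K ℓ)
  apply Subtype.ext
  rw [coe_TTf hℓ hζ, coe_act, coe_act, coe_TTf hℓ hζ]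
  exact (HeckeProd.coeffMap_TT_of_injective (σ : K →+* K) σ.injective hζ hζ _).symm

section AL

variable {p M : ℕ} [hp : Fact p.Prime] [NeZero M]

theorem jm_congr {k : Type*} [Field k] {N : ℕ} {m m' : ℕ+} (h : m = m') (hm : (m : ℕ) ∣ N)
    (hm' : (m' : ℕ) ∣ N) : jm k m hm = jm k m' hm' := by
  subst h
  rfl

theorem level_eq (ℓ p M : ℕ) : ℓ * (p * M) = p * (ℓ * M) := by ring

theorem coe_equivOfEq' {F L : Type*} [Field F] [Field L] [Algebra F L] {S T : IntermediateField F L}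
    (h : S = T) (x : S) : ((IntermediateField.equivOfEq h x : T) : L) = (x : L) := by
  subst h
  rfl

theorem coe_equivOfEq_symm' {F L : Type*} [Field F] [Field L] [Algebra F L]
    {S T : IntermediateField F L} (h : S = T) (x : T) :
    (((IntermediateField.equivOfEq h).symm x : S) : L) = (x : L) := by
  subst h
  rfl

variable (K ℓ p M) in
/-- identification of levels -/
def lev : FF K (ℓ * (p * M)) ≃ₐ[K] FF K (p * (ℓ * M)) :=
  IntermediateField.equivOfEq (congrArg (FF K) (level_eq ℓ p M))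

theorem coe_lev (x : FF K (ℓ * (p * M))) : (lev K ℓ p M x : LaurentSeries K) = x :=
  coe_equivOfEq' _ x

theorem coe_lev_symm (x : FF K (p * (ℓ * M))) : ((lev K ℓ p M).symm x : LaurentSeries K) = x :=
  coe_equivOfEq_symm' _ x

theorem lev_jm {m : ℕ+} (h : (m : ℕ) ∣ ℓ * (p * M)) (h' : (m : ℕ) ∣ p * (ℓ * M)) :
    lev K ℓ p M (jm K m h) = jm K m h' := Subtype.ext (coe_lev _)

theorem lev_symm_jm {m : ℕ+} (h : (m : ℕ) ∣ ℓ * (p * M)) (h' : (m : ℕ) ∣ p * (ℓ * M)) :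
    (lev K ℓ p M).symm (jm K m h') = jm K m h := Subtype.ext (coe_lev_symm _)

/-- the Atkin-Lehner involution `w_p` at level `ℓ p M` -/
def W (hco' : p.Coprime (ℓ * M)) : FF K (ℓ * (p * M)) ≃ₐ[K] FF K (ℓ * (p * M)) :=
  ((lev K ℓ p M).trans (w K hco')).trans (lev K ℓ p M).symm

theorem W_jm (hco' : p.Coprime (ℓ * M)) {r r' d : ℕ+} (hr : (r : ℕ) * r' = p)
    (hd : (d : ℕ) ∣ ℓ * M) (h : ((r * d : ℕ+) : ℕ) ∣ ℓ * (p * M))
    (h' : ((r' * d : ℕ+) : ℕ) ∣ ℓ * (p * M)) :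
    W hco' (jm K (r * d) h) = jm K (r' * d) h' := by
  have e := level_eq ℓ p M
  change (lev K ℓ p M).symm (w K hco' (lev K ℓ p M (jm K (r * d) h))) = _
  rw [lev_jm h (e ▸ h)]
  have h1 : w K hco' (jm K (r * d) (e ▸ h)) = jm K (r' * d) (e ▸ h') :=
    wq_jm _ hco' hr hd _ _
  rw [h1, lev_symm_jm h']

theorem W_incl (hco : p.Coprime M) (hco' : p.Coprime (ℓ * M)) (x : FF K (p * M)) :
    W hco' (incl K (dvd_mul_left (p * M) ℓ) x) = incl K (dvd_mul_left (p * M) ℓ) (w K hco x) := by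
  have h1 : ((W hco' : FF K (ℓ * (p * M)) ≃ₐ[K] _) : FF K (ℓ * (p * M)) →ₐ[K] _).comp
      (incl K (dvd_mul_left (p * M) ℓ)) =
      (incl K (dvd_mul_left (p * M) ℓ)).comp (w K hco : FF K (p * M) →ₐ[K] FF K (p * M)) := by
    apply hom_ext
    intro m hm
    obtain ⟨r, r', d, rfl, hr, hd⟩ := exists_factor hco (NeZero.pos p) hm
    have hr' : ((r' * d : ℕ+) : ℕ) ∣ p * M := by
      rw [PNat.mul_coe]
      exact mul_dvd_mul ⟨r, by rw [← hr, mul_comm]⟩ hd
    have h2 : w K hco (jm K (r * d) hm) = jm K (r' * d) hr' := wq_jm _ hco hr hd _ _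
    change W hco' (incl K (dvd_mul_left (p * M) ℓ) (jm K (r * d) hm)) =
      incl K (dvd_mul_left (p * M) ℓ) (w K hco (jm K (r * d) hm))
    rw [h2, incl_jm, incl_jm]
    exact W_jm hco' hr (hd.trans (dvd_mul_left M ℓ)) _ _
  exact AlgHom.congr_fun h1 x

theorem W_qe (hco : p.Coprime M) (hco' : p.Coprime (ℓ * M)) (x : FF K (p * M)) :
    W hco' (qe K ℓ (p * M) x) = qe K ℓ (p * M) (w K hco x) := by
  have h1 : ((W hco' : FF K (ℓ * (p * M)) ≃ₐ[K] _) : FF K (ℓ * (p * M)) →ₐ[K] _).comp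
      (qe K ℓ (p * M)) =
      (qe K ℓ (p * M)).comp (w K hco : FF K (p * M) →ₐ[K] FF K (p * M)) := by
    apply hom_ext
    intro m hm
    obtain ⟨r, r', d, rfl, hr, hd⟩ := exists_factor hco (NeZero.pos p) hm
    have hr' : ((r' * d : ℕ+) : ℕ) ∣ p * M := by
      rw [PNat.mul_coe]
      exact mul_dvd_mul ⟨r, by rw [← hr, mul_comm]⟩ hd
    have h2 : w K hco (jm K (r * d) hm) = jm K (r' * d) hr' := wq_jm _ hco hr hd _ _
    change W hco' (qe K ℓ (p * M) (jm K (r * d) hm)) =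
      qe K ℓ (p * M) (w K hco (jm K (r * d) hm))
    have h3 : ∀ m : ℕ+, (m : ℕ) ∣ p * M → ((pn ℓ * m : ℕ+) : ℕ) ∣ ℓ * (p * M) := by
      intro m hm
      rw [PNat.mul_coe, coe_pn]
      exact mul_dvd_mul_left ℓ hm
    have h4 : pn ℓ * (r * d) = r * (pn ℓ * d) := by ring
    have h5 : pn ℓ * (r' * d) = r' * (pn ℓ * d) := by ring
    rw [h2, qe_jm hm (h3 _ hm), qe_jm hr' (h3 _ hr'), jm_congr h4 (h3 _ hm) (h4 ▸ h3 _ hm),
      jm_congr h5 (h3 _ hr') (h5 ▸ h3 _ hr')]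
    refine W_jm hco' hr ?_ _ _
    rw [PNat.mul_coe, coe_pn]
    exact mul_dvd_mul_left ℓ hd
  exact AlgHom.congr_fun h1 x

/-- **`T_ℓ` commutes with `w_p`** -/
theorem TTf_w (hco : p.Coprime M) (hℓ : ℓ.Coprime (p * M)) (x : FF K (p * M)) :
    TTf K ℓ (p * M) (w K hco x) = w K hco (TTf K ℓ (p * M) x) := by
  have hco' : p.Coprime (ℓ * M) :=
    Nat.Coprime.mul_right (hℓ.coprime_mul_right_right.symm) hco
  letI := inclAlg (k := K) (dvd_mul_left (p * M) ℓ)
  have h1 := Algebra.norm_eq_of_equiv_equiv (A₁ := FF K (p * M)) (B₁ := FF K (ℓ * (p * M)))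
    (A₂ := FF K (p * M)) (B₂ := FF K (ℓ * (p * M))) (w K hco).toRingEquiv
    (W (K := K) hco').toRingEquiv (RingHom.ext fun x => (W_incl hco hco' x).symm)
    (qe K ℓ (p * M) x)
  have h2 : (W (K := K) hco').toRingEquiv (qe K ℓ (p * M) x) = qe K ℓ (p * M) (w K hco x) :=
    W_qe hco hco' x
  rw [h2, RingEquiv.eq_symm_apply] at h1
  exact h1.symm

end AL

end Fermat.Agent.PRem
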