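import Fermat.Agent.PRem.Conc
import Fermat.Agent.PRem.Levels
import Fermat.Agent.PRem.TTr
import Fermat.Agent.PRem.TTw
import Fermat.Agent.PRem.Cls
import Fermat.Agent.Nod.ScaleM

/-!
# Components, Atkin-Lehner involution and Hecke operators
-/

set_option autoImplicit false
set_option linter.unusedSectionVars false
set_option linter.style.haveILetI false

noncomputable section

namespace Fermat.Agent.PRem

open ModularCurve Polynomial IntermediateField Fermat.Agent.ModPoly Fermat.Agent.Red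
  Fermat.Agent.RedMod Fermat.Agent.Cusp Fermat.Agent.SemiSt AlgebraicCurve Fermat.Agent.Curve
  Fermat.Agent.RR Fermat.Agent.Nod Fermat.Agent.Flat Fermat.Agent.FlatRam Fermat.Agent.Places

local notation "Ω" => AlgebraicClosure ℚ

variable {A : ValuationSubring (AlgebraicClosure ℚ)} {p : ℕ} [hp : Fact p.Prime]
  {M : ℕ} [NeZero M] {k : Type*} [Field k] [Algebra A k] [CharP k p] [IsAlgClosed k]
  {hk : Function.Surjective (algebraMap A k)} {hco : p.Coprime M} {hM : (M : k) ≠ 0} {b : A}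
  [Algebra A (FF Ω (p * M))] [IsScalarTower A Ω (FF Ω (p * M))]
  [Algebra A (FF k M)] [IsScalarTower A k (FF k M)]
  [FunField k (FF k M)] [FunField Ω (FF Ω M)] [FunField Ω (FF Ω (p * M))]

section Comp

theorem rd1 {x : FF Ω (p * M)} (hx : x ∈ (ng Ω hco hk hM b).W) :
    Rd A (x : LaurentSeries Ω) ((r1 (ng Ω hco hk hM b) x : FF k M) : LaurentSeries k) := by
  rw [r1_of hx]
  exact ⟨hx.1, rfl⟩

theorem rd2 {x : FF Ω (p * M)} (hx : x ∈ (ng Ω hco hk hM b).W) :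
    Rd A (w Ω hco x : LaurentSeries Ω) ((r2 (ng Ω hco hk hM b) x : FF k M) : LaurentSeries k) := by
  rw [r2_of hx]
  exact ⟨hx.2, rfl⟩

theorem mem_W_of {x : FF Ω (p * M)} {a b' : LaurentSeries k}
    (h1 : Rd A (x : LaurentSeries Ω) a) (h2 : Rd A (w Ω hco x : LaurentSeries Ω) b') :
    x ∈ (ng Ω hco hk hM b).W := ⟨h1.choose, h2.choose⟩

theorem r1_eq {x : FF Ω (p * M)} (hx : x ∈ (ng Ω hco hk hM b).W) {a : LaurentSeries k}
    (h : Rd A (x : LaurentSeries Ω) a) :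
    ((r1 (ng Ω hco hk hM b) x : FF k M) : LaurentSeries k) = a := (rd1 hx).uniq h

theorem r2_eq {x : FF Ω (p * M)} (hx : x ∈ (ng Ω hco hk hM b).W) {a : LaurentSeries k}
    (h : Rd A (w Ω hco x : LaurentSeries Ω) a) :
    ((r2 (ng Ω hco hk hM b) x : FF k M) : LaurentSeries k) = a := (rd2 hx).uniq h

theorem w_mem {x : FF Ω (p * M)} (hx : x ∈ (ng Ω hco hk hM b).W) :
    w Ω hco x ∈ (ng Ω hco hk hM b).W := w_mem_WW hco hx

theorem r1_w {x : FF Ω (p * M)} (hx : x ∈ (ng Ω hco hk hM b).W) :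
    r1 (ng Ω hco hk hM b) (w Ω hco x) = r2 (ng Ω hco hk hM b) x :=
  Subtype.ext (r1_eq (w_mem hx) (rd2 hx))

theorem r2_w {x : FF Ω (p * M)} (hx : x ∈ (ng Ω hco hk hM b).W) :
    r2 (ng Ω hco hk hM b) (w Ω hco x) = r1 (ng Ω hco hk hM b) x :=
  Subtype.ext (r2_eq (w_mem hx) (by rw [w_w]; exact rd1 hx))

theorem uw_w {x : FF Ω (p * M)} (hx : UW (ng Ω hco hk hM b) x) :
    UW (ng Ω hco hk hM b) (w Ω hco x) :=
  UW.mk' (w_mem hx.mem) (by rw [r1_w hx.mem]; exact hx.r2_ne) (by rw [r2_w hx.mem]; exact hx.r1_ne)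

theorem w_ne_zero {f : FF Ω (p * M)} (hf : f ≠ 0) : w Ω hco f ≠ 0 := fun h => hf (by
  have := congrArg (w Ω hco) h
  rwa [w_w, map_zero] at this)

theorem exists_place_w (hco : p.Coprime M) (v : Place Ω (FF Ω (p * M))) :
    ∃ (v' : Place Ω (FF Ω (p * M))) (c : ℤ), 0 < c ∧ ∀ f : FF Ω (p * M), f ≠ 0 →
      v.ord (w Ω hco f) = c * v'.ord f := by
  apply exists_place_of_valuation (K := Ω) (fun f : FF Ω (p * M) => v.ord (w Ω hco f))
  · intro f g hf hg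
    simp only [map_mul]
    exact v.ord_mul (w_ne_zero hf) (w_ne_zero hg)
  · intro f g hf hg hfg
    simp only [map_add]
    exact le_ord_add v (by rw [← map_add]; exact w_ne_zero hfg) (min_le_left _ _)
      (min_le_right _ _) (w_ne_zero hf) (w_ne_zero hg)
  · intro a ha
    simp only [AlgEquiv.commutes]
    exact ord_algebraMap v _
  · obtain ⟨f, hf, h1⟩ := exists_ord_eq v 1
    refine ⟨w Ω hco f, w_ne_zero hf, ?_⟩
    simp only [w_w, h1]
    exact one_ne_zero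

theorem dvd_ord_w {m : ℤ} {f : FF Ω (p * M)} (hf : f ≠ 0)
    (h : ∀ v : Place Ω (FF Ω (p * M)), m ∣ v.ord f)
    (v : Place Ω (FF Ω (p * M))) : m ∣ v.ord (w Ω hco f) := by
  obtain ⟨v', c, -, hc⟩ := exists_place_w hco v
  rw [hc f hf]
  exact Dvd.dvd.mul_left (h v') c

end Comp

section Pow

/-- the Gauss ring is closed under roots -/
theorem wl_of_pow (hk : Function.Surjective (algebraMap A k)) (hco : p.Coprime M)
    (hM : (M : k) ≠ 0) {x : FF Ω (p * M)} {n : ℕ} (hn : n ≠ 0)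
    (h : (x : LaurentSeries Ω) ^ n ∈ WL A Ω k) : (x : LaurentSeries Ω) ∈ WL A Ω k := by
  by_contra hx
  have hx0 : (x : LaurentSeries Ω) ≠ 0 := by
    intro h0
    rw [h0] at hx
    exact hx (zero_mem _)
  obtain ⟨h1, h2⟩ := inv_mem_of_not_mem hco hM hk hx
  have h3 : Rd A (x : LaurentSeries Ω)⁻¹ (0 : LaurentSeries k) := ⟨h1, h2⟩
  have h4 := (h3.pow n).mul ⟨h, rfl⟩
  rw [zero_pow hn, zero_mul, ← mul_pow, inv_mul_cancel₀ hx0, one_pow] at h4
  exact one_ne_zero (Rd.one.uniq h4)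

theorem W_of_pow {x : FF Ω (p * M)} {n : ℕ} (hn : n ≠ 0) (h : x ^ n ∈ (ng Ω hco hk hM b).W) :
    x ∈ (ng Ω hco hk hM b).W := by
  refine ⟨wl_of_pow hk hco hM hn ?_, wl_of_pow hk hco hM hn ?_⟩
  · exact h.1
  · have := h.2
    change ((w Ω hco (x ^ n) : FF Ω (p * M)) : LaurentSeries Ω) ∈ WL A Ω k at this
    rw [map_pow] at this
    exact this

theorem uw_of_pow {x : FF Ω (p * M)} {n : ℕ} (hn : n ≠ 0) (h : UW (ng Ω hco hk hM b) (x ^ n)) :
    UW (ng Ω hco hk hM b) x := by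
  have hx : x ∈ (ng Ω hco hk hM b).W := W_of_pow hn h.mem
  refine UW.mk' hx ?_ ?_
  · have := h.r1_ne
    rw [r1_pow hx] at this
    exact fun h0 => this (by rw [h0, zero_pow hn])
  · have := h.r2_ne
    rw [r2_pow hx] at this
    exact fun h0 => this (by rw [h0, zero_pow hn])

end Pow

section Hecke

variable {ℓ : ℕ} [hl : Fact ℓ.Prime]

theorem TT_C {R : Type*} [CommRing R] [IsDomain R] {ℓ : ℕ} [NeZero ℓ] {ζ : Rˣ}
    (h : IsPrimitiveRoot ζ ℓ) (a : R) : HeckeProd.TT h (HahnSeries.C a) = HahnSeries.C (a ^ (ℓ + 1)) := by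
  have e : ∀ c : Rˣ, twist c (HahnSeries.C a : LaurentSeries R) = HahnSeries.C a := fun c => by
    rw [HahnSeries.C_apply, twist_single, zpow_zero, Units.val_one, one_mul]
  have e2 : HeckeProd.PP ℓ ζ (HahnSeries.C a) = HahnSeries.C (a ^ ℓ) := by
    simp only [HeckeProd.PP, e, Finset.prod_const, Finset.card_univ, ZMod.card, map_pow]
  have e3 : HeckeProd.contract ℓ (HahnSeries.C (a ^ ℓ) : LaurentSeries R) = HahnSeries.C (a ^ ℓ) := by
    have := HeckeProd.contract_qExpand ℓ (HahnSeries.C (a ^ ℓ) : LaurentSeries R)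
    rwa [qExpand_C] at this
  rw [HeckeProd.TT_apply, HeckeProd.NN, e2, e3, qExpand_C, ← map_mul, pow_succ, mul_comm]

theorem exists_prim (K : Type*) [Field K] [IsAlgClosed K] [CharZero K] (ℓ : ℕ) [NeZero ℓ] :
    ∃ ζ : Kˣ, IsPrimitiveRoot ζ ℓ := by
  obtain ⟨ζ', hζ'⟩ : ∃ ζ : K, IsPrimitiveRoot ζ ℓ :=
    HasEnoughRootsOfUnity.exists_primitiveRoot K ℓ
  obtain ⟨ζ, rfl⟩ : IsUnit ζ' := hζ'.isUnit (NeZero.ne ℓ)
  exact ⟨ζ, IsPrimitiveRoot.coe_units_iff.1 hζ'⟩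

theorem TTf_algebraMap {N : ℕ} [NeZero N] (hℓ : ℓ.Coprime N) (c : Ω) :
    TTf Ω ℓ N (algebraMap Ω (FF Ω N) c) = algebraMap Ω (FF Ω N) (c ^ (ℓ + 1)) := by
  obtain ⟨ζ, hζ⟩ := exists_prim Ω ℓ
  apply Subtype.ext
  have e : ∀ c : Ω, ((algebraMap Ω (FF Ω N) c : FF Ω N) : LaurentSeries Ω) = HahnSeries.C c :=
    fun c => congrFun (congrArg DFunLike.coe algebraMap_eq_C) _
  rw [coe_TTf hℓ hζ, e, e, TT_C]

theorem TTf_ne_zero {N : ℕ} [NeZero N] (hℓ : ℓ.Coprime N) {x : FF Ω N} (hx : x ≠ 0) :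
    TTf Ω ℓ N x ≠ 0 := by
  obtain ⟨ζ, hζ⟩ := exists_prim Ω ℓ
  intro h
  have h1 := congrArg Subtype.val h
  rw [coe_TTf hℓ hζ] at h1
  exact (_root_.map_ne_zero _).2 (fun h2 => hx (Subtype.ext h2)) h1

variable {ζ : Aˣ} (Z : Zt A Ω k ℓ ζ) (hℓ : ℓ.Coprime (p * M))

include hℓ in
theorem rd_TTf {x : FF Ω (p * M)} {a : LaurentSeries k} (h : Rd A (x : LaurentSeries Ω) a) :
    Rd A (TTf Ω ℓ (p * M) x : LaurentSeries Ω) (HeckeProd.TT Z.hk a) := by
  rw [coe_TTf hℓ Z.hK]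
  exact rd_TT Z h

include Z hℓ in
theorem TTf_mem {x : FF Ω (p * M)} (hx : x ∈ (ng Ω hco hk hM b).W) :
    TTf Ω ℓ (p * M) x ∈ (ng Ω hco hk hM b).W :=
  mem_W_of (rd_TTf Z hℓ (rd1 hx)) (by
    rw [← TTf_w hco hℓ]
    exact rd_TTf Z hℓ (rd2 hx))

include hℓ in
theorem r1_TTf {x : FF Ω (p * M)} (hx : x ∈ (ng Ω hco hk hM b).W) :
    ((r1 (ng Ω hco hk hM b) (TTf Ω ℓ (p * M) x) : FF k M) : LaurentSeries k) =
      HeckeProd.TT Z.hk ((r1 (ng Ω hco hk hM b) x : FF k M) : LaurentSeries k) :=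
  r1_eq (TTf_mem Z hℓ hx) (rd_TTf Z hℓ (rd1 hx))

include hℓ in
theorem r2_TTf {x : FF Ω (p * M)} (hx : x ∈ (ng Ω hco hk hM b).W) :
    ((r2 (ng Ω hco hk hM b) (TTf Ω ℓ (p * M) x) : FF k M) : LaurentSeries k) =
      HeckeProd.TT Z.hk ((r2 (ng Ω hco hk hM b) x : FF k M) : LaurentSeries k) :=
  r2_eq (TTf_mem Z hℓ hx) (by
    rw [← TTf_w hco hℓ]
    exact rd_TTf Z hℓ (rd2 hx))

include Z hℓ in
theorem uw_TTf {x : FF Ω (p * M)} (hx : UW (ng Ω hco hk hM b) x) :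
    UW (ng Ω hco hk hM b) (TTf Ω ℓ (p * M) x) := by
  refine UW.mk' (TTf_mem Z hℓ hx.mem) ?_ ?_
  · intro h
    have h1 := r1_TTf (hk := hk) (hM := hM) (b := b) Z hℓ hx.mem
    rw [h] at h1
    exact (_root_.map_ne_zero _).2 (fun h2 => hx.r1_ne (Subtype.ext h2)) h1.symm
  · intro h
    have h1 := r2_TTf (hk := hk) (hM := hM) (b := b) Z hℓ hx.mem
    rw [h] at h1
    exact (_root_.map_ne_zero _).2 (fun h2 => hx.r2_ne (Subtype.ext h2)) h1.symm

theorem w_one_add (c : Ω) (x : FF Ω (p * M)) : w Ω hco (1 + algebraMap Ω _ c * x) =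
    1 + algebraMap Ω _ c * w Ω hco x := by
  rw [map_add, map_mul, AlgEquiv.commutes, map_one]

include Z hℓ in
/-- first order expansions -/
theorem TTf_first {c : A} (hc : algebraMap A k c = 0) (hc0 : c ≠ 0) {H : FF Ω (p * M)}
    (hH : H ∈ (ng Ω hco hk hM b).W) : ∃ T ∈ (ng Ω hco hk hM b).W,
      TTf Ω ℓ (p * M) (1 + algebraMap A (FF Ω (p * M)) c * H) =
        1 + algebraMap A (FF Ω (p * M)) c * T ∧
      ((r1 (ng Ω hco hk hM b) T : FF k M) : LaurentSeries k) =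
        Tr ℓ ((r1 (ng Ω hco hk hM b) H : FF k M) : LaurentSeries k) ∧
      ((r2 (ng Ω hco hk hM b) T : FF k M) : LaurentSeries k) =
        Tr ℓ ((r2 (ng Ω hco hk hM b) H : FF k M) : LaurentSeries k) := by
  have hcF : algebraMap A (FF Ω (p * M)) c = algebraMap Ω _ (c : Ω) := by
    rw [IsScalarTower.algebraMap_apply A Ω (FF Ω (p * M))]; rfl
  have hcΩ : (c : Ω) ≠ 0 := fun h => hc0 (Subtype.ext h)
  have hC : (HahnSeries.C (c : Ω) : LaurentSeries Ω) ≠ 0 := by simpa using hcΩ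
  have hcF0 : algebraMap Ω (FF Ω (p * M)) (c : Ω) ≠ 0 := by simpa using hcΩ
  set T : FF Ω (p * M) := (algebraMap Ω (FF Ω (p * M)) (c : Ω))⁻¹ *
    (TTf Ω ℓ (p * M) (1 + algebraMap Ω _ (c : Ω) * H) - 1) with hT
  have e0 : TTf Ω ℓ (p * M) (1 + algebraMap Ω _ (c : Ω) * H) = 1 + algebraMap Ω _ (c : Ω) * T := by
    rw [hT, ← mul_assoc, mul_inv_cancel₀ hcF0, one_mul]; ring
  have key : ∀ (H' T' : FF Ω (p * M)) (h' : LaurentSeries k), Rd A (H' : LaurentSeries Ω) h' →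
      TTf Ω ℓ (p * M) (1 + algebraMap Ω _ (c : Ω) * H') = 1 + algebraMap Ω _ (c : Ω) * T' →
      Rd A (T' : LaurentSeries Ω) (Tr ℓ h') := by
    intro H' T' h' h1 h2
    obtain ⟨T₁, hT₁, e1⟩ := TT_first Z hc h1
    have h3 := congrArg Subtype.val h2
    rw [coe_TTf hℓ Z.hK] at h3
    have e4 : ∀ y : FF Ω (p * M), ((1 + algebraMap Ω (FF Ω (p * M)) (c : Ω) * y : FF Ω (p * M)) :
        LaurentSeries Ω) = 1 + HahnSeries.C (c : Ω) * (y : LaurentSeries Ω) := fun y => by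
      rw [← coe_algebraMap_mul]; rfl
    rw [e4, e4] at h3
    have e5 : algebraMap A Ω c = (c : Ω) := rfl
    rw [e5, h3] at e1
    have e6 := mul_left_cancel₀ hC (add_left_cancel e1)
    rw [e6]
    exact hT₁
  have h1 := key H T _ (rd1 (hk := hk) (hM := hM) (b := b) hH) e0
  have h2 := key (w Ω hco H) (w Ω hco T) _ (rd2 (hk := hk) (hM := hM) (b := b) hH) (by
    have := congrArg (w Ω hco) e0
    rw [← TTf_w hco hℓ, w_one_add, w_one_add] at this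
    exact this)
  have hTW : T ∈ (ng Ω hco hk hM b).W := mem_W_of h1 h2
  refine ⟨T, hTW, ?_, r1_eq hTW h1, r2_eq hTW h2⟩
  rw [hcF]
  exact e0

end Hecke

end Fermat.Agent.PRem
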