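import Fermat.Agent.PRem.Asm9

/-!
# The nonsplit case
-/

set_option autoImplicit false
set_option linter.unusedSectionVars false
set_option linter.style.haveILetI false

noncomputable section

namespace Fermat.Agent.PRem

open ModularCurve Polynomial IntermediateField Fermat.Agent.ModPoly Fermat.Agent.Red
  Fermat.Agent.RedMod Fermat.Agent.Cusp Fermat.Agent.SemiSt AlgebraicCurve Fermat.Agent.Curve
  Fermat.Agent.RR Fermat.Agent.Nod Fermat.Agent.Flat Fermat.Agent.FlatRam Fermat.Agent.Places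

local notation "Ω" => AlgebraicClosure ℚ

variable {A : ValuationSubring (AlgebraicClosure ℚ)} {p : ℕ} [hp : Fact p.Prime]
  {M : ℕ} [NeZero M] {k : Type*} [Field k] [Algebra A k] [CharP k p] [IsAlgClosed k]
  {hk : Function.Surjective (algebraMap A k)} {hco : p.Coprime M} {hM : (M : k) ≠ 0} {b : A}
  [Algebra A (FF Ω (p * M))] [IsScalarTower A Ω (FF Ω (p * M))]
  [Algebra A (FF k M)] [IsScalarTower A k (FF k M)]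
  [FunField k (FF k M)] [FunField Ω (FF Ω M)] [FunField Ω (FF Ω (p * M))]
  {E : IntermediateField (K0 A) Ω} [FiniteDimensional (K0 A) E]
  {E₀ : IntermediateField (K0 A) Ω} [FiniteDimensional (K0 A) E₀]
  {e : ℕ} {ϖ : A} {Q : RatStr (ng Ω hco hk hM b)} {e₀ : ℕ} {ϖ₀ : A}
  {Q₀ : RatStr (ng Ω hco hk hM b)} {c : ℕ → ℤ} {P : ℕ → Prop}
  (H : NodMod (ng Ω hco hk hM b) hk (ng_hspan hco hk hM b) (fd k p M).nodes)

/-- functions with rational powers -/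
theorem RS.norm_unit (R : RS E e ϖ Q) {g : FF Ω (p * M)} (hg : UW (ng Ω hco hk hM b) g)
    {n : ℕ} (hn : n ≠ 0) (h : g ^ n ∈ Q.fld) :
    ∃ v : Ω, v ≠ 0 ∧ ∃ u ∈ Q.fld, UW (ng Ω hco hk hM b) u ∧
      g = algebraMap Ω (FF Ω (p * M)) v * u := by
  obtain ⟨c', hc', y, hy, hgy⟩ := norm_root (E := E) hg.ne_zero hn (c := 1) one_ne_zero
    (by rw [map_one, one_mul]; exact R.mem_fld.1 h)
  have hy0 : y ≠ 0 := by
    rintro rfl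
    rw [mul_zero] at hgy
    exact hg.ne_zero hgy
  obtain ⟨a, s, u, hu, huF, hye⟩ := R.normal (R.mem_fld.2 hy) hy0
  have e1 : g = algebraMap Ω (FF Ω (p * M)) (c' * (ϖ : Ω) ^ a) * Q.ψ ^ s * u := by
    rw [hgy, hye, map_mul]; ring
  have hca : c' * (ϖ : Ω) ^ a ≠ 0 := mul_ne_zero hc' (zpow_ne_zero _ R.U.ne)
  have hs : s = 0 := by
    have s1 := sl_uw hg
    have s2 := R.sl_normal (s := s) hca hu
    rw [← e1] at s2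
    obtain ⟨v, hv⟩ := sl_uniq hk s1 s2
    rw [one_mul] at hv
    exact R.zpow_unit hv
  rw [hs, zpow_zero, mul_one] at e1
  exact ⟨_, hca, u, huF, hu, e1⟩

theorem exists_const_of_pow {N : ℕ} {u : FF Ω N} {n : ℕ} (hn : n ≠ 0) (h : u ^ n = 1) :
    ∃ ζ : Ω, ζ ≠ 0 ∧ u = algebraMap Ω (FF Ω N) ζ := by
  obtain ⟨ζ, hζ⟩ := eq_C_of_pow hn (u := (u : LaurentSeries Ω)) (congrArg Subtype.val h)
  refine ⟨ζ, ?_, Subtype.ext (by rw [hζ, coe_algebraMap'])⟩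
  rintro rfl
  rw [map_zero] at hζ
  have : u = 0 := Subtype.ext hζ
  rw [this, zero_pow hn] at h
  exact zero_ne_one h

theorem TTf_inv {ℓ : ℕ} [hl : Fact ℓ.Prime] {x : FF Ω (p * M)} (hx : x ≠ 0) :
    TTf Ω ℓ (p * M) x⁻¹ = (TTf Ω ℓ (p * M) x)⁻¹ := by
  apply eq_inv_of_mul_eq_one_left
  rw [← map_mul, inv_mul_cancel₀ hx, map_one]

/-- the algebraic relation behind the equality of constants -/
theorem rel_aux {F : Type*} [Field F] {f f₀ z z₀ K T G Z K' : F} {m : ℤ} {p : ℕ}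
    (hf : f ≠ 0) (hf₀ : f₀ ≠ 0)
    (h : (f ^ m * z ^ p) * (f₀ ^ m * z₀ ^ p) * (K' * T ^ p) = (f * f₀ * (K * G ^ p)) ^ m * Z ^ p) :
    K' * (z * z₀ * T) ^ p = K ^ m * (G ^ m * Z) ^ p := by
  have h1 := zpow_ne_zero m hf
  have h2 := zpow_ne_zero m hf₀
  have e : (G ^ p) ^ m = (G ^ m) ^ p := by
    rw [← zpow_natCast G p, ← zpow_mul, ← zpow_natCast (G ^ m) p, ← zpow_mul, mul_comm (p : ℤ) m]
  rw [mul_zpow, mul_zpow, mul_zpow, e] at h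
  apply mul_left_cancel₀ (mul_ne_zero h1 h2)
  rw [mul_pow, mul_pow, mul_pow]
  linear_combination h

theorem aux_div {F : Type*} [Field F] {D X Z Y : F} (hD : D ≠ 0) (h : D * X = Z * Y) :
    X = Z * D⁻¹ * Y := by
  rw [mul_right_comm, ← h, mul_comm D, mul_inv_cancel_right₀ hD]

theorem aux_mulinv {F : Type*} [Field F] {X Y : F} (hX : X ≠ 0) : Y = X * Y * X⁻¹ := by
  rw [mul_comm X Y, mul_inv_cancel_right₀ hX]

theorem final_alg {F : Type*} [Field F] {V SV Z K U SU Y G T : F} {m : ℤ}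
    (hV : V ≠ 0) (hSV : SV ≠ 0) (hZ : Z ≠ 0) (hK : K ≠ 0) (hU : U ≠ 0) (hSU : SU ≠ 0)
    (hY : Y ≠ 0) (hG : G ≠ 0) (hT : T ≠ 0)
    (h : V * U * (K * Y) * T = Z * (G ^ m * (SV * SU))) :
    T⁻¹ = (Z * SV)⁻¹ * V * K * (G⁻¹ ^ m * ((SU * U⁻¹)⁻¹ * Y)) := by
  have hGm : G ^ m ≠ 0 := zpow_ne_zero m hG
  rw [inv_zpow]
  obtain ⟨W, hW⟩ : ∃ W, W = G ^ m := ⟨_, rfl⟩
  rw [← hW] at h hGm ⊢
  field_simp
  linear_combination -h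

theorem exists_kappa {κ : Ω} (hκ : κ ≠ 0) (m : ℤ) (ℓ : ℕ) : ∃ d : Ω, d ≠ 0 ∧
    κ ^ (ℓ + 1) = κ ^ m * d ^ p := by
  obtain ⟨d, hd⟩ := IsAlgClosed.exists_pow_nat_eq (κ ^ (ℓ + 1) * (κ ^ m)⁻¹) hp.out.pos
  have h1 := zpow_ne_zero m hκ
  refine ⟨d, ?_, ?_⟩
  · rintro rfl
    rw [zero_pow hp.out.ne_zero] at hd
    exact mul_ne_zero (pow_ne_zero _ hκ) (inv_ne_zero h1) hd.symm
  · rw [hd]; field_simp

/-- the Hecke relation for the comparison function -/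
theorem TTf_g {σ : Ω ≃ₐ[K0 A] Ω} {f f₀ g : FF Ω (p * M)} (hf : f ≠ 0) (hf₀ : f₀ ≠ 0) (hg : g ≠ 0)
    {κ : Ω} (hκ : κ ≠ 0) (hrel : act (p * M) (σ : Ω ≃+* Ω) f =
      f * f₀ * (algebraMap Ω (FF Ω (p * M)) κ * g ^ p)) {ℓ : ℕ} [hl : Fact ℓ.Prime]
    (hℓN : ¬ ℓ ∣ p * M) {m : ℤ} {z z₀ : FF Ω (p * M)} (hz : z ≠ 0) (hz₀ : z₀ ≠ 0)
    (h1 : TTf Ω ℓ (p * M) f = f ^ m * z ^ p) (h0 : TTf Ω ℓ (p * M) f₀ = f₀ ^ m * z₀ ^ p) :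
    ∃ ζ : Ω, ζ ≠ 0 ∧ z * z₀ * TTf Ω ℓ (p * M) g =
      algebraMap Ω (FF Ω (p * M)) ζ * (g ^ m * act (p * M) (σ : Ω ≃+* Ω) z) := by
  have hℓ := coprime_of' hℓN
  have h2 := TTf_act hℓ (σ : Ω ≃+* Ω) f
  rw [h1, map_mul, map_zpow₀, map_pow, hrel, map_mul, map_mul, map_mul, map_pow,
    TTf_algebraMap hℓ, h1, h0] at h2
  have h3 := rel_aux hf hf₀ h2
  obtain ⟨d, hd, hd'⟩ := exists_kappa (p := p) hκ m ℓ
  have hκF : algebraMap Ω (FF Ω (p * M)) κ ≠ 0 := (_root_.map_ne_zero _).2 hκ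
  have hdF : algebraMap Ω (FF Ω (p * M)) d ≠ 0 := (_root_.map_ne_zero _).2 hd
  rw [hd', map_mul, map_zpow₀, map_pow, mul_assoc] at h3
  have h4 := mul_left_cancel₀ (zpow_ne_zero m hκF) h3
  rw [← mul_pow] at h4
  have hσz : act (p * M) (σ : Ω ≃+* Ω) z ≠ 0 := (_root_.map_ne_zero _).2 hz
  have hgz : g ^ m * act (p * M) (σ : Ω ≃+* Ω) z ≠ 0 := mul_ne_zero (zpow_ne_zero m hg) hσz
  obtain ⟨ζ, hζ, h5⟩ := exists_const_of_pow hp.out.ne_zero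
    (u := algebraMap Ω (FF Ω (p * M)) d * (z * z₀ * TTf Ω ℓ (p * M) g) *
      (g ^ m * act (p * M) (σ : Ω ≃+* Ω) z)⁻¹) (by
    rw [mul_pow, h4, ← mul_pow, mul_inv_cancel₀ hgz, one_pow])
  refine ⟨ζ * d⁻¹, mul_ne_zero hζ (inv_ne_zero hd), ?_⟩
  have h6 : algebraMap Ω (FF Ω (p * M)) d * (z * z₀ * TTf Ω ℓ (p * M) g) =
      algebraMap Ω (FF Ω (p * M)) ζ * (g ^ m * act (p * M) (σ : Ω ≃+* Ω) z) := by
    rw [← h5, inv_mul_cancel_right₀ hgz]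
  rw [map_mul, map_inv₀]
  exact aux_div hdF h6

set_option maxHeartbeats 1000000 in
/-- **equality of the constants on the two components** -/
theorem const_eq (R₀ : RS E₀ e₀ ϖ₀ Q₀) (R : RS E e ϖ Q) {v : A} (hv : Q₀.ϖ = Q.ϖ ^ 2 * v)
    {σ : Ω ≃ₐ[K0 A] Ω} {z θ} (S : WildAut Q (galAut (p * M) (σ : Ω ≃+* Ω)) z θ)
    {f f₀ g : FF Ω (p * M)} (hfF : f ∈ Q.fld) (hf : UW (ng Ω hco hk hM b) f) (hEf : Eig c P f)
    (hf₀F : f₀ ∈ Q₀.fld) (hf₀ : UW (ng Ω hco hk hM b) f₀) (a1 : r1 (ng Ω hco hk hM b) f₀ = 1)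
    (a2 : r2 (ng Ω hco hk hM b) f₀ = 1) (hEf₀ : Eig c P f₀) (hg : g ≠ 0)
    {κ : Ω} (hκ : κ ≠ 0) (hrel : act (p * M) (σ : Ω ≃+* Ω) f =
      f * f₀ * (algebraMap Ω (FF Ω (p * M)) κ * g ^ p)) {c₁ c₂ : k}
    (hx : Fo (ng Ω hco hk hM b) (algebraMap A (FF Ω (p * M)) Q.ϖ) g⁻¹
      (algebraMap k (FF k M) c₁) (algebraMap k (FF k M) c₂)) {ℓ : ℕ} [hl : Fact ℓ.Prime]
    (hℓN : ¬ ℓ ∣ p * M) (hPℓ : P ℓ) (hℓp : ℓ ≠ p) (hne : ¬ (p : ℤ) ∣ c ℓ - ℓ - 1) : c₁ = c₂ := by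
  have hℓ := coprime_of' hℓN
  have hp0 := hp.out.ne_zero
  obtain ⟨ζ, Z⟩ := exists_Zt (A := A) (K := Ω) (k := k) hl.out (natCast_ne_of (p := p) hℓp)
  obtain ⟨z₁, hz₁, h1⟩ := hEf ℓ hℓN hPℓ
  obtain ⟨z₀, hz₀, h0⟩ := hEf₀ ℓ hℓN hPℓ
  have hz₁U := Eig.uw hf hℓN hℓp h1
  have hz₀U := Eig.uw hf₀ hℓN hℓp h0
  have hsm := sm_ϖ Q
  -- the first root
  have hfc := hf.zpow (c ℓ)
  have e1 : z₁ ^ p = TTf Ω ℓ (p * M) f * (f ^ c ℓ)⁻¹ := by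
    rw [h1]; exact aux_mulinv hfc.ne_zero
  obtain ⟨v₁, hv₁, u₁, hu₁F, hu₁, e2⟩ := R.norm_unit hz₁U hp0 (by
    rw [e1]; exact mul_mem (R.TTf_fld hℓ hfF) (inv_mem (zpow_mem hfF _)))
  obtain ⟨y, hy, e3⟩ := S.sub u₁ hu₁F hu₁.mem
  rw [galAut_smul] at e3
  have f1 : Fo (ng Ω hco hk hM b) (algebraMap A (FF Ω (p * M)) Q.ϖ)
      (act (p * M) (σ : Ω ≃+* Ω) u₁ * u₁⁻¹) 0 0 := by
    refine Fo.of_higher hsm (mul_mem hy hu₁.inv.mem) ?_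
    rw [e3, add_mul, mul_inv_cancel₀ hu₁.ne_zero, mul_assoc]
  -- the second root
  have hf₀c := hf₀.zpow (c ℓ)
  have e4 : z₀ ^ p = TTf Ω ℓ (p * M) f₀ * (f₀ ^ c ℓ)⁻¹ := by
    rw [h0]; exact aux_mulinv hf₀c.ne_zero
  have b1 : r1 (ng Ω hco hk hM b) z₀ = 1 := by
    apply eq_one_of_pow (p := p)
    have h3 := r1_TTf (hk := hk) (hM := hM) (b := b) Z hℓ hf₀.mem
    rw [a1] at h3
    have h4 : r1 (ng Ω hco hk hM b) (TTf Ω ℓ (p * M) f₀) = 1 := by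
      apply Subtype.ext
      rw [h3]
      exact map_one _
    rw [h0, r1_mul hf₀c.mem (hz₀U.pow p).mem, hf₀.r1_zpow, a1, one_zpow, one_mul,
      r1_pow hz₀U.mem] at h4
    exact h4
  have b2 : r2 (ng Ω hco hk hM b) z₀ = 1 := by
    apply eq_one_of_pow (p := p)
    have h3 := r2_TTf (hk := hk) (hM := hM) (b := b) Z hℓ hf₀.mem
    rw [a2] at h3
    have h4 : r2 (ng Ω hco hk hM b) (TTf Ω ℓ (p * M) f₀) = 1 := by
      apply Subtype.ext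
      rw [h3]
      exact map_one _
    have h5 : r2 (ng Ω hco hk hM b) (f₀ ^ c ℓ) = 1 := by
      have := (uw_w hf₀).r1_zpow (c ℓ)
      rw [r1_w hf₀.mem, ← map_zpow₀, r1_w hf₀c.mem, a2, one_zpow] at this
      exact this
    rw [h0, r2_mul hf₀c.mem (hz₀U.pow p).mem, h5, one_mul, r2_pow hz₀U.mem] at h4
    exact h4
  obtain ⟨κ₀, y₀, hy₀F, hy₀, d1, d2, e5⟩ := R₀.norm_one hz₀U b1 b2 hp0 (c := 1) one_ne_zero (by
    rw [map_one, one_mul, e4]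
    exact mul_mem (R₀.TTf_fld hℓ hf₀F) (inv_mem (zpow_mem hf₀F _)))
  have f2 : Fo (ng Ω hco hk hM b) (algebraMap A (FF Ω (p * M)) Q.ϖ) y₀ 0 0 := by
    obtain ⟨w', hw', e6⟩ := Cg.of_red (Q := Q₀) hy₀.mem (one_mem _) hy₀F (one_mem _)
      (by rw [d1, r1_one]) (by rw [d2, r2_one])
    have hvW : algebraMap A (FF Ω (p * M)) v ∈ (ng Ω hco hk hM b).W :=
      Subalgebra.algebraMap_mem _ _
    refine Fo.of_higher hsm (mul_mem hvW hw') ?_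
    rw [e6, pow_one, hv, map_mul, map_pow]
    ring
  -- the relation
  obtain ⟨ζ', hζ', e7⟩ := TTf_g hf.ne_zero hf₀.ne_zero hg hκ hrel hℓN hz₁ hz₀ h1 h0
  have hσv : (σ : Ω ≃+* Ω) v₁ ≠ 0 := (_root_.map_ne_zero _).2 hv₁
  have hκ₀ : ((κ₀ : A) : Ω) ≠ 0 := fun h => κ₀.ne_zero (Subtype.ext h)
  have e8 : act (p * M) (σ : Ω ≃+* Ω) z₁ = algebraMap Ω _ ((σ : Ω ≃+* Ω) v₁) *
      act (p * M) (σ : Ω ≃+* Ω) u₁ := by
    rw [e2, map_mul, act_algebraMap]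
  have hT0 : TTf Ω ℓ (p * M) g ≠ 0 := TTf_ne_zero hℓ hg
  have f3 := (f1.inv hsm).mul hsm f2
  simp only [neg_zero, add_zero] at f3
  refine hecke_const Z hℓ hx f3
    (κ := (ζ' * (σ : Ω ≃+* Ω) v₁)⁻¹ * v₁ * ((κ₀ : A) : Ω)) (m := c ℓ) ?_ hne
  rw [TTf_inv hg, map_mul, map_mul, map_inv₀, map_mul]
  rw [e8, e5, e2, algA] at e7
  have k1 : algebraMap Ω (FF Ω (p * M)) v₁ ≠ 0 := (_root_.map_ne_zero _).2 hv₁
  have k2 : algebraMap Ω (FF Ω (p * M)) ((σ : Ω ≃+* Ω) v₁) ≠ 0 := (_root_.map_ne_zero _).2 hσv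
  have k3 : algebraMap Ω (FF Ω (p * M)) ζ' ≠ 0 := (_root_.map_ne_zero _).2 hζ'
  have k4 : algebraMap Ω (FF Ω (p * M)) ((κ₀ : A) : Ω) ≠ 0 := (_root_.map_ne_zero _).2 hκ₀
  have k5 : act (p * M) (σ : Ω ≃+* Ω) u₁ ≠ 0 := (_root_.map_ne_zero _).2 hu₁.ne_zero
  exact final_alg k1 k2 k3 k4 hu₁.ne_zero k5 hy₀.ne_zero hg hT0 e7

end Fermat.Agent.PRem
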