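import Fermat.Agent.PRem.Asm10

/-!
# The nonsplit case: conclusion
-/

set_option autoImplicit false
set_option linter.unusedSectionVars false
set_option linter.style.haveILetI false

noncomputable section

namespace Fermat.Agent.PRem

open ModularCurve Polynomial IntermediateField Fermat.Agent.ModPoly Fermat.Agent.Red
  Fermat.Agent.RedMod Fermat.Agent.Cusp Fermat.Agent.SemiSt AlgebraicCurve Fermat.Agent.Curve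
  Fermat.Agent.RR Fermat.Agent.Nod Fermat.Agent.Flat Fermat.Agent.FlatRam Fermat.Agent.Places

local notation "Ω" => AlgebraicClosure ℚ

variable {A : ValuationSubring (AlgebraicClosure ℚ)} {p : ℕ} [hp : Fact p.Prime]
  {M : ℕ} [NeZero M] {k : Type*} [Field k] [Algebra A k] [CharP k p] [IsAlgClosed k]
  {hk : Function.Surjective (algebraMap A k)} {hco : p.Coprime M} {hM : (M : k) ≠ 0} {b : A}
  [Algebra A (FF Ω (p * M))] [IsScalarTower A Ω (FF Ω (p * M))]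
  [Algebra A (FF k M)] [IsScalarTower A k (FF k M)]
  [FunField k (FF k M)] [FunField Ω (FF Ω M)] [FunField Ω (FF Ω (p * M))]
  {E : IntermediateField (K0 A) Ω} [FiniteDimensional (K0 A) E]
  {E₀ : IntermediateField (K0 A) Ω} [FiniteDimensional (K0 A) E₀]
  {e : ℕ} {ϖ : A} {Q : RatStr (ng Ω hco hk hM b)} {e₀ : ℕ} {ϖ₀ : A}
  {Q₀ : RatStr (ng Ω hco hk hM b)} {c : ℕ → ℤ} {P : ℕ → Prop}
  (H : NodMod (ng Ω hco hk hM b) hk (ng_hspan hco hk hM b) (fd k p M).nodes)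

include H in
/-- eigenclasses with trivial reduction are fixed by wild automorphisms -/
theorem final_contra [hN : Nonempty (Nd (ng Ω hco hk hM b) hk (fd k p M).nodes)]
    {ι : Ω →+* ℂ} (hA : A.LiesOverPrime p) (h5 : 5 ≤ p) (hPp : ∀ ℓ, P ℓ → ℓ ≠ p)
    (R : RS E (p * (p - 1)) ϖ Q) {σ : Ω ≃ₐ[K0 A] Ω} {z θ}
    (S : WildAut Q (galAut (p * M) (σ : Ω ≃+* Ω)) z θ)
    {f : FF Ω (p * M)} {ξ : Kum.XL (p * M) p} (hfF : f ∈ Q.fld)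
    (hf : UW (ng Ω hco hk hM b) f) (h1 : r1 (ng Ω hco hk hM b) f = 1)
    (h2 : r2 (ng Ω hco hk hM b) f = 1) (hcl : HasCls ι p f ξ) (hE : EigCls c P ξ)
    (hC : ¬ CONC p M c P) : Kum.rhoF ι p (AlgEquiv.restrictScalars ℚ σ) ξ = ξ := by
  obtain ⟨u, hu⟩ := R.hpe
  obtain ⟨D, hD⟩ := exists_divisor hp.out.ne_zero hf.ne_zero hcl.kd
  have hEf := hE.eig hcl
  have hp1 := hp.out.one_lt
  have hpp : p ≤ p * (p - 1) + 1 := by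
    obtain ⟨d, rfl⟩ : ∃ d, p = d + 2 := ⟨p - 2, by omega⟩
    have : d + 2 - 1 = d + 1 := by omega
    rw [this]; nlinarith
  obtain ⟨κ, hκ, hκF, L₁⟩ := Lev.base H hu hpp hfF hf.mem (π_eq_one hf.mem h1 h2) hD
  have hκ0 : ((κ : A) : Ω) ≠ 0 := by
    intro h0
    have : κ = 0 := Subtype.ext h0
    rw [this, map_zero] at hκ
    exact zero_ne_one hκ
  have e1 : (algebraMap A (FF Ω (p * M)) κ)⁻¹ = algebraMap Ω _ ((κ : Ω)⁻¹) := by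
    rw [algA, map_inv₀]
  have hEf1 : Eig c P (f * (algebraMap A (FF Ω (p * M)) κ)⁻¹) := by
    rw [e1]; exact hEf.mul_const (inv_ne_zero hκ0)
  have hcl1 : HasCls ι p (f * (algebraMap A (FF Ω (p * M)) κ)⁻¹) ξ := by
    rw [e1]; exact hcl.mul_const (inv_ne_zero hκ0)
  obtain ⟨f', D', L, U, hU, hU0, c', hc', hc0, ⟨c₁, rfl⟩, e2⟩ := exists_lev H hu L₁
    (fun n f' D' hn hnp L hR Hf hHf hfe k1 k2 => by
      obtain ⟨U, hU, hU0, c', hc', hc0, ⟨c₁, rfl⟩, e2⟩ := hR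
      have hEf' : Eig c P f' := by
        rw [e2]
        exact (hEf1.mul_pow hU0).mul_const fun h => hc0 (by rw [h, map_zero])
      exact ⟨(compA1 ι h5 hPp hu hn hnp hEf' hHf hfe k1).resolve_right hC,
        (compA2 ι h5 hPp hu hn hnp hEf' hHf hfe k2).resolve_right hC⟩) p hp1.le le_rfl
  have hcl' : HasCls ι p f' ξ := by
    rw [e2]
    exact (hcl1.mul_pow hU0).mul_const fun h => hc0 (by rw [h, map_zero])
  obtain ⟨x, hx⟩ := lev_final H R.hAt (hrank_of hk hA) S hu L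
  rw [galAut_smul] at hx
  have hx' : x ^ p = act (p * M) (σ : Ω ≃+* Ω) f' * f'⁻¹ := hx
  have h3 : HasCls ι p (act (p * M) (σ : Ω ≃+* Ω) f')
      (Kum.rhoF ι p (AlgEquiv.restrictScalars ℚ σ) ξ) :=
    hcl'.gal (AlgEquiv.restrictScalars ℚ σ)
  have h4 := h3.div hcl'
  rw [← hx'] at h4
  have hx0 : x ≠ 0 := by
    rintro rfl
    rw [zero_pow hp.out.ne_zero] at h4
    exact h4.ne_zero rfl
  exact sub_eq_zero.1 (h4.unique (HasCls.pow_self ι hx0))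

include H in
/-- one side of the nonsplit case -/
theorem side [hN : Nonempty (Nd (ng Ω hco hk hM b) hk (fd k p M).nodes)] (h5 : 5 ≤ p)
    {E₁ : IntermediateField (K0 A) Ω} [FiniteDimensional (K0 A) E₁] {ϖ₁ : A}
    {Q₁ : RatStr (ng Ω hco hk hM b)} (R₁ : RS E₁ 1 ϖ₁ Q₁)
    (R : RS E (p * (p - 1)) ϖ Q) {v : A} (hv : Q₀.ϖ = Q.ϖ ^ 2 * v) {σ : Ω ≃ₐ[K0 A] Ω} {z θ}
    (S : WildAut Q (galAut (p * M) (σ : Ω ≃+* Ω)) z θ)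
    {f f₀ g h : FF Ω (p * M)} (hfF : f ∈ Q.fld) (hf : UW (ng Ω hco hk hM b) f)
    (hfk : ∀ v : Place Ω (FF Ω (p * M)), (p : ℤ) ∣ v.ord f)
    (hf₀F : f₀ ∈ Q₀.fld) (hf₀ : UW (ng Ω hco hk hM b) f₀) (a1 : r1 (ng Ω hco hk hM b) f₀ = 1)
    (a2 : r2 (ng Ω hco hk hM b) f₀ = 1)
    (hf₀k : ∀ v : Place Ω (FF Ω (p * M)), (p : ℤ) ∣ v.ord f₀) (hg : g ≠ 0)
    {κ : Ω} (hκ : κ ≠ 0) (hrel : act (p * M) (σ : Ω ≃+* Ω) f =
      f * f₀ * (algebraMap Ω (FF Ω (p * M)) κ * g ^ p)) (hh : h ∈ (ng Ω hco hk hM b).W)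
    (hgh : g⁻¹ = 1 + algebraMap A (FF Ω (p * M)) Q.ϖ * h) :
    (∃ a : k, r1 (ng Ω hco hk hM b) h = algebraMap k (FF k M) a) ∧
    ∀ a : k, r1 (ng Ω hco hk hM b) h = algebraMap k (FF k M) a →
      r2 (ng Ω hco hk hM b) h = algebraMap k (FF k M) a →
      ∀ v : Place k (FF k M), (p : ℤ) ∣ v.ord (r1 (ng Ω hco hk hM b) f) := by
  obtain ⟨D, hD⟩ := exists_divisor hp.out.ne_zero hf.ne_zero hfk
  obtain ⟨D₀, hD₀⟩ := exists_divisor hp.out.ne_zero hf₀.ne_zero hf₀k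
  have T₀ := triv_of H hf₀F hf₀ a1 a2 hD₀ hv
  have hDσ := div_rel hf.ne_zero hf₀.ne_zero hg hκ hrel hD hD₀
  have hp1 := hp.out.one_lt
  obtain ⟨c₀, T⟩ := R.exists_thick (Nat.mul_pos hp.out.pos (by omega))
  refine ⟨exists_const_of_ge fun v => WildAut.regular H S T hp.out.ne_zero hf hfF hD hgh hh hDσ T₀
    v, fun a h1 h2 v => ?_⟩
  exact dvd_all S h5 T (thick12 H R₁) hf hfF hD hgh hh hDσ T₀ h1 h2 H v

include H in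
/-- **The nonsplit case.** -/
theorem nonsplit_case [hN : Nonempty (Nd (ng Ω hco hk hM b) hk (fd k p M).nodes)]
    (ι : Ω →+* ℂ) (hA : A.LiesOverPrime p) (h5 : 5 ≤ p) (hPp : ∀ ℓ, P ℓ → ℓ ≠ p)
    {E₁ : IntermediateField (K0 A) Ω} [FiniteDimensional (K0 A) E₁] {ϖ₁ : A}
    {Q₁ : RatStr (ng Ω hco hk hM b)} (R₁ : RS E₁ 1 ϖ₁ Q₁) (R₀ : RS E₀ e₀ ϖ₀ Q₀)
    (R : RS E (p * (p - 1)) ϖ Q) (hE₀E : E₀ ≤ E) {v : A} (hv : Q₀.ϖ = Q.ϖ ^ 2 * v)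
    {σ : Ω ≃ₐ[K0 A] Ω} (hσE : ∀ x ∈ E, σ x ∈ E) {z θ}
    (S : WildAut Q (galAut (p * M) (σ : Ω ≃+* Ω)) z θ)
    {τ : Ω ≃ₐ[K0 A] Ω} {n : ℤ} (hn : ¬ (p : ℤ) ∣ n - 1)
    {ξ ξ₀ : Kum.XL (p * M) p} (hξ₀ : ξ₀ ≠ 0)
    (hσξ : Kum.rhoF ι p (AlgEquiv.restrictScalars ℚ σ) ξ = ξ + ξ₀)
    (hτ : Kum.rhoF ι p (AlgEquiv.restrictScalars ℚ τ) ξ₀ = n • ξ₀)
    (hfix : ∀ σ : Ω ≃ₐ[ℚ] Ω, (∀ x ∈ E, σ x = x) → Kum.rhoF ι p σ ξ = ξ)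
    (hfix₀ : ∀ σ : Ω ≃ₐ[ℚ] Ω, (∀ x ∈ E₀, σ x = x) → Kum.rhoF ι p σ ξ₀ = ξ₀)
    (hE : EigCls c P ξ) (hE₀ : EigCls c P ξ₀)
    {ℓ : ℕ} [hl : Fact ℓ.Prime] (hℓN : ¬ ℓ ∣ p * M) (hPℓ : P ℓ)
    (hne : ¬ (p : ℤ) ∣ c ℓ - ℓ - 1) : CONC p M c P := by
  by_contra hcon
  have hℓp := hPp ℓ hPℓ
  obtain ⟨f₀, hf₀F₀, hf₀, a1, a2, hcl₀⟩ := exists_f0 H R₀ hn hτ hfix₀ hE₀ hℓN hPℓ hℓp hne
  have hf₀F : f₀ ∈ Q.fld := by
    rw [R.mem_fld, mem_EL]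
    have := R₀.mem_fld.1 hf₀F₀
    rw [mem_EL] at this
    exact fun i => hE₀E (this i)
  obtain ⟨f, hfF, hf, hcl⟩ := R.exists_rep ι hfix hE hℓN hPℓ hℓp hne
  obtain ⟨g, hgF, hg, g1, g2, κ, hκ, hrel⟩ :=
    exists_g R hσE hσξ hfF hf hcl hf₀F hf₀ a1 a2 hcl₀
  have hgi := hg.inv
  obtain ⟨h, hh, hgh⟩ := Cg.of_red (Q := Q) hgi.mem (one_mem _) (inv_mem hgF) (one_mem _)
    (by rw [hg.r1_inv, g1, inv_one, r1_one]) (by rw [hg.r2_inv, g2, inv_one, r2_one])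
  rw [pow_one] at hgh
  -- the other side
  have hrel' : act (p * M) (σ : Ω ≃+* Ω) (SemiSt.w Ω hco f) =
      SemiSt.w Ω hco f * SemiSt.w Ω hco f₀ *
        (algebraMap Ω (FF Ω (p * M)) κ * SemiSt.w Ω hco g ^ p) := by
    rw [act_w, hrel, map_mul, map_mul, map_mul, map_pow, AlgEquiv.commutes]
  have hgh' : (SemiSt.w Ω hco g)⁻¹ = 1 + algebraMap A (FF Ω (p * M)) Q.ϖ * SemiSt.w Ω hco h := by
    rw [← map_inv₀, hgh, algA, w_one_add]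
  obtain ⟨⟨c₁, hc₁⟩, d1⟩ := side H h5 R₁ R hv S hfF hf hcl.kd hf₀F₀ hf₀ a1 a2 hcl₀.kd hg.ne_zero
    hκ hrel hh hgh
  obtain ⟨⟨c₂, hc₂⟩, d2⟩ := side H h5 R₁ R hv S (R.w_fld hfF) (uw_w hf)
    (dvd_ord_w hf.ne_zero hcl.kd) (R₀.w_fld hf₀F₀) (uw_w hf₀) (by rw [r1_w hf₀.mem, a2])
    (by rw [r2_w hf₀.mem, a1]) (dvd_ord_w hf₀.ne_zero hcl₀.kd) (uw_w hg).ne_zero
    hκ hrel' (w_mem hh) hgh'
  have hc₂' : r2 (ng Ω hco hk hM b) h = algebraMap k (FF k M) c₂ := by rw [← r1_w hh]; exact hc₂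
  have hEf := hE.eig hcl
  obtain rfl : c₁ = c₂ := const_eq R₀ R hv S hfF hf hEf hf₀F₀ hf₀ a1 a2 (hE₀.eig hcl₀)
    hg.ne_zero hκ hrel ⟨h, hh, hgh, hc₁, hc₂'⟩ hℓN hPℓ hℓp hne
  have h1 : ∃ y, r1 (ng Ω hco hk hM b) f = y ^ p :=
    (comp1 ι h5 hPp hf hEf (d1 c₁ hc₁ hc₂')).resolve_right hcon
  have h2 : ∃ y, r2 (ng Ω hco hk hM b) f = y ^ p := by
    refine (comp2 ι h5 hPp hf hEf fun v => ?_).resolve_right hcon
    rw [← r1_w hf.mem]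
    exact d2 c₁ hc₂ (by rw [r2_w hh]; exact hc₁) v
  obtain ⟨f', hf'F, hf', e1, e2, hcl'⟩ := normalize H hfF hf hcl h1 h2
  have h3 := final_contra H hA h5 hPp R S hf'F hf' e1 e2 hcl' hE hcon
  rw [hσξ] at h3
  exact hξ₀ (add_eq_left.1 h3)

end Fermat.Agent.PRem
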