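import Fermat.Agent.PRem.Asm1

/-!
# Slopes and rational representatives
-/

set_option autoImplicit false
set_option linter.unusedSectionVars false
set_option linter.style.haveILetI false

noncomputable section

namespace Fermat.Agent.PRem

open ModularCurve Polynomial IntermediateField Fermat.Agent.ModPoly Fermat.Agent.Red
  Fermat.Agent.RedMod Fermat.Agent.Cusp Fermat.Agent.SemiSt AlgebraicCurve Fermat.Agent.Curve
  Fermat.Agent.RR Fermat.Agent.Nod Fermat.Agent.Flat Fermat.Agent.FlatRam Fermat.Agent.Places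

local notation "Ω" => AlgebraicClosure ℚ

variable {A : ValuationSubring (AlgebraicClosure ℚ)} {p : ℕ} [hp : Fact p.Prime]
  {M : ℕ} [NeZero M] {k : Type*} [Field k] [Algebra A k] [CharP k p] [IsAlgClosed k]
  {hk : Function.Surjective (algebraMap A k)} {hco : p.Coprime M} {hM : (M : k) ≠ 0} {b : A}

section Slope

theorem coeA_mul (x y : A) : ((x * y : A) : Ω) = (x : Ω) * (y : Ω) := rfl

theorem coeA_inv (u : Aˣ) : ((↑u⁻¹ : A) : Ω) = ((u : A) : Ω)⁻¹ := by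
  apply eq_inv_of_mul_eq_one_left
  rw [← coeA_mul, Units.inv_mul]
  rfl

theorem isU_C_iff (hk : Function.Surjective (algebraMap A k)) {t : Ω}
    (h : IsU A Ω k (HahnSeries.C t : LaurentSeries Ω)) : ∃ u : Aˣ, ((u : A) : Ω) = t := by
  have ht : (HahnSeries.C t : LaurentSeries Ω) ≠ 0 := h.ne_zero
  have ht0 : t ≠ 0 := by simpa using ht
  have key : ∀ s : Ω, IsU A Ω k (HahnSeries.C s : LaurentSeries Ω) → s ≠ 0 → s ∈ A := by
    intro s hs hs0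
    by_contra hsA
    have h1 : s⁻¹ ∈ A := (A.mem_or_inv_mem s).resolve_left hsA
    have h2 : algebraMap A k ⟨s⁻¹, h1⟩ = 0 := by
      rw [red_eq_zero_iff hk]
      change s⁻¹ ∈ A.nonunits
      rw [ValuationSubring.mem_nonunits_iff_exists_mem_maximalIdeal]
      refine ⟨h1, ?_⟩
      rw [IsLocalRing.mem_maximalIdeal, _root_.mem_nonunits_iff]
      rintro ⟨u, hu⟩
      apply hsA
      have h3 : ((↑u⁻¹ : A) : Ω) = s := by
        have h5 : ((u : A) : Ω) = s⁻¹ := congrArg Subtype.val hu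
        rw [coeA_inv, h5, inv_inv]
      rw [← h3]
      exact (↑u⁻¹ : A).2
    obtain ⟨g1, g2⟩ := hs
    have h3 : Rd A (HahnSeries.C s : LaurentSeries Ω) (πL A Ω k ⟨_, g1⟩) := ⟨g1, rfl⟩
    have h4 := (Rd.C (K := Ω) (k := k) (⟨s⁻¹, h1⟩ : A)).mul h3
    rw [h2, map_zero, zero_mul, ← map_mul] at h4
    have h5 : algebraMap A Ω ⟨s⁻¹, h1⟩ * s = 1 := inv_mul_cancel₀ hs0
    rw [h5, map_one] at h4
    exact one_ne_zero (Rd.one.uniq h4)
  have h1 := key t h ht0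
  have h2 := key t⁻¹ (h.inv.of_eq (by rw [map_inv₀])) (inv_ne_zero ht0)
  refine ⟨⟨⟨t, h1⟩, ⟨t⁻¹, h2⟩, Subtype.ext (mul_inv_cancel₀ ht0),
    Subtype.ext (inv_mul_cancel₀ ht0)⟩, rfl⟩

theorem sl_ne {f : FF Ω (p * M)} {c : Ω} (h : Sl A k hco f c) : c ≠ 0 := by
  rintro rfl
  obtain ⟨a, ha, h1, h2⟩ := h
  apply h2.ne_zero
  rw [inv_zero, mul_zero, map_zero, zero_mul]

/-- slopes are well defined -/
theorem sl_uniq (hk : Function.Surjective (algebraMap A k)) {f : FF Ω (p * M)} {c d : Ω}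
    (h : Sl A k hco f c) (h' : Sl A k hco f d) : ∃ u : Aˣ, d = c * ((u : A) : Ω) := by
  have hc := sl_ne h
  have hd := sl_ne h'
  obtain ⟨a, ha, h1, h2⟩ := h
  obtain ⟨a', ha', h3, h4⟩ := h'
  have hf : (f : LaurentSeries Ω) ≠ 0 := right_ne_zero_of_mul h1.ne_zero
  have hwf : (w Ω hco f : LaurentSeries Ω) ≠ 0 := right_ne_zero_of_mul h2.ne_zero
  have hC : ∀ x : Ω, x ≠ 0 → (HahnSeries.C x : LaurentSeries Ω) ≠ 0 := fun x hx => by simpa using hx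
  have e1 : IsU A Ω k (HahnSeries.C (a * a'⁻¹) : LaurentSeries Ω) := (h1.mul h3.inv).of_eq (by
    rw [map_mul, map_inv₀]
    have := hC a' ha'
    field_simp)
  have e2 : IsU A Ω k (HahnSeries.C (a * c⁻¹ * (a' * d⁻¹)⁻¹) : LaurentSeries Ω) :=
    (h2.mul h4.inv).of_eq (by
      have hX : ∀ x y : Ω, (HahnSeries.C (x * y⁻¹) : LaurentSeries Ω) =
          HahnSeries.C x * (HahnSeries.C y)⁻¹ := fun x y => by rw [map_mul, map_inv₀]
      rw [hX (a * c⁻¹) (a' * d⁻¹)]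
      have := hC (a' * d⁻¹) (mul_ne_zero ha' (inv_ne_zero hd))
      field_simp)
  obtain ⟨u, hu⟩ := isU_C_iff hk e1
  obtain ⟨v, hv⟩ := isU_C_iff hk e2
  refine ⟨v * u⁻¹, ?_⟩
  rw [Units.val_mul, coeA_mul, coeA_inv, hu, hv]
  field_simp

theorem sl_zpow {f : FF Ω (p * M)} {c : Ω} (h : Sl A k hco f c) (n : ℤ) :
    Sl A k hco (f ^ n) (c ^ n) := by
  obtain ⟨n, rfl | rfl⟩ := n.eq_nat_or_neg
  · rw [zpow_natCast, zpow_natCast]; exact h.pow n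
  · rw [zpow_neg, zpow_natCast, zpow_neg, zpow_natCast]; exact (h.pow n).inv

theorem coe_algebraMap' {N : ℕ} (c : Ω) : ((algebraMap Ω (FF Ω N) c : FF Ω N) : LaurentSeries Ω) =
    HahnSeries.C c := congrFun (congrArg DFunLike.coe algebraMap_eq_C) _

theorem sl_const {c : Ω} (hc : c ≠ 0) : Sl A k hco (algebraMap Ω (FF Ω (p * M)) c) 1 := by
  have hC : (HahnSeries.C c : LaurentSeries Ω) ≠ 0 := by simpa using hc
  refine ⟨c⁻¹, inv_ne_zero hc, isU_one.of_eq ?_, isU_one.of_eq ?_⟩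
  · rw [coe_algebraMap', map_inv₀, inv_mul_cancel₀ hC]
  · rw [AlgEquiv.commutes, coe_algebraMap', inv_one, mul_one, map_inv₀, inv_mul_cancel₀ hC]

theorem isU_TT {ℓ : ℕ} [NeZero ℓ] {ζ : Aˣ} (Z : Zt A Ω k ℓ ζ) {x : LaurentSeries Ω}
    (h : IsU A Ω k x) : IsU A Ω k (HeckeProd.TT Z.hK x) := by
  obtain ⟨h1, h2⟩ := h
  have h3 := rd_TT Z (x := x) (a := πL A Ω k ⟨x, h1⟩) ⟨h1, rfl⟩
  exact h3.isU ((_root_.map_ne_zero _).2 h2)

theorem sl_TTf {ℓ : ℕ} [hl : Fact ℓ.Prime] {ζ : Aˣ} (Z : Zt A Ω k ℓ ζ)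
    (hℓ : ℓ.Coprime (p * M)) {f : FF Ω (p * M)} {c : Ω} (h : Sl A k hco f c) :
    Sl A k hco (TTf Ω ℓ (p * M) f) (c ^ (ℓ + 1)) := by
  obtain ⟨a, ha, h1, h2⟩ := h
  refine ⟨a ^ (ℓ + 1), pow_ne_zero _ ha, (isU_TT Z h1).of_eq ?_, (isU_TT Z h2).of_eq ?_⟩
  · rw [map_mul, TT_C, coe_TTf hℓ Z.hK]
  · rw [map_mul, TT_C, ← TTf_w hco hℓ, coe_TTf hℓ Z.hK, mul_pow, inv_pow]

end Slope

section Root

variable {E : IntermediateField (K0 A) Ω} [FiniteDimensional (K0 A) E]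

theorem eq_C_of_pow {n : ℕ} (hn : n ≠ 0) {u : LaurentSeries Ω} (h : u ^ n = 1) :
    ∃ ζ : Ω, u = HahnSeries.C ζ := by
  haveI : NeZero n := ⟨hn⟩
  obtain ⟨ζ, hζ⟩ : ∃ ζ : Ω, IsPrimitiveRoot ζ n :=
    HasEnoughRootsOfUnity.exists_primitiveRoot Ω n
  have h1 : IsPrimitiveRoot (HahnSeries.C ζ : LaurentSeries Ω) n :=
    hζ.map_of_injective HahnSeries.C_injective
  obtain ⟨i, -, hi⟩ := h1.eq_pow_of_pow_eq_one h
  exact ⟨ζ ^ i, by rw [← hi, map_pow]⟩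

theorem leadingCoeff_pow' (z : LaurentSeries Ω) (n : ℕ) :
    (z ^ n).leadingCoeff = z.leadingCoeff ^ n := by
  induction n with
  | zero => simp
  | succ k ih => rw [pow_succ, pow_succ, HahnSeries.leadingCoeff_mul, ih]

theorem leadingCoeff_C (c : Ω) : (HahnSeries.C c : LaurentSeries Ω).leadingCoeff = c := by
  rw [HahnSeries.C_apply, HahnSeries.leadingCoeff_of_single]

theorem mem_EL_of_pow {y : LaurentSeries Ω} {n : ℕ} (hn : n ≠ 0) (hl : y.leadingCoeff = 1)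
    (h : y ^ n ∈ EL E) : y ∈ EL E := by
  intro σ hσ
  have h1 := h σ hσ
  rw [map_pow] at h1
  have hy : y ≠ 0 := by
    rintro rfl
    simp at hl
  obtain ⟨ζ, hζ⟩ := eq_C_of_pow hn (u := coeffMap (σ : Ω →+* Ω) y * y⁻¹) (by
    rw [mul_pow, h1, ← mul_pow, mul_inv_cancel₀ hy, one_pow])
  have h2 : coeffMap (σ : Ω →+* Ω) y = HahnSeries.C ζ * y := by
    rw [← hζ, inv_mul_cancel_right₀ hy]
  have h3 := congrArg HahnSeries.leadingCoeff h2
  rw [Kum.leadingCoeff_coeffMap, HahnSeries.leadingCoeff_mul, hl, leadingCoeff_C, map_one, mul_one] at h3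
  rw [h2, ← h3, map_one, one_mul]

theorem leadingCoeff_mem {y : LaurentSeries Ω} (h : y ∈ EL E) : y.leadingCoeff ∈ E := by
  by_cases hy : y = 0
  · rw [hy, HahnSeries.leadingCoeff_zero]; exact zero_mem _
  · rw [HahnSeries.leadingCoeff_eq]; exact mem_EL.1 h _

/-- roots of rational functions are rational up to constants -/
theorem norm_root {N : ℕ} {z : FF Ω N} (hz : z ≠ 0) {n : ℕ} (hn : n ≠ 0) {c : Ω} (hc : c ≠ 0)
    (h : ((algebraMap Ω (FF Ω N) c * z ^ n : FF Ω N) : LaurentSeries Ω) ∈ EL E) :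
    ∃ c' : Ω, c' ≠ 0 ∧ ∃ y : FF Ω N, (y : LaurentSeries Ω) ∈ EL E ∧
      z = algebraMap Ω (FF Ω N) c' * y := by
  have hz' : (z : LaurentSeries Ω) ≠ 0 := fun h0 => hz (Subtype.ext h0)
  obtain ⟨l, hl⟩ : ∃ l, (z : LaurentSeries Ω).leadingCoeff = l := ⟨_, rfl⟩
  have hl0 : l ≠ 0 := by
    rw [← hl, HahnSeries.leadingCoeff_ne_zero]; exact hz'
  have hcl : c * l ^ n ≠ 0 := mul_ne_zero hc (pow_ne_zero n hl0)
  have e0 : ((algebraMap Ω (FF Ω N) c * z ^ n : FF Ω N) : LaurentSeries Ω) =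
      HahnSeries.C c * (z : LaurentSeries Ω) ^ n := by
    rw [← coe_algebraMap' (N := N) c]; rfl
  rw [e0] at h
  have h1 : c * l ^ n ∈ E := by
    have := leadingCoeff_mem h
    rwa [HahnSeries.leadingCoeff_mul, leadingCoeff_C, leadingCoeff_pow', hl] at this
  have h2 : (HahnSeries.C l⁻¹ * (z : LaurentSeries Ω)) ∈ EL E := by
    apply mem_EL_of_pow hn
    · rw [HahnSeries.leadingCoeff_mul, leadingCoeff_C, hl, inv_mul_cancel₀ hl0]
    · have e1 : (HahnSeries.C l⁻¹ * (z : LaurentSeries Ω)) ^ n = HahnSeries.C (c * l ^ n)⁻¹ *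
          (HahnSeries.C c * (z : LaurentSeries Ω) ^ n) := by
        rw [mul_pow, ← mul_assoc, ← map_mul, ← map_pow]
        congr 2
        rw [inv_pow, mul_inv]
        field_simp
      rw [e1]
      exact mul_mem (C_mem_EL (inv_mem h1)) h
  refine ⟨l, hl0, algebraMap Ω (FF Ω N) l⁻¹ * z, ?_, ?_⟩
  · have e1 : ((algebraMap Ω (FF Ω N) l⁻¹ * z : FF Ω N) : LaurentSeries Ω) =
      HahnSeries.C l⁻¹ * (z : LaurentSeries Ω) := by
      rw [← coe_algebraMap' (N := N) l⁻¹]; rfl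
    rw [e1]; exact h2
  · rw [← mul_assoc, ← map_mul, mul_inv_cancel₀ hl0, map_one, one_mul]

end Root

variable {E : IntermediateField (K0 A) Ω} [FiniteDimensional (K0 A) E]
  [Algebra A (FF Ω (p * M))] [IsScalarTower A Ω (FF Ω (p * M))]
  [Algebra A (FF k M)] [IsScalarTower A k (FF k M)]
  [FunField k (FF k M)] [FunField Ω (FF Ω M)] [FunField Ω (FF Ω (p * M))]

/-- The rational structure attached to the field `E`. -/
structure RS (E : IntermediateField (K0 A) Ω) (e : ℕ) (ϖ : A) (Q : RatStr (ng Ω hco hk hM b)) :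
    Prop where
  U : Unif E p e ϖ
  S : Q.S = SE E (p * M)
  hϖ : Q.ϖ = ϖ
  hψ' : Q.ψ' = algebraMap Ω _ (ϖ : Ω) * Q.ψ⁻¹
  hψ2 : Rd A (HahnSeries.C (ϖ : Ω)⁻¹ * (w Ω hco Q.ψ : LaurentSeries Ω)) (1 : LaurentSeries k)
  ψ : ∃ n, Q.ψ = psi hco ϖ n

theorem exists_RS (hk : Function.Surjective (algebraMap A k)) (hco : p.Coprime M)
    (hM : (M : k) ≠ 0) {e : ℕ} {ϖ : A} (U : Unif E p e ϖ) (hA : A.LiesOverPrime p) {b : A}
    (hb : (b : Ω) ∈ K0 A) : ∃ Q : RatStr (ng Ω hco hk hM b), RS E e ϖ Q := by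
  obtain ⟨Q, h1, h2, n, h3, h4, h5⟩ := exists_ratStr (k := k) hk hco hM U hA hb
  refine ⟨Q, U, h1, h2, ?_, ?_, n, h3⟩
  · rw [h4, h3]
  · rw [h3]; exact h5

namespace RS

variable {e : ℕ} {ϖ : A} {Q : RatStr (ng Ω hco hk hM b)} (R : RS E e ϖ Q)

include R

theorem mem_fld {x : FF Ω (p * M)} : x ∈ Q.fld ↔ (x : LaurentSeries Ω) ∈ EL E := by
  rw [← fix_iff, ← R.S]; exact Iff.rfl

theorem w_fld {x : FF Ω (p * M)} (hx : x ∈ Q.fld) : w Ω hco x ∈ Q.fld :=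
  R.mem_fld.2 (coe_w_mem_EL hco (R.mem_fld.1 hx))

theorem const_fld {c : Ω} (hc : c ∈ E) : algebraMap Ω (FF Ω (p * M)) c ∈ Q.fld := by
  rw [R.mem_fld, coe_algebraMap']
  exact C_mem_EL hc

theorem TTf_fld {ℓ : ℕ} [hl : Fact ℓ.Prime] (hℓ : ℓ.Coprime (p * M)) {x : FF Ω (p * M)}
    (hx : x ∈ Q.fld) : TTf Ω ℓ (p * M) x ∈ Q.fld := by
  rw [R.mem_fld, ← fix_iff]
  rw [R.mem_fld, ← fix_iff] at hx
  rintro θ ⟨σ, hσ, rfl⟩
  rw [galAut_smul, ← TTf_act hℓ]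
  exact congrArg _ (hx _ ⟨σ, hσ, rfl⟩)

theorem ϖF : algebraMap A (FF Ω (p * M)) Q.ϖ = algebraMap Ω _ (ϖ : Ω) := by
  rw [R.hϖ, IsScalarTower.algebraMap_apply A Ω (FF Ω (p * M))]; rfl

theorem slψ : Sl A k hco Q.ψ (ϖ : Ω) := by
  refine ⟨1, one_ne_zero, ?_, ?_⟩
  · rw [map_one, one_mul]
    have h1 := rd1 (hk := hk) (hco := hco) (hM := hM) (b := b) Q.hψ
    refine h1.isU ?_
    rw [r1_ψ]
    exact one_ne_zero
  · rw [one_mul]
    exact R.hψ2.isU one_ne_zero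

/-- the normal form of rational functions -/
theorem normal {x : FF Ω (p * M)} (hx : x ∈ Q.fld) (hx0 : x ≠ 0) :
    ∃ (a s : ℤ) (u : FF Ω (p * M)), UW (ng Ω hco hk hM b) u ∧ u ∈ Q.fld ∧
      x = algebraMap Ω (FF Ω (p * M)) ((ϖ : Ω) ^ a) * Q.ψ ^ s * u := by
  obtain ⟨a, b', u, hu, h1, h2, h3⟩ := Q.val x hx0 hx
  have hψ := Q.ψ0
  have hϖ : algebraMap Ω (FF Ω (p * M)) (ϖ : Ω) ≠ 0 := by simpa using R.U.ne
  refine ⟨a, b' - a, u, ⟨hu, h1, h2⟩, ?_, ?_⟩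
  · have h4 : u = (Q.ψ' ^ a)⁻¹ * (Q.ψ ^ b')⁻¹ * x := by
      have := zpow_ne_zero a Q.ψ'0
      have := zpow_ne_zero b' Q.ψ0
      rw [h3]; field_simp
    rw [h4]
    exact mul_mem (mul_mem (inv_mem (zpow_mem Q.ψ'_mem a)) (inv_mem (zpow_mem Q.ψ_mem b'))) hx
  · rw [h3, R.hψ', mul_zpow, map_zpow₀, inv_zpow', sub_eq_add_neg, zpow_add₀ hψ]
    ring

end RS

end Fermat.Agent.PRem
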