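import Fermat.Agent.ThmC.Theta
import Fermat.Agent.HeckeProd.Formal
import Mathlib.FieldTheory.PurelyInseparable.PerfectClosure

/-!
# Functions with vanishing derivative are `p`-th powers
-/

set_option autoImplicit false
set_option linter.unusedSectionVars false
set_option linter.style.haveILetI false

noncomputable section

namespace Fermat.Agent.PRem

open ModularCurve Polynomial IntermediateField Fermat.Agent.ModPoly Fermat.Agent.Curve
  Fermat.Agent.RR

section Abs

variable (p : ℕ) [hp : Fact p.Prime]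

/-- the subfield of `p`-th powers -/
def Fp (F : Type*) [Field F] [CharP F p] : Subfield F := (frobenius F p).fieldRange

variable {p}

theorem mem_Fp {F : Type*} [Field F] [CharP F p] {x : F} : x ∈ Fp p F ↔ ∃ y, y ^ p = x := by
  rw [Fp, RingHom.mem_fieldRange]
  rfl

theorem eq_C_of_derivative {S : Type*} [Field S] [CharP S p] {R : S[X]} (h : derivative R = 0)
    (hd : R.natDegree < p) : R = C (R.coeff 0) := by
  ext n
  rcases n with _ | n
  · rw [coeff_C_zero]
  · rw [coeff_C_succ]
    by_cases hn : n + 1 < p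
    · have h1 := congrArg (fun P => P.coeff n) h
      simp only [coeff_derivative, coeff_zero] at h1
      have h2 : ((n : S) + 1) ≠ 0 := by
        have : ((n + 1 : ℕ) : S) ≠ 0 := by
          rw [Ne, CharP.cast_eq_zero_iff S p]
          intro h3
          exact absurd (Nat.le_of_dvd (Nat.succ_pos n) h3) (by omega)
        rwa [Nat.cast_add, Nat.cast_one] at this
      exact (mul_eq_zero.1 h1).resolve_right h2
    · exact coeff_eq_zero_of_natDegree_lt (by omega)

variable {F L : Type*} [Field F] [CharP F p] [Field L] (h : F →+* L) (D : F →+ L)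
  (hmul : ∀ x y, D (x * y) = D x * h y + h x * D y)

include hmul in
theorem D_pow (y : F) (n : ℕ) : D (y ^ n) * h y = n * h y ^ n * D y := by
  induction n with
  | zero =>
    have h1 := hmul 1 1
    rw [mul_one, map_one h, mul_one, one_mul] at h1
    have h2 : D 1 = 0 := by
      have := congrArg (fun z => z - D 1) h1
      simpa using this.symm
    rw [pow_zero, h2]
    simp
  | succ n ih =>
    rw [pow_succ, hmul, add_mul, mul_right_comm, ih, map_pow]
    push_cast
    ring

include hmul in
theorem D_Fp {x : F} (hx : x ∈ Fp p F) : D x = 0 := by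
  obtain ⟨y, rfl⟩ := mem_Fp.1 hx
  rcases eq_or_ne y 0 with rfl | hy
  · rw [zero_pow hp.out.ne_zero, map_zero]
  have h1 := D_pow h D hmul y p
  haveI : CharP L p := charP_of_injective_ringHom h.injective p
  rw [CharP.cast_eq_zero, zero_mul, zero_mul] at h1
  exact (mul_eq_zero.1 h1).resolve_right ((_root_.map_ne_zero h).2 hy)

include hmul in
theorem D_eval {S : Subfield F} (hS : ∀ x ∈ S, D x = 0) (t : F) (R : S[X]) :
    D (R.eval₂ S.subtype t) = h ((derivative R).eval₂ S.subtype t) * D t := by
  induction R using Polynomial.induction_on with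
  | C a =>
    rw [eval₂_C, derivative_C, eval₂_zero, map_zero, zero_mul]
    exact hS _ a.2
  | add P Q hP hQ =>
    rw [eval₂_add, derivative_add, eval₂_add, map_add, hP, hQ, map_add, add_mul]
  | monomial n a ih =>
    have e1 : (C a * X ^ (n + 1) : S[X]) = (C a * X ^ n) * X := by
      rw [mul_assoc, pow_succ]
    have e2 : derivative (C a * X ^ (n + 1) : S[X]) =
        derivative (C a * X ^ n) * X + C a * X ^ n := by
      rw [e1, derivative_mul, derivative_X, mul_one]
    have e3 : ∀ P : S[X], (P * X).eval₂ S.subtype t = P.eval₂ S.subtype t * t := fun P => by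
      rw [eval₂_mul, eval₂_X]
    rw [e2, e1, e3, hmul, ih, eval₂_add, e3, map_add h, map_mul h]
    ring

include hmul in
theorem eq_zero_of_D {S : Subfield F} [CharP S p] (hS : ∀ x ∈ S, D x = 0) {t : F} (ht : D t ≠ 0)
    (n : ℕ) : ∀ R : S[X], R.natDegree = n → n < p → R.eval₂ S.subtype t = 0 → R = 0 := by
  induction n using Nat.strong_induction_on with
  | _ n ih =>
    intro R hR hn h0
    have h1 := D_eval h D hmul hS t R
    rw [h0, map_zero] at h1
    have h3 : (derivative R).eval₂ S.subtype t = 0 := by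
      rcases mul_eq_zero.1 h1.symm with h4 | h4
      · exact (_root_.map_eq_zero h).1 h4
      · exact absurd h4 ht
    have h4 : derivative R = 0 := by
      rcases Nat.eq_zero_or_pos n with rfl | hn0
      · obtain ⟨c, hc⟩ := natDegree_eq_zero.1 hR
        rw [← hc, derivative_C]
      · have h5 := natDegree_derivative_lt (p := R) (by omega)
        exact ih _ (by omega) _ rfl (by omega) h3
    have h5 := eq_C_of_derivative h4 (by omega)
    rw [h5, eval₂_C] at h0
    have h6 : R.coeff 0 = 0 := Subtype.ext h0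
    rw [h5, h6, C_0]

/-- every function is a polynomial in `t` over the `p`-th powers -/
theorem exists_eval₂ {k : Type*} [Field k] [IsAlgClosed k] [Algebra k F] (t : F)
    [Algebra.IsSeparable k⟮t⟯ F] (x : F) :
    ∃ R : (Fp p F)[X], R.natDegree < p ∧ x = R.eval₂ (Fp p F).subtype t := by
  haveI : ExpChar k⟮t⟯ p := by
    haveI : CharP k⟮t⟯ p := IntermediateField.charP' _ _
    exact ExpChar.prime hp.out
  have h1 := adjoin_eq_adjoin_pow_expChar_of_isSeparable' k⟮t⟯ F Set.univ p
  rw [adjoin_univ] at h1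
  have htp : t ^ p ∈ Fp p F := mem_Fp.2 ⟨_, rfl⟩
  have hint : IsIntegral (Fp p F) t := by
    refine ⟨X ^ p - C ⟨_, htp⟩, monic_X_pow_sub_C _ hp.out.ne_zero, ?_⟩
    rw [eval₂_sub, eval₂_pow, eval₂_X, eval₂_C]
    exact sub_self _
  have hk : ∀ c : k, algebraMap k F c ∈ (Fp p F)⟮t⟯ := by
    intro c
    obtain ⟨d, hd⟩ := IsAlgClosed.exists_pow_nat_eq c hp.out.pos
    have : algebraMap k F c ∈ Fp p F := mem_Fp.2 ⟨algebraMap k _ d, by rw [← map_pow, hd]⟩
    exact (Fp p F)⟮t⟯.algebraMap_mem ⟨_, this⟩
  have hE : ∀ z ∈ k⟮t⟯, z ∈ (Fp p F)⟮t⟯ := by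
    intro z hz
    induction hz using IntermediateField.adjoin_induction with
    | mem z hz =>
      rw [Set.mem_singleton_iff] at hz
      rw [hz]
      exact mem_adjoin_simple_self _ _
    | algebraMap z => exact hk z
    | add a b _ _ ha hb => exact add_mem ha hb
    | inv a _ ha => exact inv_mem ha
    | mul a b _ _ ha hb => exact mul_mem ha hb
  have h2 : ∀ y : F, y ∈ (Fp p F)⟮t⟯ := by
    intro y
    have hy : y ∈ IntermediateField.adjoin k⟮t⟯ ((fun x => x ^ p) '' (Set.univ : Set F)) := by
      rw [← h1]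
      exact IntermediateField.mem_top
    induction hy using IntermediateField.adjoin_induction with
    | mem z hz =>
      obtain ⟨w, -, rfl⟩ := hz
      have : w ^ p ∈ Fp p F := mem_Fp.2 ⟨w, rfl⟩
      exact (Fp p F)⟮t⟯.algebraMap_mem ⟨_, this⟩
    | algebraMap z => exact hE z z.2
    | add a b _ _ ha hb => exact add_mem ha hb
    | inv a _ ha => exact inv_mem ha
    | mul a b _ _ ha hb => exact mul_mem ha hb
  have h3 : x ∈ (Fp p F)⟮t⟯.toSubalgebra := h2 x
  rw [IntermediateField.adjoin_simple_toSubalgebra_of_isAlgebraic hint.isAlgebraic,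
    Algebra.adjoin_singleton_eq_range_aeval] at h3
  obtain ⟨R, hR⟩ := h3
  have hR' : R.eval₂ (Fp p F).subtype t = x := hR
  have hmon : (X ^ p - C (⟨_, htp⟩ : Fp p F)).Monic := monic_X_pow_sub_C _ hp.out.ne_zero
  have hdeg : (X ^ p - C (⟨_, htp⟩ : Fp p F)).natDegree = p := natDegree_X_pow_sub_C
  refine ⟨R %ₘ (X ^ p - C (⟨_, htp⟩ : Fp p F)), ?_, ?_⟩
  · have := natDegree_modByMonic_lt R hmon (by
      intro h
      rw [h, natDegree_one] at hdeg
      exact hp.out.ne_zero hdeg.symm)
    rwa [hdeg] at this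
  · have h4 := modByMonic_add_div R (X ^ p - C (⟨_, htp⟩ : Fp p F))
    have h5 : (X ^ p - C (⟨_, htp⟩ : Fp p F)).eval₂ (Fp p F).subtype t = 0 := by
      rw [eval₂_sub, eval₂_pow, eval₂_X, eval₂_C]
      exact sub_self _
    have h6 := congrArg (fun P => P.eval₂ (Fp p F).subtype t) h4
    simp only [eval₂_add, eval₂_mul, h5, zero_mul, add_zero] at h6
    rw [h6]
    exact hR'.symm

include hmul in
theorem exists_pow_of_D {k : Type*} [Field k] [IsAlgClosed k] [Algebra k F] {t : F}
    [Algebra.IsSeparable k⟮t⟯ F] (ht : D t ≠ 0) {x : F} (hx : D x = 0) : ∃ y : F, x = y ^ p := by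
  haveI : CharP (Fp p F) p := Subfield.charP _ _
  obtain ⟨R, hR, rfl⟩ := exists_eval₂ (p := p) (k := k) t x
  have hS : ∀ x ∈ Fp p F, D x = 0 := fun x hx => D_Fp h D hmul hx
  rw [D_eval h D hmul hS] at hx
  have h3 : (derivative R).eval₂ (Fp p F).subtype t = 0 := by
    rcases mul_eq_zero.1 hx with h4 | h4
    · exact (_root_.map_eq_zero h).1 h4
    · exact absurd h4 ht
  have h4 : derivative R = 0 := by
    refine eq_zero_of_D h D hmul hS ht _ _ rfl ?_ h3
    exact lt_of_le_of_lt (natDegree_derivative_le R) (by omega)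
  rw [eq_C_of_derivative h4 hR, eval₂_C]
  obtain ⟨y, hy⟩ := mem_Fp.1 (R.coeff 0).2
  exact ⟨y, hy.symm⟩

end Abs

variable {k : Type*} [Field k] [IsAlgClosed k] {p : ℕ} [hp : Fact p.Prime] [CharP k p]
  {M : ℕ} [NeZero M]

/-- **Functions with vanishing derivative are `p`-th powers.** -/
theorem exists_pow_of_theta (hM : (M : k) ≠ 0) {x : FF k M}
    (hx : theta (x : LaurentSeries k) = 0) : ∃ y : FF k M, x = y ^ p := by
  haveI : CharP (FF k M) p := charP_of_injective_algebraMap
    (algebraMap k (FF k M)).injective p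
  haveI : Algebra.IsSeparable k⟮jF' k M⟯ (FF k M) := isSeparable_E (k := k) (N := M) hM
  refine exists_pow_of_D (k := k) (t := jF' k M) (FF k M).val.toRingHom
    ((theta (K := k)).comp ((FF k M).val : FF k M →+* LaurentSeries k).toAddMonoidHom) ?_ ?_ hx
  · intro x y
    exact theta_mul (x : LaurentSeries k) (y : LaurentSeries k)
  · have hj : ((jF' k M : FF k M) : LaurentSeries k) = jqModC k := Jc_one_one
    change theta ((jF' k M : FF k M) : LaurentSeries k) ≠ 0
    rw [hj]
    exact ThmC.theta_jq_ne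

end Fermat.Agent.PRem
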