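import Fermat.Agent.ThmC.Main
import Fermat.Agent.PRem.ThetaKer

/-!
# The component lemma

A function on `X₀(M)` in characteristic `p` (`p ∤ M`) whose class modulo `p`-th powers is a Hecke
eigenvector and whose divisor is divisible by `p` (multiplicative case), or which is locally
regular up to `p`-th powers (additive case), is a `p`-th power or gives rise to an eigenform of
level `M` and weight two.
-/

set_option autoImplicit false
set_option linter.unusedSectionVars false
set_option linter.style.haveILetI false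

noncomputable section

namespace Fermat.Agent.PRem

open ModularCurve IntermediateField AlgebraicCurve ModularFormClass
open Fermat.Agent.ModPoly Fermat.Agent.Curve Fermat.Agent.RR Fermat.Agent.HeckeProd
open Fermat.Agent.Spec

section Formal

variable {k : Type*} [Field k]

/-- the logarithmic derivative -/
def dl (x : LaurentSeries k) : LaurentSeries k := theta x / x

theorem theta_one' : theta (1 : LaurentSeries k) = 0 := by
  have h := theta_mul (1 : LaurentSeries k) 1
  rw [mul_one, mul_one, one_mul] at h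
  have := congrArg (fun z => z - theta (1 : LaurentSeries k)) h
  simpa using this.symm

theorem dl_one : dl (1 : LaurentSeries k) = 0 := by
  rw [dl, theta_one', zero_div]

theorem dl_mul {x y : LaurentSeries k} (hx : x ≠ 0) (hy : y ≠ 0) : dl (x * y) = dl x + dl y := by
  rw [dl, dl, dl, theta_mul]
  field_simp

variable (k) in
/-- the logarithmic derivative as a homomorphism -/
def dlHom : (LaurentSeries k)ˣ →* Multiplicative (LaurentSeries k) where
  toFun x := Multiplicative.ofAdd (dl (x : LaurentSeries k))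
  map_one' := by
    rw [Units.val_one, dl_one]
    rfl
  map_mul' x y := by
    rw [Units.val_mul, dl_mul x.ne_zero y.ne_zero]
    rfl

theorem dl_zpow {x : LaurentSeries k} (hx : x ≠ 0) (c : ℤ) : dl (x ^ c) = c • dl x := by
  have h := map_zpow (dlHom k) (Units.mk0 x hx) c
  have h1 := congrArg Multiplicative.toAdd h
  rw [toAdd_zpow] at h1
  change dl (((Units.mk0 x hx) ^ c : (LaurentSeries k)ˣ) : LaurentSeries k) = c • dl x at h1
  rwa [Units.val_zpow_eq_zpow_val, Units.val_mk0] at h1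

theorem dl_pow {x : LaurentSeries k} (hx : x ≠ 0) (n : ℕ) : dl (x ^ n) = n • dl x := by
  have := dl_zpow hx n
  rwa [zpow_natCast, natCast_zsmul] at this

theorem dl_prod {ι : Type*} (s : Finset ι) {f : ι → LaurentSeries k} (hf : ∀ i, f i ≠ 0) :
    dl (∏ i ∈ s, f i) = ∑ i ∈ s, dl (f i) := by
  classical
  induction s using Finset.induction_on with
  | empty => rw [Finset.prod_empty, Finset.sum_empty, dl_one]
  | insert i s hi ih =>
    rw [Finset.prod_insert hi, Finset.sum_insert hi, dl_mul (hf i)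
      (Finset.prod_ne_zero_iff.2 fun j _ => hf j), ih]

theorem theta_pow_char {p : ℕ} [hp : Fact p.Prime] [CharP k p] (z : LaurentSeries k) :
    theta (z ^ p) = 0 := by
  rcases eq_or_ne z 0 with rfl | hz
  · rw [zero_pow hp.out.ne_zero, map_zero]
  · haveI : CharP (LaurentSeries k) p :=
      charP_of_injective_algebraMap (algebraMap k (LaurentSeries k)).injective p
    have h := dl_pow hz p
    rw [nsmul_eq_mul, CharP.cast_eq_zero, zero_mul, dl, div_eq_zero_iff] at h
    exact h.resolve_right (pow_ne_zero _ hz)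

variable {ℓ : ℕ} [NeZero ℓ]

theorem theta_qExpand (F : LaurentSeries k) :
    theta (qExpand k ℓ F) = ℓ • qExpand k ℓ (theta F) := by
  ext n
  rw [theta_coeff, HahnSeries.coeff_smul]
  by_cases hn : (ℓ : ℤ) ∣ n
  · obtain ⟨m, rfl⟩ := hn
    rw [qExpand_coeff_mul, qExpand_coeff_mul, theta_coeff, nsmul_eq_mul]
    push_cast
    ring
  · rw [qExpand_coeff_of_not_dvd ℓ _ hn, qExpand_coeff_of_not_dvd ℓ _ hn, mul_zero, smul_zero]

theorem theta_twist (c : kˣ) (F : LaurentSeries k) :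
    theta (twist c F) = twist c (theta F) := by
  ext n
  rw [theta_coeff, twist_coeff, twist_coeff, theta_coeff]
  ring

theorem twist_injective (c : kˣ) : Function.Injective (twist c : LaurentSeries k → _) := by
  intro x y h
  have := congrArg (twist c⁻¹) h
  rwa [twist_twist, twist_twist, inv_mul_cancel, HeckeProd.twist_one, HeckeProd.twist_one]
    at this

theorem dl_qExpand (F : LaurentSeries k) : dl (qExpand k ℓ F) = ℓ • qExpand k ℓ (dl F) := by
  rw [dl, dl, theta_qExpand, map_div₀, nsmul_eq_mul, nsmul_eq_mul, mul_div_assoc]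

theorem dl_twist (c : kˣ) (F : LaurentSeries k) : dl (twist c F) = twist c (dl F) := by
  rw [dl, dl, theta_twist, map_div₀]

theorem dl_PP (ζ : kˣ) {F : LaurentSeries k} (hF : F ≠ 0) (n : ℤ) :
    (dl (PP ℓ ζ F)).coeff n = (∑ x : ZMod ℓ, (((ζ ^ x.val) ^ n : kˣ) : k)) * (dl F).coeff n := by
  rw [PP, dl_prod _ fun x => by
    rw [Ne, map_eq_zero_iff _ (twist_injective _)]
    exact hF]
  rw [HahnSeries.coeff_sum, Finset.sum_mul]
  refine Finset.sum_congr rfl fun x _ => ?_
  rw [dl_twist, twist_coeff]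

theorem dl_NN {ζ : kˣ} (hζ : IsPrimitiveRoot ζ ℓ) {F : LaurentSeries k} (hF : F ≠ 0) (n : ℤ) :
    (dl (NN ℓ ζ F)).coeff n = (dl F).coeff (ℓ * n) := by
  have h0 : (ℓ : k) ≠ 0 := by
    have h1 : IsPrimitiveRoot (ζ : k) ℓ := IsPrimitiveRoot.coe_units_iff.mpr hζ
    haveI := h1.neZero'
    exact NeZero.ne _
  have h1 := congrArg (fun G : LaurentSeries k => (dl G).coeff (ℓ * n)) (qExpand_NN hζ F)
  rw [dl_qExpand, dl_PP ζ hF, HahnSeries.coeff_smul, qExpand_coeff_mul, nsmul_eq_mul] at h1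
  have h2 : ∀ x : ZMod ℓ, (((ζ ^ x.val) ^ ((ℓ : ℤ) * n) : kˣ) : k) = 1 := by
    intro x
    rw [zpow_mul, zpow_natCast, ← pow_mul, mul_comm, pow_mul, hζ.pow_eq_one, one_pow, one_zpow,
      Units.val_one]
  rw [Finset.sum_congr rfl fun x _ => h2 x, Finset.sum_const, Finset.card_univ, ZMod.card,
    nsmul_eq_mul, mul_one] at h1
  exact mul_left_cancel₀ h0 h1

/-- the logarithmic derivative of `T_ℓ F` -/
theorem dl_TT {ζ : kˣ} (hζ : IsPrimitiveRoot ζ ℓ) {F : LaurentSeries k} (hF : F ≠ 0) (n : ℤ) :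
    (dl (TT hζ F)).coeff n = (dl F).coeff (ℓ * n) +
      ℓ * (if (ℓ : ℤ) ∣ n then (dl F).coeff (n / ℓ) else 0) := by
  have h1 : qExpand k ℓ F ≠ 0 := by
    rw [Ne, map_eq_zero_iff _ (qExpand_injective ℓ)]
    exact hF
  have h2 : NN ℓ ζ F ≠ 0 := by
    intro h
    have h3 := qExpand_NN hζ F
    rw [h, map_zero, PP] at h3
    refine (Finset.prod_ne_zero_iff.2 fun x _ => ?_) h3.symm
    rw [Ne, map_eq_zero_iff _ (twist_injective _)]
    exact hF
  have h0 : (ℓ : ℤ) ≠ 0 := by exact_mod_cast NeZero.ne ℓ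
  rw [TT_apply, dl_mul h1 h2, HahnSeries.coeff_add, dl_NN hζ hF, dl_qExpand,
    HahnSeries.coeff_smul, add_comm, nsmul_eq_mul]
  congr 2
  split_ifs with h
  · obtain ⟨m, rfl⟩ := h
    rw [qExpand_coeff_mul, Int.mul_ediv_cancel_left _ h0]
  · rw [qExpand_coeff_of_not_dvd ℓ _ h]

end Formal

section Main

attribute [local instance] algFF

variable {A K k : Type*} [CommRing A] [IsDomain A] [ValuationRing A]
  [Field K] [IsAlgClosed K] [Algebra A K] [IsFractionRing A K] [Field k] [IsAlgClosed k]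
  [Algebra A k] {M : ℕ} [NeZero M]

include A K in
/-- **The component lemma, multiplicative case.** -/
theorem comp_mul [CharZero K] [Algebra ℚ K] (ι : K →+* ℂ)
    (hk : Function.Surjective (algebraMap A k))
    {p : ℕ} [Fact p.Prime] [CharP k p] (h5 : 5 ≤ p) (hM : (M : k) ≠ 0)
    (c : ℕ → ℤ) (P : ℕ → Prop) {f : FF k M} (hf : f ≠ 0)
    (hord : ∀ v : Place k (FF k M), (p : ℤ) ∣ v.ord f)
    (hecke : ∀ (ℓ : ℕ) [Fact ℓ.Prime], ¬ ℓ ∣ M → P ℓ → ∃ (ζ : kˣ) (hζ : IsPrimitiveRoot ζ ℓ)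
      (z : LaurentSeries k), z ≠ 0 ∧
        TT hζ (f : LaurentSeries k) = (f : LaurentSeries k) ^ (c ℓ) * z ^ p) :
    (∃ y : FF k M, f = y ^ p) ∨
    ∃ g : CuspForm (CongruenceSubgroup.Gamma0 M) 2, g.IsNormalizedEigenform ∧
      ∃ m : Ideal (integralClosure ℤ ℂ), m.IsMaximal ∧ (p : integralClosure ℤ ℂ) ∈ m ∧
        ∀ ℓ : ℕ, ℓ.Prime → ¬ ℓ ∣ M → P ℓ → ∃ α : integralClosure ℤ ℂ, (α : ℂ) = qCoeff g ℓ ∧
          α - (c ℓ : integralClosure ℤ ℂ) ∈ m := by
  haveI : CharP (LaurentSeries k) p :=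
    charP_of_injective_algebraMap (algebraMap k (LaurentSeries k)).injective p
  have hf' : (f : LaurentSeries k) ≠ 0 := by
    rwa [Ne, ZeroMemClass.coe_eq_zero]
  by_cases h0 : theta (f : LaurentSeries k) = 0
  · exact Or.inl (exists_pow_of_theta hM h0)
  right
  have h1 : dl (f : LaurentSeries k) ≠ 0 := div_ne_zero h0 hf'
  refine ThmC.main (A := A) (K := K) ι hk h5 hM h1 ?_ ?_ c P ?_
  · obtain ⟨g, -, hg⟩ := ThmC.exists_dj hM f
    have h2 : dl (f : LaurentSeries k) / theta (jqModC k) = ((g / f : FF k M) :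
        LaurentSeries k) := by
      rw [dl, hg]
      have := ThmC.theta_jq_ne (k := k)
      push_cast
      field_simp
    rw [h2]
    exact (g / f : FF k M).2
  · intro v
    obtain ⟨π, hπ⟩ := exists_uniformizer v
    obtain ⟨n, hn⟩ := hord v
    have hπ0 : (π : FF k M) ≠ 0 := coe_ne_zero_of_irreducible hπ
    have hπ1 : v.ord (π : FF k M) = 1 := v.ord_coe_irreducible hπ
    have ht0 : (π : FF k M) ^ n ≠ 0 := zpow_ne_zero _ hπ0
    have ht1 : ((π : FF k M) ^ n) ^ p ≠ 0 := pow_ne_zero _ ht0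
    have hb0 : f / ((π : FF k M) ^ n) ^ p ≠ 0 := div_ne_zero hf ht1
    have hb1 : v.ord (f / ((π : FF k M) ^ n) ^ p) = 0 := by
      rw [ord_div v hf ht1, ord_pow, v.ord_zpow, hπ1, hn]
      ring
    refine ⟨f / ((π : FF k M) ^ n) ^ p, f / ((π : FF k M) ^ n) ^ p, ?_, hb0, hb1, ?_⟩
    · exact Or.inr (hb1.symm.le)
    · have hb2 : ((f / ((π : FF k M) ^ n) ^ p : FF k M) : LaurentSeries k) ≠ 0 := by
        rwa [Ne, ZeroMemClass.coe_eq_zero]
      have ht2 : (((π : FF k M) ^ n : FF k M) : LaurentSeries k) ≠ 0 := by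
        rwa [Ne, ZeroMemClass.coe_eq_zero]
      have h2 : dl (f : LaurentSeries k) =
          dl ((f / ((π : FF k M) ^ n) ^ p : FF k M) : LaurentSeries k) := by
        have h3 : (f : LaurentSeries k) = ((f / ((π : FF k M) ^ n) ^ p : FF k M) :
            LaurentSeries k) * (((π : FF k M) ^ n : FF k M) : LaurentSeries k) ^ p := by
          rw [← SubmonoidClass.coe_pow, ← MulMemClass.coe_mul, div_mul_cancel₀ _ ht1]
        conv_lhs => rw [h3]
        rw [dl_mul hb2 (pow_ne_zero _ ht2), dl_pow ht2, nsmul_eq_mul, CharP.cast_eq_zero, zero_mul,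
          add_zero]
      rw [h2, dl, div_mul_cancel₀ _ hb2]
  · intro ℓ hℓ hℓM hP n
    haveI : Fact ℓ.Prime := ⟨hℓ⟩
    obtain ⟨ζ, hζ, z, hz, hT⟩ := hecke ℓ hℓM hP
    rw [← dl_TT hζ hf', hT, dl_mul (zpow_ne_zero _ hf') (pow_ne_zero _ hz), dl_pow hz, dl_zpow hf',
      nsmul_eq_mul, CharP.cast_eq_zero, zero_mul, add_zero, HahnSeries.coeff_smul, zsmul_eq_mul]

include A K in
/-- **The component lemma, additive case.** -/
theorem comp_add [CharZero K] [Algebra ℚ K] (ι : K →+* ℂ)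
    (hk : Function.Surjective (algebraMap A k))
    {p : ℕ} [Fact p.Prime] [CharP k p] (h5 : 5 ≤ p) (hM : (M : k) ≠ 0)
    (c : ℕ → ℤ) (P : ℕ → Prop) {H : FF k M}
    (hreg : ∀ v : Place k (FF k M), ∃ u t : FF k M, Ge v 0 u ∧ H = u + t ^ p)
    (hecke : ∀ ℓ : ℕ, ℓ.Prime → ¬ ℓ ∣ M → P ℓ → ∃ Z : LaurentSeries k, ∀ n : ℤ,
      ℓ * (H : LaurentSeries k).coeff (ℓ * n) +
        (if (ℓ : ℤ) ∣ n then (H : LaurentSeries k).coeff (n / ℓ) else 0) =
      c ℓ * (H : LaurentSeries k).coeff n + (Z ^ p).coeff n) :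
    (∃ y : FF k M, H = y ^ p) ∨
    ∃ g : CuspForm (CongruenceSubgroup.Gamma0 M) 2, g.IsNormalizedEigenform ∧
      ∃ m : Ideal (integralClosure ℤ ℂ), m.IsMaximal ∧ (p : integralClosure ℤ ℂ) ∈ m ∧
        ∀ ℓ : ℕ, ℓ.Prime → ¬ ℓ ∣ M → P ℓ → ∃ α : integralClosure ℤ ℂ, (α : ℂ) = qCoeff g ℓ ∧
          α - (c ℓ : integralClosure ℤ ℂ) ∈ m := by
  by_cases h0 : theta (H : LaurentSeries k) = 0
  · exact Or.inl (exists_pow_of_theta hM h0)
  right
  refine ThmC.main (A := A) (K := K) ι hk h5 hM h0 ?_ ?_ c P ?_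
  · obtain ⟨g, -, hg⟩ := ThmC.exists_dj hM H
    have h2 : theta (H : LaurentSeries k) / theta (jqModC k) = (g : LaurentSeries k) := by
      rw [hg, mul_div_cancel_right₀ _ ThmC.theta_jq_ne]
    rw [h2]
    exact g.2
  · intro v
    obtain ⟨u, t, hu, ht⟩ := hreg v
    refine ⟨u, 1, hu, one_ne_zero, ?_, ?_⟩
    · have := ord_algebraMap v (1 : k)
      rwa [map_one] at this
    · rw [ht]
      push_cast
      rw [mul_one, map_add, theta_pow_char, add_zero]
  · intro ℓ hℓ hℓM hP n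
    obtain ⟨Z, hZ⟩ := hecke ℓ hℓ hℓM hP
    have h1 := hZ n
    have h2 : (n : k) * (Z ^ p).coeff n = 0 := by
      have := congrArg (fun G : LaurentSeries k => G.coeff n) (theta_pow_char (p := p) Z)
      rwa [theta_coeff] at this
    have h0 : (ℓ : ℤ) ≠ 0 := by exact_mod_cast hℓ.ne_zero
    rw [theta_coeff (H : LaurentSeries k) n, theta_coeff (H : LaurentSeries k) (ℓ * n)]
    have h3 : (if (ℓ : ℤ) ∣ n then (theta (H : LaurentSeries k)).coeff (n / ℓ) else 0) * (ℓ : k) =
        n * (if (ℓ : ℤ) ∣ n then (H : LaurentSeries k).coeff (n / ℓ) else 0) := by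
      split_ifs with h
      · obtain ⟨m, rfl⟩ := h
        rw [Int.mul_ediv_cancel_left _ h0, theta_coeff]
        push_cast
        ring
      · simp
    push_cast
    linear_combination (n : k) * h1 + h3 + h2

end Main

end Fermat.Agent.PRem
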