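import Fermat.Agent.PRem.Asm2
import Fermat.Agent.PRem.CompC

/-!
# Hecke eigenclasses, rational unit representatives, component lemmas
-/

set_option autoImplicit false
set_option linter.unusedSectionVars false
set_option linter.style.haveILetI false

noncomputable section

namespace Fermat.Agent.PRem

open ModularCurve Polynomial IntermediateField Fermat.Agent.ModPoly Fermat.Agent.Red
  Fermat.Agent.RedMod Fermat.Agent.Cusp Fermat.Agent.SemiSt AlgebraicCurve Fermat.Agent.Curve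
  Fermat.Agent.RR Fermat.Agent.Nod Fermat.Agent.Flat Fermat.Agent.FlatRam Fermat.Agent.Places

local notation "Ω" => AlgebraicClosure ℚ

/-- The conclusion: a congruent eigenform of level `M`. -/
def CONC (p M : ℕ) (c : ℕ → ℤ) (P : ℕ → Prop) : Prop :=
  ∃ g : CuspForm (CongruenceSubgroup.Gamma0 M) 2, g.IsNormalizedEigenform ∧
      ∃ m : Ideal (integralClosure ℤ ℂ), m.IsMaximal ∧ (p : integralClosure ℤ ℂ) ∈ m ∧
        ∀ ℓ : ℕ, ℓ.Prime → ¬ ℓ ∣ M → P ℓ → ∃ α : integralClosure ℤ ℂ,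
          (α : ℂ) = ModularFormClass.qCoeff g ℓ ∧ α - (c ℓ : integralClosure ℤ ℂ) ∈ m

variable {A : ValuationSubring (AlgebraicClosure ℚ)} {p : ℕ} [hp : Fact p.Prime]
  {M : ℕ} [NeZero M] {k : Type*} [Field k] [Algebra A k] [CharP k p] [IsAlgClosed k]
  {hk : Function.Surjective (algebraMap A k)} {hco : p.Coprime M} {hM : (M : k) ≠ 0} {b : A}

section Eig

variable (c : ℕ → ℤ) (P : ℕ → Prop)

/-- Hecke eigenfunction modulo `p`-th powers -/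
def Eig (x : FF Ω (p * M)) : Prop := ∀ (ℓ : ℕ) [Fact ℓ.Prime], ¬ ℓ ∣ p * M → P ℓ →
  ∃ z : FF Ω (p * M), z ≠ 0 ∧ TTf Ω ℓ (p * M) x = x ^ (c ℓ) * z ^ p

/-- Hecke eigenclass -/
def EigCls (ξ : Kum.XL (p * M) p) : Prop := ∀ (ℓ : ℕ) (hℓ : ℓ.Prime) (hℓN : ¬ ℓ ∣ p * M), P ℓ →
  Kum.actX (p * M) p ∅ (CuspForm.heckeAlgebra.T hℓ hℓN (Set.notMem_empty ℓ)) ξ = c ℓ • ξ

variable {c P}

theorem coprime_of' {ℓ : ℕ} [hl : Fact ℓ.Prime] (h : ¬ ℓ ∣ p * M) : ℓ.Coprime (p * M) :=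
  (Nat.Prime.coprime_iff_not_dvd hl.out).2 h

theorem EigCls.eig {ι : Ω →+* ℂ} {ξ : Kum.XL (p * M) p} (h : EigCls c P ξ) {x : FF Ω (p * M)}
    (hx : HasCls ι p x ξ) : Eig c P x := by
  intro ℓ hl hℓN hP
  obtain ⟨ζ, hζ⟩ := exists_prim Ω ℓ
  have h1 := hx.TT (S := ∅) hl.out hℓN (Set.notMem_empty ℓ) hζ (coe_TTf (coprime_of' hℓN) hζ x)
  rw [h ℓ hl.out hℓN hP] at h1
  exact (hx.zpow (c ℓ)).exists_pow h1

theorem w_ne_zero' {f : FF Ω (p * M)} (hco : p.Coprime M) (hf : f ≠ 0) : SemiSt.w Ω hco f ≠ 0 :=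
  fun h => hf (by
    have := congrArg (SemiSt.w Ω hco) h
    rwa [w_w, map_zero] at this)

theorem Eig.w (hco : p.Coprime M) {x : FF Ω (p * M)} (h : Eig c P x) :
    Eig c P (SemiSt.w Ω hco x) := by
  intro ℓ hl hℓN hP
  obtain ⟨z, hz, h1⟩ := h ℓ hℓN hP
  refine ⟨SemiSt.w Ω hco z, w_ne_zero' hco hz, ?_⟩
  rw [TTf_w hco (coprime_of' hℓN), h1, map_mul, map_zpow₀, map_pow]

theorem Eig.mul_pow {x : FF Ω (p * M)} (h : Eig c P x) {U : FF Ω (p * M)} (hU : U ≠ 0) :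
    Eig c P (x * U ^ p) := by
  intro ℓ hl hℓN hP
  obtain ⟨z, hz, h1⟩ := h ℓ hℓN hP
  refine ⟨z * TTf Ω ℓ (p * M) U * (U ^ (c ℓ))⁻¹,
    mul_ne_zero (mul_ne_zero hz (TTf_ne_zero (coprime_of' hℓN) hU))
      (inv_ne_zero (zpow_ne_zero _ hU)), ?_⟩
  have h2 := zpow_ne_zero (c ℓ) hU
  have h3 : (U ^ p) ^ (c ℓ) = (U ^ (c ℓ)) ^ p := by
    rw [← zpow_natCast U p, ← zpow_mul, ← zpow_natCast (U ^ c ℓ) p, ← zpow_mul,
      mul_comm (p : ℤ) (c ℓ)]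
  rw [map_mul, map_pow, h1, mul_zpow, h3, _root_.mul_pow, _root_.mul_pow, inv_pow]
  field_simp

theorem Eig.mul_const {x : FF Ω (p * M)} (h : Eig c P x) {a : Ω} (ha : a ≠ 0) :
    Eig c P (x * algebraMap Ω (FF Ω (p * M)) a) := by
  obtain ⟨d, hd⟩ := IsAlgClosed.exists_pow_nat_eq a hp.out.pos
  have hd0 : d ≠ 0 := by
    rintro rfl
    rw [zero_pow hp.out.ne_zero] at hd
    exact ha hd.symm
  rw [← hd, map_pow]
  exact h.mul_pow (by simpa using hd0)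

end Eig

section

variable {c : ℕ → ℤ} {P : ℕ → Prop}

theorem natCast_ne_of {ℓ : ℕ} [hl : Fact ℓ.Prime] (h : ℓ ≠ p) : (ℓ : k) ≠ 0 := by
  intro h0
  rw [CharP.cast_eq_zero_iff k p] at h0
  exact h ((Nat.prime_dvd_prime_iff_eq hp.out hl.out).1 h0).symm

theorem not_dvd_of {ℓ : ℕ} [hl : Fact ℓ.Prime] (h : ℓ ≠ p) (h' : ¬ ℓ ∣ M) : ¬ ℓ ∣ p * M := by
  rw [Nat.Prime.dvd_mul hl.out, not_or]
  exact ⟨fun h0 => h ((Nat.prime_dvd_prime_iff_eq hl.out hp.out).1 h0), h'⟩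

variable
  [Algebra A (FF Ω (p * M))] [IsScalarTower A Ω (FF Ω (p * M))]
  [Algebra A (FF k M)] [IsScalarTower A k (FF k M)]
  [FunField k (FF k M)] [FunField Ω (FF Ω M)] [FunField Ω (FF Ω (p * M))]

/-- the root in the Hecke relation of a unit is a unit -/
theorem Eig.uw {f : FF Ω (p * M)} (hf : UW (ng Ω hco hk hM b) f) {ℓ : ℕ} [hl : Fact ℓ.Prime]
    (hℓN : ¬ ℓ ∣ p * M) (hℓp : ℓ ≠ p) {c : ℤ} {z : FF Ω (p * M)}
    (h : TTf Ω ℓ (p * M) f = f ^ c * z ^ p) : UW (ng Ω hco hk hM b) z := by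
  obtain ⟨ζ, Z⟩ := exists_Zt (A := A) (K := Ω) (k := k) hl.out (natCast_ne_of (p := p) hℓp)
  apply uw_of_pow hp.out.ne_zero
  have h1 := (uw_TTf Z (coprime_of' hℓN) hf).mul (hf.zpow c).inv
  have h2 := zpow_ne_zero c hf.ne_zero
  rw [h] at h1
  have e : f ^ c * z ^ p * (f ^ c)⁻¹ = z ^ p := by field_simp
  rwa [e] at h1

/-- the component lemma at the first component -/
theorem comp1 (ι : Ω →+* ℂ) (h5 : 5 ≤ p) (hPp : ∀ ℓ, P ℓ → ℓ ≠ p) {f : FF Ω (p * M)}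
    (hf : UW (ng Ω hco hk hM b) f) (hE : Eig c P f)
    (hord : ∀ v : Place k (FF k M), (p : ℤ) ∣ v.ord (r1 (ng Ω hco hk hM b) f)) :
    (∃ y, r1 (ng Ω hco hk hM b) f = y ^ p) ∨ CONC p M c P := by
  refine comp_mul (A := A) (K := Ω) ι hk h5 hM c P hf.r1_ne hord fun ℓ hl hℓM hPℓ => ?_
  have hℓp := hPp ℓ hPℓ
  have hℓN := not_dvd_of hℓp hℓM
  obtain ⟨z, hz, h⟩ := hE ℓ hℓN hPℓ
  have hzU := Eig.uw hf hℓN hℓp h
  obtain ⟨ζ, Z⟩ := exists_Zt (A := A) (K := Ω) (k := k) hl.out (natCast_ne_of (p := p) hℓp)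
  refine ⟨_, Z.hk, (r1 (ng Ω hco hk hM b) z : FF k M), fun h0 => hzU.r1_ne (Subtype.ext h0), ?_⟩
  rw [← r1_TTf Z (coprime_of' hℓN) hf.mem, h, r1_mul (hf.zpow _).mem (hzU.pow p).mem,
    r1_pow hzU.mem, hf.r1_zpow]
  rfl

/-- the component lemma at the second component -/
theorem comp2 (ι : Ω →+* ℂ) (h5 : 5 ≤ p) (hPp : ∀ ℓ, P ℓ → ℓ ≠ p) {f : FF Ω (p * M)}
    (hf : UW (ng Ω hco hk hM b) f) (hE : Eig c P f)
    (hord : ∀ v : Place k (FF k M), (p : ℤ) ∣ v.ord (r2 (ng Ω hco hk hM b) f)) :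
    (∃ y, r2 (ng Ω hco hk hM b) f = y ^ p) ∨ CONC p M c P := by
  have h1 := comp1 ι h5 hPp (uw_w hf) (hE.w hco) (by rw [r1_w hf.mem]; exact hord)
  rwa [r1_w hf.mem] at h1

theorem sl_uw {u : FF Ω (p * M)} (hu : UW (ng Ω hco hk hM b) u) : Sl A k hco u 1 := by
  refine ⟨1, one_ne_zero, ?_, ?_⟩
  · rw [map_one, one_mul]
    exact (rd1 hu.mem).isU fun h => hu.r1_ne (Subtype.ext h)
  · rw [inv_one, mul_one, map_one, one_mul]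
    exact (rd2 hu.mem).isU fun h => hu.r2_ne (Subtype.ext h)

variable {E : IntermediateField (K0 A) Ω} [FiniteDimensional (K0 A) E]
  {e : ℕ} {ϖ : A} {Q : RatStr (ng Ω hco hk hM b)}

theorem RS.sl_normal (R : RS E e ϖ Q) {a : Ω} (ha : a ≠ 0) {s : ℤ} {u : FF Ω (p * M)}
    (hu : UW (ng Ω hco hk hM b) u) :
    Sl A k hco (algebraMap Ω (FF Ω (p * M)) a * Q.ψ ^ s * u) ((ϖ : Ω) ^ s) := by
  have := ((sl_const (A := A) (k := k) (hco := hco) ha).mul (sl_zpow R.slψ s)).mul (sl_uw hu)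
  rwa [one_mul, mul_one] at this

theorem RS.zpow_unit (R : RS E e ϖ Q) {n : ℤ} {u : Aˣ} (h : (ϖ : Ω) ^ n = ((u : A) : Ω)) : n = 0 := by
  apply le_antisymm
  · have h1 : (ϖ : Ω) ^ (-n) ∈ A := by
      rw [zpow_neg, h, ← coeA_inv]
      exact (↑u⁻¹ : A).2
    have := R.U.zpow_mem_iff.1 h1
    omega
  · apply R.U.zpow_mem_iff.1
    rw [h]
    exact (u : A).2

/-- **slopes of eigenfunctions are divisible by `p`** -/
theorem RS.slope (R : RS E e ϖ Q) {x : FF Ω (p * M)} (hx : x ∈ Q.fld) (hx0 : x ≠ 0)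
    (hE : Eig c P x) {ℓ : ℕ} [hl : Fact ℓ.Prime] (hℓN : ¬ ℓ ∣ p * M) (hPℓ : P ℓ) (hℓp : ℓ ≠ p)
    (hne : ¬ (p : ℤ) ∣ c ℓ - ℓ - 1) {a : Ω} (ha : a ≠ 0) {s : ℤ} {u : FF Ω (p * M)}
    (hu : UW (ng Ω hco hk hM b) u) (hxe : x = algebraMap Ω (FF Ω (p * M)) a * Q.ψ ^ s * u) :
    (p : ℤ) ∣ s := by
  obtain ⟨ζ, Z⟩ := exists_Zt (A := A) (K := Ω) (k := k) hl.out (natCast_ne_of (p := p) hℓp)
  have hℓ := coprime_of' hℓN
  obtain ⟨z, hz, h⟩ := hE ℓ hℓN hPℓ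
  have s1 : Sl A k hco x ((ϖ : Ω) ^ s) := by rw [hxe]; exact R.sl_normal ha hu
  have s2 := sl_TTf Z hℓ s1
  have hzp : z ^ p ∈ Q.fld := by
    have e1 : z ^ p = TTf Ω ℓ (p * M) x * (x ^ (c ℓ))⁻¹ := by
      have := zpow_ne_zero (c ℓ) hx0
      rw [h]; field_simp
    rw [e1]
    exact mul_mem (R.TTf_fld hℓ hx) (inv_mem (zpow_mem hx _))
  obtain ⟨c', hc', y, hy, hzy⟩ := norm_root (E := E) hz hp.out.ne_zero (c := 1) one_ne_zero (by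
    rw [map_one, one_mul]
    exact R.mem_fld.1 hzp)
  have hy0 : y ≠ 0 := by
    rintro rfl
    rw [mul_zero] at hzy
    exact hz hzy
  obtain ⟨a', s', u', hu', -, hye⟩ := R.normal (R.mem_fld.2 hy) hy0
  have s3 : Sl A k hco z ((ϖ : Ω) ^ s') := by
    have e1 : z = algebraMap Ω (FF Ω (p * M)) (c' * (ϖ : Ω) ^ a') * Q.ψ ^ s' * u' := by
      rw [hzy, hye, map_mul]; ring
    rw [e1]
    exact R.sl_normal (mul_ne_zero hc' (zpow_ne_zero _ R.U.ne)) hu'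
  have s4 := (sl_zpow s1 (c ℓ)).mul (s3.pow p)
  rw [← h] at s4
  obtain ⟨v, hv⟩ := sl_uniq hk s2 s4
  have hϖ := R.U.ne
  have e2 : (ϖ : Ω) ^ (s * c ℓ + s' * p - s * (ℓ + 1)) = ((v : A) : Ω) := by
    rw [zpow_sub₀ hϖ, zpow_add₀ hϖ, zpow_mul, zpow_mul, zpow_mul, zpow_natCast]
    have h3 : ((ϖ : Ω) ^ s) ^ ((ℓ : ℤ) + 1) = ((ϖ : Ω) ^ s) ^ (ℓ + 1) := by
      rw [← zpow_natCast]; push_cast; rfl
    rw [h3, hv, mul_div_cancel_left₀]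
    exact pow_ne_zero _ (zpow_ne_zero _ hϖ)
  have e3 := R.zpow_unit e2
  have e4 : (p : ℤ) ∣ s * (c ℓ - ℓ - 1) := ⟨-s', by linear_combination e3⟩
  rcases Int.Prime.dvd_mul' hp.out e4 with h6 | h6
  · exact h6
  · exact absurd h6 hne

/-- **unit representatives** -/
theorem RS.exists_uw (R : RS E e ϖ Q) {x : FF Ω (p * M)} (hx : x ∈ Q.fld) (hx0 : x ≠ 0)
    (hE : Eig c P x) {ℓ : ℕ} [hl : Fact ℓ.Prime] (hℓN : ¬ ℓ ∣ p * M) (hPℓ : P ℓ) (hℓp : ℓ ≠ p)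
    (hne : ¬ (p : ℤ) ∣ c ℓ - ℓ - 1) : ∃ u ∈ Q.fld, UW (ng Ω hco hk hM b) u ∧
      ∃ y : FF Ω (p * M), y ≠ 0 ∧ ∃ a : Ω, a ≠ 0 ∧
        u = x * y ^ p * algebraMap Ω (FF Ω (p * M)) a := by
  obtain ⟨a, s, u, hu, huF, hxe⟩ := R.normal hx hx0
  have ha : (ϖ : Ω) ^ a ≠ 0 := zpow_ne_zero _ R.U.ne
  obtain ⟨t, ht⟩ := R.slope hx hx0 hE hℓN hPℓ hℓp hne ha hu hxe
  refine ⟨u, huF, hu, Q.ψ ^ (-t), zpow_ne_zero _ Q.ψ0, ((ϖ : Ω) ^ a)⁻¹, inv_ne_zero ha, ?_⟩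
  have h1 : algebraMap Ω (FF Ω (p * M)) ((ϖ : Ω) ^ a) ≠ 0 := (_root_.map_ne_zero _).2 ha
  have h2 : (Q.ψ ^ (-t)) ^ p = (Q.ψ ^ s)⁻¹ := by
    rw [← zpow_natCast, ← zpow_mul, ← zpow_neg, ht]
    congr 1
    ring
  have h3 := zpow_ne_zero s Q.ψ0
  rw [h2, hxe, map_inv₀]
  field_simp

/-- **rational unit representatives of fixed eigenclasses** -/
theorem RS.exists_rep (R : RS E e ϖ Q) (ι : Ω →+* ℂ) {ξ : Kum.XL (p * M) p}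
    (hfix : ∀ σ : Ω ≃ₐ[ℚ] Ω, (∀ x ∈ E, σ x = x) → Kum.rhoF ι p σ ξ = ξ)
    (hE : EigCls c P ξ) {ℓ : ℕ} [hl : Fact ℓ.Prime] (hℓN : ¬ ℓ ∣ p * M) (hPℓ : P ℓ) (hℓp : ℓ ≠ p)
    (hne : ¬ (p : ℤ) ∣ c ℓ - ℓ - 1) :
    ∃ f ∈ Q.fld, UW (ng Ω hco hk hM b) f ∧ HasCls ι p f ξ := by
  obtain ⟨x, hx, hσ⟩ := exists_fixed ι ξ
  have hxF : x ∈ Q.fld := by
    rw [R.mem_fld]
    intro σ hσ'
    obtain ⟨τ, hτ, rfl⟩ := exists_of_mem_Fx hσ'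
    exact congrArg Subtype.val (hσ (AlgEquiv.restrictScalars ℚ τ) (hfix _ fun y hy => hτ ⟨y, hy⟩))
  obtain ⟨u, huF, hu, y, hy, a, ha, hua⟩ := R.exists_uw hxF hx.ne_zero (hE.eig hx) hℓN hPℓ hℓp hne
  exact ⟨u, huF, hu, by rw [hua]; exact (hx.mul_pow hy).mul_const ha⟩

end

end Fermat.Agent.PRem
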