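import Fermat.Agent.PRem.Asm4

/-!
# Inertia, normalisation, roots of congruences
-/

set_option autoImplicit false
set_option linter.unusedSectionVars false
set_option linter.style.haveILetI false

noncomputable section

namespace Fermat.Agent.PRem

open ModularCurve Polynomial IntermediateField Fermat.Agent.ModPoly Fermat.Agent.Red
  Fermat.Agent.RedMod Fermat.Agent.Cusp Fermat.Agent.SemiSt AlgebraicCurve Fermat.Agent.Curve
  Fermat.Agent.RR Fermat.Agent.Nod Fermat.Agent.Flat Fermat.Agent.FlatRam Fermat.Agent.Places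

local notation "Ω" => AlgebraicClosure ℚ

variable {A : ValuationSubring (AlgebraicClosure ℚ)} {p : ℕ} [hp : Fact p.Prime]
  {M : ℕ} [NeZero M] {k : Type*} [Field k] [Algebra A k] [CharP k p] [IsAlgClosed k]
  {hk : Function.Surjective (algebraMap A k)} {hco : p.Coprime M} {hM : (M : k) ≠ 0} {b : A}

section Inert

/-- inertia acts trivially on reductions -/
theorem rd_act (hk : Function.Surjective (algebraMap A k)) (τ : Ω ≃ₐ[K0 A] Ω)
    {x : LaurentSeries Ω} {a : LaurentSeries k} (h : Rd A x a) :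
    Rd A (coeffMap (((τ : Ω ≃+* Ω) : Ω →+* Ω)) x) a := by
  let τA : A →+* A :=
    { toFun := fun y => ⟨τ y, aut_mem A τ y.2⟩
      map_one' := Subtype.ext (map_one τ)
      map_mul' := fun y z => Subtype.ext (map_mul τ _ _)
      map_zero' := Subtype.ext (map_zero τ)
      map_add' := fun y z => Subtype.ext (map_add τ _ _) }
  have h2 : ∀ y : A, algebraMap A k (τA y) = algebraMap A k y := by
    intro y
    rw [← sub_eq_zero, ← map_sub]
    exact (red_eq_zero_iff hk).2 (aut_sub_mem A τ y.2)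
  obtain ⟨u, v, hv, rfl, rfl⟩ := h.exists_div
  have h3 : ∀ y : LaurentSeries A, coeffMap (((τ : Ω ≃+* Ω) : Ω →+* Ω)) (RedMod.incL A Ω y) =
      RedMod.incL A Ω (coeffMap τA y) := fun y => by
    rw [RedMod.incL, coeffMap_coeffMap, coeffMap_coeffMap]
    rfl
  have h4 : ∀ y : LaurentSeries A, redL A k (coeffMap τA y) = redL A k y := fun y => by
    ext n
    exact h2 _
  rw [map_div₀, h3, h3, ← h4 u, ← h4 v]
  exact rd_div (by rw [h4]; exact hv)

/-- extraction of roots -/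
theorem exists_root_of {F : Type*} [Field F] {x g : F} (hx : x ≠ 0) {n : ℤ}
    (h : x = x ^ n * g ^ p) (hn : ¬ (p : ℤ) ∣ n - 1) : ∃ y, x = y ^ p := by
  have hcop : IsCoprime (1 - n) (p : ℤ) := by
    rw [isCoprime_comm, Prime.coprime_iff_not_dvd (Nat.prime_iff_prime_int.1 hp.out)]
    intro h1
    apply hn
    have := (dvd_neg (α := ℤ)).2 h1
    rwa [neg_sub] at this
  obtain ⟨a, b', hab⟩ := hcop
  have hxn := zpow_ne_zero n hx
  have h1 : x ^ (1 - n) = g ^ p := by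
    rw [zpow_sub₀ hx, zpow_one]
    nth_rw 1 [h]
    field_simp
  refine ⟨g ^ a * x ^ b', ?_⟩
  calc x = x ^ (a * (1 - n) + b' * p) := by rw [hab, zpow_one]
    _ = (g ^ p) ^ a * (x ^ b') ^ p := by
      rw [zpow_add₀ hx, mul_comm a, zpow_mul, h1, ← zpow_natCast (x ^ b'), ← zpow_mul]
    _ = (g ^ a * x ^ b') ^ p := by
      rw [mul_pow, ← zpow_natCast g, ← zpow_mul, ← zpow_natCast (g ^ a), ← zpow_mul,
        mul_comm (p : ℤ) a]

theorem mem_A_of_C (hk : Function.Surjective (algebraMap A k)) {s : Ω} {a : LaurentSeries k}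
    (h : Rd A (HahnSeries.C s : LaurentSeries Ω) a) : s ∈ A := by
  by_contra hsA
  have hs0 : s ≠ 0 := by
    rintro rfl
    exact hsA (zero_mem _)
  have h1 : s⁻¹ ∈ A := (A.mem_or_inv_mem s).resolve_left hsA
  have h2 : algebraMap A k ⟨s⁻¹, h1⟩ = 0 := by
    rw [red_eq_zero_iff hk]
    change s⁻¹ ∈ A.nonunits
    rw [ValuationSubring.mem_nonunits_iff_exists_mem_maximalIdeal]
    refine ⟨h1, ?_⟩
    rw [IsLocalRing.mem_maximalIdeal, _root_.mem_nonunits_iff]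
    rintro ⟨u, hu⟩
    apply hsA
    have h3 : ((↑u⁻¹ : A) : Ω) = s := by
      have h5 : ((u : A) : Ω) = s⁻¹ := congrArg Subtype.val hu
      rw [coeA_inv, h5, inv_inv]
    rw [← h3]
    exact (↑u⁻¹ : A).2
  have h4 := (Rd.C (K := Ω) (k := k) (⟨s⁻¹, h1⟩ : A)).mul h
  rw [h2, map_zero, zero_mul, ← map_mul] at h4
  have h5 : algebraMap A Ω ⟨s⁻¹, h1⟩ * s = 1 := inv_mul_cancel₀ hs0
  rw [h5, map_one] at h4
  exact one_ne_zero (Rd.one.uniq h4)

end Inert

variable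
  [Algebra A (FF Ω (p * M))] [IsScalarTower A Ω (FF Ω (p * M))]
  [Algebra A (FF k M)] [IsScalarTower A k (FF k M)]
  [FunField k (FF k M)] [FunField Ω (FF Ω M)] [FunField Ω (FF Ω (p * M))]

section Act

theorem act_mem (τ : Ω ≃ₐ[K0 A] Ω) {x : FF Ω (p * M)} (hx : x ∈ (ng Ω hco hk hM b).W) :
    act (p * M) (τ : Ω ≃+* Ω) x ∈ (ng Ω hco hk hM b).W :=
  mem_W_of (rd_act hk τ (rd1 hx)) (by rw [← act_w]; exact rd_act hk τ (rd2 hx))

theorem r1_act (τ : Ω ≃ₐ[K0 A] Ω) {x : FF Ω (p * M)} (hx : x ∈ (ng Ω hco hk hM b).W) :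
    r1 (ng Ω hco hk hM b) (act (p * M) (τ : Ω ≃+* Ω) x) = r1 (ng Ω hco hk hM b) x :=
  Subtype.ext (r1_eq (act_mem τ hx) (rd_act hk τ (rd1 hx)))

theorem r2_act (τ : Ω ≃ₐ[K0 A] Ω) {x : FF Ω (p * M)} (hx : x ∈ (ng Ω hco hk hM b).W) :
    r2 (ng Ω hco hk hM b) (act (p * M) (τ : Ω ≃+* Ω) x) = r2 (ng Ω hco hk hM b) x :=
  Subtype.ext (r2_eq (act_mem τ hx) (by rw [← act_w]; exact rd_act hk τ (rd2 hx)))

theorem uw_act (τ : Ω ≃ₐ[K0 A] Ω) {x : FF Ω (p * M)} (hx : UW (ng Ω hco hk hM b) x) :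
    UW (ng Ω hco hk hM b) (act (p * M) (τ : Ω ≃+* Ω) x) :=
  UW.mk' (act_mem τ hx.mem) (by rw [r1_act τ hx.mem]; exact hx.r1_ne)
    (by rw [r2_act τ hx.mem]; exact hx.r2_ne)

end Act

end Fermat.Agent.PRem
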