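import Fermat.Agent.PRem.Asm5

/-!
# Normalisation, roots of congruences, first order terms
-/

set_option autoImplicit false
set_option linter.unusedSectionVars false
set_option linter.style.haveILetI false

noncomputable section

namespace Fermat.Agent.PRem

open ModularCurve Polynomial IntermediateField Fermat.Agent.ModPoly Fermat.Agent.Red
  Fermat.Agent.RedMod Fermat.Agent.Cusp Fermat.Agent.SemiSt AlgebraicCurve Fermat.Agent.Curve
  Fermat.Agent.RR Fermat.Agent.Nod Fermat.Agent.Flat Fermat.Agent.FlatRam Fermat.Agent.Places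

local notation "Ω" => AlgebraicClosure ℚ

variable {A : ValuationSubring (AlgebraicClosure ℚ)} {p : ℕ} [hp : Fact p.Prime]
  {M : ℕ} [NeZero M] {k : Type*} [Field k] [Algebra A k] [CharP k p] [IsAlgClosed k]
  {hk : Function.Surjective (algebraMap A k)} {hco : p.Coprime M} {hM : (M : k) ≠ 0} {b : A}
  [Algebra A (FF Ω (p * M))] [IsScalarTower A Ω (FF Ω (p * M))]
  [Algebra A (FF k M)] [IsScalarTower A k (FF k M)]
  [FunField k (FF k M)] [FunField Ω (FF Ω M)] [FunField Ω (FF Ω (p * M))]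
  {E : IntermediateField (K0 A) Ω} [FiniteDimensional (K0 A) E]
  {e : ℕ} {ϖ : A} {Q : RatStr (ng Ω hco hk hM b)}

theorem algA (a : A) : algebraMap A (FF Ω (p * M)) a = algebraMap Ω _ (a : Ω) := by
  rw [IsScalarTower.algebraMap_apply A Ω (FF Ω (p * M))]; rfl

/-- functions with rational powers and constant reduction -/
theorem RS.norm_one (R : RS E e ϖ Q) {g : FF Ω (p * M)} (hg : UW (ng Ω hco hk hM b) g)
    (h1 : r1 (ng Ω hco hk hM b) g = 1) (h2 : r2 (ng Ω hco hk hM b) g = 1) {n : ℕ} (hn : n ≠ 0)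
    {c : Ω} (hc : c ≠ 0) (h : algebraMap Ω (FF Ω (p * M)) c * g ^ n ∈ Q.fld) :
    ∃ κ : Aˣ, ∃ g' ∈ Q.fld, UW (ng Ω hco hk hM b) g' ∧ r1 (ng Ω hco hk hM b) g' = 1 ∧
      r2 (ng Ω hco hk hM b) g' = 1 ∧ g = algebraMap A (FF Ω (p * M)) κ * g' := by
  obtain ⟨c', hc', y, hy, hgy⟩ := norm_root (E := E) hg.ne_zero hn hc (R.mem_fld.1 h)
  have hy0 : y ≠ 0 := by
    rintro rfl
    rw [mul_zero] at hgy
    exact hg.ne_zero hgy
  obtain ⟨a, s, u, hu, huF, hye⟩ := R.normal (R.mem_fld.2 hy) hy0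
  have e1 : g = algebraMap Ω (FF Ω (p * M)) (c' * (ϖ : Ω) ^ a) * Q.ψ ^ s * u := by
    rw [hgy, hye, map_mul]; ring
  have hca : c' * (ϖ : Ω) ^ a ≠ 0 := mul_ne_zero hc' (zpow_ne_zero _ R.U.ne)
  have hs : s = 0 := by
    have s1 := sl_uw hg
    have s2 := R.sl_normal (s := s) hca hu
    rw [← e1] at s2
    obtain ⟨v, hv⟩ := sl_uniq hk s1 s2
    rw [one_mul] at hv
    exact R.zpow_unit hv
  rw [hs, zpow_zero, mul_one] at e1
  obtain ⟨t, ht⟩ : ∃ t, t = c' * (ϖ : Ω) ^ a := ⟨_, rfl⟩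
  rw [← ht] at e1 hca
  have e2 : IsU A Ω k (HahnSeries.C t : LaurentSeries Ω) := by
    have u1 : IsU A Ω k (g : LaurentSeries Ω) := (rd1 hg.mem).isU fun h0 => hg.r1_ne (Subtype.ext h0)
    have u2 : IsU A Ω k (u : LaurentSeries Ω) := (rd1 hu.mem).isU fun h0 => hu.r1_ne (Subtype.ext h0)
    refine (u1.mul u2.inv).of_eq ?_
    have hu0 : (u : LaurentSeries Ω) ≠ 0 := u2.ne_zero
    have e3 : (g : LaurentSeries Ω) = HahnSeries.C t * (u : LaurentSeries Ω) := by
      rw [e1, coe_algebraMap_mul]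
    rw [e3, mul_inv_cancel_right₀ hu0]
  obtain ⟨v, hv⟩ := isU_C_iff hk e2
  have hvF : algebraMap Ω (FF Ω (p * M)) t = algebraMap A (FF Ω (p * M)) v := by rw [algA, hv]
  rw [hvF] at e1
  have hvk : algebraMap A k (v : A) ≠ 0 := (v.isUnit.map (algebraMap A k)).ne_zero
  have hvW : algebraMap A (FF Ω (p * M)) v ∈ (ng Ω hco hk hM b).W := Subalgebra.algebraMap_mem _ _
  obtain ⟨a₀, ha₀, ha₁⟩ := Q.res (algebraMap A k (v : A))⁻¹
  have haU : IsUnit a₀ := isUnit_of fun h0 => by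
    have := (red_eq_zero_iff hk).2 h0
    rw [ha₁] at this
    exact inv_ne_zero hvk this
  obtain ⟨a₁, rfl⟩ := haU
  have haF : algebraMap A (FF Ω (p * M)) (a₁ : A) ∈ Q.fld := ha₀
  have haW : UW (ng Ω hco hk hM b) (algebraMap A (FF Ω (p * M)) (a₁ : A)) := by
    refine UW.mk' (Subalgebra.algebraMap_mem _ _) ?_ ?_
    · rw [r1_algebraMap, ha₁, Ne, map_eq_zero]; exact inv_ne_zero hvk
    · rw [r2_algebraMap, ha₁, Ne, map_eq_zero]; exact inv_ne_zero hvk
  refine ⟨v * a₁, u * (algebraMap A (FF Ω (p * M)) (a₁ : A))⁻¹, mul_mem huF (inv_mem haF),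
    hu.mul haW.inv, ?_, ?_, ?_⟩
  · rw [r1_mul hu.mem haW.inv.mem, haW.r1_inv, r1_algebraMap, ha₁, map_inv₀, inv_inv]
    rw [e1, r1_mul hvW hu.mem, r1_algebraMap, mul_comm] at h1
    exact h1
  · rw [r2_mul hu.mem haW.inv.mem, haW.r2_inv, r2_algebraMap, ha₁, map_inv₀, inv_inv]
    rw [e1, r2_mul hvW hu.mem, r2_algebraMap, mul_comm] at h2
    exact h2
  · have := haW.ne_zero
    have e5 : ∀ X Y Z : FF Ω (p * M), Y ≠ 0 → X * Z = X * Y * (Z * Y⁻¹) := fun X Y Z hY => by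
      rw [mul_assoc, mul_comm Z, mul_inv_cancel_left₀ hY]
    rw [e1, Units.val_mul, map_mul]
    exact e5 _ _ _ this

/-- roots of congruences -/
theorem root_cg {u : A} (hpe : (p : A) = Q.ϖ ^ (p * (p - 1)) * u) {z : FF Ω (p * M)} {n : ℕ}
    (hn : n + 1 ≤ p) (hz : Cg Q (p * n) (z ^ p) 1) : Cg Q n z 1 := by
  have hp0 := hp.out.ne_zero
  have hzW : z ∈ (ng Ω hco hk hM b).W := W_of_pow hp0 (hz.mem (one_mem _))
  suffices h : ∀ m, m ≤ n → Cg Q m z 1 from h n le_rfl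
  intro m
  induction m with
  | zero => intro _; exact ⟨z - 1, sub_mem hzW (one_mem _), by rw [pow_zero]; ring⟩
  | succ m ih =>
    intro hm
    obtain ⟨y, hy, e1⟩ := ih (by omega)
    obtain ⟨d, hd⟩ : ∃ d, d = algebraMap A (FF Ω (p * M)) Q.ϖ := ⟨_, rfl⟩
    have hdW : d ∈ (ng Ω hco hk hM b).W := by rw [hd]; exact Subalgebra.algebraMap_mem _ _
    have hd0 : d ≠ 0 := by rw [hd]; exact Q.ϖF0
    obtain ⟨uF, huF⟩ : ∃ uF, uF = algebraMap A (FF Ω (p * M)) u := ⟨_, rfl⟩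
    have huW : uF ∈ (ng Ω hco hk hM b).W := by rw [huF]; exact Subalgebra.algebraMap_mem _ _
    have hpF : (p : FF Ω (p * M)) = d ^ (p * (p - 1)) * uF := by
      have := congrArg (algebraMap A (FF Ω (p * M))) hpe
      rw [map_natCast, map_mul, map_pow, ← hd, ← huF] at this
      exact this
    rw [← hd] at e1
    obtain ⟨q, hq⟩ := exists_one_add_pow hp.out (⟨d ^ m * y, mul_mem (pow_mem hdW _) hy⟩ :
      (ng Ω hco hk hM b).W)
    have hq' : (1 + d ^ m * y) ^ p = 1 + (p : FF Ω (p * M)) * (d ^ m * y * (1 + d ^ m * y * q)) +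
        (d ^ m * y) ^ p := congrArg Subtype.val hq
    obtain ⟨w', hw', e2⟩ := hz
    rw [← hd] at e2
    rw [← e1, e2, hpF] at hq'
    -- exponents
    obtain ⟨r, hr⟩ : ∃ r, p * n = p * m + (p + r) := ⟨p * n - p * m - p, by
      have : p * (m + 1) ≤ p * n := Nat.mul_le_mul_left p hm
      rw [mul_add, mul_one] at this
      omega⟩
    obtain ⟨t, ht⟩ : ∃ t, p * (p - 1) + m = p * m + (p + t) := by
      refine ⟨p * (p - 1) + m - (p * m + p), ?_⟩
      obtain ⟨l, rfl⟩ : ∃ l, p = m + 2 + l := ⟨p - (m + 2), by omega⟩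
      have : (m + 2 + l) * m + (m + 2 + l) ≤ (m + 2 + l) * (m + 2 + l - 1) + m := by
        have h3 : m + 2 + l - 1 = m + 1 + l := by omega
        rw [h3]
        nlinarith [Nat.zero_le m, Nat.zero_le l, mul_nonneg (Nat.zero_le m) (Nat.zero_le l)]
      omega
    have h4 : (d ^ m) ^ p = d ^ (p * m) := (pow_mul' d p m).symm
    have h5 : d ^ (p * m) * y ^ p = d ^ (p * m) * (d ^ p * (d ^ r * w' -
        d ^ t * uF * (y * (1 + d ^ m * y * q)))) := by
      have h6 : d ^ (p * n) = d ^ (p * m) * (d ^ p * d ^ r) := by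
        rw [hr, pow_add, pow_add]
      have h7 : d ^ (p * (p - 1)) * d ^ m = d ^ (p * m) * (d ^ p * d ^ t) := by
        rw [← pow_add, ht, pow_add, pow_add]
      rw [mul_pow, h4, h6] at hq'
      have h8 : d ^ (p * m) * y ^ p = d ^ (p * m) * (d ^ p * d ^ r) * w' -
          (d ^ (p * (p - 1)) * d ^ m) * uF * (y * (1 + d ^ m * y * q)) := by
        linear_combination -hq'
      rw [h8, h7]
      ring
    have h9 : y ^ p = d ^ p * (d ^ r * w' - d ^ t * uF * (y * (1 + d ^ m * y * q))) :=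
      mul_left_cancel₀ (pow_ne_zero _ hd0) h5
    have h10 : y * d⁻¹ ∈ (ng Ω hco hk hM b).W := by
      apply W_of_pow hp0
      have h11 : (y * d⁻¹) ^ p = d ^ r * w' - d ^ t * uF * (y * (1 + d ^ m * y * q)) := by
        rw [mul_pow, h9, inv_pow]
        have := pow_ne_zero p hd0
        field_simp
      rw [h11]
      exact sub_mem (mul_mem (pow_mem hdW _) hw') (mul_mem (mul_mem (pow_mem hdW _) huW)
        (mul_mem hy (add_mem (one_mem _) (mul_mem (mul_mem (pow_mem hdW _) hy) q.2))))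
    refine ⟨y * d⁻¹, h10, ?_⟩
    rw [← hd, e1, pow_succ]
    field_simp

end Fermat.Agent.PRem
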