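import Fermat.Agent.PRem.Asm7

/-!
# Constants, triviality over the smaller field, divisor relations
-/

set_option autoImplicit false
set_option linter.unusedSectionVars false
set_option linter.style.haveILetI false

noncomputable section

namespace Fermat.Agent.PRem

open ModularCurve Polynomial IntermediateField Fermat.Agent.ModPoly Fermat.Agent.Red
  Fermat.Agent.RedMod Fermat.Agent.Cusp Fermat.Agent.SemiSt AlgebraicCurve Fermat.Agent.Curve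
  Fermat.Agent.RR Fermat.Agent.Nod Fermat.Agent.Flat Fermat.Agent.FlatRam Fermat.Agent.Places

local notation "Ω" => AlgebraicClosure ℚ

variable {A : ValuationSubring (AlgebraicClosure ℚ)} {p : ℕ} [hp : Fact p.Prime]
  {M : ℕ} [NeZero M] {k : Type*} [Field k] [Algebra A k] [CharP k p] [IsAlgClosed k]
  {hk : Function.Surjective (algebraMap A k)} {hco : p.Coprime M} {hM : (M : k) ≠ 0} {b : A}
  [Algebra A (FF Ω (p * M))] [IsScalarTower A Ω (FF Ω (p * M))]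
  [Algebra A (FF k M)] [IsScalarTower A k (FF k M)]
  [FunField k (FF k M)] [FunField Ω (FF Ω M)] [FunField Ω (FF Ω (p * M))]
  {E : IntermediateField (K0 A) Ω} [FiniteDimensional (K0 A) E]
  {E₀ : IntermediateField (K0 A) Ω} [FiniteDimensional (K0 A) E₀]
  {e : ℕ} {ϖ : A} {Q : RatStr (ng Ω hco hk hM b)} {e₀ : ℕ} {ϖ₀ : A}
  {Q₀ : RatStr (ng Ω hco hk hM b)} {c : ℕ → ℤ} {P : ℕ → Prop}
  (H : NodMod (ng Ω hco hk hM b) hk (ng_hspan hco hk hM b) (fd k p M).nodes)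

theorem Tr_C {ℓ : ℕ} [NeZero ℓ] (a : k) :
    Tr ℓ (HahnSeries.C a : LaurentSeries k) = HahnSeries.C (((ℓ : k) + 1) * a) := by
  have e3 : HeckeProd.contract ℓ (HahnSeries.C a : LaurentSeries k) = HahnSeries.C a := by
    have := HeckeProd.contract_qExpand ℓ (HahnSeries.C a : LaurentSeries k)
    rwa [qExpand_C] at this
  rw [Tr, qExpand_C, e3, map_mul, map_add, map_one, map_natCast]
  ring

theorem coe_algebraMap_k (a : k) : ((algebraMap k (FF k M) a : FF k M) : LaurentSeries k) =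
    HahnSeries.C a := congrFun (congrArg DFunLike.coe algebraMap_eq_C) _

/-- **equality of the two constants** -/
theorem hecke_const {ℓ : ℕ} [hl : Fact ℓ.Prime] {ζ : Aˣ} (Z : Zt A Ω k ℓ ζ)
    (hℓ : ℓ.Coprime (p * M)) {x y : FF Ω (p * M)} {c₁ c₂ : k}
    (hx : Fo (ng Ω hco hk hM b) (algebraMap A (FF Ω (p * M)) Q.ϖ) x
      (algebraMap k (FF k M) c₁) (algebraMap k (FF k M) c₂))
    (hy : Fo (ng Ω hco hk hM b) (algebraMap A (FF Ω (p * M)) Q.ϖ) y 0 0) {κ : Ω} {m : ℤ}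
    (h : TTf Ω ℓ (p * M) x = algebraMap Ω (FF Ω (p * M)) κ * (x ^ m * y))
    (hne : ¬ (p : ℤ) ∣ m - ℓ - 1) : c₁ = c₂ := by
  have hsm := sm_ϖ Q
  obtain ⟨t, t', ht, ht', f2⟩ := fo_TTf Z hℓ Q.ϖk Q.ϖ0 hx
  have ht1 : t = algebraMap k (FF k M) (((ℓ : k) + 1) * c₁) := by
    apply Subtype.ext
    rw [ht, coe_algebraMap_k, coe_algebraMap_k, Tr_C]
  have ht2 : t' = algebraMap k (FF k M) (((ℓ : k) + 1) * c₂) := by
    apply Subtype.ext
    rw [ht', coe_algebraMap_k, coe_algebraMap_k, Tr_C]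
  have f3 := (hx.zpow hsm m).mul hsm hy
  have f4 := f2.mul hsm (f3.inv hsm)
  have hxy : x ^ m * y ≠ 0 := (f3.uw hsm).ne_zero
  have e1 : TTf Ω ℓ (p * M) x * (x ^ m * y)⁻¹ = algebraMap Ω (FF Ω (p * M)) κ := by
    rw [h, mul_inv_cancel_right₀ hxy]
  rw [e1] at f4
  obtain ⟨X, hX, e2, e3, e4⟩ := f4
  have hϖ : (Q.ϖ : Ω) ≠ 0 := fun h0 => Q.ϖ0 (Subtype.ext h0)
  have e5 : X = algebraMap Ω (FF Ω (p * M)) ((κ - 1) * (Q.ϖ : Ω)⁻¹) := by
    have h5 : algebraMap Ω (FF Ω (p * M)) (Q.ϖ : Ω) ≠ 0 := (_root_.map_ne_zero _).2 hϖ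
    rw [algA] at e2
    rw [map_mul, map_sub, map_one, map_inv₀, e2]
    field_simp
    ring
  obtain ⟨B, hB⟩ : ∃ B, B = (κ - 1) * (Q.ϖ : Ω)⁻¹ := ⟨_, rfl⟩
  rw [← hB] at e5
  have hBA : B ∈ A := by
    have h6 := rd1 (hk := hk) (hco := hco) (hM := hM) (b := b) hX
    rw [e5, coe_algebraMap'] at h6
    exact mem_A_of_C hk h6
  have e6 : X = algebraMap A (FF Ω (p * M)) ⟨B, hBA⟩ := by rw [algA]; exact e5
  rw [e6, r1_algebraMap, ht1] at e3
  rw [e6, r2_algebraMap, ht2] at e4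
  have hinj := (algebraMap k (FF k M)).injective
  have e7 : algebraMap A k ⟨B, hBA⟩ = ((ℓ : k) + 1) * c₁ - m * c₁ := by
    apply hinj
    rw [e3, map_sub, map_mul _ (m : k) c₁, map_intCast]
    ring
  have e8 : algebraMap A k ⟨B, hBA⟩ = ((ℓ : k) + 1) * c₂ - m * c₂ := by
    apply hinj
    rw [e4, map_sub, map_mul _ (m : k) c₂, map_intCast]
    ring
  have e9 : ((m - ℓ - 1 : ℤ) : k) * (c₁ - c₂) = 0 := by
    push_cast
    linear_combination e7 - e8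
  have e10 : ((m - ℓ - 1 : ℤ) : k) ≠ 0 := by
    intro h0
    exact hne ((CharP.intCast_eq_zero_iff k p _).1 h0)
  exact sub_eq_zero.1 ((mul_eq_zero.1 e9).resolve_left e10)

include H in
/-- triviality modulo the square of the uniformizer of the bigger field -/
theorem triv_of {f₀ : FF Ω (p * M)} (hf₀F : f₀ ∈ Q₀.fld) (hf₀ : UW (ng Ω hco hk hM b) f₀)
    (h1 : r1 (ng Ω hco hk hM b) f₀ = 1) (h2 : r2 (ng Ω hco hk hM b) f₀ = 1)
    {D₀ : Divisor Ω (FF Ω (p * M))} (hD₀ : ∀ v, (p : ℤ) * D₀ v = v.ord f₀) {v : A}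
    (hv : Q₀.ϖ = Q.ϖ ^ 2 * v) : Triv (ng Ω hco hk hM b) D₀ (Q.ϖ ^ 2) := by
  have hi := hf₀.inv
  have T := tw_one (hspan := ng_hspan hco hk hM b) H hi.mem (π_eq_one hi.mem
    (by rw [hf₀.r1_inv, h1, inv_one]) (by rw [hf₀.r2_inv, h2, inv_one])) (D := -D₀)
    (fun v => by
      rw [v.ord_inv, ← hD₀ v, Finsupp.neg_apply]
      ring)
  obtain ⟨⟨a, s, -, hsL, w, hw, e1⟩, ⟨a', s', -, hsL', w', hw', e1'⟩⟩ :=
    Sec.base (Q := Q₀) H (inv_mem hf₀F) T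
  have hvW : algebraMap A (FF Ω (p * M)) v ∈ (ng Ω hco hk hM b).W := Subalgebra.algebraMap_mem _ _
  rw [sub_neg_eq_add] at hsL hsL'
  refine ⟨⟨a, s, hsL, algebraMap A _ v * w, mul_mem hvW hw, ?_⟩,
    ⟨a', s', hsL', algebraMap A _ v * w', mul_mem hvW hw', ?_⟩⟩
  · rw [e1, hv, pow_one, map_mul]; ring
  · rw [e1', hv, pow_one, map_mul]; ring

/-- the divisor relation -/
theorem div_rel {σ : Ω ≃+* Ω} {f f₀ g : FF Ω (p * M)} (hf : f ≠ 0) (hf₀ : f₀ ≠ 0) (hg : g ≠ 0)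
    {κ : Ω} (hκ : κ ≠ 0) (h : act (p * M) σ f = f * f₀ * (algebraMap Ω _ κ * g ^ p))
    {D D₀ : Divisor Ω (FF Ω (p * M))} (hD : ∀ v, (p : ℤ) * D v = v.ord f)
    (hD₀ : ∀ v, (p : ℤ) * D₀ v = v.ord f₀) :
    galAut (p * M) σ • D + divisor Ω g⁻¹ = D + D₀ := by
  have e1 : (p : ℤ) • D = divisor Ω f := by
    ext v
    rw [Finsupp.smul_apply, divisor_apply, smul_eq_mul, hD]
  have e2 : (p : ℤ) • (galAut (p * M) σ • D) = divisor Ω (act (p * M) σ f) := by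
    rw [← RatStr.smul_zsmul', e1, smul_divisor]
    rfl
  have hκF : algebraMap Ω (FF Ω (p * M)) κ ≠ 0 := (_root_.map_ne_zero _).2 hκ
  ext v
  have e3 := congrArg (fun D : Divisor Ω (FF Ω (p * M)) => D v) e2
  simp only [Finsupp.smul_apply, divisor_apply, smul_eq_mul] at e3
  rw [h, v.ord_mul (mul_ne_zero hf hf₀) (mul_ne_zero hκF (pow_ne_zero _ hg)), v.ord_mul hf hf₀,
    v.ord_mul hκF (pow_ne_zero _ hg), ord_algebraMap, Curve.ord_pow, ← hD, ← hD₀] at e3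
  rw [Finsupp.add_apply, Finsupp.add_apply, divisor_apply, v.ord_inv]
  have hp0 : (p : ℤ) ≠ 0 := by exact_mod_cast hp.out.ne_zero
  apply mul_left_cancel₀ hp0
  linear_combination e3

end Fermat.Agent.PRem
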