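import Fermat.Agent.PRem.Asm8

/-!
# The nonsplit case: lemmas
-/

set_option autoImplicit false
set_option linter.unusedSectionVars false
set_option linter.style.haveILetI false

noncomputable section

namespace Fermat.Agent.PRem

open ModularCurve Polynomial IntermediateField Fermat.Agent.ModPoly Fermat.Agent.Red
  Fermat.Agent.RedMod Fermat.Agent.Cusp Fermat.Agent.SemiSt AlgebraicCurve Fermat.Agent.Curve
  Fermat.Agent.RR Fermat.Agent.Nod Fermat.Agent.Flat Fermat.Agent.FlatRam Fermat.Agent.Places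

local notation "Ω" => AlgebraicClosure ℚ

variable {A : ValuationSubring (AlgebraicClosure ℚ)} {p : ℕ} [hp : Fact p.Prime]
  {M : ℕ} [NeZero M] {k : Type*} [Field k] [Algebra A k] [CharP k p] [IsAlgClosed k]
  {hk : Function.Surjective (algebraMap A k)} {hco : p.Coprime M} {hM : (M : k) ≠ 0} {b : A}
  [Algebra A (FF Ω (p * M))] [IsScalarTower A Ω (FF Ω (p * M))]
  [Algebra A (FF k M)] [IsScalarTower A k (FF k M)]
  [FunField k (FF k M)] [FunField Ω (FF Ω M)] [FunField Ω (FF Ω (p * M))]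
  {E : IntermediateField (K0 A) Ω} [FiniteDimensional (K0 A) E]
  {E₀ : IntermediateField (K0 A) Ω} [FiniteDimensional (K0 A) E₀]
  {e : ℕ} {ϖ : A} {Q : RatStr (ng Ω hco hk hM b)} {e₀ : ℕ} {ϖ₀ : A}
  {Q₀ : RatStr (ng Ω hco hk hM b)} {c : ℕ → ℤ} {P : ℕ → Prop}
  (H : NodMod (ng Ω hco hk hM b) hk (ng_hspan hco hk hM b) (fd k p M).nodes)

theorem eq_one_of_pow {F : Type*} [Field F] [CharP F p] {x : F} (h : x ^ p = 1) : x = 1 := by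
  have h2 : frobenius F p x = frobenius F p 1 := by rw [map_one]; exact h
  exact frobenius_inj F p h2

instance charP_FF : CharP (FF k M) p := charP_of_injective_algebraMap
  (algebraMap k (FF k M)).injective p

include H in
/-- the class `ξ₀` has representatives with trivial reduction -/
theorem exists_f0 {ι : Ω →+* ℂ} (R₀ : RS E₀ e₀ ϖ₀ Q₀) {τ : Ω ≃ₐ[K0 A] Ω} {n : ℤ}
    (hn : ¬ (p : ℤ) ∣ n - 1) {ξ₀ : Kum.XL (p * M) p}
    (hτ : Kum.rhoF ι p (AlgEquiv.restrictScalars ℚ τ) ξ₀ = n • ξ₀)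
    (hfix₀ : ∀ σ : Ω ≃ₐ[ℚ] Ω, (∀ x ∈ E₀, σ x = x) → Kum.rhoF ι p σ ξ₀ = ξ₀)
    (hE₀ : EigCls c P ξ₀) {ℓ : ℕ} [hl : Fact ℓ.Prime] (hℓN : ¬ ℓ ∣ p * M) (hPℓ : P ℓ)
    (hℓp : ℓ ≠ p) (hne : ¬ (p : ℤ) ∣ c ℓ - ℓ - 1) :
    ∃ f ∈ Q₀.fld, UW (ng Ω hco hk hM b) f ∧ r1 (ng Ω hco hk hM b) f = 1 ∧
      r2 (ng Ω hco hk hM b) f = 1 ∧ HasCls ι p f ξ₀ := by
  obtain ⟨f, hfF, hf, hcl⟩ := R₀.exists_rep ι hfix₀ hE₀ hℓN hPℓ hℓp hne
  have h1 : HasCls ι p (act (p * M) (τ : Ω ≃+* Ω) f) (n • ξ₀) := by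
    have := hcl.gal (AlgEquiv.restrictScalars ℚ τ)
    rw [hτ] at this
    exact this
  obtain ⟨g, hg, e1⟩ := (hcl.zpow n).exists_pow h1
  have hfn := hf.zpow n
  have hgU : UW (ng Ω hco hk hM b) g := by
    apply uw_of_pow hp.out.ne_zero
    have h2 := (uw_act (b := b) τ hf).mul hfn.inv
    have h3 := hfn.ne_zero
    have e2 : act (p * M) (τ : Ω ≃+* Ω) f * (f ^ n)⁻¹ = g ^ p := by rw [e1]; field_simp
    rwa [e2] at h2
  have e3 : r1 (ng Ω hco hk hM b) f = r1 (ng Ω hco hk hM b) f ^ n *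
      r1 (ng Ω hco hk hM b) g ^ p := by
    rw [← hf.r1_zpow, ← r1_pow hgU.mem, ← r1_mul hfn.mem (hgU.pow p).mem, ← e1, r1_act τ hf.mem]
  have e4 : r2 (ng Ω hco hk hM b) f = r2 (ng Ω hco hk hM b) f ^ n *
      r2 (ng Ω hco hk hM b) g ^ p := by
    have h5 : r2 (ng Ω hco hk hM b) (f ^ n) = r2 (ng Ω hco hk hM b) f ^ n := by
      have := (uw_w hf).r1_zpow n
      rw [r1_w hf.mem, ← map_zpow₀, r1_w hfn.mem] at this
      exact this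
    rw [← h5, ← r2_pow hgU.mem, ← r2_mul hfn.mem (hgU.pow p).mem, ← e1, r2_act τ hf.mem]
  exact normalize H hfF hf hcl (exists_root_of hf.r1_ne e3 hn) (exists_root_of hf.r2_ne e4 hn)

theorem RS.act_fld (R : RS E e ϖ Q) {σ : Ω ≃ₐ[K0 A] Ω} (hσE : ∀ x ∈ E, σ x ∈ E)
    {x : FF Ω (p * M)} (hx : x ∈ Q.fld) : act (p * M) (σ : Ω ≃+* Ω) x ∈ Q.fld := by
  rw [R.mem_fld, mem_EL] at hx ⊢
  intro n
  exact hσE _ (hx n)

/-- the comparison function -/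
theorem exists_g {ι : Ω →+* ℂ} (R : RS E e ϖ Q) {σ : Ω ≃ₐ[K0 A] Ω} (hσE : ∀ x ∈ E, σ x ∈ E)
    {ξ ξ₀ : Kum.XL (p * M) p} (hσξ : Kum.rhoF ι p (AlgEquiv.restrictScalars ℚ σ) ξ = ξ + ξ₀)
    {f f₀ : FF Ω (p * M)} (hfF : f ∈ Q.fld) (hf : UW (ng Ω hco hk hM b) f) (hcl : HasCls ι p f ξ)
    (hf₀F : f₀ ∈ Q.fld) (hf₀ : UW (ng Ω hco hk hM b) f₀) (h1 : r1 (ng Ω hco hk hM b) f₀ = 1)
    (h2 : r2 (ng Ω hco hk hM b) f₀ = 1) (hcl₀ : HasCls ι p f₀ ξ₀) :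
    ∃ g ∈ Q.fld, UW (ng Ω hco hk hM b) g ∧ r1 (ng Ω hco hk hM b) g = 1 ∧
      r2 (ng Ω hco hk hM b) g = 1 ∧ ∃ κ : Ω, κ ≠ 0 ∧ act (p * M) (σ : Ω ≃+* Ω) f =
        f * f₀ * (algebraMap Ω (FF Ω (p * M)) κ * g ^ p) := by
  have h3 : HasCls ι p (act (p * M) (σ : Ω ≃+* Ω) f) (ξ + ξ₀) := by
    have := hcl.gal (AlgEquiv.restrictScalars ℚ σ)
    rw [hσξ] at this
    exact this
  obtain ⟨g, hg, e1⟩ := (hcl.mul hcl₀).exists_pow h3
  have hff := hf.mul hf₀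
  have hff0 := hff.ne_zero
  have e2 : act (p * M) (σ : Ω ≃+* Ω) f * (f * f₀)⁻¹ = g ^ p := by
    rw [e1, mul_comm (f * f₀), mul_inv_cancel_right₀ hff0]
  have hgU : UW (ng Ω hco hk hM b) g := by
    apply uw_of_pow hp.out.ne_zero
    have h2 := (uw_act (b := b) σ hf).mul hff.inv
    rwa [e2] at h2
  have g1 : r1 (ng Ω hco hk hM b) g = 1 := by
    apply eq_one_of_pow (p := p)
    have h4 := r1_act σ hf.mem
    rw [e1, r1_mul hff.mem (hgU.pow p).mem, r1_mul hf.mem hf₀.mem, h1, mul_one,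
      r1_pow hgU.mem] at h4
    exact mul_left_cancel₀ hf.r1_ne (h4.trans (mul_one _).symm)
  have g2 : r2 (ng Ω hco hk hM b) g = 1 := by
    apply eq_one_of_pow (p := p)
    have h4 := r2_act σ hf.mem
    rw [e1, r2_mul hff.mem (hgU.pow p).mem, r2_mul hf.mem hf₀.mem, h2, mul_one,
      r2_pow hgU.mem] at h4
    exact mul_left_cancel₀ hf.r2_ne (h4.trans (mul_one _).symm)
  obtain ⟨κ, g', hg'F, hg', g1', g2', e3⟩ := R.norm_one hgU g1 g2 hp.out.ne_zero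
    (c := 1) one_ne_zero (by
      rw [map_one, one_mul, ← e2]
      exact mul_mem (R.act_fld hσE hfF) (inv_mem (mul_mem hfF hf₀F)))
  refine ⟨g', hg'F, hg', g1', g2', ((κ : A) : Ω) ^ p, pow_ne_zero _ ?_, ?_⟩
  · intro h0
    have : (κ : A) = 0 := Subtype.ext h0
    exact κ.ne_zero this
  · rw [e1, e3, mul_pow, algA, map_pow]

/-- orders at all places -/
theorem dvd_all {σ : Ω ≃+* Ω} {z : FF Ω (p * M)} {θ : k}
    (S : WildAut Q (galAut (p * M) σ) z θ) (h5 : 5 ≤ p) {c₀ : ℕ}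
    (T : Thick Q (rF Ω p M)⁻¹ (12 * (p * (p - 1))) c₀)
    (h12 : ∀ j : Nd (ng Ω hco hk hM b) hk (fd k p M).nodes,
      ((fd k p M).nodes.v j).ord (r1 (ng Ω hco hk hM b) (rF Ω p M)⁻¹) ∣ 12)
    {f : FF Ω (p * M)} (hf : UW (ng Ω hco hk hM b) f) (hfF : f ∈ Q.fld)
    {D D₀ : Divisor Ω (FF Ω (p * M))} (hD : ∀ v, (p : ℤ) * D v = v.ord f)
    {Fh h : FF Ω (p * M)} (hF : Fh = 1 + algebraMap A (FF Ω (p * M)) Q.ϖ * h)
    (hh : h ∈ (ng Ω hco hk hM b).W) (hDσ : galAut (p * M) σ • D + divisor Ω Fh = D + D₀)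
    (T₀ : Triv (ng Ω hco hk hM b) D₀ (Q.ϖ ^ 2)) {a : k}
    (h1 : r1 (ng Ω hco hk hM b) h = algebraMap k (FF k M) a)
    (h2 : r2 (ng Ω hco hk hM b) h = algebraMap k (FF k M) a)
    (H : NodMod (ng Ω hco hk hM b) hk (ng_hspan hco hk hM b) (fd k p M).nodes)
    (v : Place k (FF k M)) : (p : ℤ) ∣ v.ord (r1 (ng Ω hco hk hM b) f) := by
  by_cases hv : ∃ j : Nd (ng Ω hco hk hM b) hk (fd k p M).nodes, (fd k p M).nodes.v j = v
  · obtain ⟨j, rfl⟩ := hv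
    exact WildAut.dvd_node H S hp.out h5 T hf hfF hD hF hh hDσ T₀ h1 h2 j (h12 j)
  · push Not at hv
    obtain ⟨a₀, ha₀⟩ := RatStr.smooth H hf hfF hD hp.out.ne_zero
    obtain ⟨x, -, -, -, -, h⟩ := ha₀ a₀ le_rfl v hv
    exact ⟨v.ord (r1 (ng Ω hco hk hM b) x) + DD k (tb (ng Ω hco hk hM b)).1 a₀ 0 v, by linarith⟩

theorem thick12 (H : NodMod (ng Ω hco hk hM b) hk (ng_hspan hco hk hM b) (fd k p M).nodes)
    (R : RS E 1 ϖ Q) (j : Nd (ng Ω hco hk hM b) hk (fd k p M).nodes) :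
    ((fd k p M).nodes.v j).ord (r1 (ng Ω hco hk hM b) (rF Ω p M)⁻¹) ∣ 12 := by
  obtain ⟨c₀, T⟩ := R.exists_thick one_pos
  rw [mul_one] at T
  have hν := T.pos H j
  refine thick_dvd hν fun i => ?_
  obtain ⟨a₀, ha₀⟩ := T.node H (p := 1) (f := 1) UW.one (D := 0) (one_mem _)
    (fun v => by simp) one_ne_zero i j
  obtain ⟨α, -, h1, h2⟩ := ha₀ a₀ le_rfl
  refine ⟨α, ?_, ?_⟩
  · rw [r1_one, Place.ord_one] at h1
    push_cast at h1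
    linarith
  · rw [r1_one, Place.ord_one] at h2
    push_cast at h2
    linarith

end Fermat.Agent.PRem
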