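import Fermat.Agent.PRem.ConcW

/-!
# The rational structure of the modular function field of level `p M`
-/

set_option autoImplicit false
set_option linter.unusedSectionVars false
set_option linter.style.haveILetI false

noncomputable section

namespace Fermat.Agent.PRem

open ModularCurve Polynomial IntermediateField Fermat.Agent.ModPoly Fermat.Agent.Red
  Fermat.Agent.RedMod Fermat.Agent.Cusp Fermat.Agent.SemiSt AlgebraicCurve Fermat.Agent.Curve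
  Fermat.Agent.RR Fermat.Agent.Nod Fermat.Agent.Flat Fermat.Agent.FlatRam Fermat.Agent.Places

local notation "Ω" => AlgebraicClosure ℚ

variable {A : ValuationSubring (AlgebraicClosure ℚ)} {p : ℕ} [hp : Fact p.Prime]
  {M : ℕ} [NeZero M] {k : Type*} [Field k] [Algebra A k] [CharP k p] [IsAlgClosed k]
  (hk : Function.Surjective (algebraMap A k))
  {E : IntermediateField (K0 A) Ω} [FiniteDimensional (K0 A) E]

section Fix

variable (N : ℕ)

variable (E) in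
/-- the automorphisms attached to the automorphisms of `Ω` fixing `E` -/
def SE : Set (SemilinearAut Ω (FF Ω N)) := {θ | ∃ σ ∈ Fx E, θ = galAut N σ}

variable {N}

theorem fix_iff {x : FF Ω N} : (∀ θ ∈ SE E N, θ • x = x) ↔ (x : LaurentSeries Ω) ∈ EL E := by
  constructor
  · intro h σ hσ
    have := h _ ⟨σ, hσ, rfl⟩
    exact congrArg Subtype.val this
  · rintro h θ ⟨σ, hσ, rfl⟩
    exact Subtype.ext (h σ hσ)

theorem coe_w_mem_EL (hco : p.Coprime M) {x : FF Ω (p * M)} (hx : (x : LaurentSeries Ω) ∈ EL E) :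
    ((w Ω hco x : FF Ω (p * M)) : LaurentSeries Ω) ∈ EL E := by
  rw [← fix_iff] at hx ⊢
  rintro θ ⟨σ, hσ, rfl⟩
  rw [galAut_smul, act_w]
  exact congrArg _ (hx _ ⟨σ, hσ, rfl⟩)

theorem act_yy (hco : p.Coprime M) (hM : (M : k) ≠ 0) (σ : Ω ≃+* Ω)
    (i : Fin (dedekindPsi M) ⊕ (Fin (dedekindPsi M) × Fin p)) :
    act (p * M) σ (yy Ω p hco hM i) = yy Ω p hco hM i := by
  have h1 : act (p * M) σ (uu Ω p M) = uu Ω p M := by
    rw [uu, map_sub, map_pow, act_qe, act_jF, act_jF]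
  have h2 : ∀ j, act M σ (mi Ω hM j) = mi Ω hM j := fun j => by
    apply Subtype.ext
    rw [coe_act]
    exact coeffMap_cst _ _
  rcases i with i | ⟨i, a⟩
  · rw [yy, map_mul, h1, act_incl, h2]
  · rw [yy, act_w]
    congr 1
    rw [map_mul, map_mul, map_pow, h1, act_incl, h2, act_jF]

theorem fixed_mul {F : Type*} [Field F] {K : Type*} [Field K] [Algebra K F]
    {S : Set (SemilinearAut K F)} {x y : F} (hx : ∀ θ ∈ S, θ • x = x) (hy : ∀ θ ∈ S, θ • y = y) :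
    ∀ θ ∈ S, θ • (x * y) = x * y := fun θ hθ => by rw [smul_mul', hx θ hθ, hy θ hθ]

include hk in
/-- the function field is spanned by the functions with coefficients in `E` -/
theorem span_fixed (hco : p.Coprime M) (hM : (M : k) ≠ 0) :
    ⊤ ≤ Submodule.span Ω {x : FF Ω (p * M) | ∀ θ ∈ SE E (p * M), θ • x = x} := by
  rintro x -
  obtain ⟨P, hP0, Q, hPQ⟩ := sspan (A := A) (K := Ω) (k := k) hco hk hM x
  obtain ⟨P₁, hP₁0, P₂, hP₂⟩ := exists_dvd_map (E := E) hP0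
  have hP₁m : P₁.map (algebraMap E Ω) ≠ 0 :=
    (Polynomial.map_ne_zero_iff (algebraMap E Ω).injective).2 hP₁0
  obtain ⟨d, hd⟩ : ∃ d : FF Ω (p * M), d = aeval (jF' Ω (p * M)) (P₁.map (algebraMap E Ω)) :=
    ⟨_, rfl⟩
  have hd0 : d ≠ 0 := by
    intro h0
    apply hP₁m
    rw [hd] at h0
    exact (transcendental_iff_injective.1 (RR.transcendental_jF (p * M)))
      (h0.trans (map_zero _).symm)
  have hdE : (d : LaurentSeries Ω) ∈ EL E := by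
    rw [hd, coe_aeval_jF]
    refine aeval_mem_EL (jqModC_mem_EL E) fun n => ?_
    rw [coeff_map]
    exact (P₁.coeff n).2
  have hx : x = ∑ i, aeval (jF' Ω (p * M)) (P₂ * Q i) * (yy Ω p hco hM i * d⁻¹) := by
    have h1 : d * x = aeval (jF' Ω (p * M)) P₂ * (aeval (jF' Ω (p * M)) P * x) := by
      rw [hd, hP₂, map_mul]; ring
    rw [hPQ] at h1
    have h2 : x = d⁻¹ * (d * x) := by rw [inv_mul_cancel_left₀ hd0]
    rw [h2, h1, Finset.mul_sum, Finset.mul_sum]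
    refine Finset.sum_congr rfl fun i _ => ?_
    rw [map_mul]
    ring
  rw [hx]
  refine sum_mem fun i _ => ?_
  rw [Polynomial.aeval_eq_sum_range, Finset.sum_mul]
  refine sum_mem fun n _ => ?_
  rw [smul_mul_assoc]
  refine Submodule.smul_mem _ _ (Submodule.subset_span ?_)
  refine fixed_mul ?_ (fixed_mul ?_ ?_)
  · rintro θ ⟨σ, hσ, rfl⟩
    rw [galAut_smul, map_pow, act_jF]
  · rintro θ ⟨σ, hσ, rfl⟩
    exact act_yy hco hM σ i
  · rw [fix_iff]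
    exact inv_mem hdE

end Fix

section Val

variable {e : ℕ} {ϖ : A} (U : Unif E p e ϖ)

include hk U in
/-- scaling by powers of the uniformizer -/
theorem exists_isU (hA : A.LiesOverPrime p) (hco : p.Coprime M) (hM : (M : k) ≠ 0)
    {x : FF Ω (p * M)} (hx0 : x ≠ 0) (hx : (x : LaurentSeries Ω) ∈ EL E) :
    ∃ κ : ℤ, IsU A Ω k (HahnSeries.C ((ϖ : Ω) ^ κ) * (x : LaurentSeries Ω)) := by
  obtain ⟨κ, a, b, haE, hbE, ha, hb, h⟩ := exists_rep hk hA hco hM U hx0 hx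
  have hm : HahnSeries.C ((ϖ : Ω) ^ κ) * (x : LaurentSeries Ω) ∈ WL A Ω k := ⟨a, b, hb, h⟩
  refine ⟨κ, hm, ?_⟩
  rw [πL_eq ⟨_, hm⟩ hb h]
  exact div_ne_zero ha hb

end Val

theorem coe_zpow' {N : ℕ} (x : FF Ω N) (n : ℤ) :
    ((x ^ n : FF Ω N) : LaurentSeries Ω) = (x : LaurentSeries Ω) ^ n := map_zpow₀ (FF Ω N).val x n

theorem isU_zpow {x : LaurentSeries Ω} (h : IsU A Ω k x) (n : ℤ) : IsU A Ω k (x ^ n) := by
  have h1 : ∀ m : ℕ, IsU A Ω k (x ^ m) := by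
    intro m
    induction m with
    | zero => rw [pow_zero]; exact Rd.one.isU one_ne_zero
    | succ m ih => rw [pow_succ]; exact ih.mul h
  rcases n with m | m
  · rw [Int.ofNat_eq_natCast, zpow_natCast]; exact h1 m
  · rw [zpow_negSucc]
    exact (h1 _).inv

section Psi

variable (hco : p.Coprime M) (ϖ : A) (n : ℕ)

/-- the uniformizer at the second component -/
def psi : FF Ω (p * M) := w Ω hco (gp Ω p M) ^ (n + 1) + algebraMap Ω _ (ϖ : Ω) * gp Ω p M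

theorem w_psi : w Ω hco (psi hco ϖ n) = gp Ω p M ^ (n + 1) +
    algebraMap Ω _ (ϖ : Ω) * w Ω hco (gp Ω p M) := by
  rw [psi, map_add, map_pow, map_mul, w_w, AlgEquiv.commutes]

theorem coe_algebraMap_mul (c : Ω) (x : FF Ω (p * M)) :
    ((algebraMap Ω (FF Ω (p * M)) c * x : FF Ω (p * M)) : LaurentSeries Ω) =
      HahnSeries.C c * (x : LaurentSeries Ω) := val_algebraMap_mul c x

variable {ϖ n}

theorem psi_fst (h0 : algebraMap A k ϖ = 0) :
    Rd A ((psi hco ϖ n : FF Ω (p * M)) : LaurentSeries Ω) (1 : LaurentSeries k) := by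
  have h1 := gp_fst (A := A) (K := Ω) (k := k) (q := p) (M := M) hco
  have h2 := gp_snd (A := A) (K := Ω) (k := k) (q := p) (M := M) hco
  have h3 := (h2.pow (n + 1)).add ((Rd.C (K := Ω) (k := k) ϖ).mul h1)
  rw [one_pow, mul_zero, add_zero] at h3
  convert h3 using 1
  rw [psi, AddMemClass.coe_add, coe_algebraMap_mul]
  rfl

theorem psi_snd (hϖ : (ϖ : Ω) ≠ 0) (hn : Rd A
      (HahnSeries.C (algebraMap A Ω ϖ)⁻¹ * ((gp Ω p M : FF Ω (p * M)) : LaurentSeries Ω) ^ (n + 1))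
      (0 : LaurentSeries k)) :
    Rd A (HahnSeries.C (ϖ : Ω)⁻¹ * ((w Ω hco (psi hco ϖ n) : FF Ω (p * M)) : LaurentSeries Ω))
      (1 : LaurentSeries k) := by
  have h2 := gp_snd (A := A) (K := Ω) (k := k) (q := p) (M := M) hco
  have h3 := hn.add h2
  rw [zero_add] at h3
  convert h3 using 1
  rw [w_psi, AddMemClass.coe_add, coe_algebraMap_mul, mul_add, ← mul_assoc (HahnSeries.C _),
    ← map_mul, inv_mul_cancel₀ hϖ, map_one, one_mul]
  rfl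

end Psi

section W

variable (hco : p.Coprime M) (hM : (M : k) ≠ 0)
  [Algebra A (FF Ω (p * M))] [IsScalarTower A Ω (FF Ω (p * M))]
  [Algebra A (FF k M)] [IsScalarTower A k (FF k M)]

theorem mem_WW_of {x : FF Ω (p * M)} {a b : LaurentSeries k}
    (h1 : Rd A (x : LaurentSeries Ω) a) (h2 : Rd A (w Ω hco x : LaurentSeries Ω) b) :
    x ∈ WW A Ω k hco := ⟨h1.choose, h2.choose⟩

theorem sred_fst_eq {x : FF Ω (p * M)} (hx : x ∈ WW A Ω k hco) {y : FF k M}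
    (h1 : Rd A (x : LaurentSeries Ω) (y : LaurentSeries k)) :
    (sred Ω hco hk hM ⟨x, hx⟩).1 = y := by
  apply Subtype.ext
  rw [coe_sred_fst]
  exact h1.uniq ⟨_, rfl⟩ |>.symm

theorem sred_snd_eq {x : FF Ω (p * M)} (hx : x ∈ WW A Ω k hco) {y : FF k M}
    (h1 : Rd A (w Ω hco x : LaurentSeries Ω) (y : LaurentSeries k)) :
    (sred Ω hco hk hM ⟨x, hx⟩).2 = y := by
  apply Subtype.ext
  rw [coe_sred_snd]
  exact h1.uniq ⟨_, rfl⟩ |>.symm

theorem sred_fst_ne {x : FF Ω (p * M)} (hx : x ∈ WW A Ω k hco)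
    (h1 : IsU A Ω k (x : LaurentSeries Ω)) : (sred Ω hco hk hM ⟨x, hx⟩).1 ≠ 0 := by
  intro h
  have := congrArg Subtype.val h
  rw [coe_sred_fst] at this
  exact h1.choose_spec this

theorem sred_snd_ne {x : FF Ω (p * M)} (hx : x ∈ WW A Ω k hco)
    (h1 : IsU A Ω k (w Ω hco x : LaurentSeries Ω)) : (sred Ω hco hk hM ⟨x, hx⟩).2 ≠ 0 := by
  intro h
  have := congrArg Subtype.val h
  rw [coe_sred_snd] at this
  exact h1.choose_spec this

variable [FunField k (FF k M)] [FunField Ω (FF Ω M)] [FunField Ω (FF Ω (p * M))]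
  {e : ℕ} {ϖ : A} (U : Unif E p e ϖ)

theorem psi_ne (h0 : algebraMap A k ϖ = 0) {n : ℕ} : psi (M := M) hco ϖ n ≠ 0 := by
  intro h
  have h1 := psi_fst (k := k) hco (n := n) h0
  rw [h] at h1
  exact h1.ne one_ne_zero rfl

omit [FunField k (FF k M)] [FunField Ω (FF Ω M)] [FunField Ω (FF Ω (p * M))] in
include U in
theorem psi_r1 (h0 : algebraMap A k ϖ = 0) {n : ℕ} (h2 : Rd A (HahnSeries.C (ϖ : Ω)⁻¹ *
    ((w Ω hco (psi hco ϖ n) : FF Ω (p * M)) : LaurentSeries Ω)) (1 : LaurentSeries k)) :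
    Rd A (w Ω hco (psi hco ϖ n) : LaurentSeries Ω) (0 : LaurentSeries k) := by
  have := (Rd.C (K := Ω) (k := k) ϖ).mul h2
  rw [h0, map_zero, zero_mul, ← mul_assoc, ← map_mul] at this
  have e1 : (algebraMap A Ω ϖ * (ϖ : Ω)⁻¹) = 1 := mul_inv_cancel₀ U.ne
  rwa [e1, map_one, one_mul] at this

omit [FunField k (FF k M)] [FunField Ω (FF Ω M)] [FunField Ω (FF Ω (p * M))] in
theorem psi_r2 (h0 : algebraMap A k ϖ = 0) {n : ℕ} :
    Rd A ((algebraMap Ω _ (ϖ : Ω) * (psi hco ϖ n)⁻¹ : FF Ω (p * M)) : LaurentSeries Ω)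
      (0 : LaurentSeries k) := by
  have := (Rd.C (K := Ω) (k := k) ϖ).mul ((psi_fst (k := k) hco (n := n) h0).inv one_ne_zero)
  rw [h0, map_zero, zero_mul] at this
  rw [coe_algebraMap_mul]
  exact this

omit [FunField k (FF k M)] [FunField Ω (FF Ω M)] [FunField Ω (FF Ω (p * M))] in
theorem psi_r3 {n : ℕ} (h2 : Rd A (HahnSeries.C (ϖ : Ω)⁻¹ *
    ((w Ω hco (psi hco ϖ n) : FF Ω (p * M)) : LaurentSeries Ω)) (1 : LaurentSeries k)) :
    Rd A (w Ω hco (algebraMap Ω _ (ϖ : Ω) * (psi hco ϖ n)⁻¹) : LaurentSeries Ω)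
      (1 : LaurentSeries k) := by
  have := h2.inv one_ne_zero
  rw [inv_one] at this
  convert this using 1
  have hc : (HahnSeries.C (ϖ : Ω)⁻¹ : LaurentSeries Ω)⁻¹ = HahnSeries.C (ϖ : Ω) := by
    rw [← map_inv₀, inv_inv]
  rw [map_mul, AlgEquiv.commutes, coe_algebraMap_mul, map_inv₀, mul_inv, hc]
  rfl

omit [FunField k (FF k M)] [FunField Ω (FF Ω M)] [FunField Ω (FF Ω (p * M))] in
include hk U in
theorem exists_val (hA : A.LiesOverPrime p) (hco : p.Coprime M) (hM : (M : k) ≠ 0)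
    {ψ : FF Ω (p * M)} (h1 : Rd A (ψ : LaurentSeries Ω) (1 : LaurentSeries k))
    (h2 : Rd A (HahnSeries.C (ϖ : Ω)⁻¹ * ((w Ω hco ψ : FF Ω (p * M)) : LaurentSeries Ω))
      (1 : LaurentSeries k)) {x : FF Ω (p * M)} (hx0 : x ≠ 0) (hx : (x : LaurentSeries Ω) ∈ EL E) :
    ∃ a b : ℤ, ∃ u : FF Ω (p * M), ∃ _ : IsU A Ω k (u : LaurentSeries Ω),
      ∃ _ : IsU A Ω k (w Ω hco u : LaurentSeries Ω),
      x = (algebraMap Ω _ (ϖ : Ω) * ψ⁻¹) ^ a * ψ ^ b * u := by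
  have hψ0 : ψ ≠ 0 := by
    rintro rfl
    exact h1.ne one_ne_zero rfl
  obtain ⟨κ₁, h3⟩ := exists_isU hk U hA hco hM hx0 hx
  obtain ⟨κ₂, h4⟩ := exists_isU hk U hA hco hM (x := w Ω hco x)
    ((_root_.map_ne_zero _).2 hx0) (coe_w_mem_EL hco hx)
  have hϖF : algebraMap Ω (FF Ω (p * M)) (ϖ : Ω) ≠ 0 := (_root_.map_ne_zero _).2 U.ne
  have e1 : x * (algebraMap Ω (FF Ω (p * M)) (ϖ : Ω) * ψ⁻¹) ^ κ₁ * ψ ^ κ₂ =
      (algebraMap Ω (FF Ω (p * M)) ((ϖ : Ω) ^ κ₁) * x) * ψ ^ (κ₂ - κ₁) := by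
    rw [mul_zpow, inv_zpow', map_zpow₀, sub_eq_neg_add, zpow_add₀ hψ0]
    ring
  have hu1 : IsU A Ω k ((x * (algebraMap Ω (FF Ω (p * M)) (ϖ : Ω) * ψ⁻¹) ^ κ₁ * ψ ^ κ₂ :
      FF Ω (p * M)) : LaurentSeries Ω) := by
    rw [e1, MulMemClass.coe_mul, coe_algebraMap_mul]
    refine h3.mul ?_
    have := isU_zpow (h1.isU one_ne_zero) (κ₂ - κ₁)
    rwa [← coe_zpow'] at this
  have hu2 : IsU A Ω k ((w Ω hco (x * (algebraMap Ω (FF Ω (p * M)) (ϖ : Ω) * ψ⁻¹) ^ κ₁ *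
      ψ ^ κ₂) : FF Ω (p * M)) : LaurentSeries Ω) := by
    have e2 : w Ω hco (x * (algebraMap Ω (FF Ω (p * M)) (ϖ : Ω) * ψ⁻¹) ^ κ₁ * ψ ^ κ₂) =
        (algebraMap Ω (FF Ω (p * M)) ((ϖ : Ω) ^ κ₂) * w Ω hco x) *
          (algebraMap Ω (FF Ω (p * M)) (ϖ : Ω)⁻¹ * w Ω hco ψ) ^ (κ₂ - κ₁) := by
      have hwψ0 : w Ω hco ψ ≠ 0 := (_root_.map_ne_zero _).2 hψ0
      rw [map_mul, map_mul, map_zpow₀, map_zpow₀, map_mul, AlgEquiv.commutes, map_inv₀,
        mul_zpow, inv_zpow', mul_zpow, map_inv₀, inv_zpow', map_zpow₀, neg_sub, zpow_sub₀ hϖF,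
        sub_eq_neg_add, zpow_add₀ hwψ0]
      field_simp
    rw [e2, MulMemClass.coe_mul, coe_algebraMap_mul]
    refine h4.mul ?_
    have := isU_zpow (h2.isU one_ne_zero) (κ₂ - κ₁)
    rw [← coe_algebraMap_mul] at this
    rwa [← coe_zpow'] at this
  refine ⟨-κ₁, -κ₂, _, hu1, hu2, ?_⟩
  have h5 : (algebraMap Ω (FF Ω (p * M)) (ϖ : Ω) * ψ⁻¹) ≠ 0 := mul_ne_zero hϖF (inv_ne_zero hψ0)
  rw [zpow_neg, zpow_neg]
  have h6 := zpow_ne_zero κ₁ h5
  have h7 := zpow_ne_zero κ₂ hψ0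
  field_simp

include U in
/-- **The rational structure.** -/
theorem exists_ratStr (hA : A.LiesOverPrime p) {b : A} (hb : (b : Ω) ∈ K0 A) :
    ∃ Q : RatStr (ng Ω hco hk hM b), Q.S = SE E (p * M) ∧ Q.ϖ = ϖ ∧
      ∃ n, Q.ψ = psi hco ϖ n ∧ Q.ψ' = algebraMap Ω _ (ϖ : Ω) * (psi hco ϖ n)⁻¹ ∧
        Rd A (HahnSeries.C (ϖ : Ω)⁻¹ * ((w Ω hco (psi hco ϖ n) : FF Ω (p * M)) :
          LaurentSeries Ω)) (1 : LaurentSeries k) := by
  have hrank : ∀ a c : A, algebraMap A k a = 0 → c ≠ 0 → ∃ n : ℕ, c ∣ a ^ n := fun a c ha hc =>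
    rank_one hA a c (residue_eq_zero_iff.2 ((red_eq_zero_iff hk).1 ha)) hc
  have h0 : algebraMap A k ϖ = 0 := (red_eq_zero_iff hk).2 U.non
  have hϖ0 : ϖ ≠ 0 := fun h => U.ne (by rw [h]; rfl)
  obtain ⟨n, hn⟩ := exists_gp_pow (A := A) (K := Ω) (k := k) hco hk hM hrank hϖ0
  have h1 := psi_fst (k := k) (M := M) hco (n := n) h0
  have h2 := psi_snd (k := k) (M := M) hco (n := n) U.ne hn
  have hψ0 := psi_ne (k := k) (M := M) hco h0 (n := n)
  have r1 := psi_r1 hco U h0 h2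
  have r2 := psi_r2 (k := k) (M := M) hco h0 (n := n)
  have r3 := psi_r3 hco h2
  have hS1 : ∀ θ ∈ SE E (p * M), θ • psi hco ϖ n = psi hco ϖ n := by
    rintro θ ⟨σ, hσ, rfl⟩
    rw [galAut_smul, psi, map_add, map_pow, map_mul, act_w, act_gp, act_algebraMap, hσ _ U.mem]
  have hSϖ : ∀ θ ∈ SE E (p * M), θ • algebraMap Ω (FF Ω (p * M)) (ϖ : Ω) =
      algebraMap Ω (FF Ω (p * M)) (ϖ : Ω) := by
    rintro θ ⟨σ, hσ, rfl⟩
    rw [galAut_smul, act_algebraMap, hσ _ U.mem]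
  have hψW : psi hco ϖ n ∈ WW A Ω k hco := mem_WW_of hco h1 r1
  have hψ'W : algebraMap Ω _ (ϖ : Ω) * (psi hco ϖ n)⁻¹ ∈ WW A Ω k hco := mem_WW_of hco r2 r3
  have hval : ∀ x : FF Ω (p * M), x ≠ 0 → (∀ θ ∈ SE E (p * M), θ • x = x) →
      ∃ a b : ℤ, ∃ u : FF Ω (p * M), ∃ hu : u ∈ (ng Ω hco hk hM b).W,
        ((ng Ω hco hk hM b).π ⟨u, hu⟩).1 ≠ 0 ∧ ((ng Ω hco hk hM b).π ⟨u, hu⟩).2 ≠ 0 ∧
        x = (algebraMap Ω _ (ϖ : Ω) * (psi hco ϖ n)⁻¹) ^ a * (psi hco ϖ n) ^ b * u := by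
    intro x hx0 hx
    rw [fix_iff] at hx
    obtain ⟨a, b, u, hu1, hu2, h⟩ := exists_val hk U hA hco hM h1 h2 hx0 hx
    have huW : u ∈ WW A Ω k hco := ⟨hu1.choose, hu2.choose⟩
    refine ⟨a, b, u, huW, ?_, ?_, h⟩
    · rw [ng_π]
      exact sred_fst_ne hk hco hM huW hu1
    · rw [ng_π]
      exact sred_snd_ne hk hco hM huW hu2
  have hres : ∀ c : k, ∃ a : A, (∀ θ ∈ SE E (p * M), θ • algebraMap A (FF Ω (p * M)) a =
      algebraMap A (FF Ω (p * M)) a) ∧ algebraMap A k a = c := by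
    intro c
    obtain ⟨a, rfl⟩ := hk c
    obtain ⟨y, hy, hya⟩ := exists_R0_sub_mem hA a.2
    refine ⟨⟨y, hy.1⟩, ?_, ?_⟩
    · rintro θ ⟨σ, hσ, rfl⟩
      have hyE : σ y = y := hσ _ (E.algebraMap_mem ⟨y, hy.2⟩)
      rw [IsScalarTower.algebraMap_apply A Ω (FF Ω (p * M)), galAut_smul, act_algebraMap]
      exact congrArg _ hyE
    · rw [← sub_eq_zero, ← map_sub, red_eq_zero_iff hk]
      exact hya
  have ht : ∀ θ ∈ SE E (p * M), θ • (ng Ω hco hk hM b).t = (ng Ω hco hk hM b).t := by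
    rintro θ ⟨σ, hσ, rfl⟩
    have hbE : σ (b : Ω) = b := hσ _ (E.algebraMap_mem ⟨(b : Ω), hb⟩)
    rw [ng_t, galAut_smul, map_sub, act_jF, act_algebraMap]
    have : algebraMap A Ω b = (b : Ω) := rfl
    rw [this, hbE]
  exact ⟨{
    S := SE E (p * M)
    ϖ := ϖ
    ψ := psi hco ϖ n
    ψ' := algebraMap Ω _ (ϖ : Ω) * (psi hco ϖ n)⁻¹
    ϖ0 := hϖ0
    ϖk := h0
    prod := by
      rw [inv_mul_cancel_right₀ hψ0, IsScalarTower.algebraMap_apply A Ω (FF Ω (p * M))]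
      rfl
    ψ_fix := hS1
    ψ'_fix := fun θ hθ => by rw [smul_mul', smul_inv'', hS1 θ hθ, hSϖ θ hθ]
    t_fix := ht
    hψ := hψW
    hψ' := hψ'W
    πψ := by
      rw [ng_π]
      exact Prod.ext (sred_fst_eq hk hco hM hψW h1) (sred_snd_eq hk hco hM hψW r1)
    πψ' := by
      rw [ng_π]
      exact Prod.ext (sred_fst_eq hk hco hM hψ'W r2) (sred_snd_eq hk hco hM hψ'W r3)
    res := hres
    val := hval
    desc := fun V _ hV => descent _ (span_fixed hk hco hM) V hV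
    rank := fun c hc => hrank ϖ c h0 hc }, rfl, rfl, n, rfl, rfl, h2⟩

end W

end Fermat.Agent.PRem
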