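import Fermat.Agent.PRem.Conc

/-!
# Wild automorphisms of the modular function field of level `p M`
-/

set_option autoImplicit false
set_option linter.unusedSectionVars false
set_option linter.style.haveILetI false

noncomputable section

namespace Fermat.Agent.PRem

open ModularCurve Polynomial IntermediateField Fermat.Agent.ModPoly Fermat.Agent.Red
  Fermat.Agent.RedMod Fermat.Agent.Cusp Fermat.Agent.SemiSt AlgebraicCurve Fermat.Agent.Curve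
  Fermat.Agent.RR Fermat.Agent.Nod Fermat.Agent.Flat Fermat.Agent.FlatRam Fermat.Agent.Places

local notation "Ω" => AlgebraicClosure ℚ

variable {A : ValuationSubring (AlgebraicClosure ℚ)} {p : ℕ} [hp : Fact p.Prime]
  {M : ℕ} [NeZero M] {k : Type*} [Field k] [Algebra A k] [CharP k p] [IsAlgClosed k]
  (hk : Function.Surjective (algebraMap A k))
  {E : IntermediateField (K0 A) Ω} [FiniteDimensional (K0 A) E]
  {e : ℕ} {ϖ : A} (U : Unif E p e ϖ)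

/-- ring automorphisms moving the integers of `E` by multiples of `ϖ ^ 2` -/
structure WAut (E : IntermediateField (K0 A) Ω) (ϖ : A) (σ : Ω ≃+* Ω) (c : A) : Prop where
  sub : ∀ x ∈ E, x ∈ A → ∃ y ∈ A, σ x = x + (ϖ : Ω) ^ 2 * y
  eq : σ ϖ = ϖ + (ϖ : Ω) ^ 2 * c

variable {σ : Ω ≃+* Ω} {c : A} (H : WAut E ϖ σ c)

include U H in
theorem WAut.series (s : LaurentSeries A) (hs : incL A Ω s ∈ EL E) :
    ∃ t : LaurentSeries A, coeffMap (σ : Ω →+* Ω) (incL A Ω s) =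
      incL A Ω s + HahnSeries.C ((ϖ : Ω) ^ 2) * incL A Ω t := by
  have hϖ2 : (ϖ : Ω) ^ 2 ≠ 0 := pow_ne_zero 2 U.ne
  obtain ⟨t, ht⟩ := exists_incL (A := A) (x := HahnSeries.C ((ϖ : Ω) ^ 2)⁻¹ *
      (coeffMap (σ : Ω →+* Ω) (incL A Ω s) - incL A Ω s)) fun n => by
    rw [coeff_Cmul, HahnSeries.coeff_sub]
    obtain ⟨y, hy, h⟩ := H.sub _ (mem_EL.1 hs n) (s.coeff n).2
    change ((ϖ : Ω) ^ 2)⁻¹ * (σ (s.coeff n : Ω) - (s.coeff n : Ω)) ∈ A
    have h' : σ (s.coeff n : Ω) = (s.coeff n : Ω) + (ϖ : Ω) ^ 2 * y := h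
    rw [h', add_sub_cancel_left, inv_mul_cancel_left₀ hϖ2]
    exact hy
  refine ⟨t, ?_⟩
  rw [ht, ← mul_assoc, ← map_mul, mul_inv_cancel₀ hϖ2, map_one, one_mul]
  ring

include U H hk in
theorem WAut.wl (hA : A.LiesOverPrime p) (hco : p.Coprime M) (hM : (M : k) ≠ 0)
    {x : FF Ω (p * M)} (hx : (x : LaurentSeries Ω) ∈ EL E)
    (hxW : (x : LaurentSeries Ω) ∈ WL A Ω k) :
    HahnSeries.C ((ϖ : Ω) ^ 2)⁻¹ * (coeffMap (σ : Ω →+* Ω) (x : LaurentSeries Ω) - (x : LaurentSeries Ω)) ∈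
      WL A Ω k := by
  have hϖ2 : (ϖ : Ω) ^ 2 ≠ 0 := pow_ne_zero 2 U.ne
  have h0 : algebraMap A k ϖ = 0 := (red_eq_zero_iff hk).2 U.non
  rcases eq_or_ne x 0 with rfl | hx0
  · have : ((0 : FF Ω (p * M)) : LaurentSeries Ω) = 0 := rfl
    rw [this, map_zero, sub_zero, mul_zero]
    exact zero_mem _
  obtain ⟨κ, a, b, haE, hbE, ha, hb, h⟩ := exists_rep hk hA hco hM U hx0 hx
  have hκ : κ ≤ 0 := by
    by_contra hκ
    push Not at hκ
    obtain ⟨m, rfl⟩ : ∃ m : ℕ, κ = m + 1 := ⟨(κ - 1).toNat, by omega⟩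
    have hr : Rd A (x : LaurentSeries Ω) (πL A Ω k ⟨_, hxW⟩) := ⟨hxW, rfl⟩
    have h1 := (Rd.incL (K := Ω) (k := k) b).mul ((Rd.C (K := Ω) (k := k) (ϖ ^ (m + 1))).mul hr)
    have h2 : algebraMap A k (ϖ ^ (m + 1)) = 0 := by rw [map_pow, h0, zero_pow (by omega)]
    rw [h2, map_zero, zero_mul, mul_zero] at h1
    have h3 : (ϖ : Ω) ^ ((m : ℤ) + 1) = algebraMap A Ω (ϖ ^ (m + 1)) := by
      rw [map_pow]
      exact zpow_natCast (ϖ : Ω) (m + 1)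
    rw [h3] at h
    rw [h] at h1
    exact ha (h1.uniq (Rd.incL a)).symm
  obtain ⟨m, rfl⟩ : ∃ m : ℕ, κ = -(m : ℤ) := ⟨(-κ).toNat, by omega⟩
  have hm0 := pow_ne_zero m U.ne
  have hb0 : incL A Ω b * (x : LaurentSeries Ω) = incL A Ω (HahnSeries.C (ϖ ^ m) * a) := by
    rw [map_mul, ← h, coeffMap_C]
    have h3 : algebraMap A Ω (ϖ ^ m) = (ϖ : Ω) ^ m := map_pow _ _ _
    rw [h3, zpow_neg, zpow_natCast, mul_left_comm (HahnSeries.C ((ϖ : Ω) ^ m)),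
      ← mul_assoc (HahnSeries.C ((ϖ : Ω) ^ m)), ← map_mul, mul_inv_cancel₀ hm0, map_one, one_mul]
  obtain ⟨a', ha'⟩ : ∃ a', a' = HahnSeries.C (ϖ ^ m) * a := ⟨_, rfl⟩
  rw [← ha'] at hb0
  have ha'E : incL A Ω a' ∈ EL E := by rw [← hb0]; exact mul_mem hbE hx
  obtain ⟨a'', h1⟩ := H.series U a' ha'E
  obtain ⟨b'', h2⟩ := H.series U b hbE
  have h3 := congrArg (coeffMap (σ : Ω →+* Ω)) hb0
  rw [map_mul, h1, h2] at h3
  have hr : Rd A (x : LaurentSeries Ω) (πL A Ω k ⟨_, hxW⟩) := ⟨hxW, rfl⟩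
  have hnum := (Rd.incL (K := Ω) (k := k) a'').sub ((Rd.incL (K := Ω) (k := k) b'').mul hr)
  have hden := (Rd.incL (K := Ω) (k := k) b).add
    ((Rd.C (K := Ω) (k := k) (ϖ ^ 2)).mul (Rd.incL (K := Ω) (k := k) b''))
  have h4 : algebraMap A k (ϖ ^ 2) = 0 := by rw [map_pow, h0, zero_pow two_ne_zero]
  rw [h4, map_zero, zero_mul, add_zero] at hden
  have hq := hnum.div hden hb
  have hden0 := hden.ne hb
  have e1 : HahnSeries.C ((ϖ : Ω) ^ 2)⁻¹ * (coeffMap (σ : Ω →+* Ω) (x : LaurentSeries Ω) - (x : LaurentSeries Ω)) =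
      (incL A Ω a'' - incL A Ω b'' * (x : LaurentSeries Ω)) /
        (incL A Ω b + HahnSeries.C (algebraMap A Ω (ϖ ^ 2)) * incL A Ω b'') := by
    rw [eq_div_iff hden0]
    have h5 : (algebraMap A Ω (ϖ ^ 2)) = (ϖ : Ω) ^ 2 := map_pow _ _ _
    have h6 : (HahnSeries.C ((ϖ : Ω) ^ 2)⁻¹ : LaurentSeries Ω) * HahnSeries.C ((ϖ : Ω) ^ 2) = 1 := by
      rw [← map_mul, inv_mul_cancel₀ hϖ2, map_one]
    rw [h5]
    have h7 : (coeffMap (σ : Ω →+* Ω) (x : LaurentSeries Ω) - (x : LaurentSeries Ω)) *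
        (incL A Ω b + HahnSeries.C ((ϖ : Ω) ^ 2) * incL A Ω b'') =
        HahnSeries.C ((ϖ : Ω) ^ 2) * (incL A Ω a'' - incL A Ω b'' * (x : LaurentSeries Ω)) := by
      linear_combination h3 - hb0
    rw [mul_assoc, h7, ← mul_assoc, h6, one_mul]
  rw [e1]
  exact hq.choose

section W

variable (hco : p.Coprime M) (hM : (M : k) ≠ 0)
  [Algebra A (FF Ω (p * M))] [IsScalarTower A Ω (FF Ω (p * M))]
  [Algebra A (FF k M)] [IsScalarTower A k (FF k M)]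
  [FunField k (FF k M)] [FunField Ω (FF Ω M)] [FunField Ω (FF Ω (p * M))]

omit [Algebra A (FF k M)] [IsScalarTower A k (FF k M)]
  [FunField k (FF k M)] [FunField Ω (FF Ω M)] [FunField Ω (FF Ω (p * M))] in
include U H hk hM in
theorem WAut.wsub (hA : A.LiesOverPrime p) {x : FF Ω (p * M)}
    (hxE : (x : LaurentSeries Ω) ∈ EL E) (hxW : x ∈ WW A Ω k hco) :
    ∃ y ∈ WW A Ω k hco, galAut (p * M) σ • x = x + algebraMap Ω _ (ϖ : Ω) ^ 2 * y := by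
  have hϖ2 : (ϖ : Ω) ^ 2 ≠ 0 := pow_ne_zero 2 U.ne
  have e1 : ∀ x : FF Ω (p * M), ((algebraMap Ω (FF Ω (p * M)) ((ϖ : Ω) ^ 2)⁻¹ *
      (act (p * M) σ x - x) : FF Ω (p * M)) : LaurentSeries Ω) =
      HahnSeries.C ((ϖ : Ω) ^ 2)⁻¹ * (coeffMap (σ : Ω →+* Ω) (x : LaurentSeries Ω) -
        (x : LaurentSeries Ω)) := fun x => by
    rw [coe_algebraMap_mul, AddSubgroupClass.coe_sub, coe_act]
  refine ⟨algebraMap Ω _ ((ϖ : Ω) ^ 2)⁻¹ * (act (p * M) σ x - x), ?_, ?_⟩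
  · rw [mem_WW]
    constructor
    · rw [e1]
      exact H.wl hk U hA hco hM hxE hxW.1
    · have e2 : w Ω hco (algebraMap Ω (FF Ω (p * M)) ((ϖ : Ω) ^ 2)⁻¹ * (act (p * M) σ x - x)) =
          algebraMap Ω (FF Ω (p * M)) ((ϖ : Ω) ^ 2)⁻¹ *
            (act (p * M) σ (w Ω hco x) - w Ω hco x) := by
        rw [map_mul, AlgEquiv.commutes, map_sub, ← act_w]
      rw [e2, e1]
      exact H.wl hk U hA hco hM (coe_w_mem_EL hco hxE) hxW.2
  · rw [galAut_smul, ← map_pow, ← mul_assoc, ← map_mul, mul_inv_cancel₀ hϖ2, map_one, one_mul]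
    ring

include U H in
/-- **Wild automorphisms.** -/
theorem WAut.wild (hA : A.LiesOverPrime p) {b : A} (hb : σ (b : Ω) = b)
    (Q : RatStr (ng Ω hco hk hM b)) (hS : Q.S = SE E (p * M)) (hϖ : Q.ϖ = ϖ) {n : ℕ}
    (hψ : Q.ψ = psi hco ϖ n) (hψ' : Q.ψ' = algebraMap Ω _ (ϖ : Ω) * (psi hco ϖ n)⁻¹)
    (hc : algebraMap A k c ≠ 0) :
    ∃ z, WildAut Q (galAut (p * M) σ) z (algebraMap A k c) := by
  have h0 : algebraMap A k ϖ = 0 := (red_eq_zero_iff hk).2 U.non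
  have hϖ2 : (ϖ : Ω) ^ 2 ≠ 0 := pow_ne_zero 2 U.ne
  have hϖF : algebraMap A (FF Ω (p * M)) Q.ϖ = algebraMap Ω _ (ϖ : Ω) := by
    rw [hϖ, IsScalarTower.algebraMap_apply A Ω (FF Ω (p * M))]
    rfl
  have hψ0 := psi_ne (k := k) (M := M) hco h0 (n := n)
  have hg1 := gp_fst (A := A) (K := Ω) (k := k) (q := p) (M := M) hco
  have hg2 := gp_snd (A := A) (K := Ω) (k := k) (q := p) (M := M) hco
  -- the reductions of `ψ'`
  have hψ'1 : Rd A (Q.ψ' : LaurentSeries Ω) (0 : LaurentSeries k) := by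
    rw [hψ']; exact psi_r2 hco h0
  have hψ'2 : Rd A (w Ω hco Q.ψ' : LaurentSeries Ω) (1 : LaurentSeries k) := by
    refine ⟨Q.hψ'.2, ?_⟩
    have := congrArg (fun y : FF k M × FF k M => (y.2 : LaurentSeries k)) Q.πψ'
    exact this
  obtain ⟨z, hz⟩ : ∃ z : FF Ω (p * M), z = algebraMap Ω _ (c : Ω) * (Q.ψ' * gp Ω p M) := ⟨_, rfl⟩
  have hz1 : Rd A (z : LaurentSeries Ω) (0 : LaurentSeries k) := by
    have := (Rd.C (K := Ω) (k := k) c).mul (hψ'1.mul hg1)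
    rw [mul_zero, mul_zero] at this
    rw [hz, coe_algebraMap_mul]
    exact this
  have hz2 : Rd A (w Ω hco z : LaurentSeries Ω)
      ((algebraMap k (FF k M) (algebraMap A k c) : FF k M) : LaurentSeries k) := by
    have := (Rd.C (K := Ω) (k := k) c).mul (hψ'2.mul hg2)
    rw [mul_one, mul_one] at this
    rw [hz, map_mul, AlgEquiv.commutes, coe_algebraMap_mul, map_mul]
    have e3 : (HahnSeries.C (algebraMap A k c) : LaurentSeries k) =
        ((algebraMap k (FF k M) (algebraMap A k c) : FF k M) : LaurentSeries k) :=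
      (congrFun (congrArg DFunLike.coe algebraMap_eq_C) _).symm
    rw [← e3]
    exact this
  have hzW : z ∈ WW A Ω k hco := mem_WW_of hco hz1 hz2
  have hg0 : psi hco ϖ n = w Ω hco (gp Ω p M) ^ (n + 1) + algebraMap Ω _ (ϖ : Ω) * gp Ω p M := rfl
  refine ⟨z, ?_, ?_, hzW, ?_, ?_, hc, ?_⟩
  · rw [ng_t, galAut_smul, map_sub, act_jF, act_algebraMap]
    have : algebraMap A Ω b = (b : Ω) := rfl
    rw [this, hb]
  · intro x hx hxW
    have hxE : (x : LaurentSeries Ω) ∈ EL E := by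
      rw [← fix_iff, ← hS]; exact hx
    obtain ⟨y, hy, hxy⟩ := H.wsub hk U hco hM hA hxE hxW
    exact ⟨y, hy, by rw [hϖF]; exact hxy⟩
  · rw [r1_of (G := ng Ω hco hk hM b) hzW, ng_π]
    exact sred_fst_eq hk hco hM hzW (y := 0) hz1
  · rw [r2_of (G := ng Ω hco hk hM b) hzW, ng_π]
    exact sred_snd_eq hk hco hM hzW hz2
  · rw [hϖF, hψ, hz, galAut_smul]
    have e1 : act (p * M) σ (psi hco ϖ n) = psi hco ϖ n +
        algebraMap Ω _ ((ϖ : Ω) ^ 2 * c) * gp Ω p M := by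
      rw [psi, map_add, map_pow, map_mul, act_w, act_gp, act_algebraMap, H.eq, map_add]
      ring
    rw [e1, hψ', map_mul, map_pow]
    have e2 : psi hco ϖ n * (1 + algebraMap Ω _ (ϖ : Ω) * (algebraMap Ω _ (c : Ω) *
        (algebraMap Ω _ (ϖ : Ω) * (psi hco ϖ n)⁻¹ * gp Ω p M))) = psi hco ϖ n +
        (psi hco ϖ n * (psi hco ϖ n)⁻¹) * (algebraMap Ω _ (ϖ : Ω) ^ 2 * algebraMap Ω _ (c : Ω)) *
          gp Ω p M := by
      ring
    rw [e2, mul_inv_cancel₀ hψ0, one_mul]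

end W

end Fermat.Agent.PRem
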