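import Fermat.Agent.PRem.Descent
import Fermat.Agent.Flat.RamUnif

/-!
# Functions with coefficients in a finite extension of the fixed field of inertia
-/

set_option autoImplicit false
set_option linter.unusedSectionVars false
set_option linter.style.haveILetI false

noncomputable section

namespace Fermat.Agent.PRem

open ModularCurve Polynomial IntermediateField Fermat.Agent.ModPoly Fermat.Agent.Red
  Fermat.Agent.RedMod Fermat.Agent.Cusp Fermat.Agent.SemiSt AlgebraicCurve Fermat.Agent.Curve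
  Fermat.Agent.RR Fermat.Agent.Nod Fermat.Agent.Flat Fermat.Agent.FlatRam Fermat.Agent.Places

local notation "Ω" => AlgebraicClosure ℚ

variable {A : ValuationSubring (AlgebraicClosure ℚ)} {p : ℕ} [hp : Fact p.Prime]

section Coef

variable (E : IntermediateField (K0 A) Ω)

/-- ring automorphisms fixing `E` -/
def Fx : Set (Ω ≃+* Ω) := {σ | ∀ x ∈ E, σ x = x}

variable {E}

theorem mem_Fx_of {σ : Ω ≃ₐ[K0 A] Ω} (h : σ ∈ E.fixingSubgroup) : (σ : Ω ≃+* Ω) ∈ Fx E :=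
  fun x hx => (IntermediateField.mem_fixingSubgroup_iff E σ).1 h x hx

theorem exists_of_mem_Fx {σ : Ω ≃+* Ω} (h : σ ∈ Fx E) : ∃ τ : Ω ≃ₐ[K0 A] Ω,
    τ ∈ E.fixingSubgroup ∧ (τ : Ω ≃+* Ω) = σ := by
  refine ⟨AlgEquiv.ofRingEquiv (f := σ) fun r => h _ (E.algebraMap_mem r), ?_, RingEquiv.ext fun _ => rfl⟩
  rw [IntermediateField.mem_fixingSubgroup_iff]
  exact h

theorem mem_of_Fx {y : Ω} (h : ∀ σ ∈ Fx E, σ y = y) : y ∈ E := by
  have h1 : y ∈ Set.range (algebraMap E Ω) := by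
    rw [InfiniteGalois.mem_range_algebraMap_iff_fixed]
    intro σ
    exact h (σ : Ω ≃+* Ω) fun x hx => σ.commutes ⟨x, hx⟩
  obtain ⟨z, rfl⟩ := h1
  exact z.2

variable (E) in
/-- Laurent series with coefficients in `E` -/
def EL : Subfield (LaurentSeries Ω) where
  carrier := {x | ∀ σ ∈ Fx E, coeffMap (σ : Ω →+* Ω) x = x}
  mul_mem' := fun {a b} ha hb σ hσ => by rw [map_mul, ha σ hσ, hb σ hσ]
  one_mem' := fun σ _ => map_one _
  add_mem' := fun {a b} ha hb σ hσ => by rw [map_add, ha σ hσ, hb σ hσ]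
  zero_mem' := fun σ _ => map_zero _
  neg_mem' := fun {a} ha σ hσ => by rw [map_neg, ha σ hσ]
  inv_mem' := fun a ha σ hσ => by rw [map_inv₀, ha σ hσ]

theorem mem_EL {x : LaurentSeries Ω} : x ∈ EL E ↔ ∀ n, x.coeff n ∈ E := by
  constructor
  · intro h n
    apply mem_of_Fx
    intro σ hσ
    have := congrArg (fun z : LaurentSeries Ω => z.coeff n) (h σ hσ)
    exact this
  · intro h σ hσ
    ext n
    exact hσ _ (h n)

theorem C_mem_EL {c : Ω} (hc : c ∈ E) : (HahnSeries.C c : LaurentSeries Ω) ∈ EL E := by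
  intro σ hσ
  rw [coeffMap_C]
  exact congrArg _ (hσ c hc)

end Coef

/-- Laurent series with coefficients in `A` -/
theorem exists_incL {x : LaurentSeries Ω} (h : ∀ n, x.coeff n ∈ A) :
    ∃ a : LaurentSeries A, incL A Ω a = x := by
  refine ⟨⟨fun n => ⟨x.coeff n, h n⟩, x.isPWO_support.mono ?_⟩, ?_⟩
  · intro n hn hn0
    apply hn
    exact Subtype.ext hn0
  · ext n
    rfl

/-- A uniformizer of `E`. -/
structure Unif (E : IntermediateField (K0 A) Ω) (p e : ℕ) (ϖ : A) : Prop where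
  mem : (ϖ : Ω) ∈ E
  ne : (ϖ : Ω) ≠ 0
  non : (ϖ : Ω) ∈ A.nonunits
  unit : ∀ x ∈ E, x ≠ 0 → ∃ (k : ℤ) (u : Ω), u ∈ E ∧ u ∈ A ∧ u ∉ A.nonunits ∧ x = (ϖ : Ω) ^ k * u
  hp : ∃ u : Aˣ, (u : Ω) ∈ E ∧ (p : A) = ϖ ^ e * u

theorem isUnit_of {x : A} (h : (x : Ω) ∉ A.nonunits) : IsUnit x := by
  have h0 : (x : Ω) ≠ 0 := fun h' => h (h' ▸ zero_mem_nonunits A)
  have h1 : (x : Ω)⁻¹ ∈ A := by
    by_contra hcon
    exact h ((mem_nonunits_iff_inv A _).2 (Or.inr hcon))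
  refine IsUnit.of_mul_eq_one ⟨(x : Ω)⁻¹, h1⟩ ?_
  exact Subtype.ext (mul_inv_cancel₀ h0)

theorem residue_eq_zero_iff {x : A} :
    algebraMap A (IsLocalRing.ResidueField A) x = 0 ↔ (x : Ω) ∈ A.nonunits :=
  (mem_nonunits_iff_residue (A := A) x.2).symm

theorem unif_of_w (hA : A.LiesOverPrime p) {E : IntermediateField (K0 A) Ω}
    [FiniteDimensional (K0 A) E] {ϖ : Ω} (hE : ϖ ∈ E) (h0 : ϖ ≠ 0)
    (hw : (Module.finrank (K0 A) E : ℚ) * (rval A p hA).w ϖ = 1) :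
    ∃ h : ϖ ∈ A, Unif E p (Module.finrank (K0 A) E) ⟨ϖ, h⟩ := by
  have hn : (0 : ℚ) < Module.finrank (K0 A) E := by
    exact_mod_cast Module.finrank_pos (R := K0 A) (M := E)
  have hwϖ : (rval A p hA).w ϖ = 1 / Module.finrank (K0 A) E := by field_simp; linarith
  have hpos : 0 < (rval A p hA).w ϖ := by rw [hwϖ]; positivity
  have hunit : ∀ x ∈ E, x ≠ 0 → ∃ (k : ℤ) (u : Ω),
      (Module.finrank (K0 A) E : ℚ) * (rval A p hA).w x = k ∧
        u ∈ E ∧ u ∈ A ∧ u ∉ A.nonunits ∧ x = ϖ ^ k * u := by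
    intro x hx hx0
    have hne : (⟨x, hx⟩ : E) ≠ 0 := fun h0 => hx0 (congrArg Subtype.val h0)
    obtain ⟨k, hk⟩ := exists_int (rval A p hA) E hne
    have hk' : (Module.finrank (K0 A) E : ℚ) * (rval A p hA).w x = k := hk
    have hz := zpow_ne_zero k h0
    have hw : (rval A p hA).w (x / ϖ ^ k) = 0 := by
      rw [RVal.w_div hx0 hz, RVal.w_zpow h0, hwϖ]
      field_simp
      linarith
    obtain ⟨h1, h2⟩ := (rval_eq_zero_iff hA (div_ne_zero hx0 hz)).1 hw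
    exact ⟨k, x / ϖ ^ k, hk', E.div_mem hx (zpow_mem hE k), h1, h2, by field_simp⟩
  refine ⟨(wA_nonneg_iff hA h0).1 hpos.le, hE, h0, (wA_pos_iff hA h0).1 hpos, ?_, ?_⟩
  · intro x hx hx0
    obtain ⟨k, u, -, h⟩ := hunit x hx hx0
    exact ⟨k, u, h⟩
  · have hp0 : (p : Ω) ≠ 0 := Nat.cast_ne_zero.2 hp.out.ne_zero
    obtain ⟨k, u, hk, huE, huA, hu, h⟩ := hunit p (IntermediateField.natCast_mem E p) hp0
    rw [(rval A p hA).w_p, mul_one] at hk
    have hk' : k = (Module.finrank (K0 A) E : ℤ) := by exact_mod_cast hk.symm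
    rw [hk', zpow_natCast] at h
    obtain ⟨v, hv⟩ := isUnit_of (A := A) (x := ⟨u, huA⟩) hu
    refine ⟨v, by rw [hv]; exact huE, Subtype.ext ?_⟩
    rw [hv]
    push_cast
    exact h

theorem exists_Unif (hA : A.LiesOverPrime p) (E : IntermediateField (K0 A) Ω)
    [FiniteDimensional (K0 A) E] : ∃ ϖ : A, Unif E p (Module.finrank (K0 A) E) ϖ := by
  obtain ⟨ϖ, h0, hw⟩ := exists_unif (rval A p hA) (E := E)
  obtain ⟨h, H⟩ := unif_of_w hA ϖ.2 (coe_ne h0) hw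
  exact ⟨_, H⟩

end Fermat.Agent.PRem
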