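import Fermat.Agent.PRem.ConcE

/-!
# Integral representatives of functions with coefficients in `E`
-/

set_option autoImplicit false
set_option linter.unusedSectionVars false
set_option linter.style.haveILetI false

noncomputable section

namespace Fermat.Agent.PRem

open ModularCurve Polynomial IntermediateField Fermat.Agent.ModPoly Fermat.Agent.Red
  Fermat.Agent.RedMod Fermat.Agent.Cusp Fermat.Agent.SemiSt AlgebraicCurve Fermat.Agent.Curve
  Fermat.Agent.RR Fermat.Agent.Nod Fermat.Agent.Flat Fermat.Agent.FlatRam Fermat.Agent.Places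

section Span

variable {A K k : Type*} [CommRing A] [IsDomain A] [ValuationRing A]
  [Field K] [IsAlgClosed K] [CharZero K] [Algebra A K] [IsFractionRing A K] [Field k]
  [IsAlgClosed k] [Algebra A k]
  {q M : ℕ} [hq : Fact q.Prime] [NeZero M] (hco : q.Coprime M) [CharP k q]
  (hk : Function.Surjective (algebraMap A k)) (hM : (M : k) ≠ 0)

include hk in
theorem sspan (x : FF K (q * M)) : ∃ P : K[X], P ≠ 0 ∧
    ∃ Q : Fin (dedekindPsi M) ⊕ (Fin (dedekindPsi M) × Fin q) → K[X],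
      aeval (jF' K (q * M)) P * x = ∑ i, aeval (jF' K (q * M)) (Q i) * yy K q hco hM i := by
  letI : Algebra A (FF K (q * M)) := Spec.algFF A K (q * M)
  haveI : IsScalarTower A K (FF K (q * M)) := IsScalarTower.of_algebraMap_eq fun a => rfl
  letI : Algebra A (FF k M) := Spec.algFF A k M
  haveI : IsScalarTower A k (FF k M) := IsScalarTower.of_algebraMap_eq fun a => rfl
  obtain ⟨P, hP0, Q, hPQ⟩ := sgauss_span (A := A) (K := K) (k := k) hco hk hM x
  exact ⟨P, hP0, Q, hPQ⟩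

end Span

local notation "Ω" => AlgebraicClosure ℚ

variable {A : ValuationSubring (AlgebraicClosure ℚ)} {p : ℕ} [hp : Fact p.Prime]

theorem coeff_Cmul {R : Type*} [CommRing R] (c : R) (x : LaurentSeries R) (n : ℤ) :
    (HahnSeries.C c * x).coeff n = c * x.coeff n := by
  rw [HahnSeries.C_mul_eq_smul]
  rfl

section Bd

variable (A) in
/-- Laurent series with bounded denominators -/
def Bd : Subring (LaurentSeries Ω) where
  carrier := {y | ∃ c : A, c ≠ 0 ∧ ∃ a : LaurentSeries A,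
    HahnSeries.C (c : Ω) * y = incL A Ω a}
  mul_mem' := by
    rintro x y ⟨c, hc, a, ha⟩ ⟨c', hc', a', ha'⟩
    refine ⟨c * c', mul_ne_zero hc hc', a * a', ?_⟩
    rw [map_mul, ← ha, ← ha']
    push_cast
    rw [map_mul]
    ring
  one_mem' := ⟨1, one_ne_zero, 1, by rw [map_one, mul_one]; exact map_one _⟩
  add_mem' := by
    rintro x y ⟨c, hc, a, ha⟩ ⟨c', hc', a', ha'⟩
    refine ⟨c * c', mul_ne_zero hc hc', HahnSeries.C c' * a + HahnSeries.C c * a', ?_⟩
    rw [map_add, map_mul, map_mul, ← ha, ← ha', coeffMap_C, coeffMap_C]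
    push_cast
    rw [map_mul]
    change _ = HahnSeries.C (c' : Ω) * _ + HahnSeries.C (c : Ω) * _
    ring
  zero_mem' := ⟨1, one_ne_zero, 0, by rw [map_zero, mul_zero]⟩
  neg_mem' := by
    rintro x ⟨c, hc, a, ha⟩
    exact ⟨c, hc, -a, by rw [map_neg, ← ha]; ring⟩

theorem C_mem_Bd (c : Ω) : (HahnSeries.C c : LaurentSeries Ω) ∈ Bd A := by
  obtain ⟨a, b, hb, rfl⟩ := IsFractionRing.div_surjective (A := A) c
  refine ⟨b, nonZeroDivisors.ne_zero hb, HahnSeries.C a, ?_⟩
  have hb0 : (algebraMap A Ω b) ≠ 0 :=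
    (map_ne_zero_iff _ (IsFractionRing.injective A Ω)).2 (nonZeroDivisors.ne_zero hb)
  rw [coeffMap_C, ← map_mul]
  congr 1
  exact mul_div_cancel₀ _ hb0

theorem incL_mem_Bd (a : LaurentSeries A) : incL A Ω a ∈ Bd A :=
  ⟨1, one_ne_zero, a, by
    have : (HahnSeries.C ((1 : A) : Ω) : LaurentSeries Ω) = 1 := map_one _
    rw [this, one_mul]⟩

theorem aeval_mem_Bd {y : LaurentSeries Ω} (hy : y ∈ Bd A) (P : (Polynomial Ω)) : aeval y P ∈ Bd A := by
  rw [Polynomial.aeval_eq_sum_range]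
  refine sum_mem fun i _ => ?_
  rw [Algebra.smul_def, algebraMap_eq_C]
  exact mul_mem (C_mem_Bd _) (pow_mem hy i)

theorem aeval_mem_EL {E : IntermediateField (K0 A) Ω} {y : LaurentSeries Ω} (hy : y ∈ EL E)
    {P : (Polynomial Ω)} (hP : ∀ n, P.coeff n ∈ E) : aeval y P ∈ EL E := by
  rw [Polynomial.aeval_eq_sum_range]
  refine sum_mem fun i _ => ?_
  rw [Algebra.smul_def, algebraMap_eq_C]
  exact mul_mem (C_mem_EL (hP i)) (pow_mem hy i)

end Bd

section Least

variable {E : IntermediateField (K0 A) Ω} {e : ℕ} {ϖ : A} (U : Unif E p e ϖ)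

include U in
theorem Unif.zpow_mem_iff {k : ℤ} : (ϖ : Ω) ^ k ∈ A ↔ 0 ≤ k := by
  constructor
  · intro h
    by_contra hk
    push Not at hk
    obtain ⟨m, hm⟩ : ∃ m : ℕ, k = -(m + 1 : ℕ) := ⟨(-k - 1).toNat, by omega⟩
    have h1 : (ϖ : Ω) ^ k * (ϖ : Ω) ^ m * ϖ = 1 := by
      rw [← zpow_natCast, ← zpow_add₀ U.ne, ← zpow_add_one₀ U.ne, hm]
      have : (-((m + 1 : ℕ) : ℤ) + (m : ℤ) + 1) = 0 := by push_cast; ring
      rw [this, zpow_zero]
    have h2 := mul_mem_nonunits A U.non (A.mul_mem _ _ h (A.toSubring.pow_mem ϖ.2 m))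
    rw [mul_comm, h1] at h2
    exact one_notMem_nonunits A h2
  · intro h
    obtain ⟨m, rfl⟩ := Int.eq_ofNat_of_zero_le h
    rw [zpow_natCast]
    exact A.toSubring.pow_mem ϖ.2 m

include U in
theorem Unif.least (hA : A.LiesOverPrime p) {ι : Type*} (f : ι → Ω) (hf : ∀ i, f i ∈ E)
    (h0 : ∃ i, f i ≠ 0) (hb : ∃ c : A, c ≠ 0 ∧ ∀ i, (c : Ω) * f i ∈ A) :
    ∃ k : ℤ, (∀ i, (ϖ : Ω) ^ k * f i ∈ A) ∧ ∃ i, (ϖ : Ω) ^ k * f i ∉ A.nonunits := by
  obtain ⟨i₀, hi₀⟩ := h0
  obtain ⟨c, hc0, hc⟩ := hb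
  obtain ⟨n, d, hd⟩ := rank_one hA ϖ c (residue_eq_zero_iff.2 U.non) hc0
  obtain ⟨k, hk, hmin⟩ := Int.exists_least_of_bdd (P := fun k => ∀ i, (ϖ : Ω) ^ k * f i ∈ A) (by
    obtain ⟨m, u, huE, huA, hu, h⟩ := U.unit (f i₀) (hf i₀) hi₀
    refine ⟨-m, fun k hk => ?_⟩
    have h1 := hk i₀
    rw [h, ← mul_assoc, ← zpow_add₀ U.ne] at h1
    have h2 : (ϖ : Ω) ^ (k + m) ∈ A := by
      have hu0 : u ≠ 0 := by
        rintro rfl
        exact hu (zero_mem_nonunits A)
      have h3 : u⁻¹ ∈ A := by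
        by_contra hcon
        exact hu ((mem_nonunits_iff_inv A _).2 (Or.inr hcon))
      have := A.mul_mem _ _ h1 h3
      rwa [mul_assoc, mul_inv_cancel₀ hu0, mul_one] at this
    have h3 := U.zpow_mem_iff.1 h2
    omega) ⟨n, fun i => by
      rw [zpow_natCast]
      have h1 : (ϖ : Ω) ^ n = (c : Ω) * d := by exact_mod_cast congrArg Subtype.val hd
      rw [h1, mul_comm (c : Ω), mul_assoc]
      exact A.mul_mem _ _ d.2 (hc i)⟩
  refine ⟨k, hk, ?_⟩
  by_contra hcon
  push Not at hcon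
  have h1 := hmin (k - 1) (fun i => by
    rcases eq_or_ne (f i) 0 with h0 | h0
    · rw [h0, mul_zero]; exact A.zero_mem
    obtain ⟨m, u, huE, huA, hu, h⟩ := U.unit (f i) (hf i) h0
    have h1 := hcon i
    rw [h, ← mul_assoc, ← zpow_add₀ U.ne] at h1 ⊢
    have hkm : 0 < k + m := by
      by_contra hkm
      push Not at hkm
      obtain ⟨l, hl⟩ : ∃ l : ℕ, k + m = -(l : ℤ) := ⟨(-(k + m)).toNat, by omega⟩
      rw [hl, zpow_neg, zpow_natCast] at h1
      have h2 := mul_mem_nonunits A h1 (A.toSubring.pow_mem ϖ.2 l)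
      rw [mul_right_comm, inv_mul_cancel₀ (pow_ne_zero _ U.ne), one_mul] at h2
      exact hu h2
    exact A.mul_mem _ _ (U.zpow_mem_iff.2 (by omega)) huA)
  omega

end Least

section Rep

variable {M : ℕ} [NeZero M] {k : Type*} [Field k] [Algebra A k]

theorem red_eq_zero_iff (hk : Function.Surjective (algebraMap A k)) {x : A} :
    algebraMap A k x = 0 ↔ (x : Ω) ∈ A.nonunits := by
  constructor
  · intro h
    by_contra hcon
    have h1 := (isUnit_of hcon).map (algebraMap A k)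
    rw [h] at h1
    exact not_isUnit_zero h1
  · intro h
    by_contra hcon
    obtain ⟨u, hu⟩ := isUnit_of_red_ne_zero hk hcon
    have h1 := mul_mem_nonunits A h (u⁻¹ : Aˣ).1.2
    rw [← hu] at h1
    have h2 : ((u : A) : Ω) * ((u⁻¹ : Aˣ) : A) = 1 := by exact_mod_cast congrArg Subtype.val u.mul_inv
    rw [h2] at h1
    exact one_notMem_nonunits A h1

theorem coe_aeval_jF (P : (Polynomial Ω)) : ((aeval (jF' Ω (p * M)) P : FF Ω (p * M)) : LaurentSeries Ω) =
    aeval (jqModC Ω) P := by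
  have h1 := aeval_algHom_apply (FF Ω (p * M)).val (jF' Ω (p * M)) P
  rw [← show (FF Ω (p * M)).val (jF' Ω (p * M)) = jqModC Ω from Jc_one_one]
  exact h1.symm

theorem jqModC_mem_EL (E : IntermediateField (K0 A) Ω) : jqModC Ω ∈ EL E := by
  intro σ _
  rw [coeffMap_jqModC]

/-- evaluation of integral polynomials -/
theorem exists_eval (P : (Polynomial A)) : ∃ b : LaurentSeries A,
    incL A Ω b = aeval (jqModC Ω) (P.map (algebraMap A Ω)) ∧
    redL A (k) b = aeval (jqModC (k))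
      (P.map (algebraMap A (k))) := by
  refine ⟨evT (jqModC A) P, ?_, ?_⟩
  · rw [coeffMap_evT, coeffMap_jqModC, evT_eq_aeval]
  · rw [coeffMap_evT, coeffMap_jqModC, evT_eq_aeval]

variable [CharP k p] [IsAlgClosed k] (hk : Function.Surjective (algebraMap A k))

include hk in
/-- **Integral representatives.** -/
theorem exists_rep (hA : A.LiesOverPrime p) (hco : p.Coprime M)
    (hM : (M : k) ≠ 0)
    {E : IntermediateField (K0 A) Ω} [FiniteDimensional (K0 A) E] {e : ℕ} {ϖ : A}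
    (U : Unif E p e ϖ) {x : FF Ω (p * M)} (hx0 : x ≠ 0) (hx : (x : LaurentSeries Ω) ∈ EL E) :
    ∃ (κ : ℤ) (a b : LaurentSeries A), incL A Ω a ∈ EL E ∧ incL A Ω b ∈ EL E ∧
      redL A (k) a ≠ 0 ∧ redL A (k) b ≠ 0 ∧
      incL A Ω b * (HahnSeries.C ((ϖ : Ω) ^ κ) * (x : LaurentSeries Ω)) = incL A Ω a := by
  obtain ⟨P, hP0, Q, hPQ⟩ := sspan (A := A) (K := Ω) (k := k)
    hco hk hM x
  obtain ⟨P₁, hP₁0, P₂, hP₂⟩ := exists_dvd_map (E := E) hP0
  have hP₁m : P₁.map (algebraMap E Ω) ≠ 0 :=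
    (Polynomial.map_ne_zero_iff (algebraMap E Ω).injective).2 hP₁0
  have hP₁E : ∀ n, (P₁.map (algebraMap E Ω)).coeff n ∈ E := fun n => by
    rw [coeff_map]
    exact (P₁.coeff n).2
  -- normalise the polynomial
  obtain ⟨m, hmA, n₀, hn₀⟩ := U.least hA (fun n => (P₁.map (algebraMap E Ω)).coeff n) hP₁E (by
    by_contra hcon
    push Not at hcon
    exact hP₁m (Polynomial.ext fun n => by rw [hcon n, coeff_zero])) (by
    obtain ⟨c, hc⟩ := IsLocalization.exist_integer_multiples_of_finset (nonZeroDivisors A)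
      ((P₁.map (algebraMap E Ω)).support.image fun n => (P₁.map (algebraMap E Ω)).coeff n)
    refine ⟨c, nonZeroDivisors.ne_zero c.2, fun n => ?_⟩
    by_cases hn : n ∈ (P₁.map (algebraMap E Ω)).support
    · obtain ⟨a, ha⟩ := hc _ (Finset.mem_image_of_mem _ hn)
      rw [Algebra.smul_def] at ha
      change algebraMap A Ω c * _ ∈ A
      rw [← ha]
      exact a.2
    · rw [Polynomial.notMem_support_iff.1 hn, mul_zero]
      exact A.zero_mem)
  have hlift : ∃ P₃ : (Polynomial A), P₃.map (algebraMap A Ω) = C ((ϖ : Ω) ^ m) * P₁.map (algebraMap E Ω) := by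
    have h1 : C ((ϖ : Ω) ^ m) * P₁.map (algebraMap E Ω) ∈ Polynomial.lifts (algebraMap A Ω) := by
      rw [Polynomial.lifts_iff_coeff_lifts]
      intro n
      rw [coeff_C_mul]
      exact ⟨⟨_, hmA n⟩, rfl⟩
    obtain ⟨P₃, hP₃⟩ := (Polynomial.mem_lifts _).1 h1
    exact ⟨P₃, hP₃⟩
  obtain ⟨P₃, hP₃⟩ := hlift
  have hP₃c : ∀ n, ((P₃.coeff n : A) : Ω) = (ϖ : Ω) ^ m * (P₁.map (algebraMap E Ω)).coeff n := by
    intro n
    have := congrArg (fun R : (Polynomial Ω) => R.coeff n) hP₃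
    simp only [coeff_map, coeff_C_mul] at this
    rw [coeff_map]
    exact this
  have hP₃0 : P₃.map (algebraMap A (k)) ≠ 0 := by
    intro h0
    have h1 := congrArg (fun R : Polynomial (k) => R.coeff n₀) h0
    simp only [coeff_map, coeff_zero] at h1
    have h2 := (red_eq_zero_iff (k := k) hk).1 h1
    rw [hP₃c] at h2
    exact hn₀ h2
  obtain ⟨b, hb1, hb2⟩ := exists_eval (A := A) (k := k) P₃
  have hbE : incL A Ω b ∈ EL E := by
    rw [hb1]
    refine aeval_mem_EL (jqModC_mem_EL E) fun n => ?_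
    rw [hP₃, coeff_C_mul]
    exact mul_mem (zpow_mem U.mem m) (hP₁E n)
  have hbr : redL A (k) b ≠ 0 := by
    rw [hb2]
    exact fun h => hP₃0 (aeval_jqModC_injective (h.trans (map_zero _).symm))
  -- the product
  have hz : incL A Ω b * (x : LaurentSeries Ω) ∈ Bd A := by
    have h1 : incL A Ω b * (x : LaurentSeries Ω) = HahnSeries.C ((ϖ : Ω) ^ m) *
        (aeval (jqModC Ω) P₂ * ((aeval (jF' Ω (p * M)) P * x : FF Ω (p * M)) :
          LaurentSeries Ω)) := by
      rw [MulMemClass.coe_mul, coe_aeval_jF, hb1, hP₃, hP₂, map_mul, map_mul, aeval_C,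
        algebraMap_eq_C]
      ring
    rw [h1, hPQ]
    refine mul_mem (C_mem_Bd _) (mul_mem (aeval_mem_Bd ?_ _) ?_)
    · rw [← coeffMap_jqModC (algebraMap A Ω)]
      exact incL_mem_Bd _
    · rw [AddSubmonoidClass.coe_finsetSum]
      refine sum_mem fun i _ => ?_
      rw [MulMemClass.coe_mul, coe_aeval_jF]
      refine mul_mem (aeval_mem_Bd ?_ _) ?_
      · rw [← coeffMap_jqModC (algebraMap A Ω)]
        exact incL_mem_Bd _
      · rw [(hasLift_yy (A := A) (K := Ω) (hco := hco) hM i).1]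
        exact incL_mem_Bd _
  have hzE : incL A Ω b * (x : LaurentSeries Ω) ∈ EL E := mul_mem hbE hx
  have hz0 : incL A Ω b * (x : LaurentSeries Ω) ≠ 0 := by
    refine mul_ne_zero ?_ (fun h => hx0 (Subtype.ext h))
    intro h
    apply hbr
    have : b = 0 := incL_injective A Ω (by rw [h, map_zero])
    rw [this, map_zero]
  obtain ⟨z, hzz⟩ : ∃ z, z = incL A Ω b * (x : LaurentSeries Ω) := ⟨_, rfl⟩
  rw [← hzz] at hz hzE hz0
  obtain ⟨κ, hkA, n₁, hn₁⟩ := U.least hA (fun n => z.coeff n) (mem_EL.1 hzE) (by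
    by_contra hcon
    push Not at hcon
    exact hz0 (HahnSeries.ext (funext hcon))) (by
    obtain ⟨c, hc0, a, ha⟩ := hz
    refine ⟨c, hc0, fun n => ?_⟩
    have := congrArg (fun y : LaurentSeries Ω => y.coeff n) ha
    simp only [coeff_Cmul] at this
    rw [this]
    exact (a.coeff n).2)
  obtain ⟨a, ha⟩ := exists_incL (A := A) (x := HahnSeries.C ((ϖ : Ω) ^ κ) * z) fun n => by
    rw [coeff_Cmul]
    exact hkA n
  refine ⟨κ, a, b, ?_, hbE, ?_, hbr, ?_⟩
  · rw [ha]
    exact mul_mem (C_mem_EL (zpow_mem U.mem κ)) hzE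
  · intro h0
    apply hn₁
    have h1 := congrArg (fun y : LaurentSeries (k) => y.coeff n₁) h0
    have h2 := congrArg (fun y : LaurentSeries Ω => y.coeff n₁) ha
    simp only [coeff_Cmul] at h2
    rw [← h2]
    exact (red_eq_zero_iff hk).1 h1
  · rw [ha, hzz]
    ring

end Rep

end Fermat.Agent.PRem
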