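import Fermat.Agent.Nod.Rigid

/-!
# Discrete rational structures on reduction models
-/

set_option autoImplicit false
set_option linter.unusedSectionVars false
set_option linter.style.haveILetI false

namespace Fermat.Agent.PRem

open Module Fermat.Agent.Red

variable {A K F k R : Type*} [CommRing A] [IsDomain A] [ValuationRing A]
  [Field K] [Algebra A K] [IsFractionRing A K] [Field F] [Algebra K F] [Algebra A F]
  [IsScalarTower A K F] [Field k] [Algebra A k] [CommRing R] [Algebra k R] [Algebra A R]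
  [IsScalarTower A k R] (M : RedModel A K F k R)

theorem red_eq_zero_of_not_isUnit (hk : Function.Surjective (algebraMap A k)) {a : A}
    (ha : ¬ IsUnit a) : algebraMap A k a = 0 := by
  by_contra h
  exact ha (isUnit_of_red_ne_zero hk h)

/-- combinations of elements with independent reductions -/
theorem exists_coeff (hk : Function.Surjective (algebraMap A k)) {ι : Type*} [Fintype ι]
    (v : ι → M.W) (hv : LinearIndependent k (fun i => M.π (v i))) (e : ι → K)
    (h : ∑ i, e i • (v i : F) ∈ M.W) : ∃ a : ι → A, ∀ i, e i = algebraMap A K (a i) := by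
  classical
  obtain ⟨⟨s, hs⟩, hb⟩ := IsLocalization.exist_integer_multiples (nonZeroDivisors A) Finset.univ e
  have hs0 : s ≠ 0 := nonZeroDivisors.ne_zero hs
  have hsK : algebraMap A K s ≠ 0 := (map_ne_zero_iff _ (IsFractionRing.injective A K)).2 hs0
  choose a ha using fun i => hb i (Finset.mem_univ i)
  by_cases h0 : ∃ i ∈ Finset.univ, a i ≠ 0
  swap
  · push Not at h0
    refine ⟨0, fun i => ?_⟩
    have h1 := ha i
    rw [h0 i (Finset.mem_univ i), map_zero] at h1
    rw [Pi.zero_apply, map_zero]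
    have h2 : (s : A) • e i = 0 := h1.symm
    rw [Algebra.smul_def] at h2
    exact (mul_eq_zero.1 h2).resolve_left hsK
  obtain ⟨j, -, hj0, hj⟩ := exists_dvd_all Finset.univ a h0
  choose b hb' using fun i => hj i (Finset.mem_univ i)
  have hbj : b j = 1 := by
    have := hb' j
    nth_rw 1 [← mul_one (a j)] at this
    exact (mul_left_cancel₀ hj0 this).symm
  -- the primitive combination
  obtain ⟨y, hy⟩ : ∃ y : M.W, y = ∑ i, b i • v i := ⟨_, rfl⟩
  have hπy : M.π y ≠ 0 := by
    intro h1
    rw [hy, map_sum] at h1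
    simp only [map_smul] at h1
    have h2 : ∑ i, algebraMap A k (b i) • M.π (v i) = 0 := by
      rw [← h1]
      exact Finset.sum_congr rfl fun i _ => algebraMap_smul k (b i) _
    have h3 := Fintype.linearIndependent_iff.1 hv _ h2 j
    rw [hbj, map_one] at h3
    exact one_ne_zero h3
  have hsy : s • (∑ i, e i • (v i : F)) = a j • (y : F) := by
    rw [hy, Finset.smul_sum]
    push_cast
    rw [Finset.smul_sum]
    refine Finset.sum_congr rfl fun i _ => ?_
    have h1 := ha i
    rw [hb' i] at h1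
    have h2 : (s • e i : K) = algebraMap A K (a j * b i) := h1.symm
    rw [← smul_assoc, h2, ← smul_assoc, algebraMap_smul, smul_eq_mul]
  have hdvd : s ∣ a j := by
    rcases ValuationRing.dvd_total s (a j) with h1 | ⟨s', hs'⟩
    · exact h1
    · by_cases hu : IsUnit s'
      · exact (hu.dvd_mul_right.1 (by rw [← hs'] : s ∣ a j * s'))
      · exfalso
        have h2 : (y : F) = s' • (∑ i, e i • (v i : F)) := by
          have h3 : a j • (s' • (∑ i, e i • (v i : F))) = a j • (y : F) := by
            rw [← hsy, hs', mul_smul]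
          rw [← algebraMap_smul K (a j), ← algebraMap_smul K (a j) (y : F)] at h3
          exact (smul_right_injective F ((map_ne_zero_iff _ (IsFractionRing.injective A K)).2 hj0)
            h3).symm
        apply hπy
        have h4 : y = s' • (⟨_, h⟩ : M.W) := Subtype.ext h2
        rw [h4, map_smul, ← algebraMap_smul k s', red_eq_zero_of_not_isUnit hk hu, zero_smul]
  obtain ⟨c, hc⟩ := hdvd
  refine ⟨fun i => c * b i, fun i => ?_⟩
  have h1 := ha i
  rw [hb' i, hc] at h1
  have h2 : (s • e i : K) = algebraMap A K (s * c * b i) := h1.symm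
  rw [Algebra.smul_def, mul_assoc, map_mul] at h2
  exact mul_left_cancel₀ hsK h2

/-- A discrete rational structure. -/
structure RatCore (F' : Subfield F) (ϖ : A) : Prop where
  ϖ0 : ϖ ≠ 0
  ϖk : algebraMap A k ϖ = 0
  ϖF : algebraMap A F ϖ ∈ F'
  res : ∀ c : k, ∃ a : A, algebraMap A F a ∈ F' ∧ algebraMap A k a = c
  disc : ∀ x ∈ F', ∀ hx : x ∈ M.W, M.π ⟨x, hx⟩ = 0 → ∃ y ∈ F', y ∈ M.W ∧ x = ϖ • y
  bdd : ∀ x ∈ F', ∃ n : ℕ, ϖ ^ n • x ∈ M.W
  rank : ∀ c : A, c ≠ 0 → ∃ n : ℕ, c ∣ ϖ ^ n

namespace RatCore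

variable {M} {F' : Subfield F} {ϖ : A} (C : RatCore M F' ϖ)
  (hk : Function.Surjective (algebraMap A k))

include C in
theorem ϖF0 : algebraMap A F ϖ ≠ 0 := by
  rw [IsScalarTower.algebraMap_apply A K F]
  exact (map_ne_zero_iff _ (algebraMap K F).injective).2
    ((map_ne_zero_iff _ (IsFractionRing.injective A K)).2 C.ϖ0)

include C in
theorem ϖK0 : algebraMap A K ϖ ≠ 0 :=
  (map_ne_zero_iff _ (IsFractionRing.injective A K)).2 C.ϖ0

/-- the extension step for orthonormal families -/
theorem exists_extend {r : ℕ} (v : Fin r → M.W) (hvF : ∀ i, (v i : F) ∈ F')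
    (hv : LinearIndependent k (fun i => M.π (v i))) {u : F} (huF : u ∈ F')
    (hu : u ∉ Submodule.span K (Set.range fun i => (v i : F))) (C : RatCore M F' ϖ)
    (hk : Function.Surjective (algebraMap A k)) :
    ∃ w : M.W, (w : F) ∈ F' ∧ (w : F) ∈ Submodule.span K (Set.range fun i => (v i : F)) ⊔
      Submodule.span K {u} ∧ M.π w ∉ Submodule.span k (Set.range fun i => M.π (v i)) := by
  classical
  set V := Submodule.span K (Set.range fun i => (v i : F)) with hV
  have hvV : ∀ i, (v i : F) ∈ V := fun i => Submodule.subset_span ⟨i, rfl⟩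
  -- the integers `n` such that `u` is approximated up to `ϖ ^ n`
  let Q : ℤ → Prop := fun n => ∃ c : Fin r → K, (∀ i, algebraMap K F (c i) ∈ F') ∧
    ((algebraMap A F ϖ) ^ (-n) * (u - ∑ i, c i • (v i : F))) ∈ M.W
  have hVfd : FiniteDimensional K V := FiniteDimensional.span_of_finite K (Set.finite_range _)
  -- an element whose reduction is new
  obtain ⟨y, hyV, hyW, hyπ⟩ : ∃ y : F, y ∈ V ⊔ Submodule.span K {u} ∧ ∃ hy : y ∈ M.W,
      M.π ⟨y, hy⟩ ∉ Submodule.span k (Set.range fun i => M.π (v i)) := by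
    by_contra hcon
    push Not at hcon
    have h1 : M.rd hk (V ⊔ Submodule.span K {u}) ≤
        Submodule.span k (Set.range fun i => M.π (v i)) := by
      rintro _ ⟨x, hx, rfl⟩
      exact hcon x hx.2 hx.1
    have h2 : finrank K ↥(V ⊔ Submodule.span K {u}) ≤ r := by
      haveI : FiniteDimensional k ↥(Submodule.span k (Set.range fun i => M.π (v i))) :=
        FiniteDimensional.span_of_finite k (Set.finite_range _)
      rw [← M.finrank_rd hk]
      refine (Submodule.finrank_mono h1).trans ?_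
      refine (finrank_range_le_card _).trans ?_
      rw [Fintype.card_fin]
    have hvK : LinearIndependent K (fun i => (v i : F)) := by
      rw [Fintype.linearIndependent_iff]
      intro g hg j
      by_contra hgj
      have h3 : ∀ m : K, ∑ i, (m * g i) • (v i : F) ∈ M.W := by
        intro m
        have : ∑ i, (m * g i) • (v i : F) = 0 := by
          simp_rw [mul_smul]
          rw [← Finset.smul_sum, hg, smul_zero]
        rw [this]
        exact zero_mem _
      obtain ⟨a, ha⟩ := exists_coeff M hk v hv (fun i => ((algebraMap A K ϖ)⁻¹ * (g j)⁻¹) * g i)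
        (h3 _)
      have h4 := ha j
      rw [mul_assoc, inv_mul_cancel₀ hgj, mul_one] at h4
      have h5 : (1 : K) = algebraMap A K (a j * ϖ) := by
        rw [map_mul, ← h4, inv_mul_cancel₀ C.ϖK0]
      have h6 : (1 : A) = a j * ϖ := by
        apply IsFractionRing.injective A K
        rw [map_one, h5]
      have h7 := congrArg (algebraMap A k) h6
      rw [map_mul, C.ϖk, mul_zero, map_one] at h7
      exact one_ne_zero h7
    have h3 : finrank K V = r := by
      rw [hV, finrank_span_eq_card hvK, Fintype.card_fin]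
    have h4 : V < V ⊔ Submodule.span K {u} := by
      refine lt_of_le_of_ne le_sup_left fun h => hu ?_
      rw [h]
      exact Submodule.mem_sup_right (Submodule.mem_span_singleton_self u)
    have h5 := Submodule.finrank_lt_finrank_of_lt h4
    omega
  obtain ⟨y1, hy1, y2, hy2, hy12⟩ := Submodule.mem_sup.1 hyV
  obtain ⟨c₀, rfl⟩ := Submodule.mem_span_singleton.1 hy2
  have hspanV : ∀ z ∈ V, ∃ c : Fin r → K, ∑ i, c i • (v i : F) = z := by
    intro z hz
    exact (Submodule.mem_span_range_iff_exists_fun K).1 hz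
  have hkey : ∀ z ∈ V, ∀ hz : z ∈ M.W, M.π ⟨z, hz⟩ ∈
      Submodule.span k (Set.range fun i => M.π (v i)) := by
    intro z hzV hz
    obtain ⟨c, rfl⟩ := hspanV z hzV
    obtain ⟨a, ha⟩ := exists_coeff M hk v hv c hz
    have h1 : (⟨∑ i, c i • (v i : F), hz⟩ : M.W) = ∑ i, a i • v i := by
      apply Subtype.ext
      push_cast
      refine Finset.sum_congr rfl fun i _ => ?_
      rw [ha i, algebraMap_smul]
    rw [h1, map_sum]
    refine Submodule.sum_mem _ fun i _ => ?_
    rw [map_smul, ← algebraMap_smul k (a i)]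
    exact Submodule.smul_mem _ _ (Submodule.subset_span ⟨i, rfl⟩)
  -- boundedness
  have hc₀ : c₀ ≠ 0 := by
    rintro rfl
    rw [zero_smul, add_zero] at hy12
    subst hy12
    exact hyπ (hkey _ hy1 hyW)
  have hϖK := C.ϖK0
  have hno : ∀ n : ℤ, Q n → ¬ ∃ a : A, algebraMap A k a = 0 ∧
      c₀ * (algebraMap A K ϖ) ^ n = algebraMap A K a := by
    rintro n ⟨d, -, hd⟩ ⟨a, ha, ha'⟩
    apply hyπ
    obtain ⟨z, hz⟩ : ∃ z : M.W, (z : F) =
      (algebraMap A F ϖ) ^ (-n) * (u - ∑ i, d i • (v i : F)) := ⟨⟨_, hd⟩, rfl⟩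
    have hϖF := C.ϖF0
    have h1 : a • (z : F) = c₀ • (u - ∑ i, d i • (v i : F)) := by
      rw [hz, ← algebraMap_smul K a, ← ha', mul_smul, Algebra.smul_def ((algebraMap A K ϖ) ^ n),
        map_zpow₀, ← IsScalarTower.algebraMap_apply A K F, ← mul_assoc, ← zpow_add₀ hϖF,
        add_neg_cancel, zpow_zero, one_mul]
    have h2 : y - a • (z : F) ∈ V := by
      rw [h1, ← hy12, smul_sub, add_sub_assoc, sub_sub_cancel]
      exact add_mem hy1 (Submodule.smul_mem _ _
        (Submodule.sum_mem _ fun i _ => Submodule.smul_mem _ _ (hvV i)))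
    have h3 : y - a • (z : F) ∈ M.W := sub_mem hyW (M.W.smul_mem z.2 a)
    have h4 := hkey _ h2 h3
    have h5 : (⟨y - a • (z : F), h3⟩ : M.W) = ⟨y, hyW⟩ - a • z := rfl
    rw [h5, map_sub, map_smul, ← algebraMap_smul k a, ha, zero_smul, sub_zero] at h4
    exact h4
  have hbd : ∃ b : ℤ, ∀ n : ℤ, Q n → n ≤ b := by
    obtain ⟨⟨c, d⟩, hcd⟩ := IsLocalization.mk'_surjective (nonZeroDivisors A) c₀
    obtain ⟨n, hn⟩ := C.rank d (nonZeroDivisors.ne_zero d.2)
    refine ⟨n, fun m hm => ?_⟩
    by_contra hlt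
    push Not at hlt
    apply hno m hm
    obtain ⟨e, he⟩ := hn
    obtain ⟨l, rfl⟩ : ∃ l : ℕ, m = n + (l + 1 : ℕ) := ⟨(m - n - 1).toNat, by omega⟩
    refine ⟨c * e * ϖ ^ (l + 1), ?_, ?_⟩
    · rw [map_mul, map_pow, C.ϖk, zero_pow (Nat.succ_ne_zero l), mul_zero]
    · have hd0 : algebraMap A K (d : A) ≠ 0 :=
        (map_ne_zero_iff _ (IsFractionRing.injective A K)).2 (nonZeroDivisors.ne_zero d.2)
      have h1 : c₀ * algebraMap A K (d : A) = algebraMap A K c := by
        rw [← hcd]; exact IsLocalization.mk'_spec K c d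
      rw [zpow_add₀ hϖK, zpow_natCast, zpow_natCast, ← map_pow (algebraMap A K) ϖ n, he, map_mul,
        map_mul, map_mul, map_pow, ← h1]
      ring
  have hex : ∃ n : ℤ, Q n := by
    obtain ⟨n, hn⟩ := C.bdd u huF
    refine ⟨-n, 0, fun i => by simp [zero_mem], ?_⟩
    simp only [Pi.zero_apply, zero_smul, Finset.sum_const_zero, sub_zero, neg_neg, zpow_natCast]
    rwa [Algebra.smul_def, map_pow] at hn
  classical
  obtain ⟨b, hb⟩ := hbd
  obtain ⟨n, hn, hmax⟩ := Int.exists_greatest_of_bdd ⟨b, hb⟩ hex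
  obtain ⟨c, hcF, hcW⟩ := hn
  have hxF : (algebraMap A F ϖ) ^ (-n) * (u - ∑ i, c i • (v i : F)) ∈ F' := by
    refine mul_mem (zpow_mem C.ϖF _) (sub_mem huF (sum_mem fun i _ => ?_))
    rw [Algebra.smul_def]
    exact mul_mem (hcF i) (hvF i)
  refine ⟨⟨_, hcW⟩, hxF, ?_, ?_⟩
  · have h1 : (algebraMap A F ϖ) ^ (-n) * (u - ∑ i, c i • (v i : F)) =
        ((algebraMap A K ϖ) ^ (-n)) • (u - ∑ i, c i • (v i : F)) := by
      rw [Algebra.smul_def, map_zpow₀, ← IsScalarTower.algebraMap_apply A K F]
    change (algebraMap A F ϖ) ^ (-n) * (u - ∑ i, c i • (v i : F)) ∈ _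
    rw [h1]
    refine Submodule.smul_mem _ _ (sub_mem
      (Submodule.mem_sup_right (Submodule.mem_span_singleton_self u)) (Submodule.mem_sup_left ?_))
    exact Submodule.sum_mem _ fun i _ => Submodule.smul_mem _ _ (hvV i)
  · intro hmem
    obtain ⟨d, hd⟩ := (Submodule.mem_span_range_iff_exists_fun k).1 hmem
    choose a haF ha using fun i => C.res (d i)
    have h1 : (algebraMap A F ϖ) ^ (-n) * (u - ∑ i, c i • (v i : F)) - ∑ i, a i • (v i : F) ∈
        M.W := sub_mem hcW (sum_mem fun i _ => M.W.smul_mem (v i).2 _)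
    have h2 : M.π ⟨_, h1⟩ = 0 := by
      have h3 : (⟨_, h1⟩ : M.W) = ⟨_, hcW⟩ - ∑ i, a i • v i := by
        apply Subtype.ext
        push_cast
        rfl
      rw [h3, map_sub, ← hd, map_sum]
      simp_rw [map_smul]
      rw [sub_eq_zero]
      refine Finset.sum_congr rfl fun i _ => ?_
      rw [← ha i, algebraMap_smul]
    have h3 : (algebraMap A F ϖ) ^ (-n) * (u - ∑ i, c i • (v i : F)) -
        ∑ i, a i • (v i : F) ∈ F' := by
      refine sub_mem hxF (sum_mem fun i _ => ?_)
      rw [Algebra.smul_def]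
      exact mul_mem (haF i) (hvF i)
    obtain ⟨z, hzF, hzW, hz⟩ := C.disc _ h3 h1 h2
    have h4 : Q (n + 1) := by
      refine ⟨fun i => c i + (algebraMap A K ϖ) ^ n * algebraMap A K (a i), fun i => ?_, ?_⟩
      · rw [map_add, map_mul, map_zpow₀, ← IsScalarTower.algebraMap_apply A K F,
          ← IsScalarTower.algebraMap_apply A K F]
        exact add_mem (hcF i) (mul_mem (zpow_mem C.ϖF _) (haF i))
      · have hϖF := C.ϖF0
        have h5 : (algebraMap A F ϖ) ^ (-(n + 1)) * (u - ∑ i, (c i + (algebraMap A K ϖ) ^ n *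
            algebraMap A K (a i)) • (v i : F)) = z := by
          have h6 : (algebraMap A F ϖ) * z = (algebraMap A F ϖ) ^ (-n) *
              (u - ∑ i, c i • (v i : F)) - ∑ i, a i • (v i : F) := by
            rw [hz, Algebra.smul_def]
          have h7 : ∑ i, (c i + (algebraMap A K ϖ) ^ n * algebraMap A K (a i)) • (v i : F) =
              ∑ i, c i • (v i : F) + (algebraMap A F ϖ) ^ n * ∑ i, a i • (v i : F) := by
            rw [Finset.mul_sum, ← Finset.sum_add_distrib]
            refine Finset.sum_congr rfl fun i _ => ?_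
            rw [add_smul, mul_smul, algebraMap_smul, Algebra.smul_def ((algebraMap A K ϖ) ^ n),
              map_zpow₀, ← IsScalarTower.algebraMap_apply A K F]
          apply mul_left_cancel₀ hϖF
          rw [h6, h7, neg_add, zpow_add₀ hϖF, zpow_neg, zpow_neg, zpow_one]
          have h8 : (algebraMap A F ϖ) ^ n ≠ 0 := zpow_ne_zero _ hϖF
          field_simp
          ring
        rw [h5]
        exact hzW
    have := hmax _ h4
    omega

/-- **Orthonormal families**: a space spanned by rational elements has a rational family with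
independent reductions spanning it. -/
theorem exists_orth (C : RatCore M F' ϖ) (hk : Function.Surjective (algebraMap A k))
    (V : Submodule K F) [FiniteDimensional K V]
    (hV : V ≤ Submodule.span K {x | x ∈ V ∧ x ∈ F'}) :
    ∃ (r : ℕ) (v : Fin r → M.W), (∀ i, (v i : F) ∈ F') ∧ (∀ i, (v i : F) ∈ V) ∧
      LinearIndependent k (fun i => M.π (v i)) ∧
      Submodule.span K (Set.range fun i => (v i : F)) = V := by
  classical
  let P : ℕ → Prop := fun r => ∃ v : Fin r → M.W, (∀ i, (v i : F) ∈ F') ∧ (∀ i, (v i : F) ∈ V) ∧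
      LinearIndependent k (fun i => M.π (v i))
  have hP0 : P 0 := ⟨Fin.elim0, fun i => i.elim0, fun i => i.elim0, linearIndependent_empty_type⟩
  have hPb : ∀ r, P r → r ≤ finrank K V := by
    rintro r ⟨v, -, hvV, hv⟩
    rw [← M.finrank_rd hk V]
    have h1 : LinearIndependent k (fun i => (⟨M.π (v i), ⟨v i, ⟨(v i).2, hvV i⟩, rfl⟩⟩ :
        M.rd hk V)) := by
      apply LinearIndependent.of_comp (M.rd hk V).subtype
      exact hv
    have := h1.fintype_card_le_finrank
    rwa [Fintype.card_fin] at this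
  obtain ⟨r, ⟨v, hvF, hvV, hv⟩, hmax⟩ : ∃ r, P r ∧ ∀ s, P s → s ≤ r := by
    have h1 := Nat.findGreatest_spec (P := P) (Nat.zero_le (finrank K V)) hP0
    exact ⟨_, h1, fun s hs => Nat.le_findGreatest (hPb s hs) hs⟩
  refine ⟨r, v, hvF, hvV, hv, le_antisymm ?_ ?_⟩
  · rw [Submodule.span_le]
    rintro _ ⟨i, rfl⟩
    exact hvV i
  · refine hV.trans ?_
    rw [Submodule.span_le]
    rintro u ⟨huV, huF⟩
    by_contra hu
    obtain ⟨w, hwF, hwV, hwπ⟩ := exists_extend v hvF hv huF hu C hk
    have hwV' : (w : F) ∈ V := by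
      refine (sup_le (Submodule.span_le.2 ?_) (Submodule.span_le.2 ?_) :
        Submodule.span K (Set.range fun i => (v i : F)) ⊔ Submodule.span K {u} ≤ V) hwV
      · rintro _ ⟨i, rfl⟩
        exact hvV i
      · rintro _ rfl
        exact huV
    have h1 : P (r + 1) := by
      refine ⟨Fin.snoc v w, fun i => ?_, fun i => ?_, ?_⟩
      · refine Fin.lastCases ?_ (fun j => ?_) i
        · rw [Fin.snoc_last]; exact hwF
        · rw [Fin.snoc_castSucc]; exact hvF j
      · refine Fin.lastCases ?_ (fun j => ?_) i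
        · rw [Fin.snoc_last]; exact hwV'
        · rw [Fin.snoc_castSucc]; exact hvV j
      · have h2 : (fun i => M.π ((Fin.snoc v w : Fin (r + 1) → M.W) i)) =
            (Fin.snoc (fun i => M.π (v i)) (M.π w) : Fin (r + 1) → R) := by
          funext i
          refine Fin.lastCases ?_ (fun j => ?_) i
          · rw [Fin.snoc_last, Fin.snoc_last]
          · rw [Fin.snoc_castSucc, Fin.snoc_castSucc]
        rw [h2]
        exact hv.finSnoc hwπ
    have := hmax _ h1
    omega

/-- **Rational lifts**: integral elements of a rational space have the same reduction as rational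
ones. -/
theorem exists_lift (C : RatCore M F' ϖ) (hk : Function.Surjective (algebraMap A k))
    (V : Submodule K F) [FiniteDimensional K V]
    (hV : V ≤ Submodule.span K {x | x ∈ V ∧ x ∈ F'}) {x : F} (hx : x ∈ M.W) (hxV : x ∈ V) :
    ∃ y : F, ∃ hy : y ∈ M.W, y ∈ F' ∧ y ∈ V ∧ M.π ⟨y, hy⟩ = M.π ⟨x, hx⟩ := by
  obtain ⟨r, v, hvF, hvV, hv, hspan⟩ := C.exists_orth hk V hV
  rw [← hspan] at hxV
  obtain ⟨c, hc⟩ := (Submodule.mem_span_range_iff_exists_fun K).1 hxV
  obtain ⟨a, ha⟩ := exists_coeff M hk v hv c (by rw [hc]; exact hx)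
  choose b hbF hb using fun i => C.res (algebraMap A k (a i))
  have h1 : ∑ i, b i • (v i : F) ∈ M.W := sum_mem fun i _ => M.W.smul_mem (v i).2 _
  refine ⟨∑ i, b i • (v i : F), h1, sum_mem fun i _ => ?_, ?_, ?_⟩
  · rw [Algebra.smul_def]
    exact mul_mem (hbF i) (hvF i)
  · refine Submodule.sum_mem _ fun i _ => ?_
    rw [← algebraMap_smul K (b i)]
    exact Submodule.smul_mem _ _ (hvV i)
  · have h2 : (⟨_, h1⟩ : M.W) = ∑ i, b i • v i := by
      apply Subtype.ext
      push_cast
      rfl
    have h3 : (⟨x, hx⟩ : M.W) = ∑ i, a i • v i := by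
      apply Subtype.ext
      push_cast
      rw [← hc]
      refine Finset.sum_congr rfl fun i _ => ?_
      rw [ha i, algebraMap_smul]
    rw [h2, h3, map_sum, map_sum]
    refine Finset.sum_congr rfl fun i _ => ?_
    rw [map_smul, map_smul, ← algebraMap_smul k (b i), ← algebraMap_smul k (a i), hb i]

end RatCore

end Fermat.Agent.PRem
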