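import Fermat.Agent.PRem.Levels
import Fermat.Agent.Nod.Qbar
import Fermat.Agent.Flat.RamDvr

/-!
# Galois descent for function fields
-/

set_option autoImplicit false
set_option linter.unusedSectionVars false
set_option linter.style.haveILetI false

namespace Fermat.Agent.PRem

open AlgebraicCurve Polynomial

section Descent

variable {K F : Type*} [Field K] [Field F] [Algebra K F]

theorem repr_smul {ι : Type*} (B : Module.Basis ι K F) (θ : SemilinearAut K F)
    (hB : ∀ i, θ • B i = B i) (x : F) (i : ι) :
    B.repr (θ • x) i = SemilinearAut.baseAut θ (B.repr x i) := by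
  have h1 : θ • x = (B.repr x).sum fun i c => SemilinearAut.baseAut θ c • B i := by
    conv_lhs => rw [← B.linearCombination_repr x]
    rw [Finsupp.linearCombination_apply, Finsupp.sum, Finsupp.sum, Finset.smul_sum]
    refine Finset.sum_congr rfl fun i _ => ?_
    rw [Algebra.smul_def, smul_mul', SemilinearAut.smul_algebraMap, hB i,
      Algebra.smul_def]
  have h2 : (B.repr x).sum (fun i c => SemilinearAut.baseAut θ c • B i) =
      Finsupp.linearCombination K B ((B.repr x).mapRange (SemilinearAut.baseAut θ)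
        (map_zero _)) := by
    rw [Finsupp.linearCombination_apply,
      Finsupp.sum_mapRange_index (h := fun i a => a • B i) (fun i => zero_smul _ _)]
  rw [h1, h2, B.repr_linearCombination, Finsupp.mapRange_apply]

theorem descent_basis {ι : Type*} (B : Module.Basis ι K F) (S : Set (SemilinearAut K F))
    (hB : ∀ i, ∀ θ ∈ S, θ • B i = B i) (V : Submodule K F)
    (hV : ∀ θ ∈ S, ∀ x ∈ V, θ • x ∈ V) (n : ℕ) : ∀ x ∈ V, (B.repr x).support.card = n →
      x ∈ Submodule.span K {x | x ∈ V ∧ ∀ θ ∈ S, θ • x = x} := by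
  classical
  induction n using Nat.strong_induction_on with
  | _ n ih =>
    intro x hx hn
    by_cases hx0 : x = 0
    · rw [hx0]; exact zero_mem _
    have hr0 : B.repr x ≠ 0 := fun h => hx0 (by simpa using h)
    obtain ⟨i₀, hi₀⟩ := Finsupp.support_nonempty_iff.2 hr0
    have hc0 : B.repr x i₀ ≠ 0 := Finsupp.mem_support_iff.1 hi₀
    -- normalise
    obtain ⟨y, hy⟩ : ∃ y, y = (B.repr x i₀)⁻¹ • x := ⟨_, rfl⟩
    have hyV : y ∈ V := by rw [hy]; exact V.smul_mem _ hx
    have hyr : ∀ i, B.repr y i = (B.repr x i₀)⁻¹ * B.repr x i := fun i => by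
      rw [hy, map_smul, Finsupp.smul_apply, smul_eq_mul]
    have hys : (B.repr y).support = (B.repr x).support := by
      ext i
      rw [Finsupp.mem_support_iff, Finsupp.mem_support_iff, hyr]
      constructor
      · intro h h0; exact h (by rw [h0, mul_zero])
      · intro h; exact mul_ne_zero (inv_ne_zero hc0) h
    suffices hys' : y ∈ Submodule.span K {x | x ∈ V ∧ ∀ θ ∈ S, θ • x = x} by
      have : x = B.repr x i₀ • y := by rw [hy, smul_smul, mul_inv_cancel₀ hc0, one_smul]
      rw [this]
      exact Submodule.smul_mem _ _ hys'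
    by_cases hfix : ∀ θ ∈ S, θ • y = y
    · exact Submodule.subset_span ⟨hyV, hfix⟩
    push Not at hfix
    obtain ⟨θ, hθ, hne⟩ := hfix
    obtain ⟨w, hw⟩ : ∃ w, w = θ • y - y := ⟨_, rfl⟩
    have hwV : w ∈ V := by rw [hw]; exact V.sub_mem (hV θ hθ y hyV) hyV
    have hw0 : w ≠ 0 := by rw [hw]; exact sub_ne_zero.2 hne
    have hwr : ∀ i, B.repr w i = SemilinearAut.baseAut θ (B.repr y i) - B.repr y i := fun i => by
      rw [hw, map_sub, Finsupp.sub_apply, repr_smul B θ (fun i => hB i θ hθ)]
    have hsub : (B.repr w).support ⊆ (B.repr x).support.erase i₀ := by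
      intro i hi
      rw [Finsupp.mem_support_iff, hwr] at hi
      rw [Finset.mem_erase]
      refine ⟨?_, ?_⟩
      · rintro rfl
        apply hi
        rw [hyr, inv_mul_cancel₀ hc0, map_one, sub_self]
      · rw [← hys, Finsupp.mem_support_iff]
        intro h0
        apply hi
        rw [h0, map_zero, sub_self]
    have hcard : (B.repr w).support.card < n := by
      calc _ ≤ ((B.repr x).support.erase i₀).card := Finset.card_le_card hsub
        _ < (B.repr x).support.card := Finset.card_erase_lt_of_mem hi₀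
        _ = n := hn
    have hwr0 : B.repr w ≠ 0 := fun h => hw0 (by simpa using h)
    obtain ⟨i₁, hi₁⟩ := Finsupp.support_nonempty_iff.2 hwr0
    have hc1 : B.repr w i₁ ≠ 0 := Finsupp.mem_support_iff.1 hi₁
    have hwS := ih _ hcard w hwV rfl
    obtain ⟨v, hv⟩ : ∃ v, v = y - (B.repr y i₁ * (B.repr w i₁)⁻¹) • w := ⟨_, rfl⟩
    have hvV : v ∈ V := by rw [hv]; exact V.sub_mem hyV (V.smul_mem _ hwV)
    have hvr : ∀ i, B.repr v i = B.repr y i - B.repr y i₁ * (B.repr w i₁)⁻¹ * B.repr w i :=
      fun i => by rw [hv, map_sub, map_smul, Finsupp.sub_apply, Finsupp.smul_apply, smul_eq_mul]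
    have hvsub : (B.repr v).support ⊆ (B.repr x).support.erase i₁ := by
      intro i hi
      rw [Finsupp.mem_support_iff, hvr] at hi
      rw [Finset.mem_erase]
      refine ⟨?_, ?_⟩
      · rintro rfl
        apply hi
        rw [inv_mul_cancel_right₀ hc1, sub_self]
      · by_contra h0
        rw [← hys, Finsupp.notMem_support_iff] at h0
        have h1 : B.repr w i = 0 := by rw [hwr, h0, map_zero, sub_self]
        apply hi
        rw [h0, h1, mul_zero, sub_self]
    have hi₁x : i₁ ∈ (B.repr x).support := Finset.mem_of_mem_erase (hsub hi₁)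
    have hcardv : (B.repr v).support.card < n := by
      calc _ ≤ ((B.repr x).support.erase i₁).card := Finset.card_le_card hvsub
        _ < (B.repr x).support.card := Finset.card_erase_lt_of_mem hi₁x
        _ = n := hn
    have hvS := ih _ hcardv v hvV rfl
    have : y = v + (B.repr y i₁ * (B.repr w i₁)⁻¹) • w := by rw [hv]; abel
    rw [this]
    exact Submodule.add_mem _ hvS (Submodule.smul_mem _ _ hwS)

/-- Galois descent -/
theorem descent (S : Set (SemilinearAut K F))
    (hspan : ⊤ ≤ Submodule.span K {x : F | ∀ θ ∈ S, θ • x = x}) (V : Submodule K F)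
    (hV : ∀ θ ∈ S, ∀ x ∈ V, θ • x ∈ V) :
    V ≤ Submodule.span K {x | x ∈ V ∧ ∀ θ ∈ S, θ • x = x} := fun x hx =>
  descent_basis (Module.Basis.ofSpan hspan) S (fun i => Module.Basis.ofSpan_subset hspan
    (Set.mem_range_self i)) V hV _ x hx rfl

end Descent

section Poly

/-- every polynomial over an algebraic extension divides a polynomial over the base -/
theorem exists_dvd_map {E K : Type*} [Field E] [Field K] [Algebra E K] [Algebra.IsAlgebraic E K]
    [IsAlgClosed K] {P : K[X]} (hP : P ≠ 0) :
    ∃ Q : E[X], Q ≠ 0 ∧ P ∣ Q.map (algebraMap E K) := by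
  classical
  refine ⟨(P.roots.map fun a => minpoly E a).prod, ?_, ?_⟩
  · rw [ne_eq, Multiset.prod_eq_zero_iff, Multiset.mem_map]
    rintro ⟨a, -, ha⟩
    exact minpoly.ne_zero (Algebra.IsIntegral.isIntegral a) ha
  · have h1 := IsAlgClosed.splits P
    have h2 : P = C P.leadingCoeff * (P.roots.map fun a => X - C a).prod :=
      h1.eq_prod_roots
    rw [h2, Polynomial.map_multiset_prod, Multiset.map_map]
    have hu : IsUnit (C P.leadingCoeff) := (IsUnit.mk0 _ (leadingCoeff_ne_zero.2 hP)).map C
    rw [hu.mul_left_dvd]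
    rw [← h2]
    refine Multiset.prod_dvd_prod_of_dvd _ _ fun a _ => ?_
    rw [Function.comp_apply, dvd_iff_isRoot, IsRoot.def, eval_map, ← aeval_def]
    exact minpoly.aeval E a

end Poly

end Fermat.Agent.PRem
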