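import Fermat.Agent.PRem.Rat
import Fermat.Agent.Nod.Sym

/-!
# Duality of twisted lattices on nodal models
-/

set_option autoImplicit false
set_option linter.unusedSectionVars false
set_option linter.style.haveILetI false

namespace Fermat.Agent.PRem

open AlgebraicCurve Fermat.Agent.Curve Fermat.Agent.RR Fermat.Agent.Red Fermat.Agent.Nod Module
  Polynomial

section General

variable {k E : Type*} [Field k] [IsAlgClosed k] [Field E] [Algebra k E] [FunField k E]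

theorem DD_add (t : E) (a b a' b' : ℕ) : DD k t a b + DD k t a' b' = DD k t (a + a') (b + b') := by
  ext v
  rw [Finsupp.add_apply, DD_apply, DD_apply, DD_apply]
  push_cast
  ring

theorem divisor_zpow (f : E) (i : ℤ) : divisor k (f ^ i) = i • divisor k f := by
  ext v
  rw [divisor_apply, Finsupp.smul_apply, divisor_apply, smul_eq_mul]
  rcases Int.eq_nat_or_neg i with ⟨n, rfl | rfl⟩
  · rw [zpow_natCast, ord_pow]
  · rw [zpow_neg, zpow_natCast, v.ord_inv, ord_pow]; ring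

theorem mem_L_add_zsmul {f : E} (hf : f ≠ 0) (D : Divisor k E) (i : ℤ) (x : E) :
    x ∈ riemannRochSpace (D + i • divisor k f) ↔ f ^ i * x ∈ riemannRochSpace D := by
  rw [← mul_mem_L_iff (zpow_ne_zero i hf) (D + i • divisor k f) x, divisor_zpow,
    add_sub_cancel_right]

theorem ell_add_zsmul {f : E} (hf : f ≠ 0) (D : Divisor k E) (i : ℤ) :
    ell (D + i • divisor k f) = ell D := by
  rw [← ell_sub_divisor (zpow_ne_zero i hf) (D + i • divisor k f), divisor_zpow,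
    add_sub_cancel_right]

/-- The smallest divisor `X` with `V ≤ L(X)`. -/
theorem exists_bd (V : Submodule k E) (hV : V.FG) (hV0 : V ≠ ⊥) :
    ∃ X : Divisor k E, V ≤ riemannRochSpace X ∧ ∀ v : Place k E, ∃ x ∈ V, x ≠ 0 ∧ v.ord x = -X v := by
  suffices h : V = ⊥ ∨ ∃ X : Divisor k E, V ≤ riemannRochSpace X ∧
      ∀ v : Place k E, ∃ x ∈ V, x ≠ 0 ∧ v.ord x = -X v from h.resolve_left hV0
  clear hV0
  refine Submodule.fg_induction (motive := fun V _ => V = ⊥ ∨ ∃ X : Divisor k E,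
      V ≤ riemannRochSpace X ∧ ∀ v : Place k E, ∃ x ∈ V, x ≠ 0 ∧ v.ord x = -X v)
    (fun x => ?_) (fun V₁ V₂ _ _ h₁ h₂ => ?_) V hV
  · by_cases hx : x = 0
    · left; rw [hx]; exact Submodule.span_zero_singleton k
    · right
      refine ⟨-divisor k x, ?_, fun v => ⟨x, Submodule.mem_span_singleton_self x, hx, ?_⟩⟩
      · rw [Submodule.span_singleton_le_iff_mem, mem_L]
        intro v
        right
        rw [Finsupp.neg_apply, divisor_apply, neg_neg]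
      · rw [Finsupp.neg_apply, divisor_apply, neg_neg]
  · rcases h₁ with rfl | ⟨X₁, h₁, h₁'⟩
    · rw [bot_sup_eq]; exact h₂
    rcases h₂ with rfl | ⟨X₂, h₂, h₂'⟩
    · rw [sup_bot_eq]; exact Or.inr ⟨X₁, h₁, h₁'⟩
    right
    refine ⟨X₁ ⊔ X₂, sup_le (h₁.trans (L_mono le_sup_left)) (h₂.trans (L_mono le_sup_right)),
      fun v => ?_⟩
    rw [Finsupp.sup_apply]
    rcases le_total (X₁ v) (X₂ v) with h | h
    · obtain ⟨x, hx, hx0, hxv⟩ := h₂' v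
      exact ⟨x, Submodule.mem_sup_right hx, hx0, by rw [hxv, sup_eq_right.2 h]⟩
    · obtain ⟨x, hx, hx0, hxv⟩ := h₁' v
      exact ⟨x, Submodule.mem_sup_left hx, hx0, by rw [hxv, sup_eq_left.2 h]⟩

theorem add_le_of_mul_mem {V V' : Submodule k E} {X X' Y : Divisor k E}
    (h : ∀ v : Place k E, ∃ x ∈ V, x ≠ 0 ∧ v.ord x = -X v)
    (h' : ∀ v : Place k E, ∃ x ∈ V', x ≠ 0 ∧ v.ord x = -X' v)
    (hY : ∀ x ∈ V, ∀ x' ∈ V', x * x' ∈ riemannRochSpace Y) : X + X' ≤ Y := by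
  intro v
  obtain ⟨x, hx, hx0, hxv⟩ := h v
  obtain ⟨x', hx', hx0', hxv'⟩ := h' v
  have h1 := (mem_L.1 (hY x hx x' hx') v).le_ord (mul_ne_zero hx0 hx0')
  rw [v.ord_mul hx0 hx0', hxv, hxv'] at h1
  rw [Finsupp.add_apply]
  linarith

/-- A divisor which is `≤` another one and has the same degree is equal to it. -/
theorem eq_of_le_of_degree {X Y : Divisor k E} (h : X ≤ Y)
    (hd : Divisor.degree Y ≤ Divisor.degree X) : X = Y := by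
  classical
  have h1 : 0 ≤ Y - X := sub_nonneg.2 h
  have h2 : Divisor.degree (Y - X) = 0 := by
    have := degree_nonneg h1
    rw [map_sub] at this ⊢
    linarith
  rw [degree_eq] at h2
  have h3 := (Finset.sum_eq_zero_iff_of_nonneg (fun v _ => h1 v)).1 h2
  ext v
  by_cases hv : v ∈ (Y - X).support
  · have := h3 v hv
    rw [Finsupp.sub_apply] at this
    linarith
  · rw [Finsupp.mem_support_iff, not_not, Finsupp.sub_apply] at hv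
    linarith

end General

variable {A K F k E₁ E₂ : Type*} [CommRing A] [IsDomain A] [ValuationRing A]
  [Field K] [Algebra A K] [IsFractionRing A K] [Field F] [Algebra K F] [Algebra A F]
  [IsScalarTower A K F] [Field k] [Algebra A k] [Field E₁] [Field E₂] [Algebra k E₁]
  [Algebra k E₂] [Algebra A E₁] [Algebra A E₂] [IsScalarTower A k E₁] [IsScalarTower A k E₂]
  [IsAlgClosed K] [IsAlgClosed k] [CharZero K] [FunField K F] [FunField k E₁] [FunField k E₂]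

variable {ι₀ : Type*} [Fintype ι₀] [Nonempty ι₀]
  {G : GaussData A K F k (E₁ × E₂) ι₀} (Q : RatStr G)
  (hk : Function.Surjective (algebraMap A k))
  (hspan : ∀ x : F, ∃ q : K[X], q ≠ 0 ∧ ∃ P : ι₀ → K[X], aeval G.t q * x = G.comb P)

namespace RatStr

/-- the reduction of `ψ⁻ⁱ L(aP - D)` -/
noncomputable def RR (D : Divisor K F) (a : ℕ) (i : ℤ) : Submodule k (E₁ × E₂) :=
  (G.toRedModel hk hspan).rd hk (riemannRochSpace (DD K G.t a 0 - D + i • divisor K Q.ψ))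

/-- first component -/
noncomputable def AA (D : Divisor K F) (a : ℕ) (i : ℤ) : Submodule k E₁ :=
  (Q.RR hk hspan D a i).map (LinearMap.fst k E₁ E₂)

/-- second component -/
noncomputable def BB (D : Divisor K F) (a : ℕ) (i : ℤ) : Submodule k E₂ :=
  (Q.RR hk hspan D a i).map (LinearMap.snd k E₁ E₂)

variable {Q hk hspan}

theorem mem_RR {D : Divisor K F} {a : ℕ} {i : ℤ} {r : E₁ × E₂} :
    r ∈ Q.RR hk hspan D a i ↔ ∃ x : F, ∃ hx : x ∈ G.W,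
      Q.ψ ^ i * x ∈ riemannRochSpace (DD K G.t a 0 - D) ∧ G.π ⟨x, hx⟩ = r := by
  constructor
  · rintro ⟨x, hx, rfl⟩
    exact ⟨x, hx.1, (mem_L_add_zsmul Q.ψ0 _ i x).1 hx.2, rfl⟩
  · rintro ⟨x, hx, h, rfl⟩
    exact ⟨x, ⟨hx, (mem_L_add_zsmul Q.ψ0 _ i x).2 h⟩, rfl⟩

theorem mem_RR_rat {D : Divisor K F} (hD : Q.IsRat D) {a : ℕ} {i : ℤ} {r : E₁ × E₂} :
    r ∈ Q.RR hk hspan D a i ↔ ∃ x ∈ Q.fld, ∃ hx : x ∈ G.W,
      Q.ψ ^ i * x ∈ riemannRochSpace (DD K G.t a 0 - D) ∧ G.π ⟨x, hx⟩ = r := by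
  constructor
  · rintro ⟨x, hx, rfl⟩
    have hr : Q.IsRat (DD K G.t a 0 - D + i • divisor K Q.ψ) :=
      ((isRat_DD a 0).sub hD).add ((isRat_divisor Q.ψ_mem).zsmul i)
    obtain ⟨y, hy, hyF, hyL, hyπ⟩ := hr.exists_lift hk hspan hx.1 hx.2
    exact ⟨y, hyF, hy, (mem_L_add_zsmul Q.ψ0 _ i y).1 hyL, hyπ⟩
  · rintro ⟨x, -, hx, h, rfl⟩
    exact mem_RR.2 ⟨x, hx, h, rfl⟩

theorem mem_AA {D : Divisor K F} {a : ℕ} {i : ℤ} {r : E₁} :
    r ∈ Q.AA hk hspan D a i ↔ ∃ x : F, ∃ hx : x ∈ G.W,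
      Q.ψ ^ i * x ∈ riemannRochSpace (DD K G.t a 0 - D) ∧ (G.π ⟨x, hx⟩).1 = r := by
  constructor
  · rintro ⟨r', hr', rfl⟩
    obtain ⟨x, hx, h, rfl⟩ := mem_RR.1 hr'
    exact ⟨x, hx, h, rfl⟩
  · rintro ⟨x, hx, h, rfl⟩
    exact ⟨_, mem_RR.2 ⟨x, hx, h, rfl⟩, rfl⟩

theorem mem_AA_rat {D : Divisor K F} (hD : Q.IsRat D) {a : ℕ} {i : ℤ} {r : E₁} :
    r ∈ Q.AA hk hspan D a i ↔ ∃ x ∈ Q.fld, ∃ hx : x ∈ G.W,
      Q.ψ ^ i * x ∈ riemannRochSpace (DD K G.t a 0 - D) ∧ (G.π ⟨x, hx⟩).1 = r := by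
  constructor
  · rintro ⟨r', hr', rfl⟩
    obtain ⟨x, hxF, hx, h, rfl⟩ := (mem_RR_rat hD).1 hr'
    exact ⟨x, hxF, hx, h, rfl⟩
  · rintro ⟨x, -, hx, h, rfl⟩
    exact mem_AA.2 ⟨x, hx, h, rfl⟩

theorem mem_BB {D : Divisor K F} {a : ℕ} {i : ℤ} {r : E₂} :
    r ∈ Q.BB hk hspan D a i ↔ ∃ x : F, ∃ hx : x ∈ G.W,
      Q.ψ ^ i * x ∈ riemannRochSpace (DD K G.t a 0 - D) ∧ (G.π ⟨x, hx⟩).2 = r := by
  constructor
  · rintro ⟨r', hr', rfl⟩
    obtain ⟨x, hx, h, rfl⟩ := mem_RR.1 hr'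
    exact ⟨x, hx, h, rfl⟩
  · rintro ⟨x, hx, h, rfl⟩
    exact ⟨_, mem_RR.2 ⟨x, hx, h, rfl⟩, rfl⟩

theorem ψ_mul_zpow (i : ℤ) (x : F) : Q.ψ ^ (i + 1) * x = Q.ψ ^ i * (Q.ψ * x) := by
  rw [zpow_add_one₀ Q.ψ0, mul_assoc]

theorem ψ'_mul_zpow (i : ℤ) (x : F) : Q.ψ ^ i * (Q.ψ' * x) =
    algebraMap A K Q.ϖ • (Q.ψ ^ (i - 1) * x) := by
  have h1 : Q.ψ' = algebraMap A F Q.ϖ * Q.ψ⁻¹ := by
    rw [← Q.prod, mul_inv_cancel_right₀ Q.ψ0]
  rw [Algebra.smul_def, ← IsScalarTower.algebraMap_apply A K F, h1, zpow_sub_one₀ Q.ψ0]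
  ring

/-- pairs with second component zero -/
theorem mem_AA_succ {D : Divisor K F} (hD : Q.IsRat D) {a : ℕ} {i : ℤ} {r : E₁} :
    r ∈ Q.AA hk hspan D a (i + 1) ↔ (r, (0 : E₂)) ∈ Q.RR hk hspan D a i := by
  rw [mem_AA]
  constructor
  · rintro ⟨x, hx, h, rfl⟩
    rw [mem_RR]
    refine ⟨Q.ψ * x, mul_mem Q.hψ hx, by rwa [← ψ_mul_zpow], ?_⟩
    have e : (⟨Q.ψ * x, mul_mem Q.hψ hx⟩ : G.W) = ⟨Q.ψ, Q.hψ⟩ * ⟨x, hx⟩ := rfl
    rw [e, map_mul, Q.πψ]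
    exact Prod.ext (one_mul _) (zero_mul _)
  · intro h
    obtain ⟨x, hxF, hx, h, hπ⟩ := (mem_RR_rat hD).1 h
    obtain ⟨y, -, hy, rfl⟩ := Q.disc_snd hxF hx (by rw [hπ])
    refine ⟨y, hy, by rwa [ψ_mul_zpow], ?_⟩
    have e : (⟨Q.ψ * y, hx⟩ : G.W) = ⟨Q.ψ, Q.hψ⟩ * ⟨y, hy⟩ := rfl
    rw [e, map_mul, Q.πψ] at hπ
    have := congrArg Prod.fst hπ
    simpa using this

/-- pairs with first component zero -/
theorem mem_BB_pred {D : Divisor K F} (hD : Q.IsRat D) {a : ℕ} {i : ℤ} {r : E₂} :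
    r ∈ Q.BB hk hspan D a (i - 1) ↔ ((0 : E₁), r) ∈ Q.RR hk hspan D a i := by
  rw [mem_BB]
  constructor
  · rintro ⟨x, hx, h, rfl⟩
    rw [mem_RR]
    refine ⟨Q.ψ' * x, mul_mem Q.hψ' hx, ?_, ?_⟩
    · rw [ψ'_mul_zpow]
      exact Submodule.smul_mem _ _ h
    · have e : (⟨Q.ψ' * x, mul_mem Q.hψ' hx⟩ : G.W) = ⟨Q.ψ', Q.hψ'⟩ * ⟨x, hx⟩ := rfl
      rw [e, map_mul, Q.πψ']
      exact Prod.ext (zero_mul _) (one_mul _)
  · intro h
    obtain ⟨x, hxF, hx, h, hπ⟩ := (mem_RR_rat hD).1 h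
    obtain ⟨y, -, hy, rfl⟩ := Q.disc_fst hxF hx (by rw [hπ])
    refine ⟨y, hy, ?_, ?_⟩
    · rw [ψ'_mul_zpow] at h
      have h0 : algebraMap A K Q.ϖ ≠ 0 :=
        (map_ne_zero_iff _ (IsFractionRing.injective A K)).2 Q.ϖ0
      exact (Submodule.smul_mem_iff _ h0).1 h
    · have e : (⟨Q.ψ' * y, hx⟩ : G.W) = ⟨Q.ψ', Q.hψ'⟩ * ⟨y, hy⟩ := rfl
      rw [e, map_mul, Q.πψ'] at hπ
      have := congrArg Prod.snd hπ
      simpa using this

instance finite_RR (D : Divisor K F) (a : ℕ) (i : ℤ) : Module.Finite k (Q.RR hk hspan D a i) :=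
  inferInstanceAs (Module.Finite k ((G.toRedModel hk hspan).rd hk _))

theorem finrank_RR (D : Divisor K F) (a : ℕ) (i : ℤ) :
    finrank k (Q.RR hk hspan D a i) = ell (DD K G.t a 0 - D) := by
  rw [← ell_add_zsmul Q.ψ0 (DD K G.t a 0 - D) i]
  exact RedModel.finrank_rd _ hk _

/-- the dimension formula -/
theorem finrank_AA_add {D : Divisor K F} (hD : Q.IsRat D) (a : ℕ) (i : ℤ) :
    finrank k (Q.AA hk hspan D a i) + finrank k (Q.BB hk hspan D a (i - 1)) =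
      ell (DD K G.t a 0 - D) := by
  rw [← finrank_RR (hk := hk) (hspan := hspan) (Q := Q) D a i]
  let f : Q.RR hk hspan D a i →ₗ[k] E₁ := (LinearMap.fst k E₁ E₂).domRestrict _
  have h1 := LinearMap.finrank_range_add_finrank_ker f
  have h2 : LinearMap.range f = Q.AA hk hspan D a i := LinearMap.range_domRestrict _ _
  rw [h2] at h1
  rw [← h1]
  congr 1
  -- the kernel
  let g : LinearMap.ker f →ₗ[k] E₂ :=
    ((LinearMap.snd k E₁ E₂).domRestrict _).comp (LinearMap.ker f).subtype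
  have hg : Function.Injective g := by
    intro x y hxy
    apply Subtype.ext
    apply Subtype.ext
    have hx : (x.1 : E₁ × E₂).1 = 0 := x.2
    have hy : (y.1 : E₁ × E₂).1 = 0 := y.2
    exact Prod.ext (hx.trans hy.symm) hxy
  rw [← LinearMap.finrank_range_of_inj hg]
  have h4 : Q.BB hk hspan D a (i - 1) = LinearMap.range g := by
    apply le_antisymm
    · intro r hr
      have h3 := (mem_BB_pred hD).1 hr
      exact ⟨⟨⟨(0, r), h3⟩, rfl⟩, rfl⟩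
    · rintro _ ⟨x, rfl⟩
      rw [mem_BB_pred hD]
      have hx : (x.1 : E₁ × E₂).1 = 0 := x.2
      have e : ((0 : E₁), g x) = (x.1 : E₁ × E₂) := Prod.ext hx.symm rfl
      rw [e]
      exact x.1.2
  rw [h4]

theorem RR_mono {D : Divisor K F} {a a' : ℕ} (h : a ≤ a') (i : ℤ) :
    Q.RR hk hspan D a i ≤ Q.RR hk hspan D a' i := by
  intro r hr
  obtain ⟨x, hx, h1, rfl⟩ := mem_RR.1 hr
  exact mem_RR.2 ⟨x, hx, L_mono (sub_le_sub_right (DD_mono _ h le_rfl) _) h1, rfl⟩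

theorem AA_mono {D : Divisor K F} {a a' : ℕ} (h : a ≤ a') (i : ℤ) :
    Q.AA hk hspan D a i ≤ Q.AA hk hspan D a' i := Submodule.map_mono (RR_mono h i)

theorem BB_mono {D : Divisor K F} {a a' : ℕ} (h : a ≤ a') (i : ℤ) :
    Q.BB hk hspan D a i ≤ Q.BB hk hspan D a' i := Submodule.map_mono (RR_mono h i)

theorem mul_mem_aux {D D' : Divisor K F} (hDD : D + D' = 0) {a a' : ℕ} {i j : ℤ} {x y : F}
    (hx : Q.ψ ^ i * x ∈ riemannRochSpace (DD K G.t a 0 - D))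
    (hy : Q.ψ ^ j * y ∈ riemannRochSpace (DD K G.t a' 0 - D')) :
    Q.ψ ^ (i + j) * (x * y) ∈ riemannRochSpace (DD K G.t (a + a') 0) := by
  have h := L_mul_mem hx hy
  have e : DD K G.t a 0 - D + (DD K G.t a' 0 - D') = DD K G.t (a + a') 0 := by
    rw [← add_sub_add_comm, hDD, sub_zero, DD_add]
  rw [e] at h
  have e2 : Q.ψ ^ i * x * (Q.ψ ^ j * y) = Q.ψ ^ (i + j) * (x * y) := by
    rw [zpow_add₀ Q.ψ0]; ring
  rwa [e2] at h

variable {ι : Type*} [Finite ι] {𝒩 : Nodes k E₁ E₂ ι} (H : NodMod G hk hspan 𝒩)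

/-- the divisor of the nodes on the first component -/
noncomputable def nodDiv₁ (G : GaussData A K F k (E₁ × E₂) ι₀)
    (hk : Function.Surjective (algebraMap A k)) (𝒩 : Nodes k E₁ E₂ ι) : Divisor k E₁ :=
  haveI : Fintype (Nd G hk 𝒩) := Fintype.ofFinite _
  sumDiv (fun j : Nd G hk 𝒩 => 𝒩.v j)

/-- the divisor of the nodes on the second component -/
noncomputable def nodDiv₂ (G : GaussData A K F k (E₁ × E₂) ι₀)
    (hk : Function.Surjective (algebraMap A k)) (𝒩 : Nodes k E₁ E₂ ι) : Divisor k E₂ :=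
  haveI : Fintype (Nd G hk 𝒩) := Fintype.ofFinite _
  sumDiv (fun j : Nd G hk 𝒩 => 𝒩.w j)

theorem nodDiv₁_apply (j : Nd G hk 𝒩) : nodDiv₁ G hk 𝒩 (𝒩.v j) = 1 := by
  haveI : Fintype (Nd G hk 𝒩) := Fintype.ofFinite _
  unfold nodDiv₁
  convert sumDiv_apply (fun j : Nd G hk 𝒩 => 𝒩.v j) (𝒩.hv.comp Subtype.val_injective) j

theorem nodDiv₁_apply_of_ne {u : Place k E₁} (hu : ∀ j : Nd G hk 𝒩, 𝒩.v j ≠ u) :
    nodDiv₁ G hk 𝒩 u = 0 := by
  haveI : Fintype (Nd G hk 𝒩) := Fintype.ofFinite _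
  unfold nodDiv₁
  convert sumDiv_apply_of_ne (fun j : Nd G hk 𝒩 => 𝒩.v j) hu

theorem degree_nodDiv₁ : Divisor.degree (nodDiv₁ G hk 𝒩) = Nat.card (Nd G hk 𝒩) := by
  haveI : Fintype (Nd G hk 𝒩) := Fintype.ofFinite _
  unfold nodDiv₁
  rw [Nat.card_eq_fintype_card]
  convert degree_sumDiv (fun j : Nd G hk 𝒩 => 𝒩.v j)

theorem nodDiv₂_apply (j : Nd G hk 𝒩) : nodDiv₂ G hk 𝒩 (𝒩.w j) = 1 := by
  haveI : Fintype (Nd G hk 𝒩) := Fintype.ofFinite _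
  unfold nodDiv₂
  convert sumDiv_apply (fun j : Nd G hk 𝒩 => 𝒩.w j) (𝒩.hw.comp Subtype.val_injective) j

theorem nodDiv₂_apply_of_ne {u : Place k E₂} (hu : ∀ j : Nd G hk 𝒩, 𝒩.w j ≠ u) :
    nodDiv₂ G hk 𝒩 u = 0 := by
  haveI : Fintype (Nd G hk 𝒩) := Fintype.ofFinite _
  unfold nodDiv₂
  convert sumDiv_apply_of_ne (fun j : Nd G hk 𝒩 => 𝒩.w j) hu

theorem degree_nodDiv₂ : Divisor.degree (nodDiv₂ G hk 𝒩) = Nat.card (Nd G hk 𝒩) := by
  haveI : Fintype (Nd G hk 𝒩) := Fintype.ofFinite _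
  unfold nodDiv₂
  rw [Nat.card_eq_fintype_card]
  convert degree_sumDiv (fun j : Nd G hk 𝒩 => 𝒩.w j)

include H in
/-- an element of `L(aP)` with reduction `(r, 0)` vanishes at the nodes -/
theorem mem_sub_nodDiv₁ {a : ℕ} {x : F} (hx : x ∈ G.W) (hxL : x ∈ riemannRochSpace (DD K G.t a 0))
    (h2 : (G.π ⟨x, hx⟩).2 = 0) :
    (G.π ⟨x, hx⟩).1 ∈ riemannRochSpace (DD k (tb G).1 a 0 - nodDiv₁ G hk 𝒩) := by
  have h1 : G.π ⟨x, hx⟩ ∈ GS G hk 𝒩 a 0 :=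
    RS_le_GS hspan H.toNodPos a 0 ((mem_RS hspan).2 ⟨x, hx, hxL, rfl⟩)
  obtain ⟨hg, hL1, -⟩ := (mem_GG _).1 h1
  rw [mem_L] at hL1 ⊢
  intro v
  by_cases hv : ∃ j : Nd G hk 𝒩, 𝒩.v j = v
  · obtain ⟨j, rfl⟩ := hv
    obtain ⟨g1, -, g3⟩ := hg j
    have h4 : Nod.val (𝒩.v j) (G.π ⟨x, hx⟩).1 = 0 := by
      change Nod.val (𝒩.v j) (G.π ⟨x, hx⟩).1 = 1 * Nod.val (𝒩.w j) (G.π ⟨x, hx⟩).2 at g3
      rw [g3, h2, val_zero, mul_zero]
    have h5 := (val_eq_zero_iff g1).1 h4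
    rw [Finsupp.sub_apply, nodDiv₁_apply, DD_eq_zero (H.hv j), zero_sub, neg_neg]
    exact h5
  · push Not at hv
    rw [Finsupp.sub_apply, nodDiv₁_apply_of_ne hv, sub_zero]
    exact hL1 v

include H in
theorem mem_sub_nodDiv₂ {a : ℕ} {x : F} (hx : x ∈ G.W) (hxL : x ∈ riemannRochSpace (DD K G.t a 0))
    (h1 : (G.π ⟨x, hx⟩).1 = 0) :
    (G.π ⟨x, hx⟩).2 ∈ riemannRochSpace (DD k (tb G).2 a 0 - nodDiv₂ G hk 𝒩) := by
  have h1' : G.π ⟨x, hx⟩ ∈ GS G hk 𝒩 a 0 :=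
    RS_le_GS hspan H.toNodPos a 0 ((mem_RS hspan).2 ⟨x, hx, hxL, rfl⟩)
  obtain ⟨hg, -, hL1⟩ := (mem_GG _).1 h1'
  rw [mem_L] at hL1 ⊢
  intro v
  by_cases hv : ∃ j : Nd G hk 𝒩, 𝒩.w j = v
  · obtain ⟨j, rfl⟩ := hv
    obtain ⟨-, g2, g3⟩ := hg j
    have h4 : Nod.val (𝒩.w j) (G.π ⟨x, hx⟩).2 = 0 := by
      change Nod.val (𝒩.v j) (G.π ⟨x, hx⟩).1 = 1 * Nod.val (𝒩.w j) (G.π ⟨x, hx⟩).2 at g3
      rw [h1, val_zero, one_mul] at g3
      exact g3.symm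
    have h5 := (val_eq_zero_iff g2).1 h4
    rw [Finsupp.sub_apply, nodDiv₂_apply, DD_eq_zero (H.hw j), zero_sub, neg_neg]
    exact h5
  · push Not at hv
    rw [Finsupp.sub_apply, nodDiv₂_apply_of_ne hv, sub_zero]
    exact hL1 v

include H in
/-- pairing on the first component -/
theorem mul_mem_AA {D D' : Divisor K F} (hDD : D + D' = 0) {a a' : ℕ} {i j : ℤ} (hij : i + j = 1)
    {x y : E₁} (hx : x ∈ Q.AA hk hspan D a i) (hy : y ∈ Q.AA hk hspan D' a' j) :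
    x * y ∈ riemannRochSpace (DD k (tb G).1 (a + a') 0 - nodDiv₁ G hk 𝒩) := by
  obtain ⟨s, hs, h1, rfl⟩ := mem_AA.1 hx
  obtain ⟨s', hs', h2, rfl⟩ := mem_AA.1 hy
  have h3 := mul_mem_aux hDD h1 h2
  rw [hij, zpow_one] at h3
  have h4 : Q.ψ * (s * s') ∈ G.W := mul_mem Q.hψ (mul_mem hs hs')
  have e : G.π ⟨_, h4⟩ = (1, 0) * (G.π ⟨s, hs⟩ * G.π ⟨s', hs'⟩) := by
    rw [← Q.πψ, ← map_mul, ← map_mul]; rfl
  have h5 := mem_sub_nodDiv₁ H h4 h3 (by rw [e]; exact zero_mul _)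
  rw [e] at h5
  simpa using h5

include H in
/-- pairing on the second component -/
theorem mul_mem_BB {D D' : Divisor K F} (hDD : D + D' = 0) {a a' : ℕ} {i j : ℤ}
    (hij : i + j = -1)
    {x y : E₂} (hx : x ∈ Q.BB hk hspan D a i) (hy : y ∈ Q.BB hk hspan D' a' j) :
    x * y ∈ riemannRochSpace (DD k (tb G).2 (a + a') 0 - nodDiv₂ G hk 𝒩) := by
  obtain ⟨s, hs, h1, rfl⟩ := mem_BB.1 hx
  obtain ⟨s', hs', h2, rfl⟩ := mem_BB.1 hy
  have h3 := mul_mem_aux hDD h1 h2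
  rw [hij] at h3
  have h4 : Q.ψ' * (s * s') ∈ G.W := mul_mem Q.hψ' (mul_mem hs hs')
  have h3' : Q.ψ' * (s * s') ∈ riemannRochSpace (DD K G.t (a + a') 0) := by
    have := ψ'_mul_zpow (Q := Q) 0 (s * s')
    rw [zpow_zero, one_mul, zero_sub] at this
    rw [this]
    exact Submodule.smul_mem _ _ h3
  have e : G.π ⟨_, h4⟩ = (0, 1) * (G.π ⟨s, hs⟩ * G.π ⟨s', hs'⟩) := by
    rw [← Q.πψ', ← map_mul, ← map_mul]; rfl
  have h5 := mem_sub_nodDiv₂ H h4 h3' (by rw [e]; exact zero_mul _)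
  rw [e] at h5
  simpa using h5

end RatStr

end Fermat.Agent.PRem
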