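import Fermat.Agent.PRem.Dual

/-!
# Duality of twisted lattices on nodal models: the counting argument
-/

set_option autoImplicit false
set_option linter.unusedSectionVars false
set_option linter.style.haveILetI false

namespace Fermat.Agent.PRem

open AlgebraicCurve Fermat.Agent.Curve Fermat.Agent.RR Fermat.Agent.Red Fermat.Agent.Nod Module
  Polynomial

section General

variable {k E : Type*} [Field k] [IsAlgClosed k] [Field E] [Algebra k E] [FunField k E]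

theorem ell_le_degree_add_one' {D : Divisor k E} (h : 0 < ell D) :
    (ell D : ℤ) ≤ Divisor.degree D + 1 := by
  obtain ⟨z, hz, hzL⟩ := exists_ne_zero_of_ell_pos (D := D) (by exact_mod_cast h)
  have h1 : 0 ≤ D + divisor k z := by
    intro v
    have := (mem_L.1 hzL v).le_ord hz
    rw [Finsupp.add_apply, divisor_apply, Finsupp.zero_apply]
    linarith
  have h2 := ell_le_degree_add_one h1
  have h3 : ell (D + divisor k z) = ell D := by
    have := ell_add_zsmul hz D 1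
    rwa [one_smul] at this
  rw [h3, map_add, degree_divisor, add_zero] at h2
  exact h2

theorem crude {t : E} {Z V : Divisor k E} {W : Submodule k E} {a b : ℕ} {r : E} (hr : r ≠ 0)
    (hV : 0 ≤ V) (hZ : ∀ v : Place k E, ∃ x ∈ W, x ≠ 0 ∧ v.ord x = -Z v)
    (hWr : ∀ x ∈ W, x * r ∈ riemannRochSpace (DD k t (a + b) 0 - V)) :
    Z ≤ DD k t (a + b) 0 + divisor k r := by
  intro v
  obtain ⟨x, hx, hx0, hxv⟩ := hZ v
  have h1 := (mem_L.1 (hWr x hx) v).le_ord (mul_ne_zero hx0 hr)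
  rw [v.ord_mul hx0 hr, hxv, Finsupp.sub_apply] at h1
  have h2 := hV v
  rw [Finsupp.zero_apply] at h2
  rw [Finsupp.add_apply, divisor_apply]
  linarith

theorem crude_ell {t : E} (htt : Transcendental k t) {δ : ℤ}
    (hδ : δ = ((finrank (IntermediateField.adjoin k {t}) E : ℕ) : ℤ)) {c' : ℤ}
    (hc' : ∀ D : Divisor k E, c' ≤ Divisor.degree D → (ell D : ℤ) =
      Divisor.degree D + 1 - rrGenus k E) {Z : Divisor k E} {a b : ℕ} {r : E} (hδ0 : 0 < δ)
    (hca : c' ≤ a) (hZ : Z ≤ DD k t (a + b) 0 + divisor k r) :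
    (ell Z : ℤ) ≤ a * δ + b * δ + 1 - rrGenus k E := by
  have h1 : (ell Z : ℤ) ≤ ell (DD k t (a + b) 0 + divisor k r) := by
    exact_mod_cast ell_mono hZ
  have h2 : Divisor.degree (DD k t (a + b) 0 + divisor k r) = (a + b) * δ := by
    rw [map_add, degree_divisor, degree_DD htt, hδ]; push_cast; ring
  have h3 := hc' (DD k t (a + b) 0 + divisor k r) (by
    rw [h2]
    nlinarith [Int.natCast_nonneg a, Int.natCast_nonneg b])
  rw [h2] at h3
  linarith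

end General

variable {A K F k E₁ E₂ : Type*} [CommRing A] [IsDomain A] [ValuationRing A]
  [Field K] [Algebra A K] [IsFractionRing A K] [Field F] [Algebra K F] [Algebra A F]
  [IsScalarTower A K F] [Field k] [Algebra A k] [Field E₁] [Field E₂] [Algebra k E₁]
  [Algebra k E₂] [Algebra A E₁] [Algebra A E₂] [IsScalarTower A k E₁] [IsScalarTower A k E₂]
  [IsAlgClosed K] [IsAlgClosed k] [CharZero K] [FunField K F] [FunField k E₁] [FunField k E₂]

variable {ι₀ : Type*} [Fintype ι₀] [Nonempty ι₀]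
  {G : GaussData A K F k (E₁ × E₂) ι₀} {Q : RatStr G}
  {hk : Function.Surjective (algebraMap A k)}
  {hspan : ∀ x : F, ∃ q : K[X], q ≠ 0 ∧ ∃ P : ι₀ → K[X], aeval G.t q * x = G.comb P}
  {ι : Type*} [Finite ι] {𝒩 : Nodes k E₁ E₂ ι} (H : NodMod G hk hspan 𝒩)

namespace RatStr

include H in
/-- a rational function with reduction `(r, 0)`, `r ≠ 0`, and poles only along `P` -/
theorem exists_fst : ∃ (c : ℕ) (x : F), ∃ hx : x ∈ G.W, x ∈ Q.fld ∧
    x ∈ riemannRochSpace (DD K G.t c 0) ∧ (G.π ⟨x, hx⟩).1 ≠ 0 ∧ (G.π ⟨x, hx⟩).2 = 0 := by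
  obtain ⟨n₀, hn₀⟩ := H.eq
  obtain ⟨c₁, hc₁⟩ := exists_riemann (K := k) (F := E₁)
  have ht1 := transcendental_tb_fst G
  have hd₁ : (0 : ℤ) < (finrank (IntermediateField.adjoin k {(tb G).1}) E₁ : ℕ) := by
    exact_mod_cast finrank_pos ht1
  set d₁ : ℤ := ((finrank (IntermediateField.adjoin k {(tb G).1}) E₁ : ℕ) : ℤ) with hd₁def
  obtain ⟨c, hcn, hc⟩ : ∃ c : ℕ, n₀ ≤ c ∧
      |c₁| + (rrGenus k E₁ : ℤ) + Nat.card (Nd G hk 𝒩) + 1 ≤ c := by
    refine ⟨n₀ + (|c₁| + (rrGenus k E₁ : ℤ) + Nat.card (Nd G hk 𝒩) + 1).toNat, by omega, ?_⟩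
    have := Int.self_le_toNat (|c₁| + (rrGenus k E₁ : ℤ) + Nat.card (Nd G hk 𝒩) + 1)
    push_cast
    linarith
  have hdeg : Divisor.degree (DD k (tb G).1 c 0 - nodDiv₁ G hk 𝒩) =
      c * d₁ - Nat.card (Nd G hk 𝒩) := by
    rw [map_sub, degree_nodDiv₁, degree_DD ht1]
    push_cast
    ring
  have hcd : (c : ℤ) ≤ c * d₁ := by nlinarith
  have habs := le_abs_self c₁
  have habs' := abs_nonneg c₁
  have hell : (0 : ℤ) < ell (DD k (tb G).1 c 0 - nodDiv₁ G hk 𝒩) := by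
    rw [hc₁ _ (by rw [hdeg]; linarith), hdeg]
    linarith
  obtain ⟨r, hr0, hr⟩ := exists_ne_zero_of_ell_pos hell
  rw [mem_L] at hr
  have hGS : (r, (0 : E₂)) ∈ GS G hk 𝒩 c 0 := by
    refine (mem_GG _).2 ⟨fun j => ?_, ?_, zero_mem _⟩
    · have h1 : Ge (𝒩.v j) 1 r := by
        have := hr (𝒩.v j)
        rw [Finsupp.sub_apply, nodDiv₁_apply, DD_eq_zero (H.hv j), zero_sub, neg_neg] at this
        exact this
      refine ⟨h1.mono (by norm_num), Ge.zero _ _, ?_⟩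
      change Nod.val (𝒩.v j) r = 1 * Nod.val (𝒩.w j) (0 : E₂)
      rw [val_of_pos h1, val_zero, mul_zero]
    · rw [mem_L]
      intro v
      refine (hr v).mono ?_
      have : (0 : ℤ) ≤ nodDiv₁ G hk 𝒩 v := by
        by_cases hv : ∃ j : Nd G hk 𝒩, 𝒩.v j = v
        · obtain ⟨j, rfl⟩ := hv
          rw [nodDiv₁_apply]; norm_num
        · push Not at hv
          rw [nodDiv₁_apply_of_ne hv]
      rw [Finsupp.sub_apply]
      linarith
  rw [← hn₀ c 0 (by omega), mem_RS] at hGS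
  obtain ⟨x, hx, hxL, hπx⟩ := hGS
  obtain ⟨y, hy, hyF, hyL, hπy⟩ := IsRat.exists_lift hk hspan (Q := Q) (isRat_DD c 0) hx hxL
  exact ⟨c, y, hy, hyF, hyL, by rw [hπy, hπx]; exact hr0, by rw [hπy, hπx]⟩

include H in
/-- a rational function with reduction `(0, r)`, `r ≠ 0`, and poles only along `P` -/
theorem exists_snd : ∃ (c : ℕ) (x : F), ∃ hx : x ∈ G.W, x ∈ Q.fld ∧
    x ∈ riemannRochSpace (DD K G.t c 0) ∧ (G.π ⟨x, hx⟩).1 = 0 ∧ (G.π ⟨x, hx⟩).2 ≠ 0 := by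
  obtain ⟨n₀, hn₀⟩ := H.eq
  obtain ⟨c₁, hc₁⟩ := exists_riemann (K := k) (F := E₂)
  have ht1 := transcendental_tb_snd G
  have hd₁ : (0 : ℤ) < (finrank (IntermediateField.adjoin k {(tb G).2}) E₂ : ℕ) := by
    exact_mod_cast finrank_pos ht1
  set d₁ : ℤ := ((finrank (IntermediateField.adjoin k {(tb G).2}) E₂ : ℕ) : ℤ) with hd₁def
  obtain ⟨c, hcn, hc⟩ : ∃ c : ℕ, n₀ ≤ c ∧
      |c₁| + (rrGenus k E₂ : ℤ) + Nat.card (Nd G hk 𝒩) + 1 ≤ c := by
    refine ⟨n₀ + (|c₁| + (rrGenus k E₂ : ℤ) + Nat.card (Nd G hk 𝒩) + 1).toNat, by omega, ?_⟩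
    have := Int.self_le_toNat (|c₁| + (rrGenus k E₂ : ℤ) + Nat.card (Nd G hk 𝒩) + 1)
    push_cast
    linarith
  have hdeg : Divisor.degree (DD k (tb G).2 c 0 - nodDiv₂ G hk 𝒩) =
      c * d₁ - Nat.card (Nd G hk 𝒩) := by
    rw [map_sub, degree_nodDiv₂, degree_DD ht1]
    push_cast
    ring
  have hcd : (c : ℤ) ≤ c * d₁ := by nlinarith
  have habs := le_abs_self c₁
  have habs' := abs_nonneg c₁
  have hell : (0 : ℤ) < ell (DD k (tb G).2 c 0 - nodDiv₂ G hk 𝒩) := by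
    rw [hc₁ _ (by rw [hdeg]; linarith), hdeg]
    linarith
  obtain ⟨r, hr0, hr⟩ := exists_ne_zero_of_ell_pos hell
  rw [mem_L] at hr
  have hGS : ((0 : E₁), r) ∈ GS G hk 𝒩 c 0 := by
    refine (mem_GG _).2 ⟨fun j => ?_, zero_mem _, ?_⟩
    · have h1 : Ge (𝒩.w j) 1 r := by
        have := hr (𝒩.w j)
        rw [Finsupp.sub_apply, nodDiv₂_apply, DD_eq_zero (H.hw j), zero_sub, neg_neg] at this
        exact this
      refine ⟨Ge.zero _ _, h1.mono (by norm_num), ?_⟩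
      change Nod.val (𝒩.v j) (0 : E₁) = 1 * Nod.val (𝒩.w j) r
      rw [val_of_pos h1, val_zero, mul_zero]
    · rw [mem_L]
      intro v
      refine (hr v).mono ?_
      have : (0 : ℤ) ≤ nodDiv₂ G hk 𝒩 v := by
        by_cases hv : ∃ j : Nd G hk 𝒩, 𝒩.w j = v
        · obtain ⟨j, rfl⟩ := hv
          rw [nodDiv₂_apply]; norm_num
        · push Not at hv
          rw [nodDiv₂_apply_of_ne hv]
      rw [Finsupp.sub_apply]
      linarith
  rw [← hn₀ c 0 (by omega), mem_RS] at hGS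
  obtain ⟨x, hx, hxL, hπx⟩ := hGS
  obtain ⟨y, hy, hyF, hyL, hπy⟩ := IsRat.exists_lift hk hspan (Q := Q) (isRat_DD c 0) hx hxL
  exact ⟨c, y, hy, hyF, hyL, by rw [hπy, hπx], by rw [hπy, hπx]; exact hr0⟩

/-- rational sections exist -/
theorem exists_rat_ne_zero {D : Divisor K F} (hD : Q.IsRat D) :
    ∃ (a : ℕ) (s : F), s ≠ 0 ∧ s ∈ Q.fld ∧ s ∈ riemannRochSpace (DD K G.t a 0 - D) := by
  have ht := G.transcendental (K := K)
  obtain ⟨c, hc⟩ := exists_riemann (K := K) (F := F)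
  have hd : (0 : ℤ) < (finrank (IntermediateField.adjoin K {G.t}) F : ℕ) := by
    exact_mod_cast finrank_pos ht
  set d : ℤ := ((finrank (IntermediateField.adjoin K {G.t}) F : ℕ) : ℤ) with hddef
  obtain ⟨a, ha⟩ : ∃ a : ℕ, |c| + (rrGenus K F : ℤ) + |Divisor.degree D| + 1 ≤ a :=
    ⟨(|c| + (rrGenus K F : ℤ) + |Divisor.degree D| + 1).toNat, Int.self_le_toNat _⟩
  have hdeg : Divisor.degree (DD K G.t a 0 - D) = a * d - Divisor.degree D := by
    rw [map_sub, degree_DD ht]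
    push_cast
    ring
  have h1 : (a : ℤ) ≤ a * d := by nlinarith
  have h2 := le_abs_self c
  have h3 := le_abs_self (Divisor.degree D)
  have h2' := abs_nonneg c
  have h3' := abs_nonneg (Divisor.degree D)
  have hell : (0 : ℤ) < ell (DD K G.t a 0 - D) := by
    rw [hc _ (by rw [hdeg]; linarith), hdeg]
    linarith
  obtain ⟨z, hz0, hz⟩ := exists_ne_zero_of_ell_pos hell
  by_contra hcon
  push Not at hcon
  have h4 := ((isRat_DD a 0).sub hD).span (Q := Q) hz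
  have h5 : {x : F | x ∈ riemannRochSpace (DD K G.t a 0 - D) ∧ x ∈ Q.fld} ⊆ {0} := by
    rintro x ⟨hx1, hx2⟩
    by_contra hx0
    exact hcon a x hx0 hx2 hx1
  have h6 := Submodule.span_mono (R := K) h5 h4
  rw [Submodule.span_zero_singleton, Submodule.mem_bot] at h6
  exact hz0 h6

include H in
/-- the twisted spaces are eventually non zero -/
theorem exists_AA_ne_bot {D : Divisor K F} (hD : Q.IsRat D) (i : ℤ) :
    ∃ a : ℕ, ∃ r ∈ Q.AA hk hspan D a i, r ≠ 0 := by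
  obtain ⟨a, s, hs0, hsF, hsL⟩ := exists_rat_ne_zero hD
  obtain ⟨c, x, hx, hxF, hxL, h1, h2⟩ := exists_fst (Q := Q) H
  obtain ⟨m, n, u, hu, hu1, hu2, rfl⟩ := Q.val s hs0 hsF
  have hx0 : x ≠ 0 := by
    rintro rfl
    apply h1
    have : (⟨0, hx⟩ : G.W) = 0 := rfl
    rw [this, map_zero]; rfl
  obtain ⟨m₂, n₂, v, hv, hv1, hv2, hxe, hxπ⟩ := Q.exists_normal hx0 hxF hx
  have hm₂ : m₂ = 0 := by
    by_contra h
    apply h1
    rw [hxπ]
    simp only [Prod.fst_mul, Prod.pow_fst, zero_pow h, zero_mul]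
  subst hm₂
  have hn₂ : 1 ≤ n₂ := by
    by_contra h
    have h0 : n₂ = 0 := by omega
    subst h0
    rw [hxπ] at h2
    simp only [pow_zero, one_mul] at h2
    exact hv2 h2
  obtain ⟨N, hN⟩ : ∃ N : ℕ, 0 ≤ n - m + n₂ * N - i := by
    refine ⟨(-(n - m - i)).toNat, ?_⟩
    have h3 := Int.self_le_toNat (-(n - m - i))
    have h4 : (1 : ℤ) ≤ n₂ := by exact_mod_cast hn₂
    nlinarith
  obtain ⟨l, hl⟩ := Int.eq_ofNat_of_zero_le hN
  have hW : Q.ψ ^ l * (u * v ^ N) ∈ G.W := mul_mem (pow_mem Q.hψ l) (mul_mem hu (pow_mem hv N))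
  -- multiply the section by a function with large valuation at the second component; the second
  -- valuation grows
  have hpow : (x ^ N) ∈ riemannRochSpace (DD K G.t (c * N) 0) := by
    have := L_pow_mem hxL N
    have e : N • DD K G.t c 0 = DD K G.t (c * N) 0 := by
      ext w
      rw [Finsupp.smul_apply, DD_apply, DD_apply, nsmul_eq_mul]
      push_cast
      ring
    rwa [e] at this
  have hsec : Q.ψ ^ i * (Q.ψ ^ l * (u * v ^ N)) =
      (algebraMap A K Q.ϖ ^ (-m)) • ((Q.ψ' ^ m * Q.ψ ^ n * u) * x ^ N) := by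
    rw [Algebra.smul_def, map_zpow₀, ← IsScalarTower.algebraMap_apply A K F, ← Q.prod, mul_zpow,
      hxe, pow_zero, one_mul, mul_pow]
    have e1 : Q.ψ ^ i * Q.ψ ^ l = Q.ψ ^ (-m) * Q.ψ ^ n * (Q.ψ ^ n₂) ^ N := by
      rw [← zpow_natCast Q.ψ l, ← zpow_add₀ Q.ψ0, ← zpow_add₀ Q.ψ0, ← pow_mul, ← zpow_natCast,
        ← zpow_add₀ Q.ψ0]
      congr 1
      push_cast
      rw [← hl]
      ring
    have e2 : Q.ψ' ^ (-m) * Q.ψ' ^ m = 1 := by
      rw [← zpow_add₀ Q.ψ'0, neg_add_cancel, zpow_zero]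
    calc Q.ψ ^ i * (Q.ψ ^ l * (u * v ^ N)) = (Q.ψ ^ i * Q.ψ ^ l) * (u * v ^ N) := by ring
      _ = (Q.ψ' ^ (-m) * Q.ψ' ^ m) * (Q.ψ ^ (-m) * Q.ψ ^ n * (Q.ψ ^ n₂) ^ N) * (u * v ^ N) := by
        rw [e1, e2, one_mul]
      _ = _ := by ring
  have hπ : G.π ⟨_, hW⟩ = (1, 0) ^ l * (G.π ⟨u, hu⟩ * G.π ⟨v, hv⟩ ^ N) := by
    rw [← Q.πψ, ← map_pow, ← map_pow, ← map_mul, ← map_mul]
    rfl
  refine ⟨a + c * N, (G.π ⟨_, hW⟩).1, mem_AA.2 ⟨_, hW, ?_, rfl⟩, ?_⟩
  · rw [hsec]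
    refine Submodule.smul_mem _ _ ?_
    have := L_mul_mem hsL hpow
    have e : DD K G.t a 0 - D + DD K G.t (c * N) 0 = DD K G.t (a + c * N) 0 - D := by
      rw [sub_add_eq_add_sub, DD_add]
    rwa [e] at this
  · rw [hπ]
    simp only [Prod.fst_mul, Prod.pow_fst, one_pow, one_mul]
    exact mul_ne_zero hu1 (pow_ne_zero _ hv1)

include H in
/-- the twisted spaces are eventually non zero -/
theorem exists_BB_ne_bot {D : Divisor K F} (hD : Q.IsRat D) (i : ℤ) :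
    ∃ a : ℕ, ∃ r ∈ Q.BB hk hspan D a i, r ≠ 0 := by
  obtain ⟨a, s, hs0, hsF, hsL⟩ := exists_rat_ne_zero hD
  obtain ⟨c, x, hx, hxF, hxL, h1, h2⟩ := exists_snd (Q := Q) H
  obtain ⟨m, n, u, hu, hu1, hu2, rfl⟩ := Q.val s hs0 hsF
  have hx0 : x ≠ 0 := by
    rintro rfl
    apply h2
    have : (⟨0, hx⟩ : G.W) = 0 := rfl
    rw [this, map_zero]; rfl
  obtain ⟨m₂, n₂, v, hv, hv1, hv2, hxe, hxπ⟩ := Q.exists_normal hx0 hxF hx
  have hn₂ : n₂ = 0 := by
    by_contra h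
    apply h2
    rw [hxπ]
    simp only [Prod.snd_mul, Prod.pow_snd, zero_pow h, mul_zero, zero_mul]
  subst hn₂
  have hm₂ : 1 ≤ m₂ := by
    by_contra h
    have h0 : m₂ = 0 := by omega
    subst h0
    rw [hxπ] at h1
    simp only [pow_zero, one_mul] at h1
    exact hv1 h1
  obtain ⟨N, hN⟩ : ∃ N : ℕ, 0 ≤ m - n + m₂ * N + i := by
    refine ⟨(-(m - n + i)).toNat, ?_⟩
    have h3 := Int.self_le_toNat (-(m - n + i))
    have h4 : (1 : ℤ) ≤ m₂ := by exact_mod_cast hm₂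
    nlinarith
  obtain ⟨l, hl⟩ := Int.eq_ofNat_of_zero_le hN
  have hW : Q.ψ' ^ l * (u * v ^ N) ∈ G.W := mul_mem (pow_mem Q.hψ' l) (mul_mem hu (pow_mem hv N))
  have hpow : (x ^ N) ∈ riemannRochSpace (DD K G.t (c * N) 0) := by
    have := L_pow_mem hxL N
    have e : N • DD K G.t c 0 = DD K G.t (c * N) 0 := by
      ext w
      rw [Finsupp.smul_apply, DD_apply, DD_apply, nsmul_eq_mul]
      push_cast
      ring
    rwa [e] at this
  have hsec : Q.ψ ^ i * (Q.ψ' ^ l * (u * v ^ N)) =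
      (algebraMap A K Q.ϖ ^ (i - n)) • ((Q.ψ' ^ m * Q.ψ ^ n * u) * x ^ N) := by
    rw [Algebra.smul_def, map_zpow₀, ← IsScalarTower.algebraMap_apply A K F, ← Q.prod, mul_zpow,
      hxe, pow_zero, mul_one, mul_pow]
    have e1 : Q.ψ' ^ l = Q.ψ' ^ (i - n) * Q.ψ' ^ m * (Q.ψ' ^ m₂) ^ N := by
      rw [← zpow_natCast Q.ψ' l, ← zpow_add₀ Q.ψ'0, ← pow_mul, ← zpow_natCast,
        ← zpow_add₀ Q.ψ'0]
      congr 1
      push_cast
      rw [← hl]
      ring
    have e2 : Q.ψ ^ i = Q.ψ ^ (i - n) * Q.ψ ^ n := by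
      rw [← zpow_add₀ Q.ψ0, sub_add_cancel]
    rw [e1, e2]
    ring
  have hπ : G.π ⟨_, hW⟩ = (0, 1) ^ l * (G.π ⟨u, hu⟩ * G.π ⟨v, hv⟩ ^ N) := by
    rw [← Q.πψ', ← map_pow, ← map_pow, ← map_mul, ← map_mul]
    rfl
  refine ⟨a + c * N, (G.π ⟨_, hW⟩).2, mem_BB.2 ⟨_, hW, ?_, rfl⟩, ?_⟩
  · rw [hsec]
    refine Submodule.smul_mem _ _ ?_
    have := L_mul_mem hsL hpow
    have e : DD K G.t a 0 - D + DD K G.t (c * N) 0 = DD K G.t (a + c * N) 0 - D := by
      rw [sub_add_eq_add_sub, DD_add]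
    rwa [e] at this
  · rw [hπ]
    simp only [Prod.snd_mul, Prod.pow_snd, one_pow, one_mul]
    exact mul_ne_zero hu2 (pow_ne_zero _ hv2)

/-- `X` is the base divisor of `V`. -/
def IsBd {k E : Type*} [Field k] [Field E] [Algebra k E] (V : Submodule k E) (X : Divisor k E) :
    Prop :=
  V ≤ riemannRochSpace X ∧ ∀ v : Place k E, ∃ x ∈ V, x ≠ 0 ∧ v.ord x = -X v

include H in
theorem ell_DD_eq : ∃ a₀ : ℕ, ∀ a, a₀ ≤ a → ell (DD K G.t a 0) + Nat.card (Nd G hk 𝒩) =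
    ell (DD k (tb G).1 a 0) + ell (DD k (tb G).2 a 0) := by
  obtain ⟨n₀, hn₀⟩ := H.eq
  obtain ⟨c₁, hc₁⟩ := exists_riemann (K := k) (F := E₁)
  have ht1 := transcendental_tb_fst G
  have hd₁ : (0 : ℤ) < (finrank (IntermediateField.adjoin k {(tb G).1}) E₁ : ℕ) := by
    exact_mod_cast finrank_pos ht1
  set d₁ : ℤ := ((finrank (IntermediateField.adjoin k {(tb G).1}) E₁ : ℕ) : ℤ) with hd₁def
  refine ⟨n₀ + (c₁ + Nat.card (Nd G hk 𝒩)).toNat, fun a ha => ?_⟩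
  haveI : Fintype (Nd G hk 𝒩) := Fintype.ofFinite _
  have h1 := finrank_RS (hk := hk) (hspan := hspan) a 0
  rw [hn₀ a 0 (by omega)] at h1
  have h2 := finrank_GG (𝒩.restrict (nodeSet G hk 𝒩 G.t)) (c₁ := c₁) (g₁ := rrGenus k E₁)
    (fun D hD => hc₁ D hD) (1 : Nd G hk 𝒩 → k) (DD k (tb G).1 a 0) (DD k (tb G).2 a 0)
    (fun j => DD_eq_zero (H.hv j) a 0) (fun j => DD_eq_zero (H.hw j) a 0) (by
      rw [degree_DD ht1]
      have h3 := Int.self_le_toNat (c₁ + Nat.card (Nd G hk 𝒩))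
      rw [Nat.card_eq_fintype_card] at h3 ha
      have h4 : ((n₀ + (c₁ + Fintype.card (Nd G hk 𝒩)).toNat : ℕ) : ℤ) ≤ a := by exact_mod_cast ha
      push_cast at h4 ⊢
      have h5 : (a : ℤ) ≤ a * d₁ := by nlinarith
      have h6 : (0 : ℤ) ≤ n₀ := by positivity
      have h7 : (a + 0 : ℤ) * d₁ = a * d₁ := by ring
      rw [← hd₁def, h7]
      linarith)
  rw [Nat.card_eq_fintype_card, ← h1]
  exact h2

set_option maxHeartbeats 800000 in
include H in
/-- **Duality**: the base divisors of the twisted spaces for `D` and `-D` are complementary. -/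
theorem dual {D : Divisor K F} (hD : Q.IsRat D) (hD0 : Divisor.degree D = 0) (i : ℤ) :
    ∃ a₀ : ℕ, ∀ a, a₀ ≤ a → ∃ (X X' : Divisor k E₁) (Y Y' : Divisor k E₂),
      IsBd (Q.AA hk hspan D a i) X ∧ IsBd (Q.AA hk hspan (-D) a (1 - i)) X' ∧
      IsBd (Q.BB hk hspan D a (i - 1)) Y ∧ IsBd (Q.BB hk hspan (-D) a (-i)) Y' ∧
      X + X' = DD k (tb G).1 (a + a) 0 - nodDiv₁ G hk 𝒩 ∧
      Y + Y' = DD k (tb G).2 (a + a) 0 - nodDiv₂ G hk 𝒩 := by
  obtain ⟨a₁, ha₁⟩ := ell_DD_eq H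
  obtain ⟨c₁, hc₁⟩ := exists_riemann (K := k) (F := E₁)
  obtain ⟨c₂, hc₂⟩ := exists_riemann (K := k) (F := E₂)
  obtain ⟨c, hc⟩ := exists_riemann (K := K) (F := F)
  have ht := G.transcendental (K := K)
  have ht1 := transcendental_tb_fst G
  have ht2 := transcendental_tb_snd G
  have hd : (0 : ℤ) < (finrank (IntermediateField.adjoin K {G.t}) F : ℕ) := by
    exact_mod_cast finrank_pos ht
  have hd₁ : (0 : ℤ) < (finrank (IntermediateField.adjoin k {(tb G).1}) E₁ : ℕ) := by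
    exact_mod_cast finrank_pos ht1
  have hd₂ : (0 : ℤ) < (finrank (IntermediateField.adjoin k {(tb G).2}) E₂ : ℕ) := by
    exact_mod_cast finrank_pos ht2
  have hdegK : ∀ a : ℕ, Divisor.degree (DD K G.t a 0) =
      a * ((finrank (IntermediateField.adjoin K {G.t}) F : ℕ) : ℤ) := by
    intro a; rw [degree_DD ht]; push_cast; ring
  have hdeg1 : ∀ a : ℕ, Divisor.degree (DD k (tb G).1 a 0) =
      a * ((finrank (IntermediateField.adjoin k {(tb G).1}) E₁ : ℕ) : ℤ) := by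
    intro a; rw [degree_DD ht1]; push_cast; ring
  have hdeg2 : ∀ a : ℕ, Divisor.degree (DD k (tb G).2 a 0) =
      a * ((finrank (IntermediateField.adjoin k {(tb G).2}) E₂ : ℕ) : ℤ) := by
    intro a; rw [degree_DD ht2]; push_cast; ring
  set d : ℤ := ((finrank (IntermediateField.adjoin K {G.t}) F : ℕ) : ℤ) with hddef
  set d₁ : ℤ := ((finrank (IntermediateField.adjoin k {(tb G).1}) E₁ : ℕ) : ℤ) with hd₁def
  set d₂ : ℤ := ((finrank (IntermediateField.adjoin k {(tb G).2}) E₂ : ℕ) : ℤ) with hd₂def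
  set n : ℤ := (Nat.card (Nd G hk 𝒩) : ℤ) with hn
  have hD' : Q.IsRat (-D) := hD.neg
  have hDD : D + -D = 0 := add_neg_cancel D
  have hDD' : -D + D = 0 := neg_add_cancel D
  -- nonzero elements
  obtain ⟨b1, r1, hr1, hr10⟩ := exists_AA_ne_bot (hk := hk) (hspan := hspan) H hD i
  obtain ⟨b1', r1', hr1', hr10'⟩ := exists_AA_ne_bot (hk := hk) (hspan := hspan) H hD' (1 - i)
  obtain ⟨b2, r2, hr2, hr20⟩ := exists_BB_ne_bot (hk := hk) (hspan := hspan) H hD (i - 1)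
  obtain ⟨b2', r2', hr2', hr20'⟩ := exists_BB_ne_bot (hk := hk) (hspan := hspan) H hD' (-i)
  obtain ⟨a₀, h0⟩ : ∃ a₀ : ℕ, a₁ ≤ a₀ ∧ b1 ≤ a₀ ∧ b1' ≤ a₀ ∧ b2 ≤ a₀ ∧ b2' ≤ a₀ ∧
      |c| + |c₁| + |c₂| + (rrGenus k E₁ : ℤ) + (rrGenus k E₂ : ℤ) + n + 1
        + b2' * d₂ + b2 * d₂ + b1 * d₁ + b1' * d₁ ≤ a₀ := by
    refine ⟨a₁ + b1 + b1' + b2 + b2' + (|c| + |c₁| + |c₂| + (rrGenus k E₁ : ℤ) +
      (rrGenus k E₂ : ℤ) + n + 1 + b2' * d₂ + b2 * d₂ + b1 * d₁ + b1' * d₁).toNat,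
      by omega, by omega, by omega, by omega, by omega, ?_⟩
    have := Int.self_le_toNat (|c| + |c₁| + |c₂| + (rrGenus k E₁ : ℤ) +
      (rrGenus k E₂ : ℤ) + n + 1 + b2' * d₂ + b2 * d₂ + b1 * d₁ + b1' * d₁)
    push_cast
    linarith [Int.natCast_nonneg a₁, Int.natCast_nonneg b1, Int.natCast_nonneg b1',
      Int.natCast_nonneg b2, Int.natCast_nonneg b2']
  obtain ⟨h0a, h0b, h0c, h0d, h0e, h0f⟩ := h0
  refine ⟨a₀, fun a ha => ?_⟩
  have haz : (a₀ : ℤ) ≤ a := by exact_mod_cast ha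
  have hA := AA_mono (hk := hk) (hspan := hspan) (D := D) (h0b.trans ha) i hr1
  have hA' := AA_mono (hk := hk) (hspan := hspan) (D := -D) (h0c.trans ha) (1 - i) hr1'
  have hB := BB_mono (hk := hk) (hspan := hspan) (D := D) (h0d.trans ha) (i - 1) hr2
  have hB' := BB_mono (hk := hk) (hspan := hspan) (D := -D) (h0e.trans ha) (-i) hr2'
  have hfgA : ∀ (D : Divisor K F) (j : ℤ), (Q.AA hk hspan D a j).FG := fun D j =>
    Submodule.FG.map _ (Module.Finite.iff_fg.1 (finite_RR D a j))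
  have hfgB : ∀ (D : Divisor K F) (j : ℤ), (Q.BB hk hspan D a j).FG := fun D j =>
    Submodule.FG.map _ (Module.Finite.iff_fg.1 (finite_RR D a j))
  obtain ⟨X, hX, hX'⟩ := exists_bd _ (hfgA D i) (fun h => hr10 (by
    rw [h, Submodule.mem_bot] at hA; exact hA))
  obtain ⟨X', hX1, hX1'⟩ := exists_bd _ (hfgA (-D) (1 - i)) (fun h => hr10' (by
    rw [h, Submodule.mem_bot] at hA'; exact hA'))
  obtain ⟨Y, hY, hY'⟩ := exists_bd _ (hfgB D (i - 1)) (fun h => hr20 (by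
    rw [h, Submodule.mem_bot] at hB; exact hB))
  obtain ⟨Y', hY1, hY1'⟩ := exists_bd _ (hfgB (-D) (-i)) (fun h => hr20' (by
    rw [h, Submodule.mem_bot] at hB'; exact hB'))
  -- inequalities from the pairing
  have hXX : X + X' ≤ DD k (tb G).1 (a + a) 0 - nodDiv₁ G hk 𝒩 :=
    add_le_of_mul_mem hX' hX1' fun x hx y hy => mul_mem_AA H hDD (by ring) hx hy
  have hYY : Y + Y' ≤ DD k (tb G).2 (a + a) 0 - nodDiv₂ G hk 𝒩 :=
    add_le_of_mul_mem hY' hY1' fun x hx y hy => mul_mem_BB H hDD (by ring) hx hy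
  -- crude bounds
  have hnod1 : 0 ≤ nodDiv₁ G hk 𝒩 := by
    intro v
    by_cases hv : ∃ j : Nd G hk 𝒩, 𝒩.v j = v
    · obtain ⟨j, rfl⟩ := hv
      rw [nodDiv₁_apply, Finsupp.zero_apply]; norm_num
    · push Not at hv
      rw [nodDiv₁_apply_of_ne hv, Finsupp.zero_apply]
  have hnod2 : 0 ≤ nodDiv₂ G hk 𝒩 := by
    intro v
    by_cases hv : ∃ j : Nd G hk 𝒩, 𝒩.w j = v
    · obtain ⟨j, rfl⟩ := hv
      rw [nodDiv₂_apply, Finsupp.zero_apply]; norm_num
    · push Not at hv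
      rw [nodDiv₂_apply_of_ne hv, Finsupp.zero_apply]
  have hcX : X ≤ DD k (tb G).1 (a + b1') 0 + divisor k r1' :=
    crude hr10' hnod1 hX'
      fun x hx => mul_mem_AA H hDD (by ring) hx hr1'
  have hcX' : X' ≤ DD k (tb G).1 (a + b1) 0 + divisor k r1 :=
    crude hr10 hnod1 hX1'
      fun x hx => mul_mem_AA H hDD' (by ring) hx hr1
  have hcY : Y ≤ DD k (tb G).2 (a + b2') 0 + divisor k r2' :=
    crude hr20' hnod2 hY'
      fun x hx => mul_mem_BB H hDD (by ring) hx hr2'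
  have hcY' : Y' ≤ DD k (tb G).2 (a + b2) 0 + divisor k r2 :=
    crude hr20 hnod2 hY1'
      fun x hx => mul_mem_BB H hDD' (by ring) hx hr2
  -- dimensions
  have habs := abs_nonneg c
  have habs1 := abs_nonneg c₁
  have habs2 := abs_nonneg c₂
  have hle := le_abs_self c
  have hle1 := le_abs_self c₁
  have hle2 := le_abs_self c₂
  have had : (a : ℤ) ≤ a * d := by nlinarith [Int.natCast_nonneg a]
  have had1 : (a : ℤ) ≤ a * d₁ := by nlinarith [Int.natCast_nonneg a]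
  have had2 : (a : ℤ) ≤ a * d₂ := by nlinarith [Int.natCast_nonneg a]
  have hb1 : (0 : ℤ) ≤ b1 * d₁ := by positivity
  have hb1' : (0 : ℤ) ≤ b1' * d₁ := by positivity
  have hb2 : (0 : ℤ) ≤ b2 * d₂ := by positivity
  have hb2' : (0 : ℤ) ≤ b2' * d₂ := by positivity
  have hg1 : (0 : ℤ) ≤ (rrGenus k E₁ : ℤ) := by positivity
  have hg2 : (0 : ℤ) ≤ (rrGenus k E₂ : ℤ) := by positivity
  have hn0 : (0 : ℤ) ≤ n := by positivity
  have hellD : ell (DD K G.t a 0 - D) = ell (DD K G.t a 0) := by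
    have h1 := hc (DD K G.t a 0 - D) (by rw [map_sub, hD0, hdegK]; linarith)
    have h2 := hc (DD K G.t a 0) (by rw [hdegK]; linarith)
    rw [map_sub, hD0, sub_zero] at h1
    exact_mod_cast h1.trans h2.symm
  have hellD' : ell (DD K G.t a 0 - -D) = ell (DD K G.t a 0) := by
    have h1 := hc (DD K G.t a 0 - -D) (by rw [map_sub, map_neg, hD0, hdegK]; linarith)
    have h2 := hc (DD K G.t a 0) (by rw [hdegK]; linarith)
    rw [map_sub, map_neg, hD0, neg_zero, sub_zero] at h1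
    exact_mod_cast h1.trans h2.symm
  have hRR1 := hc₁ (DD k (tb G).1 a 0) (by rw [hdeg1]; linarith)
  have hRR2 := hc₂ (DD k (tb G).2 a 0) (by rw [hdeg2]; linarith)
  rw [hdeg1] at hRR1
  rw [hdeg2] at hRR2
  have hell := ha₁ a (h0a.trans ha)
  have hell' : (ell (DD K G.t a 0) : ℤ) + n = ell (DD k (tb G).1 a 0) +
    ell (DD k (tb G).2 a 0) := by rw [hn]; exact_mod_cast hell
  have hdim := finrank_AA_add (hk := hk) (hspan := hspan) hD a i
  have hdim' := finrank_AA_add (hk := hk) (hspan := hspan) hD' a (1 - i)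
  rw [show (1 - i - 1 : ℤ) = -i by ring] at hdim'
  rw [hellD] at hdim
  rw [hellD'] at hdim'
  have hfX : finrank k (Q.AA hk hspan D a i) ≤ ell X := Submodule.finrank_mono hX
  have hfX' : finrank k (Q.AA hk hspan (-D) a (1 - i)) ≤ ell X' := Submodule.finrank_mono hX1
  have hfY : finrank k (Q.BB hk hspan D a (i - 1)) ≤ ell Y := Submodule.finrank_mono hY
  have hfY' : finrank k (Q.BB hk hspan (-D) a (-i)) ≤ ell Y' := Submodule.finrank_mono hY1
  have hsum : (ell (DD K G.t a 0) : ℤ) ≤ ell X + ell Y := by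
    have : ell (DD K G.t a 0) ≤ ell X + ell Y := by omega
    exact_mod_cast this
  have hsum' : (ell (DD K G.t a 0) : ℤ) ≤ ell X' + ell Y' := by
    have : ell (DD K G.t a 0) ≤ ell X' + ell Y' := by omega
    exact_mod_cast this
  -- crude bounds for the dimensions
  have hcrX := crude_ell ht1 hd₁def hc₁ hd₁ (by linarith) hcX
  have hcrX' := crude_ell ht1 hd₁def hc₁ hd₁ (by linarith) hcX'
  have hcrY := crude_ell ht2 hd₂def hc₂ hd₂ (by linarith) hcY
  have hcrY' := crude_ell ht2 hd₂def hc₂ hd₂ (by linarith) hcY'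
  have hposX : 0 < ell X := by
    have : (0 : ℤ) < ell X := by linarith
    exact_mod_cast this
  have hposX' : 0 < ell X' := by
    have : (0 : ℤ) < ell X' := by linarith
    exact_mod_cast this
  have hposY : 0 < ell Y := by
    have : (0 : ℤ) < ell Y := by linarith
    exact_mod_cast this
  have hposY' : 0 < ell Y' := by
    have : (0 : ℤ) < ell Y' := by linarith
    exact_mod_cast this
  have hX2 := ell_le_degree_add_one' hposX
  have hX2' := ell_le_degree_add_one' hposX'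
  have hY2 := ell_le_degree_add_one' hposY
  have hY2' := ell_le_degree_add_one' hposY'
  have eX := hc₁ X (by linarith)
  have eX' := hc₁ X' (by linarith)
  have eY := hc₂ Y (by linarith)
  have eY' := hc₂ Y' (by linarith)
  have hdXX := degree_mono hXX
  have hdYY := degree_mono hYY
  rw [map_add, map_sub, hdeg1, degree_nodDiv₁] at hdXX
  rw [map_add, map_sub, hdeg2, degree_nodDiv₂] at hdYY
  push_cast at hdXX hdYY
  refine ⟨X, X', Y, Y', ⟨hX, hX'⟩, ⟨hX1, hX1'⟩, ⟨hY, hY'⟩, ⟨hY1, hY1'⟩,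
    eq_of_le_of_degree hXX ?_, eq_of_le_of_degree hYY ?_⟩
  · rw [map_sub, map_add, hdeg1, degree_nodDiv₁]
    push_cast
    rw [← hn]
    rw [← hn] at hdXX hdYY
    linarith
  · rw [map_sub, map_add, hdeg2, degree_nodDiv₂]
    push_cast
    rw [← hn]
    rw [← hn] at hdXX hdYY
    linarith

end RatStr

end Fermat.Agent.PRem
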