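import Fermat.Agent.PRem.Dual2

/-!
# Orders of reductions at the nodes
-/

set_option autoImplicit false
set_option linter.unusedSectionVars false
set_option linter.style.haveILetI false

namespace Fermat.Agent.PRem

open AlgebraicCurve Fermat.Agent.Curve Fermat.Agent.RR Fermat.Agent.Red Fermat.Agent.Nod Module
  Polynomial

section Arith

theorem thick_dvd {ν : ℤ} (hν : 0 < ν) (h : ∀ i : ℤ, ∃ α : ℤ, i * ν ≤ 12 * α ∧
    12 * α ≤ 12 + i * ν - ν) : ν ∣ 12 := by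
  obtain ⟨i, s, his⟩ : ∃ i s : ℤ, i * ν = 12 * s + (Int.gcd ν 12 : ℤ) := by
    refine ⟨Int.gcdA ν 12, -Int.gcdB ν 12, ?_⟩
    rw [Int.gcd_eq_gcd_ab]
    ring
  obtain ⟨α, h1, h2⟩ := h i
  have hr : (0 : ℤ) < (Int.gcd ν 12 : ℤ) := by
    exact_mod_cast Int.gcd_pos_of_ne_zero_left 12 hν.ne'
  have hle : (Int.gcd ν 12 : ℤ) ≤ ν := Int.le_of_dvd hν (Int.gcd_dvd_left ..)
  rw [his] at h1 h2
  have h3 : s + 1 ≤ α := by
    by_contra hcon
    have : α ≤ s := by omega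
    linarith
  have h4 : ν ≤ (Int.gcd ν 12 : ℤ) := by linarith
  have h5 : (Int.gcd ν 12 : ℤ) = ν := le_antisymm hle h4
  rw [← h5]
  exact Int.gcd_dvd_right ..

theorem split_dvd {p : ℕ} (hp : p.Prime) (hp5 : 5 ≤ p) {ν n : ℤ} (hν : 0 < ν) (hν12 : ν ∣ 12)
    (h : ∀ i : ℤ, ∃ α : ℤ, 12 * n + p * i * ν ≤ p * 12 * α ∧
      p * 12 * α ≤ p * 12 + 12 * n + p * i * ν - p * ν) : (p : ℤ) ∣ n := by
  obtain ⟨k, hk⟩ := hν12
  have hk0 : 0 < k := by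
    by_contra hcon
    have : k ≤ 0 := by omega
    nlinarith
  have hpk : ¬ (p : ℤ) ∣ k := by
    intro hd
    have h1 : (p : ℤ) ∣ 12 := hd.trans ⟨ν, by rw [hk]; ring⟩
    have h2 : p ∣ 12 := by exact_mod_cast h1
    have h3 : p ∣ 2 * 2 * 3 := h2
    rcases (Nat.Prime.dvd_mul hp).1 h3 with h4 | h4
    · rcases (Nat.Prime.dvd_mul hp).1 h4 with h5 | h5 <;>
        exact absurd (Nat.le_of_dvd (by norm_num) h5) (by omega)
    · exact absurd (Nat.le_of_dvd (by norm_num) h4) (by omega)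
  have hpp : (0 : ℤ) < p := by exact_mod_cast hp.pos
  by_contra hcon
  have hkn : ¬ (p : ℤ) ∣ k * n := by
    intro hd
    rcases (Nat.prime_iff_prime_int.1 hp).dvd_or_dvd hd with h1 | h1
    · exact hpk h1
    · exact hcon h1
  have hr0 : 0 ≤ k * n % p := Int.emod_nonneg _ hpp.ne'
  have hrp : k * n % p < p := Int.emod_lt_of_pos _ hpp
  have hr1 : k * n % p ≠ 0 := fun h0 => hkn (Int.dvd_of_emod_eq_zero h0)
  have hqr : k * n = p * (k * n / p) + k * n % p := (Int.mul_ediv_add_emod _ _).symm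
  obtain ⟨α, h1, h2⟩ := h (-(k * n / p))
  set r := k * n % p
  set q := k * n / p
  have h3 : p * (k * ν) * α * 1 ≥ (r : ℤ) * ν := by
    have e : p * (k * ν) * α * 1 = p * 12 * α := by rw [hk]; ring
    rw [e]
    have e2 : 12 * n + p * (-q) * ν = r * ν := by
      have : 12 * n = ν * (k * n) := by rw [hk]; ring
      rw [this, hqr]; ring
    linarith
  have h4 : p * (k * ν) * α * 1 ≤ p * (k * ν) + r * ν - p * ν := by
    have e : p * (k * ν) * α * 1 = p * 12 * α := by rw [hk]; ring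
    rw [e]
    have e2 : 12 * n + p * (-q) * ν = r * ν := by
      have : 12 * n = ν * (k * n) := by rw [hk]; ring
      rw [this, hqr]; ring
    have e3 : (p : ℤ) * (k * ν) = p * 12 := by rw [hk]; ring
    linarith
  have h5 : (r : ℤ) ≤ p * k * α := by
    have : r * ν ≤ (p * k * α) * ν := by linarith
    exact le_of_mul_le_mul_right this hν
  have h6 : p * k * α ≤ p * k + r - p := by
    have : (p * k * α) * ν ≤ (p * k + r - p) * ν := by linarith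
    exact le_of_mul_le_mul_right this hν
  have hpk0 : (0 : ℤ) < p * k := by positivity
  have hr2 : 0 < r := lt_of_le_of_ne hr0 (Ne.symm hr1)
  have h7 : 0 < α := by
    by_contra hc
    have h9 : α ≤ 0 := by omega
    have h10 : p * k * α ≤ 0 := mul_nonpos_of_nonneg_of_nonpos hpk0.le h9
    linarith
  have h8 : α < 1 := by
    by_contra hc
    have : 1 ≤ α := by omega
    nlinarith [mul_le_mul_of_nonneg_left this hpk0.le]
  omega

end Arith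

variable {A K F k E₁ E₂ : Type*} [CommRing A] [IsDomain A] [ValuationRing A]
  [Field K] [Algebra A K] [IsFractionRing A K] [Field F] [Algebra K F] [Algebra A F]
  [IsScalarTower A K F] [Field k] [Algebra A k] [Field E₁] [Field E₂] [Algebra k E₁]
  [Algebra k E₂] [Algebra A E₁] [Algebra A E₂] [IsScalarTower A k E₁] [IsScalarTower A k E₂]
  [IsAlgClosed K] [IsAlgClosed k] [CharZero K] [FunField K F] [FunField k E₁] [FunField k E₂]

variable {ι₀ : Type*} [Fintype ι₀] [Nonempty ι₀]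
  {G : GaussData A K F k (E₁ × E₂) ι₀} {Q : RatStr G}
  {hk : Function.Surjective (algebraMap A k)}
  {hspan : ∀ x : F, ∃ q : K[X], q ≠ 0 ∧ ∃ P : ι₀ → K[X], aeval G.t q * x = G.comb P}
  {ι : Type*} [Finite ι] {𝒩 : Nodes k E₁ E₂ ι} (H : NodMod G hk hspan 𝒩)

theorem ne_zero_of_fst {x : F} (hx : x ∈ G.W) (h : (G.π ⟨x, hx⟩).1 ≠ 0) : x ≠ 0 := by
  rintro rfl
  apply h
  have : (⟨0, hx⟩ : G.W) = 0 := rfl
  rw [this, map_zero]; rfl

/-- units of `W` -/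
structure UW (G : GaussData A K F k (E₁ × E₂) ι₀) (u : F) : Prop where
  mem : u ∈ G.W
  fst : (G.π ⟨u, mem⟩).1 ≠ 0
  snd : (G.π ⟨u, mem⟩).2 ≠ 0

namespace UW

theorem ne_zero {u : F} (h : UW G u) : u ≠ 0 := ne_zero_of_fst h.mem h.fst

theorem inv_mem {u : F} (h : UW G u) : ∃ hi : u⁻¹ ∈ G.W, G.π ⟨u⁻¹, hi⟩ = pinv (G.π ⟨u, h.mem⟩) :=
  RatStr.inv_mem_W h.mem h.fst h.snd

theorem inv {u : F} (h : UW G u) : UW G u⁻¹ := by
  obtain ⟨hi, he⟩ := h.inv_mem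
  exact ⟨hi, by rw [he]; exact inv_ne_zero h.fst, by rw [he]; exact inv_ne_zero h.snd⟩

theorem mul {u v : F} (h : UW G u) (h' : UW G v) : UW G (u * v) := by
  refine ⟨mul_mem h.mem h'.mem, ?_, ?_⟩
  · have e : (⟨u * v, mul_mem h.mem h'.mem⟩ : G.W) = ⟨u, h.mem⟩ * ⟨v, h'.mem⟩ := rfl
    rw [e, map_mul]; exact mul_ne_zero h.fst h'.fst
  · have e : (⟨u * v, mul_mem h.mem h'.mem⟩ : G.W) = ⟨u, h.mem⟩ * ⟨v, h'.mem⟩ := rfl
    rw [e, map_mul]; exact mul_ne_zero h.snd h'.snd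

theorem one : UW G (1 : F) := by
  refine ⟨one_mem _, ?_, ?_⟩
  · have e : (⟨1, one_mem _⟩ : G.W) = 1 := rfl
    rw [e, map_one]; exact one_ne_zero
  · have e : (⟨1, one_mem _⟩ : G.W) = 1 := rfl
    rw [e, map_one]; exact one_ne_zero

theorem pow {u : F} (h : UW G u) (n : ℕ) : UW G (u ^ n) := by
  induction n with
  | zero => rw [pow_zero]; exact one
  | succ n ih => rw [pow_succ]; exact ih.mul h

theorem zpow {u : F} (h : UW G u) (n : ℤ) : UW G (u ^ n) := by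
  rcases Int.eq_nat_or_neg n with ⟨m, rfl | rfl⟩
  · rw [zpow_natCast]; exact h.pow m
  · rw [zpow_neg, zpow_natCast]; exact (h.pow m).inv

end UW

/-- The first component of the reduction, as a function on `F` (zero off `W`). -/
noncomputable def r1 (G : GaussData A K F k (E₁ × E₂) ι₀) (x : F) : E₁ := by
  classical
  exact if h : x ∈ G.W then (G.π ⟨x, h⟩).1 else 0

/-- The second component of the reduction, as a function on `F` (zero off `W`). -/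
noncomputable def r2 (G : GaussData A K F k (E₁ × E₂) ι₀) (x : F) : E₂ := by
  classical
  exact if h : x ∈ G.W then (G.π ⟨x, h⟩).2 else 0

theorem r1_of {x : F} (h : x ∈ G.W) : r1 G x = (G.π ⟨x, h⟩).1 := dif_pos h
theorem r2_of {x : F} (h : x ∈ G.W) : r2 G x = (G.π ⟨x, h⟩).2 := dif_pos h

theorem r1_mul {x y : F} (hx : x ∈ G.W) (hy : y ∈ G.W) : r1 G (x * y) = r1 G x * r1 G y := by
  rw [r1_of hx, r1_of hy, r1_of (mul_mem hx hy)]
  have e : (⟨x * y, mul_mem hx hy⟩ : G.W) = ⟨x, hx⟩ * ⟨y, hy⟩ := rfl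
  rw [e, map_mul]; rfl

theorem r2_mul {x y : F} (hx : x ∈ G.W) (hy : y ∈ G.W) : r2 G (x * y) = r2 G x * r2 G y := by
  rw [r2_of hx, r2_of hy, r2_of (mul_mem hx hy)]
  have e : (⟨x * y, mul_mem hx hy⟩ : G.W) = ⟨x, hx⟩ * ⟨y, hy⟩ := rfl
  rw [e, map_mul]; rfl

theorem r1_add {x y : F} (hx : x ∈ G.W) (hy : y ∈ G.W) : r1 G (x + y) = r1 G x + r1 G y := by
  rw [r1_of hx, r1_of hy, r1_of (add_mem hx hy)]
  have e : (⟨x + y, add_mem hx hy⟩ : G.W) = ⟨x, hx⟩ + ⟨y, hy⟩ := rfl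
  rw [e, map_add]; rfl

theorem r2_add {x y : F} (hx : x ∈ G.W) (hy : y ∈ G.W) : r2 G (x + y) = r2 G x + r2 G y := by
  rw [r2_of hx, r2_of hy, r2_of (add_mem hx hy)]
  have e : (⟨x + y, add_mem hx hy⟩ : G.W) = ⟨x, hx⟩ + ⟨y, hy⟩ := rfl
  rw [e, map_add]; rfl

theorem r1_one : r1 G 1 = 1 := by
  rw [r1_of (one_mem _)]
  have e : (⟨1, one_mem _⟩ : G.W) = 1 := rfl
  rw [e, map_one]; rfl

theorem r2_one : r2 G 1 = 1 := by
  rw [r2_of (one_mem _)]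
  have e : (⟨1, one_mem _⟩ : G.W) = 1 := rfl
  rw [e, map_one]; rfl

theorem r1_pow {x : F} (hx : x ∈ G.W) (n : ℕ) : r1 G (x ^ n) = r1 G x ^ n := by
  induction n with
  | zero => rw [pow_zero, pow_zero, r1_one]
  | succ n ih => rw [pow_succ, r1_mul (pow_mem hx n) hx, ih, pow_succ]

theorem r2_pow {x : F} (hx : x ∈ G.W) (n : ℕ) : r2 G (x ^ n) = r2 G x ^ n := by
  induction n with
  | zero => rw [pow_zero, pow_zero, r2_one]
  | succ n ih => rw [pow_succ, r2_mul (pow_mem hx n) hx, ih, pow_succ]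

theorem UW.r1_ne {u : F} (h : UW G u) : r1 G u ≠ 0 := by rw [r1_of h.mem]; exact h.fst
theorem UW.r2_ne {u : F} (h : UW G u) : r2 G u ≠ 0 := by rw [r2_of h.mem]; exact h.snd

theorem UW.r1_inv {u : F} (h : UW G u) : r1 G u⁻¹ = (r1 G u)⁻¹ := by
  apply eq_inv_of_mul_eq_one_right
  rw [← r1_mul h.mem h.inv.mem, mul_inv_cancel₀ h.ne_zero, r1_one]

theorem UW.r2_inv {u : F} (h : UW G u) : r2 G u⁻¹ = (r2 G u)⁻¹ := by
  apply eq_inv_of_mul_eq_one_right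
  rw [← r2_mul h.mem h.inv.mem, mul_inv_cancel₀ h.ne_zero, r2_one]

theorem UW.r1_zpow {u : F} (h : UW G u) (n : ℤ) : r1 G (u ^ n) = r1 G u ^ n := by
  rcases Int.eq_nat_or_neg n with ⟨m, rfl | rfl⟩
  · rw [zpow_natCast, zpow_natCast, r1_pow h.mem]
  · rw [zpow_neg, zpow_natCast, zpow_neg, zpow_natCast, (h.pow m).r1_inv, r1_pow h.mem]

theorem UW.mk' {u : F} (h : u ∈ G.W) (h1 : r1 G u ≠ 0) (h2 : r2 G u ≠ 0) : UW G u :=
  ⟨h, by rwa [← r1_of h], by rwa [← r2_of h]⟩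

theorem r1_algebraMap (a : A) : r1 G (algebraMap A F a) = algebraMap k E₁ (algebraMap A k a) := by
  have h : algebraMap A F a ∈ G.W := G.W.algebraMap_mem a
  rw [r1_of h]
  have e : (⟨algebraMap A F a, h⟩ : G.W) = algebraMap A G.W a := rfl
  rw [e, G.π.commutes, IsScalarTower.algebraMap_apply A k (E₁ × E₂)]
  rfl

theorem r2_algebraMap (a : A) : r2 G (algebraMap A F a) = algebraMap k E₂ (algebraMap A k a) := by
  have h : algebraMap A F a ∈ G.W := G.W.algebraMap_mem a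
  rw [r2_of h]
  have e : (⟨algebraMap A F a, h⟩ : G.W) = algebraMap A G.W a := rfl
  rw [e, G.π.commutes, IsScalarTower.algebraMap_apply A k (E₁ × E₂)]
  rfl

theorem r1_ψ : r1 G Q.ψ = 1 := by rw [r1_of Q.hψ, Q.πψ]
theorem r2_ψ : r2 G Q.ψ = 0 := by rw [r2_of Q.hψ, Q.πψ]
theorem r1_ψ' : r1 G Q.ψ' = 0 := by rw [r1_of Q.hψ', Q.πψ']
theorem r2_ψ' : r2 G Q.ψ' = 1 := by rw [r2_of Q.hψ', Q.πψ']

variable (Q) in
/-- a function measuring the thickness -/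
structure Thick (φ : F) (m c₀ : ℕ) : Prop where
  m0 : 0 < m
  uw : UW G (Q.ψ ^ (-(m : ℤ)) * φ)
  L1 : φ ∈ riemannRochSpace (DD K G.t c₀ 0)
  L2 : φ⁻¹ ∈ riemannRochSpace (DD K G.t c₀ 0)

namespace Thick

variable {φ : F} {m c₀ : ℕ} (T : Thick Q φ m c₀)
include T

theorem eq : φ = Q.ψ ^ m * (Q.ψ ^ (-(m : ℤ)) * φ) := by
  rw [← mul_assoc, ← zpow_natCast, ← zpow_add₀ Q.ψ0, add_neg_cancel, zpow_zero, one_mul]

theorem mem : φ ∈ G.W := by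
  rw [T.eq]
  exact mul_mem (pow_mem Q.hψ m) T.uw.mem

theorem r1_eq : r1 G φ = r1 G (Q.ψ ^ (-(m : ℤ)) * φ) := by
  conv_lhs => rw [T.eq]
  rw [r1_mul (pow_mem Q.hψ m) T.uw.mem, r1_pow Q.hψ, r1_ψ, one_pow, one_mul]

theorem r1_ne : r1 G φ ≠ 0 := by rw [T.r1_eq]; exact T.uw.r1_ne

theorem r2_eq : r2 G φ = 0 := by
  rw [T.eq, r2_mul (pow_mem Q.hψ m) T.uw.mem, r2_pow Q.hψ, r2_ψ, zero_pow T.m0.ne', zero_mul]

theorem ne_zero : φ ≠ 0 := fun h => T.r1_ne (by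
  rw [h, r1_of (zero_mem _)]
  have : (⟨0, zero_mem _⟩ : G.W) = 0 := rfl
  rw [this, map_zero]; rfl)

include H in
theorem pos (j : Nd G hk 𝒩) : 0 < (𝒩.v j).ord (r1 G φ) := by
  have h2 := T.r2_eq
  rw [r2_of T.mem] at h2
  have h := RatStr.mem_sub_nodDiv₁ H T.mem T.L1 h2
  rw [← r1_of T.mem] at h
  have h3 := (mem_L.1 h (𝒩.v j)).le_ord T.r1_ne
  rw [Finsupp.sub_apply, RatStr.nodDiv₁_apply, DD_eq_zero (H.hv j)] at h3
  linarith

include H in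
/-- the lower bound for orders at the nodes -/
theorem lower {p : ℕ} {f : F} (hf : UW G f) {D : Divisor K F}
    (hD : ∀ v, (p : ℤ) * D v = v.ord f) (hp : p ≠ 0) {a : ℕ} {i : ℤ} {x : F} (hx : x ∈ G.W)
    (hxL : Q.ψ ^ i * x ∈ riemannRochSpace (DD K G.t a 0 - D)) (hx1 : r1 G x ≠ 0)
    (j : Nd G hk 𝒩) :
    m * (𝒩.v j).ord (r1 G f) + p * i * (𝒩.v j).ord (r1 G φ) ≤ p * m * (𝒩.v j).ord (r1 G x) := by
  have hu := T.uw
  have hf' := hf.inv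
  -- the element
  have hyW : (Q.ψ ^ (-(m : ℤ)) * φ) ^ (-(p * i : ℤ)) * (x ^ (p * m) * (f⁻¹) ^ m) ∈ G.W :=
    mul_mem (hu.zpow _).mem (mul_mem (pow_mem hx _) (pow_mem hf'.mem m))
  have e : (Q.ψ ^ (-(m : ℤ)) * φ) ^ (-(p * i : ℤ)) * (x ^ (p * m) * (f⁻¹) ^ m) =
      φ ^ (-(p * i : ℤ)) * ((Q.ψ ^ i * x) ^ p * f⁻¹) ^ m := by
    rw [mul_zpow, ← zpow_mul, mul_pow, mul_pow, mul_pow, ← zpow_natCast (Q.ψ ^ i) p, ← zpow_mul,
      ← zpow_natCast (Q.ψ ^ (i * (p : ℤ))) m, ← zpow_mul, ← pow_mul]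
    have e2 : (-(m : ℤ)) * (-(p * i : ℤ)) = i * p * m := by ring
    rw [e2]
    ring
  have hpow : ∀ (z : F) (c : ℕ), z ∈ riemannRochSpace (DD K G.t c 0) → ∀ n : ℕ,
      z ^ n ∈ riemannRochSpace (DD K G.t (c * n) 0) := by
    intro z c hz n
    have := L_pow_mem hz n
    have e3 : n • DD K G.t c 0 = DD K G.t (c * n) 0 := by
      ext w
      rw [Finsupp.smul_apply, DD_apply, DD_apply, nsmul_eq_mul]
      push_cast
      ring
    rwa [e3] at this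
  have h1 := hpow _ _ (by simpa using pow_mul_inv_mem hf.ne_zero hp hD hxL) m
  obtain ⟨c, hc⟩ : ∃ c : ℕ, φ ^ (-(p * i : ℤ)) ∈ riemannRochSpace (DD K G.t c 0) := by
    rcases Int.eq_nat_or_neg (-(p * i : ℤ)) with ⟨l, hl | hl⟩
    · rw [hl, zpow_natCast]; exact ⟨_, hpow _ _ T.L1 l⟩
    · rw [hl, zpow_neg, zpow_natCast, ← inv_pow]; exact ⟨_, hpow _ _ T.L2 l⟩
  have h2 := L_mul_mem hc h1
  rw [DD_add, ← e] at h2
  have h3 : G.π ⟨_, hyW⟩ ∈ GS G hk 𝒩 _ _ :=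
    RS_le_GS hspan H.toNodPos _ _ ((mem_RS hspan).2 ⟨_, hyW, h2, rfl⟩)
  have h4 : Ge (𝒩.v j) 0 (G.π ⟨_, hyW⟩).1 := (((mem_GG _).1 h3).1 j).1
  rw [← r1_of hyW] at h4
  have h5 : r1 G ((Q.ψ ^ (-(m : ℤ)) * φ) ^ (-(p * i : ℤ)) * (x ^ (p * m) * (f⁻¹) ^ m)) =
      r1 G φ ^ (-(p * i : ℤ)) * (r1 G x ^ (p * m) * ((r1 G f)⁻¹) ^ m) := by
    rw [r1_mul (hu.zpow _).mem (mul_mem (pow_mem hx _) (pow_mem hf'.mem m)),
      r1_mul (pow_mem hx _) (pow_mem hf'.mem m), hu.r1_zpow, ← T.r1_eq, r1_pow hx,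
      r1_pow hf'.mem, hf.r1_inv]
  have hx1' := pow_ne_zero (p * m) hx1
  have hf1' := pow_ne_zero m (inv_ne_zero hf.r1_ne)
  have hφ1' := zpow_ne_zero (-(p * i : ℤ)) T.r1_ne
  rw [h5] at h4
  have h6 := h4.le_ord (mul_ne_zero hφ1' (mul_ne_zero hx1' hf1'))
  rw [Place.ord_mul _ hφ1' (mul_ne_zero hx1' hf1'), Place.ord_mul _ hx1' hf1', ord_pow, ord_pow,
    Place.ord_inv] at h6
  have h7 : (𝒩.v j).ord (r1 G φ ^ (-(p * i : ℤ))) = -(p * i : ℤ) * (𝒩.v j).ord (r1 G φ) := by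
    rcases Int.eq_nat_or_neg (-(p * i : ℤ)) with ⟨l, hl | hl⟩
    · rw [hl, zpow_natCast, ord_pow]
    · rw [hl, zpow_neg, zpow_natCast, Place.ord_inv, ord_pow]; ring
  rw [h7] at h6
  push_cast at h6
  linarith

include H in
/-- the orders at a node -/
theorem node {p : ℕ} {f : F} (hf : UW G f) {D : Divisor K F} (hfF : f ∈ Q.fld)
    (hD : ∀ v, (p : ℤ) * D v = v.ord f) (hp : p ≠ 0) (i : ℤ) (j : Nd G hk 𝒩) :
    ∃ a₀ : ℕ, ∀ a, a₀ ≤ a → ∃ α : ℤ,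
      (∃ x ∈ Q.fld, x ∈ G.W ∧ Q.ψ ^ i * x ∈ riemannRochSpace (DD K G.t a 0 - D) ∧ r1 G x ≠ 0 ∧
        (𝒩.v j).ord (r1 G x) = α) ∧
      m * (𝒩.v j).ord (r1 G f) + p * i * (𝒩.v j).ord (r1 G φ) ≤ p * m * α ∧
      p * m * α ≤ p * m + m * (𝒩.v j).ord (r1 G f) + p * i * (𝒩.v j).ord (r1 G φ) -
        p * (𝒩.v j).ord (r1 G φ) := by
  have hDr : Q.IsRat D := RatStr.isRat_of_mul hfF hp hD
  have hD0 := degree_eq_zero_of hp hD
  obtain ⟨a₀, ha₀⟩ := RatStr.dual H hDr hD0 i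
  refine ⟨a₀, fun a ha => ?_⟩
  obtain ⟨X, X', -, -, ⟨hX, hX'⟩, ⟨-, hX1'⟩, -, -, hXX, -⟩ := ha₀ a ha
  obtain ⟨r, hr, hr0, hrv⟩ := hX' (𝒩.v j)
  obtain ⟨r', hr', hr0', hrv'⟩ := hX1' (𝒩.v j)
  obtain ⟨x, hxF, hx, hxL, hxr⟩ := (RatStr.mem_AA_rat hDr).1 hr
  obtain ⟨x', hx', hxL', hxr'⟩ := RatStr.mem_AA.1 hr'
  rw [← r1_of hx] at hxr
  rw [← r1_of hx'] at hxr'
  have h1 := T.lower H hf hD hp hx hxL (by rw [hxr]; exact hr0) j
  have hD' : ∀ v, (p : ℤ) * (-D) v = v.ord f⁻¹ := fun v => by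
    rw [Place.ord_inv, ← hD, Finsupp.neg_apply]; ring
  have h2 := T.lower H hf.inv hD' hp hx' hxL' (by rw [hxr']; exact hr0') j
  rw [hf.r1_inv, Place.ord_inv, hxr', hrv'] at h2
  refine ⟨-X (𝒩.v j), ⟨x, hxF, hx, hxL, by rw [hxr]; exact hr0, by rw [hxr, hrv]⟩, ?_, ?_⟩
  · rw [hxr, hrv] at h1
    exact h1
  · have h3 := congrArg (fun Z : Divisor k E₁ => Z (𝒩.v j)) hXX
    simp only [Finsupp.add_apply, Finsupp.sub_apply, RatStr.nodDiv₁_apply,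
      DD_eq_zero (H.hv j)] at h3
    have h4 : X' (𝒩.v j) = -1 - X (𝒩.v j) := by linarith
    rw [h4] at h2
    nlinarith [h2]

end Thick

namespace RatStr

include H in
/-- lower bound at an arbitrary place -/
theorem lower_zero {p : ℕ} {f : F} (hf : UW G f) {D : Divisor K F}
    (hD : ∀ v, (p : ℤ) * D v = v.ord f) (hp : p ≠ 0) {a : ℕ} {i : ℕ} {x : F} (hx : x ∈ G.W)
    (hxL : Q.ψ ^ (i : ℤ) * x ∈ riemannRochSpace (DD K G.t a 0 - D)) (hx1 : r1 G x ≠ 0)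
    (v : Place k E₁) :
    v.ord (r1 G f) - p * DD k (tb G).1 a 0 v ≤ p * v.ord (r1 G x) := by
  have hxW : Q.ψ ^ (i : ℤ) * x ∈ G.W := by
    rw [zpow_natCast]; exact mul_mem (pow_mem Q.hψ i) hx
  have h1 := pow_mul_inv_mem hf.ne_zero hp hD hxL
  have h2 : (Q.ψ ^ (i : ℤ) * x) ^ p * f⁻¹ ∈ G.W := mul_mem (pow_mem hxW p) hf.inv.mem
  have h3 : G.π ⟨_, h2⟩ ∈ GS G hk 𝒩 _ _ :=
    RS_le_GS hspan H.toNodPos _ _ ((mem_RS hspan).2 ⟨_, h2, h1, rfl⟩)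
  have h4 := mem_L.1 ((mem_GG _).1 h3).2.1 v
  rw [← r1_of h2] at h4
  have h5 : r1 G ((Q.ψ ^ (i : ℤ) * x) ^ p * f⁻¹) = r1 G x ^ p * (r1 G f)⁻¹ := by
    rw [r1_mul (pow_mem hxW p) hf.inv.mem, r1_pow hxW, hf.r1_inv, zpow_natCast,
      r1_mul (pow_mem Q.hψ i) hx, r1_pow Q.hψ, r1_ψ, one_pow, one_mul]
  rw [h5] at h4
  have h6 := h4.le_ord (mul_ne_zero (pow_ne_zero p hx1) (inv_ne_zero hf.r1_ne))
  rw [Place.ord_mul _ (pow_ne_zero p hx1) (inv_ne_zero hf.r1_ne), ord_pow, Place.ord_inv] at h6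
  have e2 : DD k (tb G).1 (p * a) (p * 0) v = p * DD k (tb G).1 a 0 v := by
    rw [DD_apply, DD_apply]; push_cast; ring
  rw [e2] at h6
  linarith

include H in
/-- orders at places which are not nodes -/
theorem smooth {p : ℕ} {f : F} (hf : UW G f) {D : Divisor K F} (hfF : f ∈ Q.fld)
    (hD : ∀ v, (p : ℤ) * D v = v.ord f) (hp : p ≠ 0) :
    ∃ a₀ : ℕ, ∀ a, a₀ ≤ a → ∀ v : Place k E₁, (∀ j : Nd G hk 𝒩, 𝒩.v j ≠ v) →
      ∃ x ∈ Q.fld, x ∈ G.W ∧ x ∈ riemannRochSpace (DD K G.t a 0 - D) ∧ r1 G x ≠ 0 ∧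
        p * v.ord (r1 G x) = v.ord (r1 G f) - p * DD k (tb G).1 a 0 v := by
  have hDr : Q.IsRat D := RatStr.isRat_of_mul hfF hp hD
  have hD0 := degree_eq_zero_of hp hD
  obtain ⟨a₀, ha₀⟩ := RatStr.dual H hDr hD0 0
  refine ⟨a₀, fun a ha v hv => ?_⟩
  obtain ⟨X, X', -, -, ⟨hX, hX'⟩, ⟨-, hX1'⟩, -, -, hXX, -⟩ := ha₀ a ha
  obtain ⟨r, hr, hr0, hrv⟩ := hX' v
  obtain ⟨r', hr', hr0', hrv'⟩ := hX1' v
  obtain ⟨x, hxF, hx, hxL, hxr⟩ := (RatStr.mem_AA_rat hDr).1 hr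
  obtain ⟨x', hx', hxL', hxr'⟩ := RatStr.mem_AA.1 hr'
  rw [← r1_of hx] at hxr
  rw [← r1_of hx'] at hxr'
  have h1 := lower_zero H hf hD hp (i := 0) hx hxL (by rw [hxr]; exact hr0) v
  have hD' : ∀ v, (p : ℤ) * (-D) v = v.ord f⁻¹ := fun v => by
    rw [Place.ord_inv, ← hD, Finsupp.neg_apply]; ring
  have h2 := lower_zero H hf.inv hD' hp (i := 1) hx' (by
    rw [sub_zero] at hxL'; exact_mod_cast hxL') (by rw [hxr']; exact hr0') v
  rw [hf.r1_inv, Place.ord_inv, hxr', hrv'] at h2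
  refine ⟨x, hxF, hx, by rwa [zpow_zero, one_mul] at hxL, by rw [hxr]; exact hr0, ?_⟩
  rw [hxr, hrv] at h1 ⊢
  have h3 := congrArg (fun Z : Divisor k E₁ => Z v) hXX
  simp only [Finsupp.add_apply, Finsupp.sub_apply, RatStr.nodDiv₁_apply_of_ne hv, sub_zero] at h3
  have e2 : DD k (tb G).1 (a + a) 0 v = 2 * DD k (tb G).1 a 0 v := by
    rw [DD_apply, DD_apply]; push_cast; ring
  rw [e2] at h3
  have h4 : X' v = 2 * DD k (tb G).1 a 0 v - X v := by linarith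
  rw [h4] at h2
  nlinarith [h2, h1]

/-- **The split case**: for rational functions over an unramified base, orders of the reduction
are divisible by `p`. -/
theorem dvd_of_unramified {p : ℕ} (hp : p.Prime) (hp5 : 5 ≤ p) {φ : F} {c₀ : ℕ}
    (T : Thick Q φ 12 c₀) {f : F} (hf : UW G f) (hfF : f ∈ Q.fld)
    (hfd : ∀ v : Place K F, (p : ℤ) ∣ v.ord f) (H : NodMod G hk hspan 𝒩) (v : Place k E₁) :
    (p : ℤ) ∣ v.ord (r1 G f) := by
  obtain ⟨D, hD⟩ := exists_divisor hp.ne_zero hf.ne_zero hfd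
  by_cases hv : ∃ j : Nd G hk 𝒩, 𝒩.v j = v
  · obtain ⟨j, rfl⟩ := hv
    have hν := T.pos H j
    have hν12 : (𝒩.v j).ord (r1 G φ) ∣ 12 := by
      refine thick_dvd hν fun i => ?_
      obtain ⟨a₀, ha₀⟩ := T.node H (p := 1) (f := 1) UW.one (D := 0) (one_mem _)
        (fun v => by simp) one_ne_zero i j
      obtain ⟨α, -, h1, h2⟩ := ha₀ a₀ le_rfl
      refine ⟨α, ?_, ?_⟩
      · rw [r1_one, Place.ord_one] at h1
        push_cast at h1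
        linarith
      · rw [r1_one, Place.ord_one] at h2
        push_cast at h2
        linarith
    refine split_dvd hp hp5 hν hν12 fun i => ?_
    obtain ⟨a₀, ha₀⟩ := T.node H hf hfF hD hp.ne_zero i j
    obtain ⟨α, -, h1, h2⟩ := ha₀ a₀ le_rfl
    exact ⟨α, by exact_mod_cast h1, by exact_mod_cast h2⟩
  · push Not at hv
    obtain ⟨a₀, ha₀⟩ := smooth H hf hfF hD hp.ne_zero
    obtain ⟨x, -, -, -, -, h⟩ := ha₀ a₀ le_rfl v hv
    exact ⟨v.ord (r1 G x) + DD k (tb G).1 a₀ 0 v, by linarith⟩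

end RatStr

end Fermat.Agent.PRem
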