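import Fermat.Agent.Flat.RamConc
import Fermat.Agent.EC.WildTors

/-!
# Tame and wild elements
-/

set_option autoImplicit false
set_option linter.unusedSectionVars false
set_option linter.style.haveILetI false

noncomputable section

namespace Fermat.Agent.PRem

open IntermediateField Module Fermat.Agent.FlatRam Fermat.Agent.FlatRam.RVal Fermat.Agent.Flat

section abs

variable {K Ω : Type*} [Field K] [Field Ω] [Algebra K Ω] {p : ℕ} (V : RVal K Ω p)

/-- the leading term of `x` is fixed by `σ` -/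
def FxV (σ : Ω ≃ₐ[K] Ω) (x : Ω) : Prop := V.Gt 0 (σ x / x - 1)

variable {V} {σ : Ω ≃ₐ[K] Ω}

theorem map_ne {x : Ω} (hx : x ≠ 0) : σ x ≠ 0 := by rwa [ne_eq, _root_.map_eq_zero]

theorem fx_iff {x : Ω} (hx : x ≠ 0) : FxV V σ x ↔ V.Gt (V.w x) (σ x - x) := by
  have e : σ x / x - 1 = (σ x - x) / x := by field_simp
  rw [FxV, e]
  rcases eq_or_ne (σ x - x) 0 with h0 | h0
  · rw [h0, zero_div]
    exact iff_of_true (gt_zero _) (gt_zero _)
  · constructor
    · intro h
      have := h.lt (div_ne_zero h0 hx)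
      rw [w_div h0 hx] at this
      right
      linarith
    · intro h
      right
      rw [w_div h0 hx]
      have := h.lt h0
      linarith

theorem fx_unit {x : Ω} (hx : x ≠ 0) (h : V.w x = 0) : FxV V σ x := by
  rw [fx_iff hx, h]
  obtain ⟨a, -, ha⟩ := V.res x hx h.ge
  have e : σ x - x = σ (x - algebraMap K Ω a) - (x - algebraMap K Ω a) := by
    rw [map_sub, σ.commutes]; ring
  rw [e]
  refine Gt.sub ?_ ha
  rcases ha with ha | ha
  · left; rw [ha, map_zero]
  · right; rwa [V.w_gal]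

theorem w_ratio {x : Ω} (hx : x ≠ 0) : V.w (σ x / x) = 0 := by
  rw [w_div (map_ne hx) hx, V.w_gal, sub_self]

theorem FxV.mul {x y : Ω} (hx : x ≠ 0) (hy : y ≠ 0) (h1 : FxV V σ x) (h2 : FxV V σ y) :
    FxV V σ (x * y) := by
  have e : σ (x * y) / (x * y) - 1 = (σ x / x - 1) * (σ y / y) + (σ y / y - 1) := by
    rw [map_mul]; field_simp; ring
  rw [FxV, e]
  refine Gt.add ?_ h2
  have := Gt.mul h1 (Or.inr (w_ratio (V := V) (σ := σ) hy).ge)
  rwa [add_zero] at this

theorem FxV.inv {x : Ω} (hx : x ≠ 0) (h1 : FxV V σ x) : FxV V σ x⁻¹ := by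
  have hσx := map_ne (σ := σ) hx
  have e : σ x⁻¹ / x⁻¹ - 1 = -((σ x / x - 1) * (x / σ x)) := by
    rw [map_inv₀]; field_simp; ring
  rw [FxV, e]
  refine Gt.neg ?_
  have h2 : V.w (x / σ x) = 0 := by rw [w_div hx hσx, V.w_gal, sub_self]
  have := Gt.mul h1 (Or.inr h2.ge)
  rwa [add_zero] at this

theorem FxV.pow {x : Ω} (hx : x ≠ 0) (h1 : FxV V σ x) (n : ℕ) : FxV V σ (x ^ n) := by
  induction n with
  | zero => rw [pow_zero]; exact fx_unit one_ne_zero w_one
  | succ n ih => rw [pow_succ]; exact ih.mul (pow_ne_zero n hx) hx h1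

/-- `FxV` only depends on the valuation -/
theorem FxV.congr {x y : Ω} (hx : x ≠ 0) (hy : y ≠ 0) (h : V.w x = V.w y) (h1 : FxV V σ x) :
    FxV V σ y := by
  have e : y = x * (y / x) := by field_simp
  rw [e]
  refine h1.mul hx (div_ne_zero hy hx) (fx_unit (div_ne_zero hy hx) ?_)
  rw [w_div hy hx, h, sub_self]

end abs

section tame

variable {K Ω : Type*} [Field K] [CharZero K] [Field Ω] [CharZero Ω] [Algebra K Ω] [Normal K Ω]
  [IsAlgClosed Ω] {p : ℕ} [hp : Fact p.Prime] (V : RVal K Ω p)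

theorem exists_lift_aut (E : IntermediateField K Ω) (f : E →ₐ[K] Ω) :
    ∃ τ : Ω ≃ₐ[K] Ω, ∀ x : E, f x = τ (x : Ω) := by
  let τ : Ω →ₐ[K] Ω := f.liftNormal Ω
  refine ⟨AlgEquiv.ofBijective τ (AlgHom.normal_bijective K Ω Ω _), fun x => ?_⟩
  exact (f.liftNormal_commutes Ω x).symm

/-- tame extensions: elements whose leading term is fixed have integral valuation -/
theorem tame_int (E : IntermediateField K Ω) [FiniteDimensional K E]
    (hd : ¬ p ∣ finrank K E) {x : Ω} (hxE : x ∈ E) (hx : x ≠ 0)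
    (h : ∀ σ : Ω ≃ₐ[K] Ω, FxV V σ x) : ∃ n : ℤ, V.w x = n := by
  have h1 := trace_eq_sum_embeddings (K := K) (L := E) Ω (x := ⟨x, hxE⟩)
  have hd0 : ((finrank K E : ℕ) : Ω) ≠ 0 := Nat.cast_ne_zero.2 finrank_pos.ne'
  have h2 : V.w ((finrank K E : ℕ) * x) = V.w x := by
    rw [w_mul hd0 hx, w_natCast hd, zero_add]
  have h3 : V.Gt (V.w x) (algebraMap K Ω (Algebra.trace K E ⟨x, hxE⟩) - (finrank K E : ℕ) * x) := by
    have e : algebraMap K Ω (Algebra.trace K E ⟨x, hxE⟩) - (finrank K E : ℕ) * x =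
        ∑ σ : E →ₐ[K] Ω, (σ ⟨x, hxE⟩ - x) := by
      rw [h1, Finset.sum_sub_distrib, Finset.sum_const, Finset.card_univ, AlgHom.card,
        nsmul_eq_mul]
    rw [e]
    refine Gt.sum _ _ fun f _ => ?_
    obtain ⟨τ, hτ⟩ := exists_lift_aut E f
    rw [hτ]
    exact (fx_iff hx).1 (h τ)
  rw [← h2] at h3
  obtain ⟨h4, h5⟩ := w_add_eq' (mul_ne_zero hd0 hx) h3
  have h6 : Algebra.trace K E ⟨x, hxE⟩ ≠ 0 := by
    intro h0
    rw [h0, map_zero] at h4
    exact h4 rfl
  obtain ⟨n, hn⟩ := V.w_int _ h6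
  exact ⟨n, by rw [← h2, ← h5, hn]⟩

end tame

local notation "Ω" => AlgebraicClosure ℚ

variable {A : ValuationSubring (AlgebraicClosure ℚ)} {p : ℕ} [hp : Fact p.Prime]

theorem v_le_iff (hA : A.LiesOverPrime p) {x y : Ω} (hx : x ≠ 0) (hy : y ≠ 0) :
    A.valuation x ≤ A.valuation y ↔ (rval A p hA).w y ≤ (rval A p hA).w x := by
  have hvy : 0 < A.valuation y := zero_lt_iff.2 ((Valuation.ne_zero_iff _).2 hy)
  rw [← div_le_one₀ hvy, ← map_div₀, A.valuation_le_one_iff,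
    ← wA_nonneg_iff hA (div_ne_zero hx hy)]
  change 0 ≤ (rval A p hA).w (x / y) ↔ _
  rw [w_div hx hy, sub_nonneg]

theorem v_eq_iff (hA : A.LiesOverPrime p) {x y : Ω} (hx : x ≠ 0) (hy : y ≠ 0) :
    A.valuation x = A.valuation y ↔ (rval A p hA).w x = (rval A p hA).w y := by
  rw [le_antisymm_iff, le_antisymm_iff, v_le_iff hA hx hy, v_le_iff hA hy hx, and_comm]

theorem v_lt_iff (hA : A.LiesOverPrime p) {x y : Ω} (hx : x ≠ 0) (hy : y ≠ 0) :
    A.valuation x < A.valuation y ↔ (rval A p hA).w y < (rval A p hA).w x := by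
  rw [← not_le, v_le_iff hA hy hx, not_le]

/-- wild elements fix leading terms -/
theorem fx_of_pow (hA : A.LiesOverPrime p) {σ : Ω ≃ₐ[K0 A] Ω} {x : Ω} (hx : x ≠ 0)
    (h : (σ ^ p) x = x) : FxV (rval A p hA) σ x := by
  haveI : CharP (IsLocalRing.ResidueField A) p := RedMod.charP_residue hA
  obtain ⟨u, hu⟩ : ∃ u, u = σ x / x := ⟨_, rfl⟩
  have hu0 : u ≠ 0 := by rw [hu]; exact div_ne_zero (map_ne hx) hx
  have hwu : (rval A p hA).w u = 0 := by rw [hu]; exact w_ratio hx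
  have huA : u ∈ A := (wA_nonneg_iff hA hu0).1 hwu.ge
  have hiA : ∀ i : ℕ, (σ ^ i) u ∈ A := fun i => aut_mem A (σ ^ i) huA
  have hprod : ∀ n : ℕ, (∏ i ∈ Finset.range n, (σ ^ i) u) = (σ ^ n) x / x := by
    intro n
    induction n with
    | zero => simp [hx]
    | succ n ih =>
      have h1 : (σ ^ n) x ≠ 0 := map_ne hx
      rw [Finset.prod_range_succ, ih, hu, map_div₀, pow_succ]
      change _ = (σ ^ n) (σ x) / x
      field_simp
  have h1 : ∀ i : ℕ, IsLocalRing.residue A ⟨(σ ^ i) u, hiA i⟩ = IsLocalRing.residue A ⟨u, huA⟩ := by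
    intro i
    rw [← sub_eq_zero, ← map_sub, IsLocalRing.residue_eq_zero_iff]
    have := aut_sub_mem A (σ ^ i) huA
    exact (A.valuation_lt_one_iff _).2 ((ValuationSubring.mem_nonunits_iff A).1 this)
  have h2 : (IsLocalRing.residue A ⟨u, huA⟩) ^ p = 1 := by
    have h3 : (∏ i ∈ Finset.range p, (⟨(σ ^ i) u, hiA i⟩ : A)) = 1 := by
      apply Subtype.ext
      push_cast
      rw [hprod, h, div_self hx]
    have h4 := congrArg (IsLocalRing.residue A) h3
    rw [map_prod, Finset.prod_congr rfl (fun i _ => h1 i), Finset.prod_const, Finset.card_range,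
      map_one] at h4
    exact h4
  have h3 : (IsLocalRing.residue A ⟨u, huA⟩ - 1) ^ p = 0 := by
    rw [sub_pow_char, h2, one_pow, sub_self]
  have h4 := pow_eq_zero_iff hp.out.ne_zero |>.1 h3
  rw [← map_one (IsLocalRing.residue A), ← map_sub, IsLocalRing.residue_eq_zero_iff] at h4
  have h5 := (A.valuation_lt_one_iff _).1 h4
  rw [FxV, ← hu, rval_gt_zero_iff, ValuationSubring.mem_nonunits_iff]
  exact h5

end Fermat.Agent.PRem
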